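import Fermat.Agent.Igusa.Series
import Fermat.Agent.MF.LevelOne

/-!
# Expansions in `u = exp (2πiτ/p)` and the level one descent lemma

A polynomial over functions expanded in `u` which is modular of weight `12 M` for the level one
group is `Δ ^ M` times a polynomial over `ℂ[j]`; this produces the coefficients of the modular
equation.
-/

noncomputable section

open UpperHalfPlane Function Filter
open scoped MatrixGroups ModularForm Manifold Topology

namespace Fermat.Agent.Igusa

open Fermat.Agent.MF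

/-- The series `q ∏ (1 - q ^ n) ^ 24` of `Δ` over a ring `R`. -/
def deltaSer (R : Type*) [CommRing R] : LaurentSeries R :=
  HahnSeries.single (1 : ℤ) 1 *
    HahnSeries.ofPowerSeries ℤ R (ModularCurve.dedekindEtaUnit.map (Int.castRingHom R))

/-- The series of `1 / Δ` over a ring `R`. -/
def deltaSerInv (R : Type*) [CommRing R] : LaurentSeries R :=
  HahnSeries.single (-1 : ℤ) 1 *
    HahnSeries.ofPowerSeries ℤ R (ModularCurve.dedekindEtaUnitInv.map (Int.castRingHom R))

section

variable {R S : Type*} [CommRing R] [CommRing S]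

/-- The series of `Δ` times the series of `1 / Δ` is `1`. -/
theorem deltaSer_mul_inv : deltaSer R * deltaSerInv R = 1 := by
  rw [deltaSer, deltaSerInv, mul_mul_mul_comm, HahnSeries.single_mul_single, ← map_mul,
    ← map_mul, ModularCurve.dedekindEtaUnit_mul_inv]
  simp

theorem coeffMap_deltaSer (φ : R →+* S) :
    ModularCurve.coeffMap φ (deltaSer R) = deltaSer S := by
  rw [deltaSer, deltaSer, map_mul, ModularCurve.coeffMap_single, map_one,
    ModularCurve.coeffMap_ofPowerSeries, ← RingHom.comp_apply (PowerSeries.map φ),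
    ← PowerSeries.map_comp, RingHom.ext_int (φ.comp (Int.castRingHom R)) (Int.castRingHom S)]

theorem coeffMap_deltaSerInv (φ : R →+* S) :
    ModularCurve.coeffMap φ (deltaSerInv R) = deltaSerInv S := by
  rw [deltaSerInv, deltaSerInv, map_mul, ModularCurve.coeffMap_single, map_one,
    ModularCurve.coeffMap_ofPowerSeries, ← RingHom.comp_apply (PowerSeries.map φ),
    ← PowerSeries.map_comp, RingHom.ext_int (φ.comp (Int.castRingHom R)) (Int.castRingHom S)]

/-- The discriminant series starts with `q`. -/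
theorem deltaSer_coeff_one : (deltaSer R).coeff 1 = 1 := by
  rw [deltaSer, HahnSeries.coeff_single_mul, one_mul, sub_self,
    show (0 : ℤ) = ((0 : ℕ) : ℤ) from rfl, HahnSeries.ofPowerSeries_apply_coeff,
    PowerSeries.coeff_map, PowerSeries.coeff_zero_eq_constantCoeff,
    ModularCurve.constantCoeff_dedekindEtaUnit, map_one]

theorem deltaSer_coeff_of_lt {n : ℤ} (hn : n < 1) : (deltaSer R).coeff n = 0 := by
  rw [deltaSer, HahnSeries.coeff_single_mul, one_mul]
  exact ModularCurve.ofPowerSeries_coeff_of_neg _ (by omega)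

end

/-- The expansion of `Δ` is the series `deltaSer`. -/
theorem lq_deltaFn : lq deltaFn = deltaSer ℂ := by
  rw [lq, qExpansion_delta, map_mul, HahnSeries.ofPowerSeries_X, deltaSer]

variable (p : ℕ)

/-- Periodic of period `p`, holomorphic and bounded at `i∞`. -/
structure IsUFn (f : ℍ → ℂ) : Prop where
  periodic : Periodic (f ∘ ofComplex) ((p : ℝ) : ℂ)
  mdiff : MDiff f
  bdd : IsBoundedAtImInfty f

variable {p}

theorem IsUFn.analyticAt [NeZero p] {f : ℍ → ℂ} (hf : IsUFn p f) :
    AnalyticAt ℂ (cuspFunction (p : ℝ) f) 0 :=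
  analyticAt_cuspFunction_zero (by exact_mod_cast NeZero.pos p) hf.periodic hf.mdiff hf.bdd

/-- A holomorphic `p`-periodic function bounded at infinity has an expansion in `u`. -/
theorem isUFn_of_vadd {f : ℍ → ℂ} (hper : ∀ τ : ℍ, f ((p : ℝ) +ᵥ τ) = f τ) (hm : MDiff f)
    (hb : IsBoundedAtImInfty f) : IsUFn p f := by
  refine ⟨fun w => ?_, hm, hb⟩
  by_cases hw : 0 < w.im
  · have hw' : 0 < (w + ((p : ℝ) : ℂ)).im := by simpa using hw
    simp only [comp_apply, ofComplex_apply_of_im_pos hw', ofComplex_apply_of_im_pos hw]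
    convert hper ⟨w, hw⟩ using 2
    apply UpperHalfPlane.ext
    simp [add_comm]
  · have hw1 : (w + ((p : ℝ) : ℂ)).im ≤ 0 := by simpa using hw
    simp only [comp_apply, ofComplex_apply_eq_of_im_nonpos hw1 (not_lt.mp hw)]

variable (p)

/-- The algebra of `p`-periodic holomorphic functions bounded at `i∞`. -/
def goodSub : Subalgebra ℂ (ℍ → ℂ) where
  carrier := {f | IsUFn p f}
  mul_mem' {_ _} hf hg := ⟨fun z => congrArg₂ (· * ·) (hf.periodic z) (hg.periodic z),
    hf.mdiff.mul hg.mdiff, hf.bdd.mul hg.bdd⟩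
  add_mem' {_ _} hf hg := ⟨fun z => congrArg₂ (· + ·) (hf.periodic z) (hg.periodic z),
    hf.mdiff.add hg.mdiff, hf.bdd.add hg.bdd⟩
  algebraMap_mem' c := ⟨fun _ => rfl, mdifferentiable_const,
    Filter.const_boundedAtFilter _ c⟩

variable {p}

theorem mem_goodSub {f : ℍ → ℂ} : f ∈ goodSub p ↔ IsUFn p f := Iff.rfl

/-- Evaluation at a point. -/
def evalHom (τ : ℍ) : goodSub p →+* ℂ :=
  (Pi.evalRingHom (fun _ : ℍ => ℂ) τ).comp (goodSub p).val.toRingHom

@[simp] theorem evalHom_apply (τ : ℍ) (f : goodSub p) : evalHom τ f = (f : ℍ → ℂ) τ := rfl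

variable (p) [NeZero p]

/-- The expansion in `u` as a Laurent series. -/
def lpHom : goodSub p →+* LaurentSeries ℂ where
  toFun f := HahnSeries.ofPowerSeries ℤ ℂ (qExpansion (p : ℝ) (f : ℍ → ℂ))
  map_one' := by
    show HahnSeries.ofPowerSeries ℤ ℂ (qExpansion (p : ℝ) (1 : ℍ → ℂ)) = 1
    rw [qExpansion_one, map_one]
  map_zero' := by
    show HahnSeries.ofPowerSeries ℤ ℂ (qExpansion (p : ℝ) (0 : ℍ → ℂ)) = 0
    rw [qExpansion_zero, map_zero]
  map_mul' f g := by
    rw [← map_mul, ← qExpansion_mul (mem_goodSub.mp f.2).analyticAt (mem_goodSub.mp g.2).analyticAt]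
    rfl
  map_add' f g := by
    rw [← map_add, ← qExpansion_add (mem_goodSub.mp f.2).analyticAt (mem_goodSub.mp g.2).analyticAt]
    rfl

variable {p}

theorem lpHom_apply (f : goodSub p) :
    lpHom p f = HahnSeries.ofPowerSeries ℤ ℂ (qExpansion (p : ℝ) (f : ℍ → ℂ)) := rfl

theorem lpHom_algebraMap (c : ℂ) : lpHom p (algebraMap ℂ (goodSub p) c) = HahnSeries.C c := by
  have h : ((algebraMap ℂ (goodSub p) c : goodSub p) : ℍ → ℂ) = c • (1 : ℍ → ℂ) := by
    ext τ; simp [Algebra.algebraMap_eq_smul_one]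
  rw [lpHom_apply, h,
    qExpansion_smul (mem_goodSub.mp (one_mem (goodSub p))).analyticAt, qExpansion_one,
    PowerSeries.smul_eq_C_mul, mul_one, HahnSeries.ofPowerSeries_C]

/-- Functions `ℍ → ℂ` as a `FunLike` type, as `qExpansion_coeff_unique` requires. -/
def UFun : Type := ℍ → ℂ

instance : FunLike UFun ℍ ℂ where
  coe f := f
  coe_injective _ _ h := h

/-- The expansion of `τ ↦ f (φ τ)` when `exp (2πi φτ) = ω u^m`. -/
theorem lpHom_comp {f : ℍ → ℂ} (hf : IsQFn f) (φ : ℍ → ℍ) (ω : ℂˣ) {m : ℕ} (hm : m ≠ 0)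
    (hφ : ∀ τ : ℍ, Periodic.qParam 1 (φ τ : ℂ) = (ω : ℂ) * Periodic.qParam (p : ℝ) τ ^ m)
    (g : goodSub p) (hg : ∀ τ, (g : ℍ → ℂ) τ = f (φ τ)) :
    lpHom p g = sub ω m (lq f) := by
  classical
  set c : ℕ → ℂ := fun n =>
    if m ∣ n then (ω : ℂ) ^ (n / m) * (qExpansion 1 f).coeff (n / m) else 0 with hc
  have hsum : ∀ τ : ℍ, HasSum (fun n => c n • Periodic.qParam (p : ℝ) τ ^ n)
      ((g : ℍ → ℂ) τ) := by
    intro τ
    rw [hg]
    have hs := hasSum_qExpansion one_pos hf.periodic hf.mdiff hf.bdd (φ τ)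
    have hinj : Injective (fun k : ℕ => m * k) := mul_right_injective₀ hm
    refine (hinj.hasSum_iff ?_).mp ?_
    · intro x hx
      have : ¬ m ∣ x := fun ⟨d, hd⟩ => hx ⟨d, hd.symm⟩
      simp [hc, this]
    · convert hs using 1
      funext k
      simp only [comp_apply, hc, dvd_mul_right, if_true,
        Nat.mul_div_cancel_left _ (Nat.pos_of_ne_zero hm), smul_eq_mul, hφ, mul_pow, ← pow_mul]
      ring
  have key := fun n => qExpansion_coeff_unique (F := UFun) (show UFun from (g : ℍ → ℂ))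
    (by exact_mod_cast NeZero.pos p) (mem_goodSub.mp g.2).analyticAt hsum n
  ext k
  rw [lpHom_apply]
  rcases lt_or_ge k 0 with hk | hk
  · rw [ModularCurve.ofPowerSeries_coeff_of_neg _ hk]
    symm
    by_cases hd : (m : ℤ) ∣ k
    · obtain ⟨i, rfl⟩ := hd
      rw [sub_coeff_mul ω hm, lq, ModularCurve.ofPowerSeries_coeff_of_neg, mul_zero]
      by_contra h
      push Not at h
      have := mul_nonneg (Int.natCast_nonneg m) h
      omega
    · exact sub_coeff_of_not_dvd ω hm _ hd
  · lift k to ℕ using hk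
    rw [HahnSeries.ofPowerSeries_apply_coeff]
    refine (key k).symm.trans ?_
    by_cases hd : m ∣ k
    · obtain ⟨i, rfl⟩ := hd
      rw [hc, Nat.cast_mul, sub_coeff_mul ω hm, lq_coeff_nat]
      simp [Nat.mul_div_cancel_left _ (Nat.pos_of_ne_zero hm)]
    · rw [hc, sub_coeff_of_not_dvd ω hm _ (by exact_mod_cast hd)]
      simp [hd]

/-- The parameter of width `p` to the power `p` is `q`. -/
theorem qParam_self_pow (τ : ℍ) :
    Periodic.qParam (p : ℝ) τ ^ p = Periodic.qParam 1 (τ : ℂ) := by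
  have hp : (p : ℂ) ≠ 0 := by exact_mod_cast NeZero.ne p
  simp only [Periodic.qParam, ← Complex.exp_nat_mul]
  congr 1
  push_cast
  field_simp

/-- The `u`-expansion of a function of period one is its `q`-expansion at `q = u^p`. -/
theorem lpHom_isQFn {f : ℍ → ℂ} (hf : IsQFn f) (g : goodSub p) (hg : (g : ℍ → ℂ) = f) :
    lpHom p g = sub (1 : ℂˣ) p (lq f) :=
  lpHom_comp hf id 1 (NeZero.ne p) (fun τ => by simp [qParam_self_pow]) g (fun τ => by simp [hg])

/-- `evalAt` is polynomial evaluation. -/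
theorem aeval_eq_evalAt {K : Type*} [Field K] (x : LaurentSeries K) (P : Polynomial K) :
    Polynomial.aeval x P = evalAt x P := by
  rw [Polynomial.aeval_def, evalAt, Polynomial.coe_eval₂RingHom]
  congr 1
  refine RingHom.ext fun c => ?_
  rw [ModularCurve.algebraMap_laurentSeries_eq_single, HahnSeries.C_apply]

/-- The expansion of `Δ(τ)` in `u`, where `u ^ p = q`. -/
def deltaU (p : ℕ) : LaurentSeries ℂ := sub (1 : ℂˣ) p (deltaSer ℂ)

/-- A polynomial over the functions that is modular of weight `12 M` is, in `u`, `Δ^M` times a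
polynomial over `ℂ[j]`. -/
theorem exists_poly_of_modular (M : ℕ) (W : Polynomial (goodSub p))
    (hW : ∀ (γ : SL(2, ℤ)) (τ : ℍ), W.map (evalHom (γ • τ))
      = Polynomial.C (denom (γ : GL (Fin 2) ℝ) τ ^ (12 * M)) * W.map (evalHom τ)) :
    ∃ Q : Polynomial (Polynomial ℂ), W.map (lpHom p)
      = Polynomial.C (deltaU p ^ M) * Q.map (evalAt (jv (1 : ℂˣ) p)) := by
  classical
  have hcoeff : ∀ n, ∃ P : Polynomial ℂ,
      lpHom p (W.coeff n) = deltaU p ^ M * evalAt (jv (1 : ℂˣ) p) P := by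
    intro n
    set f : ℍ → ℂ := (W.coeff n : ℍ → ℂ) with hf
    have hinv : ∀ γ : SL(2, ℤ), f ∣[((12 * M : ℕ) : ℤ)] γ = f := by
      intro γ
      ext τ
      have h := congrArg (fun P : Polynomial ℂ => P.coeff n) (hW γ τ)
      simp only [Polynomial.coeff_map, Polynomial.coeff_C_mul, evalHom_apply] at h
      rw [ModularForm.SL_slash_apply, hf, h, zpow_neg, zpow_natCast, mul_comm _ (f τ), mul_assoc,
        mul_inv_cancel₀ (pow_ne_zero _ (denom_ne_zero _ _)), mul_one]
    have hform : IsFormFn ⊤ (12 * (M : ℤ)) f :=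
      (⟨fun γ _ => hinv γ, (mem_goodSub.mp (W.coeff n).2).mdiff,
        fun γ => by rw [hinv γ]; exact (mem_goodSub.mp (W.coeff n).2).bdd⟩ :
          IsFormFn ⊤ (((12 * M : ℕ) : ℤ)) f).cast (by push_cast; ring)
    obtain ⟨P, -, hP⟩ := hform.exists_polynomial
    refine ⟨P, ?_⟩
    rw [lpHom_isQFn hform.isQFnTop _ rfl, hP, lq_deltaFn, aeval_eq_evalAt, map_mul, map_pow,
      ← RingHom.comp_apply, sub_evalAt 1 (NeZero.ne p), deltaU, mul_comm]
    rfl
  choose P hP using hcoeff
  refine ⟨∑ n ∈ Finset.range (W.natDegree + 1), Polynomial.monomial n (P n),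
    Polynomial.ext fun n => ?_⟩
  rw [Polynomial.coeff_map, Polynomial.coeff_C_mul, Polynomial.coeff_map,
    Polynomial.finsetSum_coeff]
  simp only [Polynomial.coeff_monomial, Finset.sum_ite_eq', Finset.mem_range]
  split_ifs with h
  · exact hP n
  · rw [Polynomial.coeff_eq_zero_of_natDegree_lt (by omega), map_zero, map_zero, mul_zero]

end Fermat.Agent.Igusa
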