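import Mathlib.RingTheory.Polynomial.Cyclotomic.Roots
import Fermat.Prelude.Sol.S_ModularForm_heckeT_slash_eq_self_of_mem_Gamma0
import Fermat.Agent.Igusa.LevelOne

/-!
# The modular equation of prime level with explicit roots, over any domain with a primitive root

For a prime `p`, with `u^p = q`: the polynomials with roots `j(pτ), j((τ+b)/p)`, resp. with roots
`p^12 Δ(pτ)/Δ, Δ((τ+b)/p)/Δ`, and the interpolation polynomial, have coefficients in `K[j]`.

These polynomials give the modular polynomial of level `p` with its roots in every characteristic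
prime to `p`.
-/

noncomputable section

open UpperHalfPlane Function Polynomial
open scoped MatrixGroups ModularForm Manifold OnePoint

namespace Fermat.Agent.Igusa

open Fermat.Agent.MF
open P2MW.S_ModularForm_heckeT_slash_eq_self_of_mem_Gamma0.ModularForm.HeckeSlashInvariance

variable {p : ℕ}

/-- The exponent `m` of the root `x`. -/
def rootExp (p : ℕ) (x : OnePoint (ZMod p)) : ℕ := x.elim (p * p) fun _ => 1

/-- The root of unity of the root `x`. -/
def rootUnit {K : Type*} [CommRing K] (ζ : Kˣ) (x : OnePoint (ZMod p)) : Kˣ :=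
  x.elim 1 fun b => ζ ^ b.val

/-- The constant `p ^ 12` at `∞`, `1` at the other roots. -/
def rootKappa (K : Type*) [CommRing K] (x : OnePoint (ZMod p)) : K :=
  x.elim ((p : K) ^ 12) fun _ => 1

/-- The roots `j(q^p)`, `j(ζ^b q^(1/p))`. -/
def xSer {K : Type*} [CommRing K] (ζ : Kˣ) (x : OnePoint (ZMod p)) : LaurentSeries K :=
  jv (rootUnit ζ x) (rootExp p x)

/-- `p^12 Δ(q^p)/Δ(q)`, `Δ(ζ^b q^(1/p))/Δ(q)`. -/
def ySer {K : Type*} [CommRing K] (ζ : Kˣ) (x : OnePoint (ZMod p)) : LaurentSeries K :=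
  HahnSeries.C (rootKappa K x) * sub (rootUnit ζ x) (rootExp p x) (deltaSer K)
    * sub (1 : Kˣ) p (deltaSerInv K)

section Sers

variable {K L : Type*} [CommRing K] [CommRing L] [NeZero p]

theorem rootExp_ne_zero (x : OnePoint (ZMod p)) : rootExp p x ≠ 0 := by
  induction x using OnePoint.rec with
  | infty => exact mul_ne_zero (NeZero.ne p) (NeZero.ne p)
  | coe b => exact one_ne_zero

/-- The polynomial with roots `xSer`. -/
def phiSer (p : ℕ) [NeZero p] (ζ : Kˣ) : Polynomial (LaurentSeries K) :=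
  ∏ x : OnePoint (ZMod p), (X - Polynomial.C (xSer ζ x))

/-- The polynomial with roots `ySer`. -/
def hSer (p : ℕ) [NeZero p] (ζ : Kˣ) : Polynomial (LaurentSeries K) :=
  ∏ x : OnePoint (ZMod p), (X - Polynomial.C (ySer ζ x))

/-- The interpolation polynomial. -/
def gSer (p : ℕ) [NeZero p] (ζ : Kˣ) : Polynomial (LaurentSeries K) := by
  classical
  exact ∑ x : OnePoint (ZMod p), Polynomial.C (ySer ζ x) *
    ∏ k ∈ Finset.univ.erase x, (X - Polynomial.C (xSer ζ k))

omit [NeZero p] in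
theorem map_rootKappa (φ : K →+* L) (x : OnePoint (ZMod p)) :
    φ (rootKappa K x) = rootKappa L x := by
  induction x using OnePoint.rec with
  | infty => simp [rootKappa]
  | coe b => simp [rootKappa]

omit [NeZero p] in
theorem map_rootUnit (φ : K →+* L) (ζ : Kˣ) (x : OnePoint (ZMod p)) :
    Units.map (φ : K →* L) (rootUnit ζ x) = rootUnit (Units.map (φ : K →* L) ζ) x := by
  induction x using OnePoint.rec with
  | infty => simp [rootUnit]
  | coe b => simp [rootUnit]

theorem coeffMap_xSer (φ : K →+* L) (ζ : Kˣ) (x : OnePoint (ZMod p)) :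
    ModularCurve.coeffMap φ (xSer ζ x) = xSer (Units.map (φ : K →* L) ζ) x := by
  rw [xSer, coeffMap_jv φ _ (rootExp_ne_zero x), map_rootUnit, xSer]

theorem coeffMap_ySer (φ : K →+* L) (ζ : Kˣ) (x : OnePoint (ZMod p)) :
    ModularCurve.coeffMap φ (ySer ζ x) = ySer (Units.map (φ : K →* L) ζ) x := by
  rw [ySer, map_mul, map_mul, coeffMap_C, coeffMap_sub φ _ (rootExp_ne_zero x),
    coeffMap_sub φ _ (NeZero.ne p), map_rootKappa, map_rootUnit, coeffMap_deltaSer,
    coeffMap_deltaSerInv, map_one, ySer]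

theorem map_phiSer (φ : K →+* L) (ζ : Kˣ) :
    (phiSer p ζ).map (ModularCurve.coeffMap φ) = phiSer p (Units.map (φ : K →* L) ζ) := by
  simp [phiSer, Polynomial.map_prod, coeffMap_xSer]

theorem map_hSer (φ : K →+* L) (ζ : Kˣ) :
    (hSer p ζ).map (ModularCurve.coeffMap φ) = hSer p (Units.map (φ : K →* L) ζ) := by
  simp [hSer, Polynomial.map_prod, coeffMap_ySer]

theorem map_gSer (φ : K →+* L) (ζ : Kˣ) :
    (gSer p ζ).map (ModularCurve.coeffMap φ) = gSer p (Units.map (φ : K →* L) ζ) := by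
  simp [gSer, Polynomial.map_sum, Polynomial.map_prod, coeffMap_xSer, coeffMap_ySer]

omit [NeZero p] in
theorem rootKappa_ne_zero [IsDomain K] (hpK : (p : K) ≠ 0) (x : OnePoint (ZMod p)) :
    rootKappa K x ≠ 0 := by
  induction x using OnePoint.rec with
  | infty => exact pow_ne_zero _ hpK
  | coe b => exact one_ne_zero

omit [NeZero p] in
/-- The series of `Δ` substituted at `ω u ^ m` has order `m`. -/
theorem order_sub_deltaSer [Nontrivial K] (ω : Kˣ) {m : ℕ} (hm : m ≠ 0) :
    (sub ω m (deltaSer K)).order = (m : ℤ) ∧ sub ω m (deltaSer K) ≠ 0 := by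
  have h1 : (sub ω m (deltaSer K)).coeff (m : ℤ) ≠ 0 := by
    have := sub_coeff_mul ω hm (deltaSer K) 1
    rw [mul_one] at this
    rw [this, deltaSer_coeff_one, mul_one]
    exact Units.ne_zero _
  have h0 : sub ω m (deltaSer K) ≠ 0 := fun h => h1 (by rw [h, HahnSeries.coeff_zero])
  refine ⟨le_antisymm (HahnSeries.order_le_of_coeff_ne_zero h1) ?_, h0⟩
  by_contra h
  push Not at h
  refine HahnSeries.coeff_order_eq_zero.not.mpr h0 ?_
  generalize (sub ω m (deltaSer K)).order = n at h ⊢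
  by_cases hd : (m : ℤ) ∣ n
  · obtain ⟨i, rfl⟩ := hd
    rw [sub_coeff_mul ω hm, deltaSer_coeff_of_lt, mul_zero]
    by_contra hi
    push Not at hi
    have := mul_le_mul_of_nonneg_left hi (Int.natCast_nonneg m)
    omega
  · exact sub_coeff_of_not_dvd ω hm _ hd

end Sers

section Complex

variable (p) [hp : Fact p.Prime]

/-- `exp (2πi/p)`. -/
def zetaC : ℂˣ :=
  Units.mk0 (Complex.exp (2 * Real.pi * Complex.I / p)) (Complex.exp_ne_zero _)

/-- `zetaC p` is a primitive `p`-th root of unity. -/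
theorem isPrimitiveRoot_zetaC : IsPrimitiveRoot ((zetaC p : ℂˣ) : ℂ) p :=
  Complex.isPrimitiveRoot_exp p hp.out.ne_zero

variable {p}

/-- A function with a `q`-expansion has period one. -/
theorem apply_eq_of_coe_eq_add_nat {f : ℍ → ℂ} (hf : IsQFn f) {τ₁ τ₂ : ℍ} (m : ℕ)
    (h : (τ₁ : ℂ) = τ₂ + m) : f τ₁ = f τ₂ := by
  have h1 := (hf.periodic.nat_mul m) (τ₂ : ℂ)
  simp only [Complex.ofReal_one, mul_one, comp_apply] at h1
  rwa [← h, ofComplex_apply, ofComplex_apply] at h1

/-- The points `pτ` and `(τ + b) / p`. -/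
theorem coe_heckeRep_smul (x : OnePoint (ZMod p)) (τ : ℍ) :
    ((heckeRep p x • τ : ℍ) : ℂ) = x.elim ((p : ℂ) * τ) fun b => ((τ : ℂ) + b.val) / p := by
  induction x using OnePoint.rec with
  | infty => exact ModularForm.coe_heckeDiagMatrix_smul hp.out.ne_zero τ
  | coe b => exact ModularForm.coe_heckeMatrix_smul hp.out.ne_zero _ τ

/-- A weight `12` slash by a Hecke representative, up to the factor `p`. -/
theorem slash_heckeRep_apply (f : ℍ → ℂ) (x : OnePoint (ZMod p)) (τ : ℍ) :
    (p : ℂ) * (f ∣[(12 : ℤ)] heckeRep p x) τ = rootKappa ℂ x * f (heckeRep p x • τ) := by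
  have hp0 : (p : ℂ) ≠ 0 := by exact_mod_cast hp.out.ne_zero
  induction x using OnePoint.rec with
  | infty =>
    show (p : ℂ) * (f ∣[(12 : ℤ)] ModularForm.heckeDiagMatrix p) τ
      = (p : ℂ) ^ 12 * f (ModularForm.heckeDiagMatrix p • τ)
    rw [ModularForm.slash_heckeDiagMatrix_apply 12 hp.out.ne_zero,
      show (12 : ℤ) - 1 = ((11 : ℕ) : ℤ) by norm_num, zpow_natCast]
    ring
  | coe b =>
    show (p : ℂ) * (f ∣[(12 : ℤ)] ModularForm.heckeMatrix p b.val) τ
      = (1 : ℂ) * f (ModularForm.heckeMatrix p b.val • τ)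
    rw [ModularForm.slash_heckeMatrix_apply 12 hp.out.ne_zero, ← mul_assoc,
      mul_inv_cancel₀ hp0]

/-- A level one form at `pτ` or `(τ + b) / p` has an expansion in `u`. -/
theorem isUFn_comp {f : ℍ → ℂ} (hf : IsFormFn ⊤ 12 f) (x : OnePoint (ZMod p)) :
    IsUFn p fun τ => rootKappa ℂ x * f (heckeRep p x • τ) := by
  have hp0 : (p : ℂ) ≠ 0 := by exact_mod_cast hp.out.ne_zero
  refine isUFn_of_vadd (fun τ => ?_) ?_ ?_
  · congr 1
    induction x using OnePoint.rec with
    | infty =>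
      refine apply_eq_of_coe_eq_add_nat hf.isQFnTop (p * p) ?_
      rw [coe_heckeRep_smul, coe_heckeRep_smul]
      show (p : ℂ) * _ = (p : ℂ) * _ + _
      rw [coe_vadd]
      push_cast
      ring
    | coe b =>
      refine apply_eq_of_coe_eq_add_nat hf.isQFnTop 1 ?_
      rw [coe_heckeRep_smul, coe_heckeRep_smul]
      show (_ + _) / (p : ℂ) = (_ + _) / (p : ℂ) + _
      rw [coe_vadd]
      field_simp
      push_cast
      ring
  · have h : (fun τ => rootKappa ℂ x * f (heckeRep p x • τ))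
        = (p : ℂ) • (f ∣[(12 : ℤ)] heckeRep p x) := by
      ext τ; simp [slash_heckeRep_apply]
    rw [h]
    exact (hf.mdiff.slash 12 _).const_smul _
  · have h : (fun τ => rootKappa ℂ x * f (heckeRep p x • τ))
        = (p : ℂ) • (f ∣[(12 : ℤ)] heckeRep p x) := by
      ext τ; simp [slash_heckeRep_apply]
    rw [h]
    refine IsBoundedAtImInfty.slash 12 ?_ (by simpa using hf.bdd 1) |>.smul _
    induction x using OnePoint.rec with
    | infty =>
      show ((ModularForm.heckeDiagMatrix p : GL (Fin 2) ℝ) : Matrix (Fin 2) (Fin 2) ℝ) 1 0 = 0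
      rw [ModularForm.val_heckeDiagMatrix hp.out.ne_zero]; rfl
    | coe b =>
      show ((ModularForm.heckeMatrix p b.val : GL (Fin 2) ℝ) : Matrix (Fin 2) (Fin 2) ℝ) 1 0 = 0
      rw [ModularForm.val_heckeMatrix hp.out.ne_zero]; rfl

/-- `τ ↦ κ f(g τ)` for the Hecke representative `g` of the root `x` and its constant
`κ = rootKappa ℂ x`. -/
def rootG {f : ℍ → ℂ} (hf : IsFormFn ⊤ 12 f) (x : OnePoint (ZMod p)) : goodSub p :=
  ⟨fun τ => rootKappa ℂ x * f (heckeRep p x • τ), isUFn_comp hf x⟩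

/-- `SL(2, ℤ)` permutes the transforms of a form. -/
theorem rootG_smul {f : ℍ → ℂ} (hf : IsFormFn ⊤ 12 f) (γ : SL(2, ℤ)) (τ : ℍ)
    (x : OnePoint (ZMod p)) :
    evalHom (γ • τ) (rootG hf x)
      = denom (γ : GL (Fin 2) ℝ) τ ^ 12 * evalHom τ (rootG hf (redMatrix p γ • x)) := by
  obtain ⟨g', -, hmul⟩ := heckeRep_mul (p := p) (N := 1)
    (fun h => hp.out.one_lt.ne' (Nat.dvd_one.mp h)) γ (by simp) x
  have hslash : (f ∣[(12 : ℤ)] heckeRep p x) ∣[(12 : ℤ)] γ
      = f ∣[(12 : ℤ)] heckeRep p (redMatrix p γ • x) := by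
    show (f ∣[(12 : ℤ)] heckeRep p x) ∣[(12 : ℤ)] (Matrix.SpecialLinearGroup.mapGL ℝ γ) = _
    rw [← SlashAction.slash_mul, hmul, SlashAction.slash_mul]
    congr 1
    exact hf.slash_eq g' trivial
  have h := congrFun hslash τ
  rw [ModularForm.SL_slash_apply, zpow_neg] at h
  show rootKappa ℂ x * f (heckeRep p x • (γ • τ)) = _ * (rootKappa ℂ _ * f _)
  rw [← slash_heckeRep_apply, ← slash_heckeRep_apply, ← h, ← mul_assoc, mul_comm _ (p : ℂ),
    mul_assoc, show denom (γ : GL (Fin 2) ℝ) τ ^ (12 : ℕ)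
      = denom (γ : GL (Fin 2) ℝ) τ ^ (12 : ℤ) from (zpow_natCast _ 12).symm]
  congr 1
  field_simp [denom_ne_zero]

/-- The parameter `q` at a Hecke representative is `η u^m`. -/
theorem qParam_heckeRep (x : OnePoint (ZMod p)) (τ : ℍ) :
    Periodic.qParam 1 ((heckeRep p x • τ : ℍ) : ℂ)
      = (rootUnit (zetaC p) x : ℂ) * Periodic.qParam (p : ℝ) τ ^ rootExp p x := by
  have hp0 : (p : ℂ) ≠ 0 := by exact_mod_cast hp.out.ne_zero
  rw [coe_heckeRep_smul]
  induction x using OnePoint.rec with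
  | infty =>
    show Periodic.qParam 1 ((p : ℂ) * τ) = ((1 : ℂˣ) : ℂ) * Periodic.qParam (p : ℝ) τ ^ (p * p)
    rw [Units.val_one, one_mul]
    simp only [Periodic.qParam, ← Complex.exp_nat_mul]
    congr 1
    push_cast
    field_simp
  | coe b =>
    show Periodic.qParam 1 (((τ : ℂ) + b.val) / p)
      = ((zetaC p ^ b.val : ℂˣ) : ℂ) * Periodic.qParam (p : ℝ) τ ^ 1
    simp only [Periodic.qParam, zetaC, Units.val_pow_eq_pow_val, Units.val_mk0, pow_one,
      ← Complex.exp_nat_mul, ← Complex.exp_add]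
    congr 1
    push_cast
    field_simp
    ring

/-- The expansion of a transform of a form. -/
theorem lpHom_rootG {f : ℍ → ℂ} (hf : IsFormFn ⊤ 12 f) (x : OnePoint (ZMod p)) :
    lpHom p (rootG hf x) = HahnSeries.C (rootKappa ℂ x) *
      sub (rootUnit (zetaC p) x) (rootExp p x) (lq f) := by
  have hk : rootKappa ℂ x ≠ 0 := rootKappa_ne_zero (by exact_mod_cast hp.out.ne_zero) x
  set g : goodSub p := algebraMap ℂ (goodSub p) (rootKappa ℂ x)⁻¹ * rootG hf x with hg
  have hcomp : ∀ τ, (g : ℍ → ℂ) τ = f (heckeRep p x • τ) := by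
    intro τ
    show (rootKappa ℂ x)⁻¹ * (rootKappa ℂ x * f (heckeRep p x • τ)) = _
    rw [← mul_assoc, inv_mul_cancel₀ hk, one_mul]
  have heq : rootG hf x = algebraMap ℂ (goodSub p) (rootKappa ℂ x) * g := by
    rw [hg, ← mul_assoc, ← map_mul, mul_inv_cancel₀ hk, map_one, one_mul]
  rw [heq, map_mul, lpHom_algebraMap,
    lpHom_comp hf.isQFnTop (fun τ => heckeRep p x • τ) (rootUnit (zetaC p) x) (rootExp_ne_zero x)
      (qParam_heckeRep x) g hcomp]

theorem isFormFn_E4_cube : IsFormFn ⊤ 12 (E4fn ^ 3) :=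
  (isFormFn_E4.pow 3).cast (by norm_num)

variable (p) in
/-- `Δ` itself. -/
def deltaG : goodSub p :=
  ⟨deltaFn, isUFn_of_vadd (fun τ => apply_eq_of_coe_eq_add_nat isFormFn_delta.isQFnTop p
    (by rw [coe_vadd]; push_cast; ring)) isFormFn_delta.mdiff
    isFormFn_delta.isQFnTop.bdd⟩

theorem lpHom_deltaG : lpHom p (deltaG p) = deltaU p := by
  rw [lpHom_isQFn isFormFn_delta.isQFnTop (deltaG p) rfl, lq_deltaFn, deltaU]

omit hp in
/-- `Δ` has weight `12`. -/
theorem deltaG_smul (γ : SL(2, ℤ)) (τ : ℍ) :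
    evalHom (γ • τ) (deltaG p) = denom (γ : GL (Fin 2) ℝ) τ ^ 12 * evalHom τ (deltaG p) := by
  have h := congrFun (isFormFn_delta.slash_eq γ trivial) τ
  rw [ModularForm.SL_slash_apply, zpow_neg] at h
  show deltaFn (γ • τ) = _ * deltaFn τ
  rw [← h, show denom (γ : GL (Fin 2) ℝ) τ ^ (12 : ℕ)
      = denom (γ : GL (Fin 2) ℝ) τ ^ (12 : ℤ) from (zpow_natCast _ 12).symm]
  field_simp [denom_ne_zero]

local notation "DR" => rootG (p := p) isFormFn_delta
local notation "ER" => rootG (p := p) isFormFn_E4_cube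

/-- The expansion of the transform of `Δ` attached to `x` is `ySer x` times that of `Δ`. -/
theorem lpHom_DR (x : OnePoint (ZMod p)) :
    lpHom p (DR x) = ySer (zetaC p) x * deltaU p := by
  rw [lpHom_rootG, lq_deltaFn, ySer, deltaU, mul_assoc _ (sub 1 p (deltaSerInv ℂ)), ← map_mul,
    mul_comm (deltaSerInv ℂ), deltaSer_mul_inv, map_one, mul_one]

/-- The expansion of the transform of `E₄³` is `j` at the root times that of `Δ`. -/
theorem lpHom_ER (x : OnePoint (ZMod p)) :
    lpHom p (ER x) = xSer (zetaC p) x * lpHom p (DR x) := by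
  rw [lpHom_rootG, lpHom_rootG, xSer, jv, mul_left_comm, ← map_mul, jqModC_mul_lq_delta,
    lq_pow isFormFn_E4.isQFnTop]

theorem map_linear_x (x : OnePoint (ZMod p)) :
    (Polynomial.C (DR x) * X - Polynomial.C (ER x)).map (lpHom p)
      = Polynomial.C (lpHom p (DR x)) * (X - Polynomial.C (xSer (zetaC p) x)) := by
  rw [Polynomial.map_sub, Polynomial.map_mul, Polynomial.map_C, Polynomial.map_C,
    Polynomial.map_X, lpHom_ER, map_mul (Polynomial.C : LaurentSeries ℂ →+* _)]
  ring

/-- The projective line over `ZMod p` has `p + 1` points. -/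
theorem card_onePoint : Fintype.card (OnePoint (ZMod p)) = p + 1 := by
  show Fintype.card (Option (ZMod p)) = p + 1
  simp

/-- `(∏ D_x) Φ = Δ^(p + 1) Q(j)` for some polynomial `Q`, `D_x` being the denominators. -/
theorem exists_prod_mul_phiSer_eq : ∃ Q : Polynomial (Polynomial ℂ),
    Polynomial.C (∏ x : OnePoint (ZMod p), lpHom p (DR x)) * phiSer p (zetaC p)
      = Polynomial.C (deltaU p ^ (p + 1)) * Q.map (evalAt (jv (1 : ℂˣ) p)) := by
  obtain ⟨Q, hQ⟩ := exists_poly_of_modular (p := p) (p + 1)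
    (∏ x : OnePoint (ZMod p), (Polynomial.C (DR x) * X - Polynomial.C (ER x))) fun γ τ => by
      simp only [Polynomial.map_prod, Polynomial.map_sub, Polynomial.map_mul, Polynomial.map_C,
        Polynomial.map_X, rootG_smul, map_mul, mul_assoc, ← mul_sub, Finset.prod_mul_distrib,
        Finset.prod_const, Finset.card_univ, card_onePoint, ← map_pow, ← pow_mul]
      refine congrArg (_ * ·) ?_
      exact Equiv.prod_comp (MulAction.toPerm (redMatrix p γ))
        (fun x => Polynomial.C (evalHom τ (DR x)) * X - Polynomial.C (evalHom τ (ER x)))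
  refine ⟨Q, ?_⟩
  rw [← hQ, Polynomial.map_prod, Finset.prod_congr rfl fun x _ => map_linear_x x,
    Finset.prod_mul_distrib, map_prod, phiSer]

/-- The expansion of the discriminant in the parameter of width `p` is nonzero. -/
theorem deltaU_ne_zero : deltaU p ≠ 0 := (order_sub_deltaSer 1 hp.out.ne_zero).2

/-- The product of the transforms of `Δ` has order `p (p + 1)` in `u`. -/
theorem order_prod_DR :
    (∏ x : OnePoint (ZMod p), lpHom p (DR x)).order = ((p * (p + 1) : ℕ) : ℤ) ∧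
      (∏ x : OnePoint (ZMod p), lpHom p (DR x)) ≠ 0 := by
  have hone : ∀ x : OnePoint (ZMod p), (lpHom p (DR x)).order = (rootExp p x : ℤ) ∧
      lpHom p (DR x) ≠ 0 := by
    intro x
    obtain ⟨h1, h2⟩ := order_sub_deltaSer (rootUnit (zetaC p) x) (rootExp_ne_zero x)
    have hk : rootKappa ℂ x ≠ 0 := rootKappa_ne_zero (by exact_mod_cast hp.out.ne_zero) x
    rw [lpHom_rootG, lq_deltaFn]
    refine ⟨?_, mul_ne_zero (by simpa using hk) h2⟩
    rw [HahnSeries.order_mul (by simpa using hk) h2, h1, HahnSeries.order_C, zero_add]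
  have hS : ∀ s : Finset (OnePoint (ZMod p)),
      (∏ x ∈ s, lpHom p (DR x)).order = ((∑ x ∈ s, rootExp p x : ℕ) : ℤ) ∧
        (∏ x ∈ s, lpHom p (DR x)) ≠ 0 := by
    intro s
    induction s using Finset.cons_induction with
    | empty => simp
    | cons a t ha ih =>
      rw [Finset.prod_cons, Finset.sum_cons]
      refine ⟨?_, mul_ne_zero (hone a).2 ih.2⟩
      rw [HahnSeries.order_mul (hone a).2 ih.2, (hone a).1, ih.1, Nat.cast_add]
  have hsum : ∑ x : OnePoint (ZMod p), rootExp p x = p * (p + 1) := by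
    show ∑ x : Option (ZMod p), rootExp p x = _
    rw [Fintype.sum_option]
    show p * p + ∑ _x : ZMod p, 1 = _
    simp
    ring
  rw [← hsum]
  exact hS Finset.univ

/-- The product of the `Δ` at the Hecke points is a constant times `Δ^(p + 1)`. -/
theorem exists_prod_DR : ∃ c : ℂ, c ≠ 0 ∧
    ∏ x : OnePoint (ZMod p), lpHom p (DR x) = HahnSeries.C c * deltaU p ^ (p + 1) := by
  obtain ⟨Q, hQ⟩ := exists_prod_mul_phiSer_eq (p := p)
  have h := congrArg (fun P : Polynomial (LaurentSeries ℂ) => P.coeff (p + 1)) hQ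
  have hlc : (phiSer p (zetaC p)).coeff (p + 1) = 1 := by
    have hm : (phiSer p (zetaC p)).Monic := monic_prod_of_monic _ _ fun x _ => monic_X_sub_C _
    have hd : (phiSer p (zetaC p)).natDegree = p + 1 := by
      rw [phiSer, natDegree_finsetProd_X_sub_C_eq_card, Finset.card_univ, card_onePoint]
    rw [← hd]; exact hm.coeff_natDegree
  simp only [Polynomial.coeff_C_mul, Polynomial.coeff_map, hlc, mul_one] at h
  set P := Q.coeff (p + 1)
  obtain ⟨hord, hne⟩ := order_prod_DR (p := p)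
  have hP : evalAt (jv (1 : ℂˣ) p) P ≠ 0 := fun h0 => hne (by rw [h, h0, mul_zero])
  have hd0 : P.natDegree = 0 := by
    have h1 : (evalAt (jv (1 : ℂˣ) p) P).order ≤ -((p * P.natDegree : ℕ) : ℤ) := by
      refine HahnSeries.order_le_of_coeff_ne_zero ?_
      rw [coeff_evalAt_jv hp.out.ne_zero, ne_eq, leadingCoeff_eq_zero]
      exact fun h0 => hP (by rw [h0, map_zero])
    rw [h, HahnSeries.order_mul (pow_ne_zero _ deltaU_ne_zero) hP, HahnSeries.order_pow,
      deltaU, (order_sub_deltaSer 1 hp.out.ne_zero).1, nsmul_eq_mul] at hord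
    push_cast at hord h1
    rcases Nat.eq_zero_or_pos P.natDegree with h0 | h0
    · exact h0
    · exfalso
      have : (0 : ℤ) < (p : ℤ) * P.natDegree :=
        mul_pos (by exact_mod_cast hp.out.pos) (by exact_mod_cast h0)
      nlinarith
  obtain ⟨c, hc⟩ := natDegree_eq_zero.mp hd0
  refine ⟨c, fun h0 => hP (by rw [← hc, h0, map_zero, map_zero]), ?_⟩
  rw [h, ← hc, evalAt_C, mul_comm]

/-- The modular equation over `ℂ` has coefficients in `ℂ[j]`. -/
theorem exists_phiC :
    ∃ Q : Polynomial (Polynomial ℂ), Q.map (evalAt (jv (1 : ℂˣ) p)) = phiSer p (zetaC p) := by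
  obtain ⟨Q, hQ⟩ := exists_prod_mul_phiSer_eq (p := p)
  obtain ⟨c, hc, hD⟩ := exists_prod_DR (p := p)
  refine ⟨Polynomial.C (Polynomial.C c⁻¹) * Q, ?_⟩
  rw [Polynomial.map_mul, Polynomial.map_C, evalAt_C]
  refine mul_left_cancel₀ (Polynomial.C_ne_zero.mpr
    (pow_ne_zero (p + 1) (deltaU_ne_zero (p := p)))) ?_
  rw [mul_left_comm, ← hQ, hD, ← mul_assoc, ← map_mul Polynomial.C, ← mul_assoc, ← map_mul,
    inv_mul_cancel₀ hc, map_one, one_mul]

/-- The equation of `p^12 Δ(pτ) / Δ` over `ℂ` has coefficients in `ℂ[j]`. -/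
theorem exists_hC :
    ∃ Q : Polynomial (Polynomial ℂ), Q.map (evalAt (jv (1 : ℂˣ) p)) = hSer p (zetaC p) := by
  obtain ⟨Q, hQ⟩ := exists_poly_of_modular (p := p) (p + 1)
    (∏ x : OnePoint (ZMod p), (Polynomial.C (deltaG p) * X - Polynomial.C (DR x))) fun γ τ => by
      simp only [Polynomial.map_prod, Polynomial.map_sub, Polynomial.map_mul, Polynomial.map_C,
        Polynomial.map_X, rootG_smul, deltaG_smul, map_mul, mul_assoc, ← mul_sub,
        Finset.prod_mul_distrib, Finset.prod_const, Finset.card_univ, card_onePoint, ← map_pow,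
        ← pow_mul]
      congr 1
      exact Equiv.prod_comp (MulAction.toPerm (redMatrix p γ))
        (fun x => Polynomial.C (evalHom τ (deltaG p)) * X - Polynomial.C (evalHom τ (DR x)))
  refine ⟨Q, mul_left_cancel₀ (Polynomial.C_ne_zero.mpr
    (pow_ne_zero (p + 1) (deltaU_ne_zero (p := p)))) ?_⟩
  have h1 : ∀ x : OnePoint (ZMod p),
      (Polynomial.C (deltaG p) * X - Polynomial.C (DR x)).map (lpHom p)
        = Polynomial.C (deltaU p) * (X - Polynomial.C (ySer (zetaC p) x)) := by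
    intro x
    rw [Polynomial.map_sub, Polynomial.map_mul, Polynomial.map_C, Polynomial.map_C,
      Polynomial.map_X, lpHom_deltaG, lpHom_DR, map_mul (Polynomial.C : LaurentSeries ℂ →+* _)]
    ring
  rw [← hQ, Polynomial.map_prod, Finset.prod_congr rfl fun x _ => h1 x, Finset.prod_mul_distrib,
    Finset.prod_const, Finset.card_univ, card_onePoint, ← map_pow, hSer]

/-- The interpolation polynomial over `ℂ` has coefficients in `ℂ[j]`. -/
theorem exists_gC :
    ∃ Q : Polynomial (Polynomial ℂ), Q.map (evalAt (jv (1 : ℂˣ) p)) = gSer p (zetaC p) := by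
  classical
  obtain ⟨c, hc, hD⟩ := exists_prod_DR (p := p)
  obtain ⟨Q, hQ⟩ := exists_poly_of_modular (p := p) (p + 2)
    (∑ x : OnePoint (ZMod p), Polynomial.C (DR x * DR x) *
      ∏ k ∈ Finset.univ.erase x, (Polynomial.C (DR k) * X - Polynomial.C (ER k))) fun γ τ => by
      simp only [Polynomial.map_sum, Polynomial.map_mul, Polynomial.map_prod, Polynomial.map_sub,
        Polynomial.map_C, Polynomial.map_X, rootG_smul, map_mul, mul_assoc, ← mul_sub,
        Finset.prod_mul_distrib, Finset.prod_const, Finset.card_erase_of_mem (Finset.mem_univ _),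
        Finset.card_univ, card_onePoint]
      rw [Finset.mul_sum]
      refine Fintype.sum_equiv (MulAction.toPerm (redMatrix p γ)) _ _ fun x => ?_
      simp only [MulAction.toPerm_apply]
      rw [show Finset.univ.erase (redMatrix p γ • x) = (Finset.univ.erase x).map
          (MulAction.toPerm (redMatrix p γ)).toEmbedding from ?_, Finset.prod_map]
      · simp only [Equiv.coe_toEmbedding, MulAction.toPerm_apply]
        rw [show 12 * (p + 2) = 12 + 12 + 12 * (p + 1 - 1) by simp; ring]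
        simp only [pow_add, map_pow, map_mul, pow_mul]
        ring
      · rw [Finset.map_erase, Finset.map_univ_equiv]
        rfl
  refine ⟨Polynomial.C (Polynomial.C c⁻¹) * Q, ?_⟩
  rw [Polynomial.map_mul, Polynomial.map_C, evalAt_C]
  refine mul_left_cancel₀ (Polynomial.C_ne_zero.mpr
    (pow_ne_zero (p + 2) (deltaU_ne_zero (p := p)))) ?_
  rw [mul_left_comm, ← hQ, Polynomial.map_sum, gSer, Finset.mul_sum, Finset.mul_sum]
  refine Finset.sum_congr rfl fun x _ => ?_
  rw [Polynomial.map_mul, Polynomial.map_C, Polynomial.map_prod,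
    Finset.prod_congr rfl fun k _ => map_linear_x k, Finset.prod_mul_distrib, ← map_prod,
    ← mul_assoc, ← mul_assoc, ← mul_assoc, ← map_mul, ← map_mul, ← map_mul]
  congr 2
  rw [map_mul, mul_assoc (HahnSeries.C c⁻¹), mul_assoc (lpHom p (DR x)),
    Finset.mul_prod_erase _ (fun k => lpHom p (DR k)) (Finset.mem_univ x), hD, lpHom_DR]
  have hcc : (HahnSeries.C c⁻¹ : LaurentSeries ℂ) * HahnSeries.C c = 1 := by
    rw [← map_mul, inv_mul_cancel₀ hc, map_one]
  linear_combination (ySer (zetaC p) x * deltaU p ^ (p + 2)) * hcc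

end Complex

section Transfer

variable (p) [hp : Fact p.Prime]

/-- `ℤ[ζ_p]`. -/
abbrev CycInt : Type := AdjoinRoot (Polynomial.cyclotomic p ℤ)

omit hp in
theorem cycRoot_pow : (AdjoinRoot.root (Polynomial.cyclotomic p ℤ) : CycInt p) ^ p = 1 := by
  have h : Polynomial.cyclotomic p ℤ ∣ X ^ p - 1 := cyclotomic.dvd_X_pow_sub_one p ℤ
  have := AdjoinRoot.mk_eq_zero.mpr h
  rwa [map_sub, map_pow, AdjoinRoot.mk_X, map_one, sub_eq_zero] at this

/-- The root `ζ_p`, as a unit. -/
def cycZeta : (CycInt p)ˣ := Units.ofPowEqOne _ p (cycRoot_pow p) hp.out.ne_zero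

/-- A primitive root kills the cyclotomic polynomial. -/
theorem eval₂_cyclotomic {K : Type*} [CommRing K] [IsDomain K] {ζ : K}
    (hζ : IsPrimitiveRoot ζ p) :
    Polynomial.eval₂ (Int.castRingHom K) ζ (Polynomial.cyclotomic p ℤ) = 0 := by
  rw [Polynomial.eval₂_eq_eval_map, Polynomial.map_cyclotomic_int]
  exact hζ.isRoot_cyclotomic hp.out.pos

/-- The map `ℤ[ζ_p] → K`. -/
def cycHom {K : Type*} [CommRing K] [IsDomain K] {ζ : K} (hζ : IsPrimitiveRoot ζ p) :
    CycInt p →+* K :=
  AdjoinRoot.lift (Int.castRingHom K) ζ (eval₂_cyclotomic p hζ)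

theorem cycHom_zeta {K : Type*} [CommRing K] [IsDomain K] {ζ : Kˣ}
    (hζ : IsPrimitiveRoot (ζ : K) p) :
    Units.map (cycHom p hζ : CycInt p →* K) (cycZeta p) = ζ := by
  ext
  exact AdjoinRoot.lift_root (eval₂_cyclotomic p hζ)

/-- `ℤ[ζ_p]` embeds into `ℂ`. -/
theorem cycHom_injective {ζ : ℂ} (hζ : IsPrimitiveRoot ζ p) :
    Injective (cycHom p hζ) := by
  rw [injective_iff_map_eq_zero]
  intro a ha
  obtain ⟨g, rfl⟩ := AdjoinRoot.mk_surjective a
  rw [cycHom, AdjoinRoot.lift_mk] at ha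
  rw [AdjoinRoot.mk_eq_zero, Polynomial.cyclotomic_eq_minpoly hζ hp.out.pos]
  refine minpoly.isIntegrallyClosed_dvd (hζ.isIntegral hp.out.pos) ?_
  rwa [Polynomial.aeval_def, algebraMap_int_eq]

variable {p}

/-- Coefficients in `ℂ[j]` of a polynomial over `ℤ[ζ_p]((u))` transfer to every domain with a
primitive `p`th root of unity. -/
theorem exists_poly_transfer {K : Type*} [CommRing K] [IsDomain K] {ζ : Kˣ}
    (hζ : IsPrimitiveRoot (ζ : K) p)
    (FR : Polynomial (LaurentSeries (CycInt p))) (FC : Polynomial (LaurentSeries ℂ))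
    (FK : Polynomial (LaurentSeries K))
    (hF0 : ∃ Q : Polynomial (Polynomial ℂ), Q.map (evalAt (jv (1 : ℂˣ) p)) = FC)
    (hC : FR.map (ModularCurve.coeffMap (cycHom p (isPrimitiveRoot_zetaC p))) = FC)
    (hK : FR.map (ModularCurve.coeffMap (cycHom p hζ)) = FK) :
    ∃ Q : Polynomial (Polynomial K), Q.map (evalAt (jv (1 : Kˣ) p)) = FK := by
  classical
  obtain ⟨Q, hQ⟩ := hF0
  rw [← hQ] at hC
  have hco : ∀ n, ∃ P : Polynomial (CycInt p),
      evalAt (jv (1 : (CycInt p)ˣ) p) P = FR.coeff n := by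
    intro n
    have h := congrArg (fun P : Polynomial (LaurentSeries ℂ) => P.coeff n) hC
    simp only [Polynomial.coeff_map] at h
    obtain ⟨P, -, hP⟩ := exists_lift_evalAt_jv (cycHom_injective p (isPrimitiveRoot_zetaC p))
      hp.out.ne_zero (Q.coeff n) _ h.symm
    exact ⟨P, hP⟩
  choose P hP using hco
  set Q₀ : Polynomial (Polynomial (CycInt p)) :=
    ∑ n ∈ Finset.range (FR.natDegree + 1), Polynomial.monomial n (P n) with hQ₀
  have h0 : Q₀.map (evalAt (jv (1 : (CycInt p)ˣ) p)) = FR := by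
    refine Polynomial.ext fun n => ?_
    rw [Polynomial.coeff_map, hQ₀, Polynomial.finsetSum_coeff]
    simp only [Polynomial.coeff_monomial, Finset.sum_ite_eq', Finset.mem_range]
    split_ifs with h
    · exact hP n
    · rw [Polynomial.coeff_eq_zero_of_natDegree_lt (p := FR) (by omega), map_zero]
  refine ⟨Q₀.map (Polynomial.mapRingHom (cycHom p hζ)), ?_⟩
  rw [← hK, ← h0, Polynomial.map_map, Polynomial.map_map]
  congr 1
  refine RingHom.ext fun P => ?_
  rw [RingHom.comp_apply, RingHom.comp_apply, coeffMap_evalAt, coeffMap_jv _ _ hp.out.ne_zero,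
    map_one, Polynomial.coe_mapRingHom]

/-- The modular equation of level `p` over `K`. -/
theorem exists_modPoly {K : Type*} [CommRing K] [IsDomain K] {ζ : Kˣ}
    (hζ : IsPrimitiveRoot (ζ : K) p) :
    ∃ Φ : Polynomial (Polynomial K), Φ.map (evalAt (jv (1 : Kˣ) p)) = phiSer p ζ :=
  exists_poly_transfer hζ (phiSer p (cycZeta p)) (phiSer p (zetaC p)) (phiSer p ζ) exists_phiC
    (by rw [map_phiSer, cycHom_zeta]) (by rw [map_phiSer, cycHom_zeta])

/-- The equation of `p^12 Δ(pτ) / Δ` over a domain with a primitive `p`th root of unity. -/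
theorem exists_hPoly {K : Type*} [CommRing K] [IsDomain K] {ζ : Kˣ}
    (hζ : IsPrimitiveRoot (ζ : K) p) :
    ∃ H : Polynomial (Polynomial K), H.map (evalAt (jv (1 : Kˣ) p)) = hSer p ζ :=
  exists_poly_transfer hζ (hSer p (cycZeta p)) (hSer p (zetaC p)) (hSer p ζ) exists_hC
    (by rw [map_hSer, cycHom_zeta]) (by rw [map_hSer, cycHom_zeta])

/-- The interpolation polynomial over a domain with a primitive `p`th root of unity. -/
theorem exists_gPoly {K : Type*} [CommRing K] [IsDomain K] {ζ : Kˣ}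
    (hζ : IsPrimitiveRoot (ζ : K) p) :
    ∃ G : Polynomial (Polynomial K), G.map (evalAt (jv (1 : Kˣ) p)) = gSer p ζ :=
  exists_poly_transfer hζ (gSer p (cycZeta p)) (gSer p (zetaC p)) (gSer p ζ) exists_gC
    (by rw [map_gSer, cycHom_zeta]) (by rw [map_gSer, cycHom_zeta])

end Transfer

end Fermat.Agent.Igusa
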