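import Mathlib.FieldTheory.IsAlgClosed.Basic
import Mathlib.FieldTheory.Relrank
import Mathlib.FieldTheory.Separable
import Mathlib.RingTheory.IntegralClosure.IntegrallyClosed
import Mathlib.RingTheory.Localization.FractionRing
import Mathlib.RingTheory.RootsOfUnity.AlgebraicallyClosed
import Fermat.Agent.Igusa.ModEq

/-!
# Irreducibility of the modular equation of prime level `p` in every characteristic `≠ p`

This is the degree `p + 1` of `X₀(p) → X(1)` in characteristic `≠ p`, the inductive step of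
Igusa's degree theorem.
-/

noncomputable section

open Function Polynomial IntermediateField ModularCurve
open scoped OnePoint

namespace Fermat.Agent.Igusa

variable {K : Type*} [Field K]

/-- `Φ` is the modular polynomial of prime level `p`: the neighbours of `j(η u^(pm))` are
`j(η^p u^(p²m))` and the `j(η' u^m)` with `η'^p = η`. -/
structure IsModPoly (p : ℕ) (Φ : Polynomial (Polynomial K)) : Prop where
  monic : Φ.Monic
  natDegree_eq : Φ.natDegree = p + 1
  splits : ∀ (η : Kˣ) (m : ℕ), m ≠ 0 → (Φ.map (evalAt (jv η (p * m)))).Splits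
  separable : ∀ (η : Kˣ) (m : ℕ), m ≠ 0 → (Φ.map (evalAt (jv η (p * m)))).Separable
  isRoot_iff : ∀ (η : Kˣ) (m : ℕ), m ≠ 0 → ∀ y : LaurentSeries K,
    (Φ.map (evalAt (jv η (p * m)))).IsRoot y ↔
      y = jv (η ^ p) (p * p * m) ∨ ∃ η' : Kˣ, η' ^ p = η ∧ y = jv η' m

/-- The modular polynomial stays monic after substitution. -/
theorem map_evalAt_monic {p : ℕ} {Φ : Polynomial (Polynomial K)} (h : IsModPoly p Φ)
    (x : LaurentSeries K) : (Φ.map (evalAt x)).Monic :=
  h.monic.map _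

/-- The modular polynomial has degree `p + 1` after substitution. -/
theorem natDegree_map_evalAt {p : ℕ} {Φ : Polynomial (Polynomial K)} (h : IsModPoly p Φ)
    (x : LaurentSeries K) : (Φ.map (evalAt x)).natDegree = p + 1 := by
  rw [h.monic.natDegree_map, h.natDegree_eq]

/-- Roots of units exist over an algebraically closed field. -/
theorem exists_units_pow_eq [IsAlgClosed K] (η : Kˣ) {p : ℕ} (hp : 0 < p) :
    ∃ η' : Kˣ, η' ^ p = η := by
  obtain ⟨z, hz⟩ := IsAlgClosed.exists_pow_nat_eq (η : K) hp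
  have hz0 : z ≠ 0 := fun h => η.ne_zero (by rw [← hz, h, zero_pow hp.ne'])
  exact ⟨Units.mk0 z hz0, Units.ext (by simpa using hz)⟩

variable {p : ℕ} [hp : Fact p.Prime]

/-- A primitive `p`-th root of unity exists when `p ≠ 0` in `K`. -/
theorem exists_primitive [IsAlgClosed K] (hpK : (p : K) ≠ 0) :
    ∃ ζ : Kˣ, IsPrimitiveRoot (ζ : K) p := by
  have : NeZero (p : K) := ⟨hpK⟩
  obtain ⟨z, hz⟩ := HasEnoughRootsOfUnity.exists_primitiveRoot K p
  exact ⟨Units.mk0 z (hz.ne_zero hp.out.ne_zero), by simpa using hz⟩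

/-- A polynomial with the `p + 1` expected roots is a modular polynomial. -/
theorem isModPoly_of_map_eq [IsAlgClosed K] {ζ : Kˣ} (hζ : IsPrimitiveRoot (ζ : K) p)
    {Φ : Polynomial (Polynomial K)} (hΦ : Φ.map (evalAt (jv (1 : Kˣ) p)) = phiSer p ζ) :
    IsModPoly p Φ := by
  have hp0 : p ≠ 0 := hp.out.ne_zero
  have hinj := evalAt_jv_injective (K := K) hp0
  have hmon : Φ.Monic := by
    refine Polynomial.monic_of_injective hinj ?_
    rw [hΦ]
    exact monic_prod_of_monic _ _ fun x _ => monic_X_sub_C _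
  have hdeg : Φ.natDegree = p + 1 := by
    rw [← natDegree_map_eq_of_injective hinj, hΦ, phiSer, natDegree_finsetProd_X_sub_C_eq_card,
      Finset.card_univ, card_onePoint]
  have key : ∀ (η : Kˣ) (m : ℕ), m ≠ 0 → ∃ η₀ : Kˣ, η₀ ^ p = η ∧
      Φ.map (evalAt (jv η (p * m))) =
        ∏ x : OnePoint (ZMod p), (X - C (sub η₀ m (xSer ζ x))) := by
    intro η m hm
    obtain ⟨η₀, hη₀⟩ := exists_units_pow_eq η hp.out.pos
    refine ⟨η₀, hη₀, ?_⟩
    have h := congrArg (Polynomial.map (sub η₀ m)) hΦ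
    rw [Polynomial.map_map, sub_evalAt η₀ hm, sub_jv η₀ 1 hm hp0, one_mul, hη₀, mul_comm m p] at h
    rw [h, phiSer, Polynomial.map_prod]
    simp
  have hroot : ∀ (η₀ : Kˣ) (m : ℕ), m ≠ 0 → ∀ x : OnePoint (ZMod p),
      sub η₀ m (xSer ζ x) =
        x.elim (jv ((η₀ ^ p) ^ p) (p * p * m)) (fun b => jv (ζ ^ b.val * η₀) m) := by
    intro η₀ m hm x
    rw [xSer, sub_jv η₀ _ hm (rootExp_ne_zero x)]
    induction x using OnePoint.rec with
    | infty =>
      show jv ((1 : Kˣ) * η₀ ^ (p * p)) (m * (p * p)) = jv ((η₀ ^ p) ^ p) (p * p * m)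
      rw [one_mul, pow_mul, mul_comm m]
    | coe b =>
      show jv (ζ ^ b.val * η₀ ^ 1) (m * 1) = jv (ζ ^ b.val * η₀) m
      rw [pow_one, mul_one]
  have hζu : IsPrimitiveRoot ζ p := hζ.of_map_of_injective (f := Units.coeHom K) Units.val_injective
  refine ⟨hmon, hdeg, fun η m hm => ?_, fun η m hm => ?_, fun η m hm y => ?_⟩
  · obtain ⟨η₀, -, h⟩ := key η m hm
    rw [h]
    exact Splits.prod fun x _ => Splits.X_sub_C _
  · obtain ⟨η₀, -, h⟩ := key η m hm
    rw [h, Polynomial.separable_prod_X_sub_C_iff]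
    intro x y hxy
    simp only at hxy
    rw [hroot η₀ m hm x, hroot η₀ m hm y] at hxy
    have hpp : p * p * m ≠ 0 := mul_ne_zero (mul_ne_zero hp0 hp0) hm
    have hne : p * p * m ≠ m := by
      intro h1
      have : 1 < p * p := Nat.one_lt_mul_iff.mpr ⟨hp.out.pos, hp.out.pos, Or.inl hp.out.one_lt⟩
      nlinarith [Nat.pos_of_ne_zero hm]
    induction x using OnePoint.rec with
    | infty =>
      induction y using OnePoint.rec with
      | infty => rfl
      | coe c => exact absurd ((jv_inj hpp hm).mp hxy).2 hne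
    | coe b =>
      induction y using OnePoint.rec with
      | infty => exact absurd ((jv_inj hm hpp).mp hxy).2.symm hne
      | coe c =>
        have := mul_right_cancel ((jv_inj hm hm).mp hxy).1
        exact congrArg _ (ZMod.val_injective p (hζu.pow_inj b.val_lt c.val_lt this))
  · obtain ⟨η₀, hη₀, h⟩ := key η m hm
    rw [h, IsRoot, eval_prod, Finset.prod_eq_zero_iff]
    constructor
    · rintro ⟨x, -, hx⟩
      simp only [eval_sub, eval_X, eval_C, sub_eq_zero] at hx
      rw [hroot η₀ m hm x] at hx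
      induction x using OnePoint.rec with
      | infty => exact Or.inl (by rw [hx, ← hη₀]; rfl)
      | coe b =>
        refine Or.inr ⟨ζ ^ b.val * η₀, ?_, hx⟩
        rw [mul_pow, ← pow_mul, mul_comm b.val, pow_mul, hζu.pow_eq_one, one_pow, one_mul, hη₀]
    · rintro (rfl | ⟨η', hη', rfl⟩)
      · refine ⟨∞, Finset.mem_univ _, ?_⟩
        rw [hroot η₀ m hm ∞, ← hη₀]
        simp only [eval_sub, eval_X, eval_C, sub_eq_zero]
        rfl
      · obtain ⟨i, hi, hi'⟩ := hζu.eq_pow_of_mem_rootsOfUnity (ξ := η' * η₀⁻¹) (by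
          rw [mem_rootsOfUnity, mul_pow, inv_pow, hη', hη₀, mul_inv_cancel])
        refine ⟨((i : ZMod p) : OnePoint (ZMod p)), Finset.mem_univ _, ?_⟩
        rw [hroot η₀ m hm]
        simp only [eval_sub, eval_X, eval_C, sub_eq_zero]
        show jv η' m = jv (ζ ^ (i : ZMod p).val * η₀) m
        rw [ZMod.val_cast_of_lt hi, hi', inv_mul_cancel_right]

/-- A modular polynomial exists in every characteristic `≠ p`. -/
theorem exists_isModPoly [IsAlgClosed K] (hpK : (p : K) ≠ 0) :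
    ∃ Φ : Polynomial (Polynomial K), IsModPoly p Φ := by
  obtain ⟨ζ, hζ⟩ := exists_primitive hpK
  obtain ⟨Φ, hΦ⟩ := exists_modPoly hζ
  exact ⟨Φ, isModPoly_of_map_eq hζ hΦ⟩

omit hp in
/-- Polynomial evaluation inside an intermediate field containing the point. -/
def evalIn (E : IntermediateField K (LaurentSeries K)) {x : LaurentSeries K} (hx : x ∈ E) :
    Polynomial K →+* E :=
  (Polynomial.aeval (⟨x, hx⟩ : E)).toRingHom

omit hp in
theorem algebraMap_comp_evalIn (E : IntermediateField K (LaurentSeries K)) {x : LaurentSeries K}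
    (hx : x ∈ E) : (algebraMap E (LaurentSeries K)).comp (evalIn E hx) = evalAt x := by
  refine RingHom.ext fun P => ?_
  rw [RingHom.comp_apply, ← aeval_eq_evalAt, evalIn]
  exact (Polynomial.aeval_algHom_apply E.val (⟨x, hx⟩ : E) P).symm

omit hp in
theorem map_evalIn_map (E : IntermediateField K (LaurentSeries K)) {x : LaurentSeries K}
    (hx : x ∈ E) (Q : Polynomial (Polynomial K)) :
    (Q.map (evalIn E hx)).map (algebraMap E (LaurentSeries K)) = Q.map (evalAt x) := by
  rw [Polynomial.map_map, algebraMap_comp_evalIn]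

omit hp in
theorem eval_map_mem (E : IntermediateField K (LaurentSeries K)) {y : LaurentSeries K}
    (hy : y ∈ E) (P : Polynomial E) :
    (P.map (algebraMap E (LaurentSeries K))).eval y ∈ E := by
  have h := Polynomial.eval_map_apply (p := P) (f := algebraMap E (LaurentSeries K)) ⟨y, hy⟩
  rw [show (algebraMap E (LaurentSeries K)) ⟨y, hy⟩ = y from rfl] at h
  rw [h]
  exact (P.eval ⟨y, hy⟩).2

omit hp in
/-- An element of the fraction field, integral over an integrally closed ring, lies in it. -/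
theorem exists_eq_of_integral_div {A L : Type*} [CommRing A] [IsDomain A] [IsIntegrallyClosed A]
    [Field L] (f : A →+* L) (hf : Injective f) (a b : A) (P : Polynomial A) (hP : P.Monic)
    (h : P.eval₂ f (f a / f b) = 0) : ∃ c, f c = f a / f b := by
  set σ : FractionRing A →+* L := IsFractionRing.lift hf
  have hσ : ∀ x, σ (algebraMap A (FractionRing A) x) = f x := fun x =>
    IsFractionRing.lift_algebraMap hf x
  have hcomp : σ.comp (algebraMap A (FractionRing A)) = f := RingHom.ext hσ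
  have hz : σ (algebraMap A (FractionRing A) a / algebraMap A (FractionRing A) b) = f a / f b := by
    rw [map_div₀, hσ, hσ]
  have hint : IsIntegral A (algebraMap A (FractionRing A) a / algebraMap A (FractionRing A) b) := by
    refine ⟨P, hP, σ.injective ?_⟩
    rw [map_zero, Polynomial.hom_eval₂, hcomp, hz, h]
  obtain ⟨c, hc⟩ := IsIntegrallyClosed.isIntegral_iff.mp hint
  exact ⟨c, by rw [← hσ, hc, hz]⟩

/-- The series `p ^ 12 Δ(u ^ (p²)) / Δ(u ^ p)` has order `p² - p`. -/
theorem order_ySer_infty (hpK : (p : K) ≠ 0) (ζ : Kˣ) :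
    (ySer ζ (∞ : OnePoint (ZMod p))).order = ((p * p : ℕ) : ℤ) - p ∧
      ySer ζ (∞ : OnePoint (ZMod p)) ≠ 0 := by
  have hp0 : p ≠ 0 := hp.out.ne_zero
  obtain ⟨ho1, hn1⟩ := order_sub_deltaSer (1 : Kˣ) (mul_ne_zero hp0 hp0)
  obtain ⟨ho2, hn2⟩ := order_sub_deltaSer (1 : Kˣ) hp0
  have hone : sub (1 : Kˣ) p (deltaSer K) * sub (1 : Kˣ) p (deltaSerInv K) = 1 := by
    rw [← map_mul, deltaSer_mul_inv, map_one]
  have hn3 : sub (1 : Kˣ) p (deltaSerInv K) ≠ 0 := right_ne_zero_of_mul_eq_one hone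
  have ho3 : (sub (1 : Kˣ) p (deltaSerInv K)).order = -(p : ℤ) := by
    have := congrArg HahnSeries.order hone
    rw [HahnSeries.order_mul hn2 hn3, ho2, HahnSeries.order_one] at this
    omega
  have hk : (HahnSeries.C ((p : K) ^ 12) : LaurentSeries K) ≠ 0 := by simp [hpK]
  have hy : ySer ζ (∞ : OnePoint (ZMod p)) = HahnSeries.C ((p : K) ^ 12) *
      sub (1 : Kˣ) (p * p) (deltaSer K) * sub (1 : Kˣ) p (deltaSerInv K) := rfl
  rw [hy]
  refine ⟨?_, mul_ne_zero (mul_ne_zero hk hn1) hn3⟩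
  rw [HahnSeries.order_mul (mul_ne_zero hk hn1) hn3, HahnSeries.order_mul hk hn1,
    HahnSeries.order_C, ho1, ho3]
  ring

/-- `j(u ^ (p²))` does not lie in `k(j(u ^ p))`. -/
theorem jv_sq_not_mem [IsAlgClosed K] (hpK : (p : K) ≠ 0) :
    jv (1 : Kˣ) (p * p) ∉ K⟮jv (1 : Kˣ) p⟯ := by
  classical
  intro hmem
  obtain ⟨ζ, hζ⟩ := exists_primitive hpK
  obtain ⟨Φ, hΦ⟩ := exists_modPoly hζ
  obtain ⟨G, hG⟩ := exists_gPoly hζ
  obtain ⟨H, hH⟩ := exists_hPoly hζ
  have hp0 : p ≠ 0 := hp.out.ne_zero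
  set E : IntermediateField K (LaurentSeries K) := K⟮jv (1 : Kˣ) p⟯
  have hj : jv (1 : Kˣ) p ∈ E := mem_adjoin_simple_self K _
  have hinf : xSer ζ (∞ : OnePoint (ZMod p)) = jv (1 : Kˣ) (p * p) := rfl
  set xi : LaurentSeries K := xSer ζ (∞ : OnePoint (ZMod p)) with hxi
  have hxiE : xi ∈ E := hinf ▸ hmem
  have hGv : (gSer p ζ).eval xi = ySer ζ (∞ : OnePoint (ZMod p)) *
      ∏ k ∈ Finset.univ.erase (∞ : OnePoint (ZMod p)), (xi - xSer ζ k) := by
    rw [gSer, eval_finsetSum, Finset.sum_eq_single (∞ : OnePoint (ZMod p))]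
    · simp [eval_prod, hxi]
    · intro b _ hb
      rw [eval_mul, eval_prod]
      refine mul_eq_zero_of_right _ (Finset.prod_eq_zero (Finset.mem_erase.mpr
        ⟨hb.symm, Finset.mem_univ _⟩) ?_)
      simp [hxi]
    · simp
  have hprodE : (∏ k ∈ Finset.univ.erase (∞ : OnePoint (ZMod p)), (xi - xSer ζ k)) ∈ E := by
    set ΨE : Polynomial E := Φ.map (evalIn E hj) /ₘ (X - C (⟨xi, hxiE⟩ : E)) with hΨ
    have h1 : ΨE.map (algebraMap E (LaurentSeries K)) =
        ∏ k ∈ Finset.univ.erase (∞ : OnePoint (ZMod p)), (X - C (xSer ζ k)) := by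
      rw [hΨ, Polynomial.map_divByMonic _ (monic_X_sub_C _), map_evalIn_map, hΦ,
        Polynomial.map_sub, Polynomial.map_X, Polynomial.map_C, phiSer,
        ← Finset.mul_prod_erase _ _ (Finset.mem_univ (∞ : OnePoint (ZMod p)))]
      exact Polynomial.mul_divByMonic_cancel_left _ (monic_X_sub_C _)
    have h2 := eval_map_mem E hxiE ΨE
    rw [h1, eval_prod] at h2
    simpa using h2
  have hne : ∏ k ∈ Finset.univ.erase (∞ : OnePoint (ZMod p)), (xi - xSer ζ k) ≠ 0 := by
    rw [Finset.prod_ne_zero_iff]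
    intro k hk
    rw [sub_ne_zero, hinf]
    induction k using OnePoint.rec with
    | infty => simp at hk
    | coe b =>
      intro h
      have h2 : p * p = 1 := ((jv_inj (mul_ne_zero hp0 hp0) one_ne_zero).mp h).2
      exact hp.out.one_lt.ne' (Nat.eq_one_of_mul_eq_one_right h2)
  have hyE : ySer ζ (∞ : OnePoint (ZMod p)) ∈ E := by
    have h2 := eval_map_mem E hxiE (G.map (evalIn E hj))
    rw [map_evalIn_map, hG, hGv] at h2
    have := div_mem h2 hprodE
    rwa [mul_div_assoc, div_self hne, mul_one] at this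
  obtain ⟨a, b, hab⟩ := (IntermediateField.mem_adjoin_simple_iff K _).mp hyE
  rw [aeval_eq_evalAt, aeval_eq_evalAt] at hab
  have hord := order_ySer_infty hpK ζ
  have hinj := evalAt_jv_injective (K := K) hp0
  obtain ⟨c, hc⟩ := exists_eq_of_integral_div _ hinj a b H (Polynomial.monic_of_injective hinj (by
    rw [hH]; exact monic_prod_of_monic _ _ fun x _ => monic_X_sub_C _)) (by
    rw [← hab, Polynomial.eval₂_eq_eval_map, hH, hSer, eval_prod]
    exact Finset.prod_eq_zero (Finset.mem_univ (∞ : OnePoint (ZMod p))) (by simp))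
  rw [← hab] at hc
  have hc0 : c ≠ 0 := fun h => hord.2 (by rw [← hc, h, map_zero])
  obtain ⟨n, hn, hn'⟩ := exists_coeff_nonpos_evalAt_jv hp0 hc0
  rw [hc] at hn'
  have h1 := HahnSeries.order_le_of_coeff_ne_zero hn'
  have h2 : p < p * p := lt_mul_of_one_lt_left hp.out.pos hp.out.one_lt
  rw [hord.1] at h1
  omega

omit hp in
/-- The relative degree of adjoining an integral element is the degree of its minimal polynomial. -/
theorem relfinrank_adjoin_simple (A : IntermediateField K (LaurentSeries K))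
    {x : LaurentSeries K} (hx : IsIntegral A x) :
    relfinrank A (A ⊔ K⟮x⟯) = (minpoly A x).natDegree := by
  rw [relfinrank_eq_finrank_of_le le_sup_left, ← IntermediateField.adjoin.finrank hx]
  have h : extendScalars (le_sup_left : A ≤ A ⊔ K⟮x⟯) = A⟮x⟯ :=
    restrictScalars_injective K (by
      rw [extendScalars_restrictScalars, restrictScalars_adjoin_eq_sup])
  rw [h]

section LowerBound

variable [IsAlgClosed K]

omit hp [IsAlgClosed K] in
/-- Series in `q^p` are fixed by `q ↦ ζ q`. -/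
theorem scaleHom_eq_self_of_mem_range [NeZero p] {ζ : Kˣ} (hζ : ζ ^ p = 1)
    {x : LaurentSeries K} (hx : x ∈ (qExpandAlgHomC K p).fieldRange) : scaleHom ζ x = x := by
  obtain ⟨y, rfl⟩ := hx
  show scaleHom ζ (qExpand K p y) = qExpand K p y
  rw [scaleHom_qExpand, hζ, scaleHom_one]

/-- Over a field `F ∋ j(q^p)` of series in `q^p`, `j(q)` has degree at least `p`, and degree
`p + 1` unless `j(q^(p²)) ∈ F`. -/
theorem natDegree_minpoly_jv (hpK : (p : K) ≠ 0) (F : IntermediateField K (LaurentSeries K))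
    (hjF : jv (1 : Kˣ) p ∈ F) [NeZero p] (hF : F ≤ (qExpandAlgHomC K p).fieldRange) :
    IsIntegral F (jv (1 : Kˣ) 1) ∧ p ≤ (minpoly F (jv (1 : Kˣ) 1)).natDegree ∧
      (jv (1 : Kˣ) (p * p) ∉ F → (minpoly F (jv (1 : Kˣ) 1)).natDegree = p + 1) := by
  classical
  obtain ⟨ζ, hζ⟩ := exists_primitive hpK
  obtain ⟨Φ, hΦ'⟩ := exists_modPoly hζ
  have hΦ : IsModPoly p Φ := isModPoly_of_map_eq hζ hΦ'
  have hζu : IsPrimitiveRoot ζ p := hζ.of_map_of_injective (f := Units.coeHom K) Units.val_injective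
  set P : Polynomial F := Φ.map (evalIn F hjF) with hP
  have hPmap : P.map (algebraMap F (LaurentSeries K)) = phiSer p ζ := by
    rw [hP, map_evalIn_map, hΦ']
  have hPmon : P.Monic := hΦ.monic.map _
  have hPdeg : P.natDegree = p + 1 := by rw [hP, hΦ.monic.natDegree_map, hΦ.natDegree_eq]
  have hProot : Polynomial.aeval (jv (1 : Kˣ) 1) P = 0 := by
    rw [aeval_def, eval₂_eq_eval_map, hPmap, phiSer, eval_prod]
    exact Finset.prod_eq_zero (Finset.mem_univ ((0 : ZMod p) : OnePoint (ZMod p)))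
      (by
        rw [eval_sub, eval_X, eval_C, sub_eq_zero]
        show jv (1 : Kˣ) 1 = jv (ζ ^ (0 : ZMod p).val) 1
        rw [ZMod.val_zero, pow_zero])
  have hint : IsIntegral F (jv (1 : Kˣ) 1) := ⟨P, hPmon, by rw [← aeval_def, hProot]⟩
  set μ := minpoly F (jv (1 : Kˣ) 1) with hμ
  have hroots : ∀ b : ZMod p,
      (μ.map (algebraMap F (LaurentSeries K))).IsRoot (xSer ζ (b : OnePoint (ZMod p))) := by
    intro b
    have h0 : (μ.map (algebraMap F (LaurentSeries K))).eval (jv (1 : Kˣ) 1) = 0 := by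
      rw [eval_map, ← aeval_def, hμ, minpoly.aeval]
    have hscale : scaleHom ((ζ ^ b.val : Kˣ)) (jv (1 : Kˣ) 1) = xSer ζ (b : OnePoint (ZMod p)) := by
      rw [scaleHom_jv _ _ one_ne_zero, one_mul, pow_one]
      rfl
    rw [IsRoot, ← hscale]
    have hfix : (μ.map (algebraMap F (LaurentSeries K))).map (scaleHom (ζ ^ b.val : Kˣ))
        = μ.map (algebraMap F (LaurentSeries K)) := by
      rw [Polynomial.map_map]
      congr 1
      refine RingHom.ext fun f => scaleHom_eq_self_of_mem_range ?_ (hF f.2)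
      rw [← pow_mul, mul_comm, pow_mul, hζu.pow_eq_one, one_pow]
    conv_lhs => rw [← hfix]
    rw [Polynomial.eval_map_apply, h0, map_zero]
  have hinjb : Injective fun b : ZMod p => xSer ζ (b : OnePoint (ZMod p)) := fun a b h =>
    ZMod.val_injective p (hζu.pow_inj a.val_lt b.val_lt
      ((jv_inj one_ne_zero one_ne_zero).mp h).1)
  set R : Finset (LaurentSeries K) :=
    Finset.univ.image fun b : ZMod p => xSer ζ (b : OnePoint (ZMod p)) with hR
  have hμne : μ.map (algebraMap F (LaurentSeries K)) ≠ 0 :=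
    ((minpoly.monic hint).map _).ne_zero
  have hRsub : R.val ≤ (μ.map (algebraMap F (LaurentSeries K))).roots := by
    rw [Multiset.le_iff_subset R.nodup]
    intro y hy
    rw [Finset.mem_val, hR, Finset.mem_image] at hy
    obtain ⟨b, -, rfl⟩ := hy
    exact (mem_roots hμne).mpr (hroots b)
  have hRcard : R.card = p := by
    rw [hR, Finset.card_image_of_injective _ hinjb, Finset.card_univ, ZMod.card]
  have hle : p ≤ μ.natDegree := by
    have := (Multiset.card_le_card hRsub).trans (card_roots' _)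
    rwa [Finset.card_val, hRcard, (minpoly.monic hint).natDegree_map] at this
  refine ⟨hint, hle, fun hni => ?_⟩
  have hdvd : μ ∣ P := minpoly.dvd F _ hProot
  have hle' : μ.natDegree ≤ p + 1 := hPdeg ▸ natDegree_le_of_dvd hdvd hPmon.ne_zero
  by_contra hne
  have hμp : μ.natDegree = p := by omega
  obtain ⟨r, hr⟩ := hdvd
  have hrdeg : r.natDegree = 1 := by
    have hr0 : r ≠ 0 := fun h => hPmon.ne_zero (by rw [hr, h, mul_zero])
    have := congrArg natDegree hr
    rw [natDegree_mul (minpoly.monic hint).ne_zero hr0, hPdeg, hμp] at this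
    omega
  have hrmon : r.Monic := (minpoly.monic hint).of_mul_monic_left (hr ▸ hPmon)
  have hev := congrArg (fun Q : Polynomial (LaurentSeries K) =>
    Q.eval (xSer ζ (∞ : OnePoint (ZMod p)))) (congrArg (Polynomial.map
      (algebraMap F (LaurentSeries K))) hr)
  simp only [hPmap, Polynomial.map_mul, eval_mul] at hev
  rw [phiSer, eval_prod, Finset.prod_eq_zero (Finset.mem_univ (∞ : OnePoint (ZMod p))) (by simp)]
    at hev
  rcases mul_eq_zero.mp hev.symm with h | h
  · have hmem : xSer ζ (∞ : OnePoint (ZMod p)) ∈ (μ.map (algebraMap F (LaurentSeries K))).roots :=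
      (mem_roots hμne).mpr h
    have heq : R.val = (μ.map (algebraMap F (LaurentSeries K))).roots := by
      refine Multiset.eq_of_le_of_card_le hRsub ?_
      rw [Finset.card_val, hRcard]
      exact (card_roots' _).trans (by rw [(minpoly.monic hint).natDegree_map, hμp])
    rw [← heq, Finset.mem_val, hR, Finset.mem_image] at hmem
    obtain ⟨b, -, hb⟩ := hmem
    have h2 : 1 = p * p :=
      ((jv_inj one_ne_zero (mul_ne_zero hp.out.ne_zero hp.out.ne_zero)).mp hb).2
    exact hp.out.one_lt.ne' (Nat.eq_one_of_mul_eq_one_right h2.symm)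
  · refine hni ?_
    have hr' : r = X + C (r.coeff 0) := hrmon.eq_X_add_C hrdeg
    rw [hr', Polynomial.map_add, Polynomial.map_X, Polynomial.map_C, eval_add, eval_X,
      eval_C, add_eq_zero_iff_eq_neg] at h
    show xSer ζ (∞ : OnePoint (ZMod p)) ∈ F
    rw [h]
    exact neg_mem (r.coeff 0).2

omit [IsAlgClosed K] in
theorem qExpandAlgHomC_jv (m : ℕ) (hm : m ≠ 0) (n : ℕ) [NeZero n] :
    qExpandAlgHomC K n (jv (1 : Kˣ) m) = jv (1 : Kˣ) (n * m) := by
  rw [qExpandAlgHomC_apply, ← sub_one_eq n, sub_jv 1 1 (NeZero.ne n) hm, one_pow, one_mul]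

omit hp [IsAlgClosed K] in
/-- `j(q^(pm))` is a series in `q^p`. -/
theorem adjoin_jv_le_range [NeZero p] {m : ℕ} (hm : m ≠ 0) :
    K⟮jv (1 : Kˣ) (p * m)⟯ ≤ (qExpandAlgHomC K p).fieldRange := by
  rw [adjoin_simple_le_iff]
  exact ⟨jv 1 m, qExpandAlgHomC_jv m hm p⟩

/-- `[k(j, j(q^p)) : k(j(q^p))] = p + 1`. -/
theorem natDegree_minpoly_jv_one (hpK : (p : K) ≠ 0) :
    IsIntegral K⟮jv (1 : Kˣ) p⟯ (jv (1 : Kˣ) 1) ∧
      (minpoly K⟮jv (1 : Kˣ) p⟯ (jv (1 : Kˣ) 1)).natDegree = p + 1 := by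
  have : NeZero p := ⟨hp.out.ne_zero⟩
  obtain ⟨h1, -, h3⟩ := natDegree_minpoly_jv hpK K⟮jv (1 : Kˣ) p⟯ (mem_adjoin_simple_self K _)
    (by simpa using adjoin_jv_le_range (K := K) (p := p) one_ne_zero)
  exact ⟨h1, h3 (jv_sq_not_mem hpK)⟩

/-- `[k(j, j(q^p)) : k(j(q^p))] = p + 1`. -/
theorem relfinrank_right (hpK : (p : K) ≠ 0) :
    relfinrank K⟮jv (1 : Kˣ) p⟯ (K⟮jv (1 : Kˣ) p⟯ ⊔ K⟮jv (1 : Kˣ) 1⟯) = p + 1 := by
  obtain ⟨h1, h2⟩ := natDegree_minpoly_jv_one (K := K) hpK
  rw [relfinrank_adjoin_simple _ h1, h2]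

/-- `[k(j, j(q^p)) : k(j)] = p + 1`. -/
theorem relfinrank_left (hpK : (p : K) ≠ 0) :
    relfinrank K⟮jv (1 : Kˣ) 1⟯ (K⟮jv (1 : Kˣ) 1⟯ ⊔ K⟮jv (1 : Kˣ) p⟯) = p + 1 := by
  have : NeZero p := ⟨hp.out.ne_zero⟩
  obtain ⟨h1, h2⟩ := natDegree_minpoly_jv_one (K := K) hpK
  obtain ⟨Φ, hΦ⟩ := exists_isModPoly (p := p) hpK
  rw [← relfinrank_map_map _ _ (qExpandAlgHomC K p), IntermediateField.map_sup,
    adjoin_map, adjoin_map, Set.image_singleton, Set.image_singleton,
    qExpandAlgHomC_jv 1 one_ne_zero, qExpandAlgHomC_jv p hp.out.ne_zero, mul_one]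
  set F := K⟮jv (1 : Kˣ) p⟯
  have hjF : jv (1 : Kˣ) p ∈ F := mem_adjoin_simple_self K _
  set P : Polynomial F := Φ.map (evalIn F hjF)
  have hPmap : P.map (algebraMap F (LaurentSeries K)) = Φ.map (evalAt (jv 1 (p * 1))) := by
    rw [mul_one]; exact map_evalIn_map F hjF Φ
  have hroot : ∀ y, (Φ.map (evalAt (jv (1 : Kˣ) (p * 1)))).IsRoot y → aeval y P = 0 := by
    intro y hy
    rw [aeval_def, eval₂_eq_eval_map, hPmap]
    exact hy
  have hr1 := hroot _ ((hΦ.isRoot_iff 1 1 one_ne_zero _).mpr (Or.inr ⟨1, one_pow _, rfl⟩))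
  have hr2 := hroot _ ((hΦ.isRoot_iff 1 1 one_ne_zero _).mpr (Or.inl rfl))
  rw [one_pow, mul_one] at hr2
  have hPmon : P.Monic := hΦ.monic.map _
  have hPdeg : P.natDegree = p + 1 := by
    rw [hΦ.monic.natDegree_map, hΦ.natDegree_eq]
  have hPeq : P = minpoly F (jv (1 : Kˣ) 1) :=
    (Polynomial.eq_of_monic_of_dvd_of_natDegree_le (minpoly.monic h1) hPmon
      (minpoly.dvd F _ hr1) (by rw [hPdeg, h2]))
  have hirr : Irreducible P := hPeq ▸ minpoly.irreducible h1
  rw [relfinrank_adjoin_simple F ⟨P, hPmon, by rw [← aeval_def, hr2]⟩,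
    ← minpoly.eq_of_irreducible_of_monic hirr hr2 hPmon, hPdeg]

end LowerBound

end Fermat.Agent.Igusa
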