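import Mathlib.Data.Nat.Factorization.Basic
import Mathlib.FieldTheory.IsAlgClosed.AlgebraicClosure
import Mathlib.FieldTheory.Separable
import Fermat.Agent.Igusa.PrimeLevel

/-!
# `[k(j(q^d) : d ∣ N) : k(j)] = ψ(N)` whenever `N` is invertible in `k` (Igusa)

This is the degree of `X₀(N) → X(1)` in every characteristic prime to `N`. It gives the equality
of degrees needed to reduce `X₀(N)` modulo `ℓ ∤ N` and the bases used for its integral models.
-/

noncomputable section

open Function Polynomial IntermediateField ModularCurve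

namespace Fermat.Agent.Igusa

/-- `ψ(N) = ∏ (p+1) p^(e-1)`. -/
def psi (N : ℕ) : ℕ := N.factorization.prod fun p e => (p + 1) * p ^ (e - 1)

@[simp] theorem psi_one : psi 1 = 1 := by simp [psi]

/-- `ψ(N)` is positive. -/
theorem psi_pos (N : ℕ) : 0 < psi N := by
  unfold psi
  refine Finset.prod_pos fun p hp => Nat.mul_pos (Nat.succ_pos _) (Nat.pow_pos ?_)
  rw [Nat.support_factorization] at hp
  exact (Nat.prime_of_mem_primeFactors hp).pos

/-- `ψ(Np) = p ψ(N)` if `p ∣ N`, and `(p + 1) ψ(N)` otherwise. -/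
theorem psi_mul_prime {N p : ℕ} (hN : N ≠ 0) (hp : p.Prime) :
    psi (N * p) = psi N * if p ∣ N then p else p + 1 := by
  classical
  set g : ℕ → ℕ → ℕ := fun p e => (p + 1) * p ^ (e - 1) with hg
  set f := N.factorization with hf
  have hNp : (N * p).factorization = f + Finsupp.single p 1 := by
    rw [Nat.factorization_mul hN hp.ne_zero, hp.factorization]
  have herase : (f + Finsupp.single p 1).erase p = f.erase p := by
    ext a
    rcases eq_or_ne a p with rfl | ha
    · simp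
    · simp [ha]
  have hnew : psi (N * p) = g p (f p + 1) * (f.erase p).prod g := by
    show (N * p).factorization.prod g = _
    rw [hNp, ← Finsupp.mul_prod_erase _ p g (by simp), herase]
    simp
  rw [hnew]
  by_cases hd : p ∣ N
  · have h1 : 1 ≤ f p := hp.factorization_pos_of_dvd hN hd
    have hold : psi N = g p (f p) * (f.erase p).prod g :=
      (Finsupp.mul_prod_erase f p g (Finsupp.mem_support_iff.mpr (by omega))).symm
    rw [hold, if_pos hd, hg]
    simp only
    obtain ⟨e, he⟩ := Nat.exists_eq_add_of_le h1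
    rw [he, Nat.add_sub_cancel_left, Nat.add_sub_cancel, add_comm 1 e, pow_succ]
    ring
  · have h0 : f p = 0 := Nat.factorization_eq_zero_of_not_dvd hd
    have hns : p ∉ f.support := by simp [h0]
    rw [if_neg hd, Finsupp.erase_of_notMem_support hns, h0, hg]
    show (p + 1) * p ^ (0 + 1 - 1) * psi N = psi N * (p + 1)
    simp [mul_comm]

variable {K : Type*} [Field K]

/-- `j(q^(mp))` is a root of the modular polynomial of level `p` at `j(q^m)`. -/
theorem isModPoly_root_up {p : ℕ} [hp : Fact p.Prime] {Φ : Polynomial (Polynomial K)}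
    (hΦ : IsModPoly p Φ) {m : ℕ} (hm : m ≠ 0) :
    (Φ.map (evalAt (jv (1 : Kˣ) m))).IsRoot (jv (1 : Kˣ) (m * p)) := by
  have hp0 : p ≠ 0 := hp.out.ne_zero
  refine sub_injective (1 : Kˣ) hp0 ?_
  rw [map_zero, ← Polynomial.eval_map_apply, Polynomial.map_map, sub_evalAt 1 hp0,
    sub_jv 1 1 hp0 hm, sub_jv 1 1 hp0 (mul_ne_zero hm hp0)]
  simp only [one_pow, one_mul]
  rw [show p * (m * p) = p * p * m by ring]
  exact (hΦ.isRoot_iff 1 m hm _).mpr (Or.inl (by rw [one_pow]))

/-- `j(q^m)` is a root of the modular polynomial of level `p` at `j(q^(mp))`. -/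
theorem isModPoly_root_down {p : ℕ} [_hp : Fact p.Prime] {Φ : Polynomial (Polynomial K)}
    (hΦ : IsModPoly p Φ) {m : ℕ} (hm : m ≠ 0) :
    (Φ.map (evalAt (jv (1 : Kˣ) (m * p)))).IsRoot (jv (1 : Kˣ) m) := by
  rw [mul_comm]
  exact (hΦ.isRoot_iff 1 m hm _).mpr (Or.inr ⟨1, one_pow _, rfl⟩)

/-- The modular polynomial of level `p` at `j(q^m)` is separable. -/
theorem isModPoly_separable {p : ℕ} [hp : Fact p.Prime] {Φ : Polynomial (Polynomial K)}
    (hΦ : IsModPoly p Φ) {m : ℕ} (hm : m ≠ 0) :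
    (Φ.map (evalAt (jv (1 : Kˣ) m))).Separable := by
  have hp0 : p ≠ 0 := hp.out.ne_zero
  rw [← Polynomial.separable_map (sub (1 : Kˣ) p), Polynomial.map_map, sub_evalAt 1 hp0,
    sub_jv 1 1 hp0 hm, one_pow, one_mul]
  exact hΦ.separable 1 m hm

/-- If two polynomials over `E` have exactly one common root in a field where the first splits
with simple roots, that root comes from `E`. -/
theorem mem_range_of_common_root {E L : Type*} [Field E] [Field L] (ι : E →+* L)
    {f g : Polynomial E} (hfs : (f.map ι).Splits) (hsep : (f.map ι).Separable) {x : L}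
    (hxf : (f.map ι).IsRoot x) (hxg : (g.map ι).IsRoot x)
    (huniq : ∀ y, (f.map ι).IsRoot y → (g.map ι).IsRoot y → y = x) : x ∈ ι.range := by
  classical
  have hf0 : f.map ι ≠ 0 := hsep.ne_zero
  have hh : (EuclideanDomain.gcd f g).map ι = EuclideanDomain.gcd (f.map ι) (g.map ι) :=
    (Polynomial.gcd_map ι).symm
  set h := EuclideanDomain.gcd f g with hdef
  have hdvd : h.map ι ∣ f.map ι := Polynomial.map_dvd ι (EuclideanDomain.gcd_dvd_left f g)
  have hh0 : h.map ι ≠ 0 := ne_zero_of_dvd_ne_zero hf0 hdvd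
  have hsplit : (h.map ι).Splits := hfs.of_dvd hf0 hdvd
  have hxh : (h.map ι).IsRoot x := by
    rw [hh, Polynomial.isRoot_gcd_iff_isRoot_left_right]
    exact ⟨hxf, hxg⟩
  have hroots : (h.map ι).roots = {x} := by
    have hnd : (h.map ι).roots.Nodup := Polynomial.nodup_roots (hsep.of_dvd hdvd)
    rw [← Multiset.Nodup.ext hnd (Multiset.nodup_singleton x) |>.mpr ?_]
    intro y
    rw [Multiset.mem_singleton, mem_roots hh0]
    constructor
    · intro hy
      rw [hh, Polynomial.isRoot_gcd_iff_isRoot_left_right] at hy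
      exact huniq y hy.1 hy.2
    · rintro rfl; exact hxh
  have hdeg : h.natDegree = 1 := by
    rw [← natDegree_map ι, hsplit.natDegree_eq_card_roots, hroots, Multiset.card_singleton]
  have h1 : h = Polynomial.C (h.coeff 1) * X + Polynomial.C (h.coeff 0) :=
    Polynomial.eq_X_add_C_of_natDegree_le_one hdeg.le
  have hc : h.coeff 1 ≠ 0 := by
    rw [← hdeg]
    exact leadingCoeff_ne_zero.mpr fun h0 => hh0 (by rw [h0, Polynomial.map_zero])
  rw [h1] at hxh
  simp only [IsRoot, Polynomial.map_add, Polynomial.map_mul, Polynomial.map_C, Polynomial.map_X,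
    eval_add, eval_mul, eval_C, eval_X] at hxh
  refine ⟨-(h.coeff 0) / h.coeff 1, ?_⟩
  rw [map_div₀, map_neg, div_eq_iff (fun h' => hc (ι.injective (h'.trans (map_zero ι).symm)))]
  linear_combination -hxh

section

variable [IsAlgClosed K]

omit [IsAlgClosed K] in
theorem natCast_ne_zero_of_dvd {d N : ℕ} (hN : (N : K) ≠ 0) (hd : d ∣ N) : (d : K) ≠ 0 := by
  obtain ⟨e, rfl⟩ := hd
  exact left_ne_zero_of_mul (by rwa [Nat.cast_mul] at hN)

omit [IsAlgClosed K] in
/-- `j(q^d)` lies in the function field of level `N` for `d ∣ N`. -/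
theorem jv_mem_full {N d : ℕ} (hd0 : d ≠ 0) (hd : d ∣ N) :
    jv (1 : Kˣ) d ∈ modularFunctionFieldFullC K N := by
  have : NeZero d := ⟨hd0⟩
  rw [jv_one_eq_qExpand]
  exact jqModCd_mem_full K N hd

omit [IsAlgClosed K] in
/-- The field of level `N` is generated over `k` by the `j(q^d)`, `d ∣ N`. -/
theorem full_le_iff {N : ℕ} {F : IntermediateField K (LaurentSeries K)} :
    modularFunctionFieldFullC K N ≤ F ↔ ∀ d : ℕ, d ≠ 0 → d ∣ N → jv (1 : Kˣ) d ∈ F := by
  constructor
  · exact fun h d hd0 hd => h (jv_mem_full hd0 hd)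
  · intro h
    rw [modularFunctionFieldFullC, adjoin_le_iff]
    rintro x ⟨d, hd, hdN, rfl⟩
    have := hd
    rw [← jv_one_eq_qExpand]
    exact h d hd.out hdN

omit [IsAlgClosed K] in
/-- The field of level one is `k(j)`. -/
theorem full_one : modularFunctionFieldFullC K 1 = K⟮jv (1 : Kˣ) 1⟯ := by
  refine le_antisymm (full_le_iff.mpr fun d _ hd => ?_) ?_
  · rw [Nat.dvd_one.mp hd]; exact mem_adjoin_simple_self K _
  · rw [adjoin_simple_le_iff]; exact jv_mem_full one_ne_zero dvd_rfl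

omit [IsAlgClosed K] in
/-- `K(j)` lies in the function field of level `N`. -/
theorem adjoin_j_le_full {N : ℕ} :
    K⟮jv (1 : Kˣ) 1⟯ ≤ modularFunctionFieldFullC K N := by
  rw [adjoin_simple_le_iff]; exact jv_mem_full one_ne_zero (one_dvd N)

/-- `j(q^(dp))` is in any field containing `j(q^d)` and `j(q^(dpr))`. -/
theorem jv_mem_of_mem {p r : ℕ} [hp : Fact p.Prime] [hr : Fact r.Prime] (_hpr : p ≠ r)
    (hpK : (p : K) ≠ 0) (hrK : (r : K) ≠ 0) {d : ℕ} (hd : d ≠ 0)
    {F : IntermediateField K (LaurentSeries K)} (h1 : jv (1 : Kˣ) d ∈ F)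
    (h2 : jv (1 : Kˣ) (d * p * r) ∈ F) : jv (1 : Kˣ) (d * p) ∈ F := by
  obtain ⟨P, hP⟩ := exists_isModPoly (p := p) hpK
  obtain ⟨R, hR⟩ := exists_isModPoly (p := r) hrK
  have hp0 : p ≠ 0 := hp.out.ne_zero
  have hr0 : r ≠ 0 := hr.out.ne_zero
  have hn : p * r ≠ 0 := mul_ne_zero hp0 hr0
  set ι : F →+* LaurentSeries K :=
    (sub (1 : Kˣ) (p * r)).comp (algebraMap F (LaurentSeries K)) with hι
  have e1 : (P.map (evalIn F h1)).map ι = P.map (evalAt (jv (1 : Kˣ) (p * (r * d)))) := by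
    rw [hι, ← Polynomial.map_map, map_evalIn_map, Polynomial.map_map, sub_evalAt 1 hn,
      sub_jv 1 1 hn hd, one_pow, one_mul, mul_assoc]
  have e2 : (R.map (evalIn F h2)).map ι = R.map (evalAt (jv (1 : Kˣ) (r * (p * p * r * d)))) := by
    rw [hι, ← Polynomial.map_map, map_evalIn_map, Polynomial.map_map, sub_evalAt 1 hn,
      sub_jv 1 1 hn (mul_ne_zero (mul_ne_zero hd hp0) hr0), one_pow, one_mul,
      show p * r * (d * p * r) = r * (p * p * r * d) by ring]
  have he : r * d ≠ 0 := mul_ne_zero hr0 hd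
  have he' : p * p * r * d ≠ 0 := mul_ne_zero (mul_ne_zero (mul_ne_zero hp0 hp0) hr0) hd
  have hpp : 2 * 2 ≤ p * p := Nat.mul_le_mul hp.out.two_le hp.out.two_le
  have hrr : 2 * 2 ≤ r * r := Nat.mul_le_mul hr.out.two_le hr.out.two_le
  have hx : sub (1 : Kˣ) (p * r) (jv (1 : Kˣ) (d * p)) ∈ ι.range := by
    rw [sub_jv 1 1 hn (mul_ne_zero hd hp0), one_pow, one_mul,
      show p * r * (d * p) = p * p * r * d by ring]
    refine mem_range_of_common_root ι (f := P.map (evalIn F h1)) (g := R.map (evalIn F h2))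
      (by rw [e1]; exact hP.splits 1 _ he) (by rw [e1]; exact hP.separable 1 _ he)
      (by
        rw [e1, hP.isRoot_iff 1 _ he]
        exact Or.inl (by rw [one_pow, show p * p * (r * d) = p * p * r * d by ring]))
      (by rw [e2, hR.isRoot_iff 1 _ he']; exact Or.inr ⟨1, one_pow _, rfl⟩) ?_
    intro y hy hy'
    rw [e1, hP.isRoot_iff 1 _ he] at hy
    rw [e2, hR.isRoot_iff 1 _ he'] at hy'
    have hpos : 0 < r * d := Nat.pos_of_ne_zero he
    rcases hy with rfl | ⟨η, -, rfl⟩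
    · rw [one_pow, show p * p * (r * d) = p * p * r * d by ring]
    · exfalso
      rcases hy' with h | ⟨η', -, h⟩
      · have := ((jv_inj he (mul_ne_zero (mul_ne_zero hr0 hr0) he')).mp h).2
        have hlt : r * d < r * r * (p * p * r * d) := by
          have : r * d * 1 < r * d * (r * r * (p * p)) :=
            Nat.mul_lt_mul_of_pos_left (by nlinarith) hpos
          nlinarith
        omega
      · have := ((jv_inj he he').mp h).2
        have hlt : r * d < p * p * r * d := by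
          have : r * d * 1 < r * d * (p * p) := Nat.mul_lt_mul_of_pos_left (by omega) hpos
          nlinarith
        omega
  obtain ⟨z, hz⟩ := hx
  rw [← sub_injective (1 : Kˣ) hn hz]
  exact z.2

/-- The field of level `Mp` is that of level `M` with `j(q^(Mp))` adjoined. -/
theorem full_mul_prime {M p : ℕ} [hp : Fact p.Prime] (hMp : ((M * p : ℕ) : K) ≠ 0) :
    modularFunctionFieldFullC K (M * p) =
      modularFunctionFieldFullC K M ⊔ K⟮jv (1 : Kˣ) (M * p)⟯ := by
  have hM : M ≠ 0 := by rintro rfl; simp at hMp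
  set F := modularFunctionFieldFullC K M ⊔ K⟮jv (1 : Kˣ) (M * p)⟯
  refine le_antisymm ?_ (sup_le (full_le_iff.mpr fun d hd0 hd =>
    jv_mem_full hd0 (hd.mul_right p))
    (by rw [adjoin_simple_le_iff]; exact jv_mem_full (mul_ne_zero hM hp.out.ne_zero) dvd_rfl))
  have hpK : (p : K) ≠ 0 := natCast_ne_zero_of_dvd hMp (dvd_mul_left _ _)
  have key : ∀ m d : ℕ, d * m = M → jv (1 : Kˣ) (d * p) ∈ F := by
    intro m
    induction m using Nat.strong_induction_on with
    | _ m ih =>
      intro d hdm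
      rcases eq_or_ne m 1 with rfl | hm1
      · rw [mul_one] at hdm
        subst hdm
        exact (le_sup_right : K⟮jv (1 : Kˣ) (d * p)⟯ ≤ F) (mem_adjoin_simple_self K _)
      obtain ⟨r, hr, m', rfl⟩ := Nat.exists_prime_and_dvd hm1
      have hd0 : d ≠ 0 := by rintro rfl; simp at hdm; exact hM hdm.symm
      rcases eq_or_ne r p with rfl | hrp
      · refine (le_sup_left : modularFunctionFieldFullC K M ≤ F) (jv_mem_full
          (mul_ne_zero hd0 hr.ne_zero) ⟨m', ?_⟩)
        rw [← hdm, mul_assoc]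
      · have : Fact r.Prime := ⟨hr⟩
        have hm' : m' ≠ 0 := by rintro rfl; simp at hdm; exact hM hdm.symm
        have h2 := ih m' (by nlinarith [hr.two_le, Nat.pos_of_ne_zero hm']) (d * r)
          (by rw [← hdm, mul_assoc])
        refine jv_mem_of_mem (p := p) (r := r) hrp.symm hpK ?_ hd0 ?_ ?_
        · exact natCast_ne_zero_of_dvd hMp ⟨d * m' * p, by rw [← hdm]; ring⟩
        · exact (le_sup_left : modularFunctionFieldFullC K M ≤ F)
            (jv_mem_full hd0 ⟨r * m', hdm.symm⟩)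
        · rwa [show d * p * r = d * r * p by ring]
  refine full_le_iff.mpr fun d hd0 hd => ?_
  by_cases hdM : d ∣ M
  · exact (le_sup_left : modularFunctionFieldFullC K M ≤ F) (jv_mem_full hd0 hdM)
  · have hpd : p ∣ d := by
      by_contra h
      exact hdM ((((hp.out.coprime_iff_not_dvd).mpr h).symm).dvd_of_dvd_mul_right hd)
    obtain ⟨d', rfl⟩ := hpd
    rw [mul_comm p d'] at hd ⊢
    obtain ⟨m, hm⟩ := (Nat.mul_dvd_mul_iff_right hp.out.pos).mp hd
    exact key m d' hm.symm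

/-- `j(q^(Mp))` is separable over the field of level `M`, of degree at most `p` if `p ∣ M` and at
most `p + 1` otherwise. -/
theorem isSeparable_and_natDegree_le_jv_mul_prime {M p : ℕ} [hp : Fact p.Prime] (hM : M ≠ 0)
    (hpK : (p : K) ≠ 0) :
    IsSeparable (modularFunctionFieldFullC K M) (jv (1 : Kˣ) (M * p)) ∧
      (minpoly (modularFunctionFieldFullC K M) (jv (1 : Kˣ) (M * p))).natDegree ≤
        if p ∣ M then p else p + 1 := by
  obtain ⟨Φ, hΦ⟩ := exists_isModPoly (p := p) hpK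
  set A := modularFunctionFieldFullC K M
  have hj : jv (1 : Kˣ) M ∈ A := jv_mem_full hM dvd_rfl
  set P : Polynomial A := Φ.map (evalIn A hj) with hP
  have hPmap : P.map (algebraMap A (LaurentSeries K)) = Φ.map (evalAt (jv (1 : Kˣ) M)) := by
    rw [hP, map_evalIn_map]
  have hPmon : P.Monic := hΦ.monic.map _
  have hPdeg : P.natDegree = p + 1 := by rw [hP, hΦ.monic.natDegree_map, hΦ.natDegree_eq]
  have hPsep : P.Separable := by
    rw [← Polynomial.separable_map (algebraMap A (LaurentSeries K)), hPmap]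
    exact isModPoly_separable hΦ hM
  have hroot : aeval (jv (1 : Kˣ) (M * p)) P = 0 := by
    rw [aeval_def, eval₂_eq_eval_map, hPmap]
    exact isModPoly_root_up hΦ hM
  refine ⟨hPsep.of_dvd (minpoly.dvd _ _ hroot), ?_⟩
  split_ifs with hpM
  · obtain ⟨M₀, hM₀⟩ := hpM
    have hM₀0 : M₀ ≠ 0 := by rintro rfl; simp at hM₀; exact hM hM₀
    have hy : jv (1 : Kˣ) M₀ ∈ A := jv_mem_full hM₀0 ⟨p, by rw [hM₀, mul_comm]⟩
    have hyroot : P.IsRoot (⟨_, hy⟩ : A) := by
      refine (algebraMap A (LaurentSeries K)).injective ?_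
      rw [map_zero, ← Polynomial.eval_map_apply, hPmap]
      show (Φ.map (evalAt (jv (1 : Kˣ) M))).eval (jv (1 : Kˣ) M₀) = 0
      rw [hM₀, mul_comm]
      exact isModPoly_root_down hΦ hM₀0
    obtain ⟨Q, hQ⟩ := dvd_iff_isRoot.mpr hyroot
    have hQmon : Q.Monic := (monic_X_sub_C _).of_mul_monic_left (hQ ▸ hPmon)
    have hQdeg : Q.natDegree = p := by
      have := congrArg natDegree hQ
      rw [(monic_X_sub_C _).natDegree_mul hQmon, hPdeg, natDegree_X_sub_C] at this
      omega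
    have hQroot : aeval (jv (1 : Kˣ) (M * p)) Q = 0 := by
      rw [hQ, map_mul, mul_eq_zero] at hroot
      refine hroot.resolve_left ?_
      rw [map_sub, aeval_X, aeval_C, sub_eq_zero]
      intro h
      have := ((jv_inj (mul_ne_zero hM hp.out.ne_zero) hM₀0).mp h).2
      rw [hM₀] at this
      have h2 : 4 * M₀ ≤ p * p * M₀ :=
        Nat.mul_le_mul_right _ (Nat.mul_le_mul hp.out.two_le hp.out.two_le)
      have h3 := Nat.pos_of_ne_zero hM₀0
      have h4 : p * M₀ * p = p * p * M₀ := by ring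
      omega
    exact (natDegree_le_of_dvd (minpoly.dvd _ _ hQroot) hQmon.ne_zero).trans hQdeg.le
  · exact (natDegree_le_of_dvd (minpoly.dvd _ _ hroot) hPmon.ne_zero).trans hPdeg.le

/-- `[X : k(j(q^d))]` does not depend on `d`. -/
theorem relfinrank_adjoin_jv_eq {N : ℕ} {X : IntermediateField K (LaurentSeries K)}
    (hNK : (N : K) ≠ 0) (hX : modularFunctionFieldFullC K N ≤ X) :
    ∀ d : ℕ, d ∣ N → relfinrank K⟮jv (1 : Kˣ) d⟯ X = relfinrank K⟮jv (1 : Kˣ) 1⟯ X := by
  have hN0 : N ≠ 0 := by rintro rfl; simp at hNK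
  intro d
  induction d using Nat.strong_induction_on with
  | _ d ih =>
    intro hd
    rcases eq_or_ne d 1 with rfl | hd1
    · rfl
    obtain ⟨r, hr, d', rfl⟩ := Nat.exists_prime_and_dvd hd1
    have : Fact r.Prime := ⟨hr⟩
    have hd'0 : d' ≠ 0 := by rintro rfl; simp at hd; exact hN0 hd
    have : NeZero d' := ⟨hd'0⟩
    have hd' : d' ∣ N := (dvd_mul_left d' r).trans hd
    rw [← ih d' (by nlinarith [hr.two_le, Nat.pos_of_ne_zero hd'0]) hd']
    have hrK : (r : K) ≠ 0 := natCast_ne_zero_of_dvd hNK ((dvd_mul_right r d').trans hd)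
    have h1 : jv (1 : Kˣ) d' ∈ X := hX (jv_mem_full hd'0 hd')
    have h2 : jv (1 : Kˣ) (r * d') ∈ X := hX (jv_mem_full (mul_ne_zero hr.ne_zero hd'0) hd)
    have e1 := relfinrank_left (K := K) (p := r) hrK
    have e2 := relfinrank_right (K := K) (p := r) hrK
    rw [← relfinrank_map_map _ _ (qExpandAlgHomC K d'), IntermediateField.map_sup,
      adjoin_map, adjoin_map, Set.image_singleton, Set.image_singleton,
      qExpandAlgHomC_jv 1 one_ne_zero, qExpandAlgHomC_jv r hr.ne_zero, mul_one,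
      mul_comm d' r] at e1 e2
    rw [← relfinrank_mul_relfinrank (B := K⟮jv (1 : Kˣ) (r * d')⟯ ⊔ K⟮jv (1 : Kˣ) d'⟯) le_sup_left
        (sup_le (by rwa [adjoin_simple_le_iff]) (by rwa [adjoin_simple_le_iff])),
      ← relfinrank_mul_relfinrank (A := K⟮jv (1 : Kˣ) d'⟯)
        (B := K⟮jv (1 : Kˣ) d'⟯ ⊔ K⟮jv (1 : Kˣ) (r * d')⟯) (C := X) le_sup_left
        (sup_le (by rwa [adjoin_simple_le_iff]) (by rwa [adjoin_simple_le_iff])),
      e1, e2, sup_comm]

/-- Conjugates of `j(q^d)` over `j ↦ j(u^n)` are series `j(η u^m)` with `(n/d) ∣ m`. -/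
theorem exists_conj {Ω : Type*} [Field Ω] (ι : LaurentSeries K →+* Ω)
    (X : IntermediateField K (LaurentSeries K)) (ψ : X →+* Ω)
    (hψC : ∀ a : K, ψ (algebraMap K X a) = ι (HahnSeries.C a)) {n : ℕ} (hn : n ≠ 0)
    (h1 : jv (1 : Kˣ) 1 ∈ X) (hψj : ψ ⟨_, h1⟩ = ι (jv (1 : Kˣ) n)) :
    ∀ d : ℕ, (d : K) ≠ 0 → d ∣ n → (∀ e, e ∣ d → jv (1 : Kˣ) e ∈ X) →
      ∃ (η : Kˣ) (m : ℕ), m ≠ 0 ∧ (n / d) ∣ m ∧
        ∀ h : jv (1 : Kˣ) d ∈ X, ψ ⟨_, h⟩ = ι (jv η m) := by
  intro d
  induction d using Nat.strong_induction_on with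
  | _ d ih =>
    intro hdK hdn hmem
    have hd0 : d ≠ 0 := by rintro rfl; simp at hdK
    rcases eq_or_ne d 1 with rfl | hd1
    · exact ⟨1, n, hn, by rw [Nat.div_one], fun h => hψj⟩
    obtain ⟨r, hr, d', rfl⟩ := Nat.exists_prime_and_dvd hd1
    have : Fact r.Prime := ⟨hr⟩
    have hd'0 : d' ≠ 0 := right_ne_zero_of_mul hd0
    have hrK : (r : K) ≠ 0 := natCast_ne_zero_of_dvd hdK (dvd_mul_right r d')
    obtain ⟨η, m, hm0, hdvd, hψ⟩ := ih d' (by nlinarith [hr.two_le, Nat.pos_of_ne_zero hd'0])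
      (natCast_ne_zero_of_dvd hdK (dvd_mul_left d' r)) ((dvd_mul_left d' r).trans hdn)
      (fun e he => hmem e (he.trans (dvd_mul_left d' r)))
    have hquot : n / d' = r * (n / (r * d')) := by
      obtain ⟨c, rfl⟩ := hdn
      rw [Nat.mul_div_cancel_left _ (Nat.pos_of_ne_zero hd0),
        show r * d' * c = d' * (r * c) by ring, Nat.mul_div_cancel_left _ (Nat.pos_of_ne_zero hd'0)]
    rw [hquot] at hdvd
    obtain ⟨m₀, rfl⟩ := (dvd_mul_right r (n / (r * d'))).trans hdvd
    have hm₀ : m₀ ≠ 0 := right_ne_zero_of_mul hm0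
    have hdvd' : n / (r * d') ∣ m₀ := Nat.dvd_of_mul_dvd_mul_left hr.pos hdvd
    have h' : jv (1 : Kˣ) d' ∈ X := hmem d' (dvd_mul_left d' r)
    have hd : jv (1 : Kˣ) (r * d') ∈ X := hmem _ dvd_rfl
    obtain ⟨Φ, hΦ⟩ := exists_isModPoly (p := r) hrK
    have hev : (Φ.map (evalIn X h')).eval ⟨_, hd⟩ = 0 := by
      refine (algebraMap X (LaurentSeries K)).injective ?_
      rw [map_zero, ← Polynomial.eval_map_apply, map_evalIn_map]
      show (Φ.map (evalAt (jv (1 : Kˣ) d'))).eval (jv (1 : Kˣ) (r * d')) = 0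
      rw [mul_comm]
      exact isModPoly_root_up hΦ hd'0
    have hcomp : ψ.comp (evalIn X h') = ι.comp (evalAt (jv η (r * m₀))) := by
      refine Polynomial.ringHom_ext (fun a => ?_) ?_
      · simp only [RingHom.comp_apply, evalAt_C, ← hψC]
        simp [evalIn]
      · simp only [RingHom.comp_apply, evalAt_X, ← hψ h']
        simp [evalIn]
    have hroot : ((Φ.map (evalAt (jv η (r * m₀)))).map ι).IsRoot (ψ ⟨_, hd⟩) := by
      have := congrArg ψ hev
      rw [map_zero, ← Polynomial.eval_map_apply, Polynomial.map_map, hcomp,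
        ← Polynomial.map_map] at this
      exact this
    have hne : Φ.map (evalAt (jv η (r * m₀))) ≠ 0 := (map_evalAt_monic hΦ _).ne_zero
    have hmemroot : ψ ⟨_, hd⟩ ∈ ((Φ.map (evalAt (jv η (r * m₀)))).map ι).roots :=
      (mem_roots (Polynomial.map_ne_zero hne)).mpr hroot
    rw [(hΦ.splits η m₀ hm₀).roots_map] at hmemroot
    obtain ⟨y, hy, hyeq⟩ := Multiset.mem_map.mp hmemroot
    rw [mem_roots hne, hΦ.isRoot_iff η m₀ hm₀] at hy
    rcases hy with rfl | ⟨η', -, rfl⟩
    · exact ⟨η ^ r, r * r * m₀, mul_ne_zero (mul_ne_zero hr.ne_zero hr.ne_zero) hm₀,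
        dvd_mul_of_dvd_right hdvd' _, fun _ => hyeq.symm⟩
    · exact ⟨η', m₀, hm₀, hdvd', fun _ => hyeq.symm⟩

/-- A map of the field of level `M` that sends `j` to `j(u ^ (pM))` takes values in series in
`u ^ p`. -/
theorem conj_mem_range_qExpand {M p : ℕ} [NeZero p] (hMK : (M : K) ≠ 0) {Ω : Type*} [Field Ω]
    (ι : LaurentSeries K →+* Ω) (ψ : modularFunctionFieldFullC K M →+* Ω)
    (hψC : ∀ a : K, ψ (algebraMap K (modularFunctionFieldFullC K M) a) = ι (HahnSeries.C a))
    (h1mem : jv (1 : Kˣ) 1 ∈ modularFunctionFieldFullC K M)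
    (hψj : ψ ⟨_, h1mem⟩ = ι (jv (1 : Kˣ) (p * M))) (x : LaurentSeries K)
    (hx : x ∈ modularFunctionFieldFullC K M) :
    ψ ⟨x, hx⟩ ∈ RingHom.fieldRange (ι.comp (qExpand K p)) := by
  have hn : p * M ≠ 0 := mul_ne_zero (NeZero.ne p) (by rintro rfl; simp at hMK)
  induction hx using IntermediateField.adjoin_induction with
  | mem y hy =>
    obtain ⟨d, hd, hdM, rfl⟩ := hy
    have := hd
    obtain ⟨η, m, hm0, hdvd, hψd⟩ := exists_conj ι _ ψ hψC hn h1mem hψj d
      (natCast_ne_zero_of_dvd hMK hdM) (hdM.mul_left p)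
      (fun e he => jv_mem_full (ne_zero_of_dvd_ne_zero hd.out he) (he.trans hdM))
    obtain ⟨c, rfl⟩ := hdM
    rw [show p * (d * c) = d * (p * c) by ring, Nat.mul_div_cancel_left _ (NeZero.pos d)] at hdvd
    obtain ⟨m', rfl⟩ := (dvd_mul_right p c).trans hdvd
    have hval := hψd (jv_mem_full hd.out ⟨c, rfl⟩)
    simp only [jv_one_eq_qExpand] at hval
    rw [RingHom.mem_fieldRange]
    refine ⟨jv η m', ?_⟩
    rw [RingHom.comp_apply, hval, ← sub_one_eq p,
      sub_jv 1 η (NeZero.ne p) (right_ne_zero_of_mul hm0), one_pow, mul_one]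
  | algebraMap a =>
    rw [RingHom.mem_fieldRange]
    refine ⟨HahnSeries.C a, ?_⟩
    rw [RingHom.comp_apply, qExpand_C, ← hψC]
    rfl
  | add y z hy hz ihy ihz =>
    have := add_mem ihy ihz
    rwa [← map_add ψ] at this
  | inv y hy ihy =>
    have := inv_mem ihy
    rwa [← map_inv₀ ψ] at this
  | mul y z hy hz ihy ihz =>
    have := mul_mem ihy ihz
    rwa [← map_mul ψ] at this

/-- For `p ∤ M`, `j(q^p)` is not in the field of level `M`. -/
theorem jv_prime_not_mem {M p : ℕ} [hp : Fact p.Prime] (hpM : ¬ p ∣ M) (hMK : (M : K) ≠ 0)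
    (hpK : (p : K) ≠ 0)
    (hfin : relfinrank K⟮jv (1 : Kˣ) 1⟯ (modularFunctionFieldFullC K M) ≠ 0) :
    jv (1 : Kˣ) p ∉ modularFunctionFieldFullC K M := by
  classical
  intro hmem
  have hM : M ≠ 0 := by rintro rfl; simp at hMK
  have hn : p * M ≠ 0 := mul_ne_zero hp.out.ne_zero hM
  have : NeZero (p * M) := ⟨hn⟩
  have : NeZero p := ⟨hp.out.ne_zero⟩
  set F₀ := K⟮jv (1 : Kˣ) 1⟯ with hF₀
  have hle : F₀ ≤ modularFunctionFieldFullC K M := adjoin_j_le_full
  let E := extendScalars hle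
  have : FiniteDimensional F₀ E := FiniteDimensional.of_finrank_pos
    (Nat.pos_of_ne_zero (by rwa [relfinrank_eq_finrank_of_le hle] at hfin))
  -- stated here because its synthesis is slow
  have : Algebra.IsAlgebraic F₀ E := Algebra.IsAlgebraic.of_finite F₀ E
  let Ω := AlgebraicClosure (LaurentSeries K)
  let ι : LaurentSeries K →+* Ω := algebraMap (LaurentSeries K) Ω
  let algΩ : Algebra F₀ Ω :=
    ((ι.comp (qExpand K (p * M))).comp (algebraMap F₀ (LaurentSeries K))).toAlgebra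
  have halg : ∀ x : F₀, algebraMap F₀ Ω x = ι (qExpand K (p * M) (x : LaurentSeries K)) :=
    fun x => rfl
  obtain ⟨Φ, hΦ⟩ := exists_isModPoly (p := p) hpK
  have hj1 : jv (1 : Kˣ) 1 ∈ F₀ := mem_adjoin_simple_self K _
  set P : Polynomial F₀ := Φ.map (evalIn F₀ hj1) with hP
  let xE : E := ⟨jv (1 : Kˣ) p, hmem⟩
  have hintE : IsIntegral F₀ xE := IsIntegral.of_finite F₀ xE
  have hmineq : minpoly F₀ xE = minpoly F₀ (jv (1 : Kˣ) p) :=
    (minpoly.algHom_eq E.val Subtype.val_injective xE).symm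
  have hintp : IsIntegral F₀ (jv (1 : Kˣ) p) :=
    (isIntegral_algHom_iff E.val Subtype.val_injective).mpr hintE
  have hPmin : P = minpoly F₀ (jv (1 : Kˣ) p) := by
    have hroot : aeval (jv (1 : Kˣ) p) P = 0 := by
      rw [aeval_def, eval₂_eq_eval_map, hP, map_evalIn_map]
      simpa using isModPoly_root_up hΦ one_ne_zero
    have hPdeg : P.natDegree = p + 1 := by rw [hP, hΦ.monic.natDegree_map, hΦ.natDegree_eq]
    refine Polynomial.eq_of_monic_of_dvd_of_natDegree_le (minpoly.monic hintp) (hΦ.monic.map _)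
      (minpoly.dvd _ _ hroot) ?_
    rw [← relfinrank_adjoin_simple F₀ hintp]
    exact hPdeg.le.trans (relfinrank_left hpK).ge
  have hy : ι (jv (1 : Kˣ) M) ∈ (minpoly F₀ xE).rootSet Ω := by
    rw [hmineq, ← hPmin, Polynomial.mem_rootSet]
    refine ⟨(hΦ.monic.map _).ne_zero, ?_⟩
    have hcomp : (algebraMap F₀ Ω).comp (evalIn F₀ hj1) =
      ι.comp (evalAt (jv (1 : Kˣ) (p * M))) := by
      refine RingHom.ext fun Q => ?_
      rw [RingHom.comp_apply, RingHom.comp_apply, halg]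
      congr 1
      have h1 : ((evalIn F₀ hj1 Q : F₀) : LaurentSeries K) = evalAt (jv (1 : Kˣ) 1) Q :=
        RingHom.congr_fun (algebraMap_comp_evalIn F₀ hj1) Q
      rw [h1, ← sub_one_eq (p * M), ← RingHom.comp_apply, sub_evalAt 1 hn,
        sub_jv 1 1 hn one_ne_zero, one_pow, one_mul, mul_one]
    rw [hP, aeval_def, eval₂_eq_eval_map, Polynomial.map_map, hcomp, ← Polynomial.map_map,
      Polynomial.eval_map_apply, show (Φ.map (evalAt (jv (1 : Kˣ) (p * M)))).eval (jv 1 M) = 0 from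
        (hΦ.isRoot_iff 1 M hM _).mpr (Or.inr ⟨1, one_pow _, rfl⟩), map_zero]
  rw [← Algebra.IsAlgebraic.range_eval_eq_rootSet_minpoly (F := F₀) (K := E) Ω xE] at hy
  obtain ⟨φ, hφ⟩ := hy
  let ψ : modularFunctionFieldFullC K M →+* Ω :=
    φ.toRingHom.comp
      { toFun := fun x => (⟨x.1, x.2⟩ : E)
        map_one' := rfl
        map_mul' := fun _ _ => rfl
        map_zero' := rfl
        map_add' := fun _ _ => rfl }
  have hψbase : ∀ (x : F₀) (h : (x : LaurentSeries K) ∈ modularFunctionFieldFullC K M),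
      ψ ⟨x, h⟩ = ι (qExpand K (p * M) (x : LaurentSeries K)) := fun x h => by
    rw [← halg]
    exact φ.commutes x
  have hψC : ∀ a : K, ψ (algebraMap K (modularFunctionFieldFullC K M) a) = ι (HahnSeries.C a) := by
    intro a
    have h := hψbase (algebraMap K F₀ a)
      ((algebraMap K (modularFunctionFieldFullC K M) a).2)
    have hval : qExpand K (p * M) ((algebraMap K F₀ a : F₀) : LaurentSeries K) =
      HahnSeries.C a := by
      show qExpand K (p * M) (algebraMap K (LaurentSeries K) a) = _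
      rw [algebraMap_laurentSeries_eq_single, ← HahnSeries.C_apply, qExpand_C]
    exact h.trans (congrArg ι hval)
  have h1mem : jv (1 : Kˣ) 1 ∈ modularFunctionFieldFullC K M := jv_mem_full one_ne_zero (one_dvd M)
  have hψj : ψ ⟨_, h1mem⟩ = ι (jv (1 : Kˣ) (p * M)) := by
    rw [hψbase ⟨_, hj1⟩ h1mem]
    show ι (qExpand K (p * M) (jv (1 : Kˣ) 1)) = _
    rw [jv_one_one, ← jv_one_eq_qExpand]
  obtain ⟨w, hw⟩ := RingHom.mem_fieldRange.mp
    (conj_mem_range_qExpand hMK ι ψ hψC h1mem hψj _ hmem)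
  have hψp : ψ ⟨_, hmem⟩ = ι (jv (1 : Kˣ) M) := hφ
  rw [RingHom.comp_apply, hψp] at hw
  have h2 := congrArg (fun f : LaurentSeries K => f.coeff (-(M : ℤ))) (ι.injective hw)
  simp only [jv_coeff_neg (1 : Kˣ) hM, inv_one, Units.val_one] at h2
  rw [qExpand_coeff_of_not_dvd p _ (by rw [dvd_neg]; exact_mod_cast hpM)] at h2
  exact zero_ne_one h2

/-- **Igusa**: `[k(j(q^d) : d ∣ N) : k(j)] = ψ(N)` if `N` is invertible in `k`. -/
theorem relfinrank_full : ∀ N : ℕ, (N : K) ≠ 0 →
    relfinrank K⟮jv (1 : Kˣ) 1⟯ (modularFunctionFieldFullC K N) = psi N := by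
  intro N
  induction N using Nat.strong_induction_on with
  | _ N ih =>
    intro hNK
    have hN0 : N ≠ 0 := by rintro rfl; simp at hNK
    rcases eq_or_ne N 1 with rfl | hN1
    · rw [full_one, relfinrank_self, psi_one]
    obtain ⟨p, hp, M, rfl⟩ := Nat.exists_prime_and_dvd hN1
    rw [mul_comm] at hNK hN0 ⊢
    have : Fact p.Prime := ⟨hp⟩
    have : NeZero p := ⟨hp.ne_zero⟩
    have hM0 : M ≠ 0 := left_ne_zero_of_mul hN0
    have hMK : (M : K) ≠ 0 := natCast_ne_zero_of_dvd hNK (dvd_mul_right M p)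
    have hpK : (p : K) ≠ 0 := natCast_ne_zero_of_dvd hNK (dvd_mul_left p M)
    have ihM := ih M (by nlinarith [hp.two_le, Nat.pos_of_ne_zero hM0]) hMK
    rw [psi_mul_prime hM0 hp]
    set c := if p ∣ M then p else p + 1 with hc
    set X := modularFunctionFieldFullC K (M * p) with hX
    set A := modularFunctionFieldFullC K M with hA
    have hAX : A ≤ X := full_le_iff.mpr fun _ hd0 hd => jv_mem_full hd0 (hd.mul_right p)
    obtain ⟨hsep, hdeg⟩ :=
      isSeparable_and_natDegree_le_jv_mul_prime (K := K) (p := p) hM0 hpK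
    have ht : relfinrank A X = (minpoly A (jv (1 : Kˣ) (M * p))).natDegree := by
      rw [hX, full_mul_prime hNK, hA, relfinrank_adjoin_simple _ hsep.isIntegral]
    have htpos : 0 < relfinrank A X := ht ▸ minpoly.natDegree_pos hsep.isIntegral
    rw [← relfinrank_mul_relfinrank adjoin_j_le_full hAX, ihM]
    congr 1
    set E := A.map (qExpandAlgHomC K p) with hE
    have hEX : E ≤ X := by
      rw [hE, IntermediateField.map_le_iff_le_comap]
      refine full_le_iff.mpr fun d hd0 hd => ?_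
      show qExpandAlgHomC K p (jv (1 : Kˣ) d) ∈ X
      rw [qExpandAlgHomC_jv d hd0, mul_comm]
      exact jv_mem_full (mul_ne_zero hd0 hp.ne_zero) (Nat.mul_dvd_mul_right hd p)
    have hjE : jv (1 : Kˣ) p ∈ E :=
      ⟨jv (1 : Kˣ) 1, jv_mem_full one_ne_zero (one_dvd M), by
        show qExpandAlgHomC K p (jv (1 : Kˣ) 1) = _
        rw [qExpandAlgHomC_jv 1 one_ne_zero, mul_one]⟩
    have hER : E ≤ (qExpandAlgHomC K p).fieldRange := fun x hx => by
      obtain ⟨y, -, rfl⟩ := hx
      exact ⟨y, rfl⟩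
    obtain ⟨hint, hge, heq⟩ := natDegree_minpoly_jv hpK E hjE hER
    have hs : c ≤ (minpoly E (jv (1 : Kˣ) 1)).natDegree := by
      rw [hc]
      split_ifs with hpM
      · exact hge
      · refine (heq fun hmem => ?_).ge
        obtain ⟨y, hy, hy'⟩ := hmem
        refine jv_prime_not_mem hpM hMK hpK (by rw [ihM]; exact (psi_pos M).ne') ?_
        have : y = jv (1 : Kˣ) p := qExpand_injective p (hy'.trans (by
          rw [← sub_one_eq p, sub_jv 1 1 hp.ne_zero hp.ne_zero, one_pow, one_mul]))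
        rwa [← this]
    have hMp : jv (1 : Kˣ) (M * p) ∈ E := ⟨jv (1 : Kˣ) M, jv_mem_full hM0 dvd_rfl, by
      show qExpandAlgHomC K p (jv (1 : Kˣ) M) = _
      rw [qExpandAlgHomC_jv M hM0, mul_comm]⟩
    have hbase : relfinrank K⟮jv (1 : Kˣ) (M * p)⟯ E = psi M := by
      have h := relfinrank_map_map K⟮jv (1 : Kˣ) M⟯ A (qExpandAlgHomC K p)
      rw [adjoin_map, Set.image_singleton, qExpandAlgHomC_jv M hM0, mul_comm p M] at h
      rw [h, relfinrank_adjoin_jv_eq hMK le_rfl M dvd_rfl, ihM]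
    have hmain : relfinrank A X = relfinrank E X := by
      refine Nat.eq_of_mul_eq_mul_left (psi_pos M) ?_
      rw [← ihM, relfinrank_mul_relfinrank adjoin_j_le_full hAX,
        ← relfinrank_adjoin_jv_eq hNK le_rfl (M * p) dvd_rfl, ihM, ← hbase,
        relfinrank_mul_relfinrank (by rwa [adjoin_simple_le_iff]) hEX]
    have hsr := relfinrank_mul_relfinrank (le_sup_left : E ≤ E ⊔ K⟮jv (1 : Kˣ) 1⟯)
      (sup_le hEX (adjoin_j_le_full : K⟮jv (1 : Kˣ) 1⟯ ≤ X))
    rw [relfinrank_adjoin_simple E hint, ← hmain] at hsr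
    have hupper : relfinrank A X ≤ c := ht ▸ hdeg
    refine le_antisymm hupper ?_
    rcases Nat.eq_zero_or_pos (relfinrank (E ⊔ K⟮jv (1 : Kˣ) 1⟯) X) with h0 | h0
    · rw [h0, mul_zero] at hsr; omega
    · exact hs.trans (hsr ▸ Nat.le_mul_of_pos_right _ h0)

end

end Fermat.Agent.Igusa
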