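import Mathlib.Algebra.Field.ZMod
import Mathlib.FieldTheory.IsAlgClosed.AlgebraicClosure
import Mathlib.LinearAlgebra.Dual.Lemmas
import Mathlib.NumberTheory.Padics.PadicVal.Basic
import Fermat.Prelude.Def_ModularCurve_IgusaScheme
import Fermat.Agent.Igusa.Degree

/-!
# Integral series spanning `ℚ(j(q^d) : d ∣ N)` over `ℚ(j)` and independent mod `ℓ`

Such a basis presents every function of level `N` by integral series, and so controls reduction
modulo `ℓ ∤ N` of the chart rings of the Igusa model.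
-/

noncomputable section

open Function Polynomial IntermediateField ModularCurve

namespace Fermat.Agent.Igusa

section Base

variable (ℓ : ℕ) [hℓ : Fact ℓ.Prime]

theorem den_ne_zero_zmod (q : ↥(GaloisRep.ratLocalizedAt ℓ)) :
    (((q : ℚ).den : ℕ) : ZMod ℓ) ≠ 0 := by
  rw [Ne, ZMod.natCast_eq_zero_iff]
  intro h
  exact hℓ.out.ne_one (Nat.eq_one_of_dvd_one (q.2.gcd_eq_one ▸ Nat.dvd_gcd h dvd_rfl))

/-- `ℤ₍ℓ₎ → 𝔽_ℓ`. -/
def redZ : ↥(GaloisRep.ratLocalizedAt ℓ) →+* ZMod ℓ where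
  toFun q := ((q : ℚ) : ZMod ℓ)
  map_one' := by simp
  map_zero' := by simp
  map_add' q r := by
    push_cast
    exact Rat.cast_add_of_ne_zero (den_ne_zero_zmod ℓ q) (den_ne_zero_zmod ℓ r)
  map_mul' q r := by
    push_cast
    exact Rat.cast_mul_of_ne_zero (den_ne_zero_zmod ℓ q) (den_ne_zero_zmod ℓ r)

/-- `ℓ` reduces to zero. -/
theorem redZ_natCast_self : redZ ℓ (ℓ : ↥(GaloisRep.ratLocalizedAt ℓ)) = 0 := by
  rw [map_natCast, ZMod.natCast_self]

/-- The kernel of reduction on `ℤ₍ℓ₎` is generated by `ℓ`. -/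
theorem exists_eq_mul_of_redZ_eq_zero (q : ↥(GaloisRep.ratLocalizedAt ℓ)) (h : redZ ℓ q = 0) :
    ∃ r : ↥(GaloisRep.ratLocalizedAt ℓ), q = (ℓ : ↥(GaloisRep.ratLocalizedAt ℓ)) * r := by
  have h' : ((q : ℚ).num : ZMod ℓ) = 0 := by
    have h2 : ((q : ℚ).num : ZMod ℓ) / ((q : ℚ).den : ZMod ℓ) = 0 := by
      rw [← Rat.cast_def]; exact h
    rwa [div_eq_zero_iff, or_iff_left (den_ne_zero_zmod ℓ q)] at h2
  obtain ⟨a, ha⟩ := (ZMod.intCast_zmod_eq_zero_iff_dvd _ _).mp h'
  have hmem : ((a : ℚ) / (q : ℚ).den) ∈ GaloisRep.ratLocalizedAt ℓ := by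
    show Nat.Coprime _ ℓ
    refine Nat.Coprime.coprime_dvd_left ?_ q.2
    have h3 := Rat.den_dvd a ((q : ℚ).den : ℤ)
    rw [show Rat.divInt a ((q : ℚ).den : ℤ) = (a : ℚ) / (q : ℚ).den from by
      rw [Rat.divInt_eq_div]; norm_cast] at h3
    exact_mod_cast h3
  refine ⟨⟨_, hmem⟩, Subtype.ext ?_⟩
  show (q : ℚ) = ((ℓ : ↥(GaloisRep.ratLocalizedAt ℓ)) : ℚ) * ((a : ℚ) / (q : ℚ).den)
  push_cast
  conv_lhs => rw [← Rat.num_div_den (q : ℚ), ha]
  push_cast
  ring

theorem natCast_self_ne_zero : (ℓ : ↥(GaloisRep.ratLocalizedAt ℓ)) ≠ 0 := fun h =>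
  hℓ.out.ne_zero (by exact_mod_cast congrArg Subtype.val h)

/-- `ℓ` is a prime of `ℤ₍ℓ₎`. -/
theorem prime_natCast_self : Prime (ℓ : ↥(GaloisRep.ratLocalizedAt ℓ)) := by
  refine ⟨natCast_self_ne_zero ℓ, fun hu => ?_, fun a b h => ?_⟩
  · have := hu.map (redZ ℓ)
    rw [redZ_natCast_self] at this
    exact not_isUnit_zero this
  · have h0 : redZ ℓ a * redZ ℓ b = 0 := by
      obtain ⟨c, hc⟩ := h
      rw [← map_mul, hc, map_mul, redZ_natCast_self, zero_mul]
    rcases mul_eq_zero.mp h0 with h1 | h1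
    · obtain ⟨r, hr⟩ := exists_eq_mul_of_redZ_eq_zero ℓ a h1; exact Or.inl ⟨r, hr⟩
    · obtain ⟨r, hr⟩ := exists_eq_mul_of_redZ_eq_zero ℓ b h1; exact Or.inr ⟨r, hr⟩

/-- `ℤ₍ℓ₎` is integrally closed. -/
theorem isIntegrallyClosed_ratLocalizedAt : IsIntegrallyClosed ↥(GaloisRep.ratLocalizedAt ℓ) := by
  have hmem : ∀ q : ℚ, q ∈ GaloisRep.ratLocalizedAt ℓ ∨ q⁻¹ ∈ GaloisRep.ratLocalizedAt ℓ := by
    intro q
    rcases eq_or_ne q 0 with rfl | hq
    · exact Or.inl (zero_mem _)
    by_cases h : ℓ ∣ q.den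
    · refine Or.inr ?_
      show (q⁻¹).den.Coprime ℓ
      rw [Nat.coprime_comm, hℓ.out.coprime_iff_not_dvd, Rat.den_inv, if_neg (by simpa using hq)]
      intro h'
      exact hℓ.out.ne_one (Nat.eq_one_of_dvd_one (q.reduced.gcd_eq_one ▸ Nat.dvd_gcd h' h))
    · exact Or.inl (by
        show q.den.Coprime ℓ
        rwa [Nat.coprime_comm, hℓ.out.coprime_iff_not_dvd])
  let V : ValuationSubring ℚ := { GaloisRep.ratLocalizedAt ℓ with mem_or_inv_mem' := hmem }
  exact IsIntegrallyClosed.of_equiv (R := V)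
    { toFun := fun x => ⟨x.1, x.2⟩
      invFun := fun x => ⟨x.1, x.2⟩
      left_inv := fun _ => rfl
      right_inv := fun _ => rfl
      map_mul' := fun _ _ => rfl
      map_add' := fun _ _ => rfl }

/-- A map of `ℤ₍ℓ₎` to a field of characteristic `ℓ` factors through reduction. -/
theorem algebraMap_eq_cast_redZ {K : Type*} [Field K] [CharP K ℓ]
    [Algebra ↥(GaloisRep.ratLocalizedAt ℓ) K] (q : ↥(GaloisRep.ratLocalizedAt ℓ)) :
    algebraMap ↥(GaloisRep.ratLocalizedAt ℓ) K q = ZMod.castHom dvd_rfl K (redZ ℓ q) := by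
  set f := algebraMap ↥(GaloisRep.ratLocalizedAt ℓ) K
  set g : ↥(GaloisRep.ratLocalizedAt ℓ) →+* K := (ZMod.castHom dvd_rfl K).comp (redZ ℓ)
  have hq : q * ((q : ℚ).den : ↥(GaloisRep.ratLocalizedAt ℓ)) =
      ((q : ℚ).num : ↥(GaloisRep.ratLocalizedAt ℓ)) := by
    refine Subtype.ext ?_
    push_cast
    exact Rat.mul_den_eq_num _
  have hd : (((q : ℚ).den : ℕ) : K) ≠ 0 := by
    rw [Ne, CharP.cast_eq_zero_iff K ℓ]
    intro h
    exact den_ne_zero_zmod ℓ q ((ZMod.natCast_eq_zero_iff _ _).mpr h)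
  refine mul_right_cancel₀ hd ?_
  show f q * _ = g q * _
  rw [← map_natCast f, ← map_mul, hq, map_natCast f, map_intCast, ← map_natCast g, ← map_mul, hq,
    map_intCast]

/-- A series with zero reduction is a multiple of `ℓ`. -/
theorem exists_eq_mul_series {f : LaurentSeries ↥(GaloisRep.ratLocalizedAt ℓ)}
    (h : coeffMap (redZ ℓ) f = 0) :
    ∃ g, f = HahnSeries.C (ℓ : ↥(GaloisRep.ratLocalizedAt ℓ)) * g := by
  have hc : ∀ n, redZ ℓ (f.coeff n) = 0 := fun n => by
    simpa using congrArg (fun z : LaurentSeries (ZMod ℓ) => z.coeff n) h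
  choose g hg using fun n => exists_eq_mul_of_redZ_eq_zero ℓ _ (hc n)
  refine ⟨⟨g, f.isPWO_support.mono fun n hn h0 => hn ?_⟩, ?_⟩
  · rw [hg n] at h0
    exact (mul_eq_zero.mp h0).resolve_left (natCast_self_ne_zero ℓ)
  · ext n
    rw [HahnSeries.C_mul_eq_smul, HahnSeries.coeff_smul, smul_eq_mul]
    exact congrArg Subtype.val (hg n)

/-- A polynomial with zero reduction is a multiple of `ℓ`. -/
theorem exists_eq_mul_poly {P : Polynomial ↥(GaloisRep.ratLocalizedAt ℓ)} (h : P.map (redZ ℓ) = 0) :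
    ∃ Q, P = Polynomial.C (ℓ : ↥(GaloisRep.ratLocalizedAt ℓ)) * Q := by
  show Polynomial.C (ℓ : ↥(GaloisRep.ratLocalizedAt ℓ)) ∣ P
  rw [Polynomial.C_dvd_iff_dvd_coeff]
  intro i
  have hi : redZ ℓ (P.coeff i) = 0 := by rw [← Polynomial.coeff_map, h, Polynomial.coeff_zero]
  obtain ⟨r, hr⟩ := exists_eq_mul_of_redZ_eq_zero ℓ _ hi
  exact ⟨r, hr⟩

/-- Induction on the power of `ℓ` dividing a nonzero polynomial over `ℤ₍ℓ₎`. -/
theorem polynomial_induction {motive : Polynomial ↥(GaloisRep.ratLocalizedAt ℓ) → Prop}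
    (hred : ∀ r, r.map (redZ ℓ) ≠ 0 → motive r)
    (hstep : ∀ r, r ≠ 0 → motive r → motive (Polynomial.C (ℓ : ↥(GaloisRep.ratLocalizedAt ℓ)) * r))
    (r : Polynomial ↥(GaloisRep.ratLocalizedAt ℓ)) (hr : r ≠ 0) : motive r := by
  have key : ∀ (n : ℕ) (r : Polynomial ↥(GaloisRep.ratLocalizedAt ℓ)), r ≠ 0 →
      (∃ i, r.coeff i ≠ 0 ∧ padicValRat ℓ (r.coeff i : ℚ) ≤ n) → motive r := by
    intro n
    induction n using Nat.strong_induction_on with
    | _ n ih =>
      intro r hr ⟨i, hi, hv⟩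
      by_cases h : r.map (redZ ℓ) = 0
      · obtain ⟨r', rfl⟩ := exists_eq_mul_poly ℓ h
        have hr' : r' ≠ 0 := right_ne_zero_of_mul hr
        rw [Polynomial.coeff_C_mul] at hi hv
        have hi' : r'.coeff i ≠ 0 := right_ne_zero_of_mul hi
        have hq : ((r'.coeff i : ↥(GaloisRep.ratLocalizedAt ℓ)) : ℚ) ≠ 0 :=
          fun h => hi' (Subtype.ext h)
        push_cast at hv
        rw [padicValRat.mul (by exact_mod_cast hℓ.out.ne_zero) hq,
          padicValRat.self hℓ.out.one_lt] at hv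
        have hnn : 0 ≤ padicValRat ℓ ((r'.coeff i : ↥(GaloisRep.ratLocalizedAt ℓ)) : ℚ) := by
          rw [padicValRat_def, padicValNat.eq_zero_of_not_dvd
            (hℓ.out.coprime_iff_not_dvd.mp (Nat.Coprime.symm (r'.coeff i).2))]
          simp
        exact hstep r' hr' (ih (n - 1) (by omega) r' hr' ⟨i, hi', by omega⟩)
      · exact hred r h
  refine key (padicValRat ℓ (r.leadingCoeff : ℚ)).toNat r hr
    ⟨r.natDegree, leadingCoeff_ne_zero.mpr hr, ?_⟩
  rw [Polynomial.coeff_natDegree]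
  exact Int.self_le_toNat _

end Base

section Monomials

variable (N : ℕ) [NeZero N]

/-- Products of the `j(q^d)`, `d ∣ N`, over `ℤ`. -/
def monos : Submonoid (LaurentSeries ℤ) :=
  Submonoid.closure {x | ∃ d : ℕ, d ≠ 0 ∧ d ∣ N ∧ x = jv (1 : ℤˣ) d}

omit [NeZero N] in
/-- The reduced monomials lie in the function field of level `N`. -/
theorem coeffMap_monos_mem (K : Type*) [Field K] {x : LaurentSeries ℤ} (hx : x ∈ monos N) :
    coeffMap (Int.castRingHom K) x ∈ modularFunctionFieldFullC K N := by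
  induction hx using Submonoid.closure_induction with
  | mem y hy =>
    obtain ⟨d, hd0, hd, rfl⟩ := hy
    rw [coeffMap_jv _ _ hd0, map_one]
    exact jv_mem_full hd0 hd
  | one => rw [map_one]; exact one_mem _
  | mul a b _ _ ha hb => rw [map_mul]; exact mul_mem ha hb

/-- `evalAt j` over a field lands in `k(j)`. -/
def evalBase (K : Type*) [Field K] :
    Polynomial K →+* K⟮jv (1 : Kˣ) 1⟯ :=
  evalIn _ (mem_adjoin_simple_self K _)

theorem coe_evalBase {K : Type*} [Field K] (P : Polynomial K) :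
    ((evalBase K P : K⟮jv (1 : Kˣ) 1⟯) : LaurentSeries K) = evalAt (jv (1 : Kˣ) 1) P :=
  RingHom.congr_fun (algebraMap_comp_evalIn _ (mem_adjoin_simple_self K _)) P

variable {K : Type*} [Field K] [IsAlgClosed K]

omit [NeZero N] in
/-- Among the monomials in the `j(q^d)`, `d ∣ N`, there are `ψ(N)` independent over `k[j]`. -/
theorem exists_monos_indep (hN : (N : K) ≠ 0) :
    ∃ e : Fin (psi N) → LaurentSeries ℤ, (∀ i, e i ∈ monos N) ∧
      ∀ P : Fin (psi N) → Polynomial K,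
        ∑ i, evalAt (jv (1 : Kˣ) 1) (P i) * coeffMap (Int.castRingHom K) (e i) = 0 → P = 0 := by
  classical
  set F₀ := K⟮jv (1 : Kˣ) 1⟯
  set E := extendScalars (adjoin_j_le_full : F₀ ≤ modularFunctionFieldFullC K N)
  set S : Set (LaurentSeries K) := {x | ∃ d : ℕ, d ≠ 0 ∧ d ∣ N ∧ x = jv (1 : Kˣ) d}
  have hE : E = IntermediateField.adjoin F₀ S := by
    refine le_antisymm ?_ ?_
    · show (E.restrictScalars K : IntermediateField K (LaurentSeries K))
        ≤ (IntermediateField.adjoin F₀ S).restrictScalars K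
      rw [extendScalars_restrictScalars, full_le_iff]
      intro d hd0 hd
      rw [IntermediateField.mem_restrictScalars]
      exact IntermediateField.subset_adjoin _ _ ⟨d, hd0, hd, rfl⟩
    · rw [IntermediateField.adjoin_le_iff]
      rintro x ⟨d, hd0, hd, rfl⟩
      exact jv_mem_full hd0 hd
  have hfin : Module.finrank F₀ E = psi N := by
    rw [← relfinrank_eq_finrank_of_le, relfinrank_full N hN]
  have : FiniteDimensional F₀ E := FiniteDimensional.of_finrank_pos (hfin ▸ psi_pos N)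
  have halg : ∀ x ∈ S, IsAlgebraic F₀ x := by
    intro x hx
    have hxE : x ∈ E := hE ▸ IntermediateField.subset_adjoin _ _ hx
    exact ((IsIntegral.of_finite F₀ (⟨x, hxE⟩ : E)).map E.val).isAlgebraic
  set T : Set (LaurentSeries K) := coeffMap (Int.castRingHom K) '' (monos N : Set (LaurentSeries ℤ))
  have hT : T = (Submonoid.closure S : Set (LaurentSeries K)) := by
    show _ = _
    rw [show T = ((monos N).map (coeffMap (Int.castRingHom K)).toMonoidHom : Set (LaurentSeries K))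
      from rfl, monos, MonoidHom.map_mclosure]
    congr 2
    ext x
    constructor
    · rintro ⟨_, ⟨d, hd0, hd, rfl⟩, rfl⟩
      exact ⟨d, hd0, hd, by
        show coeffMap _ _ = _
        rw [coeffMap_jv _ _ hd0, map_one]⟩
    · rintro ⟨d, hd0, hd, rfl⟩
      exact ⟨_, ⟨d, hd0, hd, rfl⟩, by
        show coeffMap _ _ = _
        rw [coeffMap_jv _ _ hd0, map_one]⟩
  have hspan : Submodule.span F₀ T = Subalgebra.toSubmodule E.toSubalgebra := by
    rw [hT, ← Algebra.adjoin_eq_span, hE, adjoin_toSubalgebra_of_isAlgebraic halg]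
  have : Module.Finite F₀ (Submodule.span F₀ T) := by
    rw [hspan]; exact inferInstanceAs (Module.Finite F₀ E)
  have hrank : Module.finrank F₀ (Submodule.span F₀ T) = psi N := by
    rw [hspan, ← hfin]; rfl
  obtain ⟨f, hf, -, hli⟩ := Submodule.exists_fun_fin_finrank_span_eq F₀ T
  choose e he hfe using fun i => hf i
  refine ⟨fun i => e (Fin.cast hrank.symm i), fun i => he _, fun P hP => ?_⟩
  have hli' : LinearIndependent F₀ (fun i => f (Fin.cast hrank.symm i)) :=
    hli.comp _ (Fin.cast_injective _)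
  have := Fintype.linearIndependent_iff.mp hli' (fun i => evalBase K (P i)) (by
    rw [← hP]
    refine Finset.sum_congr rfl fun i _ => ?_
    rw [IntermediateField.smul_def, smul_eq_mul, coe_evalBase, hfe])
  funext i
  have h0 := congrArg Subtype.val (this i)
  rw [coe_evalBase] at h0
  exact evalAt_jv_injective one_ne_zero (h0.trans (map_zero _).symm)

end Monomials

section Upper

/-- Coefficientwise application of a `ℚ`-linear functional. -/
def coeffLin {L : Type*} [Field L] [Algebra ℚ L] (lam : L →ₗ[ℚ] ℚ) :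
    LaurentSeries L →+ LaurentSeries ℚ where
  toFun f := f.map lam
  map_zero' := by ext n; simp
  map_add' f g := by ext n; simp

theorem coeffLin_mul {L : Type*} [Field L] [Algebra ℚ L] (lam : L →ₗ[ℚ] ℚ) (a : L)
    (y : LaurentSeries ℚ) :
    coeffLin lam (HahnSeries.C a * coeffEmb L y) = HahnSeries.C (lam a) * y := by
  ext n
  show lam ((HahnSeries.C a * coeffEmb L y).coeff n) = _
  rw [HahnSeries.C_mul_eq_smul, HahnSeries.coeff_smul, coeffEmb_coeff, smul_eq_mul,
    HahnSeries.C_mul_eq_smul, HahnSeries.coeff_smul, smul_eq_mul, mul_comm a,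
    ← Algebra.smul_def, map_smul, smul_eq_mul, mul_comm]

/-- Any `ψ(N) + 1` functions of level `N` are dependent over `ℤ[j]`. -/
theorem exists_relation (N : ℕ) [NeZero N] (y : Fin (psi N + 1) → LaurentSeries ℚ)
    (hy : ∀ i, y i ∈ modularFunctionFieldFull N) :
    ∃ P : Fin (psi N + 1) → Polynomial ℤ, P ≠ 0 ∧
      ∑ i, evalAt (jv (1 : ℚˣ) 1) ((P i).map (Int.castRingHom ℚ)) * y i = 0 := by
  classical
  let L := AlgebraicClosure ℚ
  set F₀ := L⟮jv (1 : Lˣ) 1⟯
  have hemb : ∀ x ∈ modularFunctionFieldFull N,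
      coeffEmb L x ∈ modularFunctionFieldFullC L N := by
    intro x hx
    induction hx using IntermediateField.adjoin_induction with
    | mem z hz =>
      obtain ⟨d, hd, hdN, rfl⟩ := hz
      have := hd
      rw [coeffEmb, coeffMap_qExpand, ← jqModC_rat, coeffMap_jqModC]
      exact jqModCd_mem_full L N hdN
    | algebraMap a =>
      rw [algebraMap_laurentSeries_eq_single, coeffEmb, coeffMap_single,
        ← algebraMap_laurentSeries_eq_single]
      exact IntermediateField.algebraMap_mem _ _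
    | add a b _ _ ha hb => rw [map_add]; exact add_mem ha hb
    | inv a _ ha => rw [map_inv₀]; exact inv_mem ha
    | mul a b _ _ ha hb => rw [map_mul]; exact mul_mem ha hb
  set E := extendScalars (adjoin_j_le_full : F₀ ≤ modularFunctionFieldFullC L N)
  have hfin : Module.finrank F₀ E = psi N := by
    rw [← relfinrank_eq_finrank_of_le, relfinrank_full N (by exact_mod_cast NeZero.ne N)]
  have : FiniteDimensional F₀ E := FiniteDimensional.of_finrank_pos (hfin ▸ psi_pos N)
  set v : Fin (psi N + 1) → E := fun i => ⟨coeffEmb L (y i), hemb _ (hy i)⟩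
  have hdep : ¬ LinearIndependent F₀ v := fun h => by
    have := h.fintype_card_le_finrank
    rw [Fintype.card_fin, hfin] at this
    omega
  obtain ⟨g, hg, i₀, hi₀⟩ := Fintype.not_linearIndependent_iff.mp hdep
  choose a b hab using fun i =>
    (IntermediateField.mem_adjoin_simple_iff L (g i : LaurentSeries L)).mp (g i).2
  set B : Fin (psi N + 1) → Polynomial L := fun i =>
    if (g i : LaurentSeries L) = 0 then 0 else a i
  set D : Fin (psi N + 1) → Polynomial L := fun i =>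
    if (g i : LaurentSeries L) = 0 then 1 else b i
  have hBD : ∀ i, (g i : LaurentSeries L) * evalAt (jv (1 : Lˣ) 1) (D i)
      = evalAt (jv (1 : Lˣ) 1) (B i) ∧ evalAt (jv (1 : Lˣ) 1) (D i) ≠ 0 := by
    intro i
    by_cases h : (g i : LaurentSeries L) = 0
    · simp only [B, D, if_pos h]
      refine ⟨?_, by rw [map_one]; exact one_ne_zero⟩
      rw [map_zero, map_one, h, zero_mul]
    · have h2 := hab i
      rw [aeval_eq_evalAt, aeval_eq_evalAt] at h2
      have hb0 : evalAt (jv (1 : Lˣ) 1) (b i) ≠ 0 := fun hb => h (by rw [h2, hb, div_zero])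
      simp only [B, D, if_neg h]
      exact ⟨by rw [h2, div_mul_cancel₀ _ hb0], hb0⟩
  set Q : Fin (psi N + 1) → Polynomial L := fun i => B i * ∏ k ∈ Finset.univ.erase i, D k
  have hQ : ∀ i, evalAt (jv (1 : Lˣ) 1) (Q i)
      = (g i : LaurentSeries L) * evalAt (jv (1 : Lˣ) 1) (∏ k, D k) := by
    intro i
    rw [← Finset.mul_prod_erase _ D (Finset.mem_univ i), map_mul, map_mul, ← mul_assoc, (hBD i).1]
  have hQ0 : ∑ i, evalAt (jv (1 : Lˣ) 1) (Q i) * coeffEmb L (y i) = 0 := by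
    have := congrArg (fun z : E => (z : LaurentSeries L)) hg
    simp only [AddSubmonoidClass.coe_finsetSum, ZeroMemClass.coe_zero] at this
    rw [Finset.sum_congr rfl fun i _ => by rw [hQ i, mul_right_comm], ← Finset.sum_mul]
    refine mul_eq_zero_of_left ?_ _
    rw [← this]
    exact Finset.sum_congr rfl fun i _ => rfl
  have hQne : Q i₀ ≠ 0 := by
    intro h
    have h2 := hQ i₀
    rw [h, map_zero, map_prod, eq_comm, mul_eq_zero, Finset.prod_eq_zero_iff] at h2
    rcases h2 with h2 | ⟨k, -, hk⟩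
    · exact hi₀ (Subtype.ext h2)
    · exact (hBD k).2 hk
  obtain ⟨n₀, hn₀⟩ : ∃ n, (Q i₀).coeff n ≠ 0 :=
    ⟨_, leadingCoeff_ne_zero.mpr hQne⟩
  obtain ⟨lam, hlam⟩ := Module.Projective.exists_dual_ne_zero ℚ hn₀
  set d : ℕ := Finset.univ.sup fun i => (Q i).natDegree
  set R : Fin (psi N + 1) → Polynomial ℚ := fun i =>
    ∑ n ∈ Finset.range (d + 1), Polynomial.monomial n (lam ((Q i).coeff n))
  have hRne : R i₀ ≠ 0 := by
    intro h
    have h2 := congrArg (fun P : Polynomial ℚ => P.coeff n₀) h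
    simp only [R, Polynomial.finsetSum_coeff, Polynomial.coeff_monomial, Finset.sum_ite_eq',
      Finset.mem_range, Polynomial.coeff_zero] at h2
    rw [if_pos] at h2
    · exact hlam h2
    · have h3 : n₀ ≤ (Q i₀).natDegree := le_natDegree_of_ne_zero hn₀
      have h4 : (Q i₀).natDegree ≤ d :=
        Finset.le_sup (f := fun i => (Q i).natDegree) (Finset.mem_univ i₀)
      omega
  have hR : ∑ i, evalAt (jv (1 : ℚˣ) 1) (R i) * y i = 0 := by
    have h := congrArg (coeffLin lam) hQ0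
    rw [map_zero, map_sum] at h
    rw [← h]
    refine Finset.sum_congr rfl fun i _ => ?_
    conv_rhs => rw [(Q i).as_sum_range' (d + 1) (Nat.lt_succ_of_le
      (Finset.le_sup (f := fun i => (Q i).natDegree) (Finset.mem_univ i))),
      map_sum, Finset.sum_mul, map_sum]
    rw [map_sum, Finset.sum_mul]
    refine Finset.sum_congr rfl fun n _ => ?_
    simp only [← Polynomial.C_mul_X_pow_eq_monomial, map_mul, map_pow, evalAt_C, evalAt_X]
    rw [mul_assoc, mul_assoc, show jv (1 : Lˣ) 1 = coeffEmb L (jv (1 : ℚˣ) 1) by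
      rw [coeffEmb, coeffMap_jv _ _ one_ne_zero, map_one], ← map_pow, ← map_mul, coeffLin_mul]
  obtain ⟨⟨c, hc⟩, hcR⟩ := IsLocalization.exist_integer_multiples (nonZeroDivisors ℤ)
    (Finset.univ ×ˢ Finset.range (d + 1)) fun x : Fin (psi N + 1) × ℕ => (R x.1).coeff x.2
  have hint : ∀ i, ∃ P : Polynomial ℤ, P.map (Int.castRingHom ℚ) = Polynomial.C (c : ℚ) * R i := by
    intro i
    refine Polynomial.mem_lifts _ |>.mp ((Polynomial.lifts_iff_coeff_lifts _).mpr fun n => ?_)
    rw [Polynomial.coeff_C_mul]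
    by_cases hn : n < d + 1
    · obtain ⟨z, hz⟩ := hcR (i, n) (by simpa using hn)
      refine ⟨z, ?_⟩
      simpa using hz
    · refine ⟨0, ?_⟩
      simp only [R, Polynomial.finsetSum_coeff, Polynomial.coeff_monomial, Finset.sum_ite_eq',
        Finset.mem_range, if_neg hn, mul_zero, map_zero]
  choose P hP using hint
  refine ⟨P, fun h => ?_, ?_⟩
  · have h2 := hP i₀
    rw [congrFun h i₀, Pi.zero_apply, Polynomial.map_zero, eq_comm, mul_eq_zero,
      Polynomial.C_eq_zero] at h2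
    rcases h2 with h2 | h2
    · exact nonZeroDivisors.ne_zero hc (by exact_mod_cast h2)
    · exact hRne h2
  · simp only [hP, map_mul, evalAt_C, mul_assoc]
    rw [← Finset.mul_sum, hR, mul_zero]

end Upper

section Basis

variable (N : ℕ) [NeZero N] (ℓ : ℕ) [hℓ : Fact ℓ.Prime]

/-- `P ↦ P(j)` in `ℚ((q))`. -/
def evQ : Polynomial ↥(GaloisRep.ratLocalizedAt ℓ) →+* LaurentSeries ℚ :=
  (evalAt (jv (1 : ℚˣ) 1)).comp (Polynomial.mapRingHom (algebraMap ↥(GaloisRep.ratLocalizedAt ℓ) ℚ))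

/-- `P ↦ P(j)` in `ℤ₍ℓ₎((q))`. -/
def evZ : Polynomial ↥(GaloisRep.ratLocalizedAt ℓ) →+*
    LaurentSeries ↥(GaloisRep.ratLocalizedAt ℓ) :=
  evalAt (jv (1 : (↥(GaloisRep.ratLocalizedAt ℓ))ˣ) 1)

/-- `ℤ₍ℓ₎((q)) → ℚ((q))`. -/
abbrev toQ : LaurentSeries ↥(GaloisRep.ratLocalizedAt ℓ) →+* LaurentSeries ℚ :=
  coeffMap (algebraMap ↥(GaloisRep.ratLocalizedAt ℓ) ℚ)

/-- `ℤ₍ℓ₎((q)) → 𝔽_ℓ((q))`. -/
abbrev redS : LaurentSeries ↥(GaloisRep.ratLocalizedAt ℓ) →+* LaurentSeries (ZMod ℓ) :=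
  coeffMap (redZ ℓ)

omit hℓ in
/-- Extending coefficients from `ℤ_(ℓ)` to `ℚ` is injective. -/
theorem toQ_injective : Injective (toQ ℓ) := fun a b h => by
  ext n
  simpa using congrArg (fun z : LaurentSeries ℚ => z.coeff n) h

omit hℓ in
/-- `P(j)` commutes with `ℤ₍ℓ₎((q)) → ℚ((q))`. -/
theorem toQ_evZ (P : Polynomial ↥(GaloisRep.ratLocalizedAt ℓ)) : toQ ℓ (evZ ℓ P) = evQ ℓ P := by
  rw [evZ, coeffMap_evalAt, coeffMap_jv _ _ one_ne_zero, map_one, evQ, RingHom.comp_apply,
    Polynomial.coe_mapRingHom]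

/-- `P(j)` commutes with reduction. -/
theorem redS_evZ (P : Polynomial ↥(GaloisRep.ratLocalizedAt ℓ)) :
    redS ℓ (evZ ℓ P) = evalAt (jv (1 : (ZMod ℓ)ˣ) 1) (P.map (redZ ℓ)) := by
  rw [evZ, coeffMap_evalAt, coeffMap_jv _ _ one_ne_zero, map_one]

omit hℓ in
theorem toQ_C (c : ↥(GaloisRep.ratLocalizedAt ℓ)) :
    toQ ℓ (HahnSeries.C c) = HahnSeries.C (c : ℚ) :=
  coeffMap_C _ _

/-- The integral series `b i` lie in the field of level `N`, are independent over `𝔽_ℓ[j]` after
reduction, and span the field over `ℚ(j)`. -/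
structure IsGoodBasis (b : Fin (psi N) → LaurentSeries ↥(GaloisRep.ratLocalizedAt ℓ)) : Prop where
  mem : ∀ i, toQ ℓ (b i) ∈ modularFunctionFieldFull N
  indep : ∀ P : Fin (psi N) → Polynomial ↥(GaloisRep.ratLocalizedAt ℓ),
    redS ℓ (∑ i, evZ ℓ (P i) * b i) = 0 → ∀ i, (P i).map (redZ ℓ) = 0
  span : ∀ y ∈ modularFunctionFieldFull N, ∃ (r : Polynomial ↥(GaloisRep.ratLocalizedAt ℓ))
    (P : Fin (psi N) → Polynomial ↥(GaloisRep.ratLocalizedAt ℓ)),
    r ≠ 0 ∧ evQ ℓ r * y = ∑ i, evQ ℓ (P i) * toQ ℓ (b i)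

/-- A good basis exists for `ℓ ∤ N`. -/
theorem exists_goodBasis (hℓN : ¬ ℓ ∣ N) :
    ∃ b : Fin (psi N) → LaurentSeries ↥(GaloisRep.ratLocalizedAt ℓ), IsGoodBasis N ℓ b := by
  classical
  let k := AlgebraicClosure (ZMod ℓ)
  have : CharP k ℓ := charP_of_injective_algebraMap (algebraMap (ZMod ℓ) k).injective ℓ
  have hNk : (N : k) ≠ 0 := by rwa [Ne, CharP.cast_eq_zero_iff k ℓ]
  obtain ⟨e, he, hind⟩ := exists_monos_indep N hNk
  set b : Fin (psi N) → LaurentSeries ↥(GaloisRep.ratLocalizedAt ℓ) :=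
    fun i => coeffMap (Int.castRingHom _) (e i) with hb
  have hmem : ∀ i, toQ ℓ (b i) ∈ modularFunctionFieldFull N := by
    intro i
    rw [hb, toQ, coeffMap_coeffMap,
      RingHom.ext_int ((algebraMap ↥(GaloisRep.ratLocalizedAt ℓ) ℚ).comp (Int.castRingHom _))
        (Int.castRingHom ℚ)]
    exact modularFunctionFieldFullC_rat N ▸ coeffMap_monos_mem N ℚ (he i)
  have hindep : ∀ P : Fin (psi N) → Polynomial ↥(GaloisRep.ratLocalizedAt ℓ),
      redS ℓ (∑ i, evZ ℓ (P i) * b i) = 0 → ∀ i, (P i).map (redZ ℓ) = 0 := by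
    intro P hP i
    have h := congrArg (coeffMap (algebraMap (ZMod ℓ) k)) hP
    rw [map_zero, map_sum, map_sum] at h
    have h2 := congrFun (hind (fun i => ((P i).map (redZ ℓ)).map (algebraMap (ZMod ℓ) k)) (by
      rw [← h]
      refine Finset.sum_congr rfl fun i _ => ?_
      rw [map_mul, map_mul, redS_evZ, coeffMap_evalAt, coeffMap_jv _ _ one_ne_zero, map_one]
      congr 1
      rw [hb, redS, coeffMap_coeffMap, coeffMap_coeffMap,
        RingHom.ext_int (((algebraMap (ZMod ℓ) k).comp (redZ ℓ)).comp (Int.castRingHom _))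
          (Int.castRingHom k)])) i
    exact (Polynomial.map_eq_zero_iff (algebraMap (ZMod ℓ) k).injective).mp h2
  have hindepQ : ∀ P : Fin (psi N) → Polynomial ↥(GaloisRep.ratLocalizedAt ℓ),
      ∑ i, evQ ℓ (P i) * toQ ℓ (b i) = 0 → P = 0 := by
    intro P hP
    by_contra hne
    obtain ⟨i₀, hi₀⟩ := Function.ne_iff.mp hne
    have key : ∀ r : Polynomial ↥(GaloisRep.ratLocalizedAt ℓ), r ≠ 0 →
        ∀ P : Fin (psi N) → Polynomial ↥(GaloisRep.ratLocalizedAt ℓ),
        P i₀ = r → ∑ i, evQ ℓ (P i) * toQ ℓ (b i) = 0 → False := by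
      refine polynomial_induction ℓ ?_ ?_
      · intro r hr P hPi hP
        refine hr (hPi ▸ hindep P ?_ i₀)
        have h0 : toQ ℓ (∑ i, evZ ℓ (P i) * b i) = 0 := by
          rw [map_sum, ← hP]
          exact Finset.sum_congr rfl fun i _ => by rw [map_mul, toQ_evZ]
        rw [toQ_injective ℓ (h0.trans (map_zero _).symm), map_zero]
      · intro r _ ih P hPi hP
        have h0 : toQ ℓ (∑ i, evZ ℓ (P i) * b i) = 0 := by
          rw [map_sum, ← hP]
          exact Finset.sum_congr rfl fun i _ => by rw [map_mul, toQ_evZ]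
        have hred := hindep P (by rw [toQ_injective ℓ (h0.trans (map_zero _).symm), map_zero])
        choose Q hQ using fun i => exists_eq_mul_poly ℓ (hred i)
        have hℓ0 : Polynomial.C (ℓ : ↥(GaloisRep.ratLocalizedAt ℓ)) ≠ 0 :=
          Polynomial.C_ne_zero.mpr (natCast_self_ne_zero ℓ)
        refine ih Q (mul_left_cancel₀ hℓ0 ((hQ i₀).symm.trans hPi)) ?_
        have h1 : evQ ℓ (Polynomial.C (ℓ : ↥(GaloisRep.ratLocalizedAt ℓ))) *
          ∑ i, evQ ℓ (Q i) * toQ ℓ (b i) = 0 := by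
          rw [Finset.mul_sum, ← hP]
          exact Finset.sum_congr rfl fun i _ => by rw [← mul_assoc, ← map_mul, ← hQ i]
        refine (mul_eq_zero.mp h1).resolve_left fun h2 => hℓ0 ?_
        rw [← toQ_evZ] at h2
        exact evalAt_jv_injective one_ne_zero
          ((toQ_injective ℓ (h2.trans (map_zero _).symm)).trans (map_zero (evZ ℓ)).symm)
    exact key _ hi₀ P rfl hP
  refine ⟨b, hmem, hindep, fun y hy => ?_⟩
  obtain ⟨P, hPne, hP⟩ := exists_relation N (Fin.snoc (fun i => toQ ℓ (b i)) y) (fun i => by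
    refine Fin.lastCases ?_ ?_ i
    · rw [Fin.snoc_last]; exact hy
    · intro j; rw [Fin.snoc_castSucc]; exact hmem j)
  set P' : Fin (psi N + 1) → Polynomial ↥(GaloisRep.ratLocalizedAt ℓ) :=
    fun i => (P i).map (Int.castRingHom _) with hP'
  have hev : ∀ i, evQ ℓ (P' i) = evalAt (jv (1 : ℚˣ) 1) ((P i).map (Int.castRingHom ℚ)) := by
    intro i
    rw [evQ, RingHom.comp_apply, hP', Polynomial.coe_mapRingHom, Polynomial.map_map,
      RingHom.ext_int ((algebraMap ↥(GaloisRep.ratLocalizedAt ℓ) ℚ).comp (Int.castRingHom _))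
        (Int.castRingHom ℚ)]
  simp only [← hev] at hP
  rw [Fin.sum_univ_castSucc, Fin.snoc_last] at hP
  simp only [Fin.snoc_castSucc] at hP
  refine ⟨P' (Fin.last _), fun i => -P' i.castSucc, fun h0 => hPne ?_, ?_⟩
  · rw [h0, map_zero, zero_mul, add_zero] at hP
    have hz := hindepQ (fun i => P' i.castSucc) hP
    have hinj : Injective (Polynomial.map (Int.castRingHom ↥(GaloisRep.ratLocalizedAt ℓ))) :=
      Polynomial.map_injective _ fun a c h => by
        simpa using congrArg (fun x : ↥(GaloisRep.ratLocalizedAt ℓ) => (x : ℚ)) h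
    funext i
    refine hinj ?_
    rw [Pi.zero_apply, Polynomial.map_zero]
    refine Fin.lastCases h0 (fun j => congrFun hz j) i
  · simp only [map_neg, neg_mul, Finset.sum_neg_distrib]
    linear_combination hP

end Basis

end Fermat.Agent.Igusa
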