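import Mathlib.RingTheory.DedekindDomain.PID
import Mathlib.RingTheory.DiscreteValuationRing.Basic
import Mathlib.RingTheory.LaurentSeries
import Mathlib.RingTheory.PowerSeries.Ideal
import Fermat.Agent.Igusa.GenericBasis

/-!
# The base ring `ℤ₍ℓ₎` and Laurent series over it

These facts are used throughout the proof that the charts of `X₀(N)` have normal special fibres.
-/

noncomputable section

open Polynomial

namespace Fermat.Agent.Igusa

/-- `P[X] ⧸ (p)` is principal for a prime `p` of a principal ideal domain `P`. -/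
theorem isPrincipalIdealRing_quotient_prime {P : Type*} [CommRing P] [IsDomain P]
    [IsPrincipalIdealRing P] {p : P} (hp : Prime p) :
    IsPrincipalIdealRing (P[X] ⧸ Ideal.span {(Polynomial.C p : P[X])}) := by
  have : (Ideal.span {p}).IsMaximal := PrincipalIdealRing.isMaximal_of_irreducible hp.irreducible
  let _ := Ideal.Quotient.field (Ideal.span {p})
  have e : Ideal.map (Polynomial.C : P →+* P[X]) (Ideal.span {p}) =
      Ideal.span {(Polynomial.C p : P[X])} := by
    rw [Ideal.map_span, Set.image_singleton]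
  let φ : (P ⧸ Ideal.span {p})[X] ≃+* P[X] ⧸ Ideal.span {(Polynomial.C p : P[X])} :=
    (Ideal.polynomialQuotientEquivQuotientPolynomial (Ideal.span {p})).trans
      (Ideal.quotEquivOfEq e)
  exact IsPrincipalIdealRing.of_surjective φ.toRingHom φ.surjective

variable (ℓ : ℕ) [hℓ : Fact ℓ.Prime]

set_option quotPrecheck false in
local notation "ℤℓ" => ↥(GaloisRep.ratLocalizedAt ℓ)

/-- The units of `ℤ₍ℓ₎` are the elements with nonzero reduction. -/
theorem isUnit_iff_redZ_ne_zero (q : ℤℓ) : IsUnit q ↔ redZ ℓ q ≠ 0 := by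
  refine ⟨fun h => (h.map (redZ ℓ)).ne_zero, fun h => ?_⟩
  have hq : (q : ℚ) ≠ 0 := fun h0 => h (by rw [show q = 0 from Subtype.ext h0, map_zero])
  have hmem : (q : ℚ)⁻¹ ∈ GaloisRep.ratLocalizedAt ℓ := by
    show ((q : ℚ)⁻¹).den.Coprime ℓ
    rw [Nat.coprime_comm, hℓ.out.coprime_iff_not_dvd, Rat.den_inv, if_neg (by simpa using hq)]
    intro h'
    refine h (?_ : ((q : ℚ) : ZMod ℓ) = 0)
    rw [Rat.cast_def,
      (ZMod.intCast_zmod_eq_zero_iff_dvd _ _).mpr (Int.natCast_dvd.mpr h'), zero_div]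
  exact IsUnit.of_mul_eq_one ⟨_, hmem⟩ (Subtype.ext (mul_inv_cancel₀ hq))

/-- The kernel of reduction is `(ℓ)`. -/
theorem redZ_eq_zero_iff (q : ℤℓ) : redZ ℓ q = 0 ↔ (ℓ : ℤℓ) ∣ q := by
  refine ⟨fun h => exists_eq_mul_of_redZ_eq_zero ℓ q h, ?_⟩
  rintro ⟨r, rfl⟩
  rw [map_mul, redZ_natCast_self, zero_mul]

/-- Every nonzero element of `ℤ₍ℓ₎` is a unit times a power of `ℓ`. -/
theorem exists_eq_unit_mul_pow {q : ℤℓ} (hq : q ≠ 0) :
    ∃ n : ℕ, ∃ u : ℤℓˣ, q = u * (ℓ : ℤℓ) ^ n := by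
  have key : ∀ (n : ℕ) (q : ℤℓ), q ≠ 0 → (q : ℚ).num.natAbs ≤ n →
      ∃ m : ℕ, ∃ u : ℤℓˣ, q = u * (ℓ : ℤℓ) ^ m := by
    intro n
    induction n with
    | zero =>
      intro q hq hn
      exact absurd (Subtype.ext (Rat.num_eq_zero.mp (by simpa using hn))) hq
    | succ n ih =>
      intro q hq hn
      by_cases h : redZ ℓ q = 0
      · obtain ⟨r, hr⟩ := (redZ_eq_zero_iff ℓ q).mp h
        have hr0 : r ≠ 0 := by rintro rfl; exact hq (by rw [hr, mul_zero])
        have hlt : (r : ℚ).num.natAbs < (q : ℚ).num.natAbs := by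
          have hr' : (r : ℚ).num ≠ 0 := fun h0 => hr0 (Subtype.ext (Rat.num_eq_zero.mp h0))
          have hcop : ((ℓ : ℤ) * (r : ℚ).num).natAbs.Coprime (r : ℚ).den := by
            rw [Int.natAbs_mul, Int.natAbs_natCast]
            exact Nat.Coprime.mul_left r.2.symm (r : ℚ).reduced
          have hq' : (q : ℚ).num = (ℓ : ℤ) * (r : ℚ).num := by
            have hq2 : (q : ℚ) = ((ℓ : ℤ) * (r : ℚ).num : ℤ) / ((r : ℚ).den : ℤ) := by
              rw [hr]; push_cast; conv_lhs => rw [← Rat.num_div_den (r : ℚ)]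
              ring
            rw [hq2, Rat.num_div_eq_of_coprime (by exact_mod_cast (r : ℚ).pos) hcop]
          rw [hq', Int.natAbs_mul, Int.natAbs_natCast]
          exact lt_mul_of_one_lt_left (Int.natAbs_pos.mpr hr') hℓ.out.one_lt
        obtain ⟨m, u, rfl⟩ := ih r hr0 (by omega)
        exact ⟨m + 1, u, by rw [hr]; ring⟩
      · exact ⟨0, ((isUnit_iff_redZ_ne_zero ℓ q).mpr h).unit, by simp⟩
  exact key _ q hq le_rfl

/-- `ℤ₍ℓ₎` is a discrete valuation ring. -/
theorem isDiscreteValuationRing_ratLocalizedAt : IsDiscreteValuationRing ℤℓ :=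
  IsDiscreteValuationRing.ofHasUnitMulPowIrreducibleFactorization
    ⟨(ℓ : ℤℓ), (prime_natCast_self ℓ).irreducible, fun hx => by
      obtain ⟨n, u, h⟩ := exists_eq_unit_mul_pow ℓ hx
      exact ⟨n, u, by rw [h, mul_comm]⟩⟩

/-- `ℤ_(ℓ)` is a principal ideal ring. -/
theorem isPrincipalIdealRing_ratLocalizedAt : IsPrincipalIdealRing ℤℓ :=
  (isDiscreteValuationRing_ratLocalizedAt ℓ).toIsPrincipalIdealRing

/-- `ℤ₍ℓ₎((q))` is integrally closed. -/
theorem isIntegrallyClosed_laurentSeries : IsIntegrallyClosed (LaurentSeries ℤℓ) := by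
  have := isPrincipalIdealRing_ratLocalizedAt ℓ
  exact isIntegrallyClosed_of_isLocalization (LaurentSeries ℤℓ)
    (Submonoid.powers (PowerSeries.X : PowerSeries ℤℓ))
    (powers_le_nonZeroDivisors_of_noZeroDivisors PowerSeries.X_ne_zero)

end Fermat.Agent.Igusa
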