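import Mathlib
import Fermat.Prelude.Def_ModularCurve_IgusaScheme
import Fermat.Agent.MF.Degree
import Fermat.Agent.X0.FormField

/-!
# Expansions of the conjugates of `ℚ(j(dτ) : d ∣ N)` at points and at the cusp

For every point `τ` and for the cusp there are `[SL(2, ℤ) : Γ₀(N)]` distinct embeddings of the
function field into `ℂ((v))` with the same image of `j`; at a point that image has order
`e(j(τ)) ∈ {1, 2, 3}` after subtracting its value, at the cusp its inverse has order `N`.

They supply the distinct roots that show the generator stays separable at a horizontal prime.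
-/

noncomputable section

open UpperHalfPlane CongruenceSubgroup Function
open scoped MatrixGroups ModularForm Manifold

namespace Fermat.Agent.Igusa

open Fermat.Agent.MF

variable (N : ℕ) [NeZero N]

/-- The ramification index of `X₀(N) → j-line` allowed at `j = a`. -/
def ellIndex (a : ℂ) : ℕ := if a = 0 then 3 else if a = 1728 then 2 else 1

/-- The function field of level `N` consists of quotients of forms for `Γ₀(N)`. -/
theorem isFormField_full :
    X0.IsFormField N (ModularCurve.modularFunctionFieldFullC ℂ N) :=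
  ⟨fun _ hx => (MF.mem_modularFunctionFieldC_iff N).mp
    (MF.modularFunctionFieldFullC_complex_eq N ▸ hx)⟩

/-- The inclusion of the rational function field into the complex one. -/
def toComplexField :
    ↥(ModularCurve.modularFunctionFieldFull N) →+*
      ↥(ModularCurve.modularFunctionFieldFullC ℂ N) :=
  ((ModularCurve.coeffMap (algebraMap ℚ ℂ)).comp
    (ModularCurve.modularFunctionFieldFull N).toSubfield.subtype).codRestrict
      (ModularCurve.modularFunctionFieldFullC ℂ N) fun x => by
        have h := MF.coeffMap_mem_adjoin (K := ℂ) (k := ℚ)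
          (show (x : LaurentSeries ℚ) ∈ IntermediateField.adjoin ℚ
            (ModularCurve.divisorExpansionsC ℚ N) from x.2)
        rwa [MF.coeffMap_image_divisorExpansions] at h

omit [NeZero N] in
theorem coe_toComplexField (x : ↥(ModularCurve.modularFunctionFieldFull N)) :
    (toComplexField N x : LaurentSeries ℂ) =
      ModularCurve.coeffMap (algebraMap ℚ ℂ) (x : LaurentSeries ℚ) := rfl

omit [NeZero N] in
theorem isFormFn_j_num : IsFormFn (Gamma0 N) 12 (E4fn ^ 3) :=
  ((isFormFn_E4.pow 3).cast (by norm_num)).mono le_top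

/-- The image of `j` under every conjugate expansion. -/
def jSeries (ψ : X0.Expansion N) : LaurentSeries ℂ :=
  ψ.ls (X0.wslash (isFormFn_j_num N) 1) /
    ψ.ls (X0.wslash ((isFormFn_delta.mono le_top : IsFormFn (Gamma0 N) 12 deltaFn)) 1)

/-- `[SL(2, ℤ) : Γ₀(N)]` distinct embeddings with the prescribed image of `j`. -/
theorem exists_embeddings (ψ : X0.Expansion N) :
    ∃ φ : SL(2, ℤ) ⧸ Gamma0 N →
        (↥(ModularCurve.modularFunctionFieldFull N) →+* LaurentSeries ℂ),
      Injective φ ∧ ∀ q, φ q (ModularCurve.IgusaScheme.jFull N) = jSeries N ψ := by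
  have := isFormField_full N
  refine ⟨fun q => (ψ.conjHom q.out⁻¹).comp (toComplexField N), fun q q' h => ?_, fun q => ?_⟩
  · by_contra hne
    have hmem : ModularCurve.qExpand ℚ N (ModularCurve.jqModC ℚ) ∈
        ModularCurve.modularFunctionFieldFull N :=
      ModularCurve.jqModCd_mem_full ℚ N dvd_rfl
    have hrep : (toComplexField N ⟨_, hmem⟩ : LaurentSeries ℂ) * lq (denN N) = lq (numN N) := by
      rw [coe_toComplexField, lq_numN]
      exact congrArg (· * lq (denN N)) (ModularCurve.coeffMap_jqNModC (algebraMap ℚ ℂ) N)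
    have h1 : ψ.conjHom q.out⁻¹ (toComplexField N ⟨_, hmem⟩) =
        ψ.conjHom q'.out⁻¹ (toComplexField N ⟨_, hmem⟩) := DFunLike.congr_fun h _
    rw [ψ.conjHom_eq _ _ (isFormFn_numN N) (isFormFn_denN N) (denN_ne_zero' N) hrep,
      ψ.conjHom_eq _ _ (isFormFn_numN N) (isFormFn_denN N) (denN_ne_zero' N) hrep,
      div_eq_div_iff (ψ.ls_wslash_ne_zero _ (denN_ne_zero' N) _)
        (ψ.ls_wslash_ne_zero _ (denN_ne_zero' N) _), ← map_mul, ← map_mul] at h1
    exact conjFn_numN_mul_ne N hne (congrArg Subtype.val (ψ.ls_injective h1))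
  · have hrep : (toComplexField N (ModularCurve.IgusaScheme.jFull N) : LaurentSeries ℂ) *
        lq deltaFn = lq (E4fn ^ 3) := by
      rw [coe_toComplexField, ModularCurve.IgusaScheme.coe_jFull,
        lq_pow isFormFn_E4.isQFnTop, ← jqModC_mul_lq_delta]
      exact congrArg (· * lq deltaFn) (ModularCurve.coeffMap_jqModC (algebraMap ℚ ℂ))
    have hd : deltaFn ≠ 0 := fun h => deltaFn_ne_zero I (congrFun h I)
    rw [RingHom.comp_apply, ψ.conjHom_eq _ _ (isFormFn_j_num N)
      (isFormFn_delta.mono le_top) hd hrep, jSeries]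
    congr 2 <;> apply Subtype.ext <;> simp only [X0.coe_wslash, SlashAction.slash_one]
    · exact (isFormFn_E4.pow 3).slash_eq _ trivial
    · exact isFormFn_delta.slash_eq _ trivial

omit [NeZero N] in
/-- The constant term of the expansion at a point is the value. -/
theorem constantCoeff_pointExp (τ : ℍ) (f : X0.wideAlgebra N) :
    PowerSeries.constantCoeff (X0.pointExp N τ f) = (f : ℍ → ℂ) τ := by
  rw [← PowerSeries.coeff_zero_eq_constantCoeff_apply]
  show PowerSeries.coeff 0 (MF.taylorPS _) = _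
  simp [MF.taylorPS]

omit [NeZero N] in
/-- At a point: `j - a` has order `e(a)` in every conjugate expansion. -/
theorem exists_expansion_at (a : ℂ) : ∃ (ψ : X0.Expansion N) (g h : PowerSeries ℂ),
    jSeries N ψ = HahnSeries.ofPowerSeries ℤ ℂ g ∧
      g - PowerSeries.C a = PowerSeries.X ^ ellIndex a * h ∧
        PowerSeries.constantCoeff h ≠ 0 := by
  obtain ⟨τ, rfl⟩ := X0.jFun_surjective a
  set u : X0.wideAlgebra N := X0.wslash (isFormFn_j_num N) 1 with hu
  set v : X0.wideAlgebra N :=
    X0.wslash (isFormFn_delta.mono le_top : IsFormFn (Gamma0 N) 12 deltaFn) 1 with hv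
  have hufn : (u : ℍ → ℂ) = E4fn ^ 3 := by simp [hu]
  have hvfn : (v : ℍ → ℂ) = deltaFn := by simp [hv]
  set P := X0.pointExp N τ with hP
  have hPv : IsUnit (P v) := by
    rw [PowerSeries.isUnit_iff_constantCoeff, isUnit_iff_ne_zero, constantCoeff_pointExp, hvfn]
    exact deltaFn_ne_zero τ
  set w : X0.wideAlgebra N := u - X0.jFun τ • v with hw
  have hwfn : ∀ z, (w : ℍ → ℂ) z = (X0.jFun z - X0.jFun τ) * deltaFn z := fun z => by
    have hz : deltaFn z ≠ 0 := deltaFn_ne_zero z
    simp only [hw, hufn, hvfn, AddSubgroupClass.coe_sub, SetLike.val_smul, Pi.sub_apply,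
      Pi.smul_apply, smul_eq_mul, Pi.pow_apply]
    rw [show X0.jFun z = E4fn z ^ 3 / deltaFn z from rfl, sub_mul, div_mul_cancel₀ _ hz]
  have hmd : MDiff (w : ℍ → ℂ) := w.2.mdiff
  have hord : (P w).order = (ellIndex (X0.jFun τ) : ℕ∞) := by
    rw [hP, X0.order_pointExp]
    have h1 := X0.ordH_mul (f := fun z => X0.jFun z - X0.jFun τ) (g := deltaFn)
      (X0.mdiff_jFun.sub mdifferentiable_const) isFormFn_delta.mdiff τ
    rw [X0.ordH_jFun_sub, X0.ordH_eq_zero_of_ne_zero isFormFn_delta.mdiff (deltaFn_ne_zero τ),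
      add_zero] at h1
    have h2 : X0.ordH (w : ℍ → ℂ) τ = ((X0.ellOrder τ : ℕ) : ℤ) := by
      rw [show (w : ℍ → ℂ) = fun z => (X0.jFun z - X0.jFun τ) * deltaFn z from funext hwfn, h1]
    rw [X0.ordH, (X0.analyticAt_comp_ofComplex hmd τ).meromorphicOrderAt_eq] at h2
    have h3 : X0.ellOrder τ = ellIndex (X0.jFun τ) := by rw [X0.ellOrder_eq]; rfl
    rw [← h3]
    generalize analyticOrderAt ((w : ℍ → ℂ) ∘ ofComplex) (τ : ℂ) = o at h2 ⊢
    cases o with
    | top => simp at h2
    | coe o => simp at h2; exact_mod_cast h2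
  have hwne : P w ≠ 0 := fun h => by simp [h] at hord
  set inv : PowerSeries ℂ := ((hPv.unit⁻¹ : (PowerSeries ℂ)ˣ) : PowerSeries ℂ)
  have hinv : inv * P v = 1 := hPv.val_inv_mul
  obtain ⟨h', hh', hh'0⟩ : ∃ h', P w = PowerSeries.X ^ ellIndex (X0.jFun τ) * h' ∧
      PowerSeries.constantCoeff h' ≠ 0 :=
    ⟨(P w).divXPowOrder, by
      conv_lhs => rw [← PowerSeries.X_pow_order_mul_divXPowOrder (f := P w), hord,
        ENat.toNat_natCast],
      fun h0 => hwne (PowerSeries.constantCoeff_divXPowOrder_eq_zero_iff.mp h0)⟩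
  refine ⟨X0.pointExpansion N τ, P u * inv, h' * inv, ?_, ?_, ?_⟩
  · have hv0 : (X0.pointExpansion N τ).ls v ≠ 0 := by
      refine (map_ne_zero_iff _ (X0.Expansion.ls_injective _)).mpr fun h0 => ?_
      simp [h0] at hinv
    rw [jSeries, div_eq_iff hv0]
    show HahnSeries.ofPowerSeries ℤ ℂ (P u) =
      HahnSeries.ofPowerSeries ℤ ℂ (P u * inv) * HahnSeries.ofPowerSeries ℤ ℂ (P v)
    rw [← map_mul, mul_assoc, hinv, mul_one]
  · have h4 : P w = P u - PowerSeries.C (X0.jFun τ) * P v := by
      rw [hw, map_sub, map_smul, PowerSeries.smul_eq_C_mul]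
    rw [← mul_assoc, ← hh', h4, sub_mul, mul_assoc, mul_comm (P v), hinv, mul_one]
  · rw [map_mul]
    refine mul_ne_zero hh'0 fun h0 => ?_
    have := congrArg PowerSeries.constantCoeff hinv
    rw [map_mul, h0, zero_mul, map_one] at this
    exact zero_ne_one this

/-- The expansion at the cusp of a function of period one. -/
theorem cuspExp_coeff {f : ℍ → ℂ} (hf : IsQFn f) (w : X0.wideAlgebra N) (hw : (w : ℍ → ℂ) = f)
    (m : ℕ) : PowerSeries.coeff m (X0.cuspExp N w) =
      if N ∣ m then (qExpansion 1 f).coeff (m / N) else 0 := by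
  set c : ℕ → ℂ := fun m => if N ∣ m then (qExpansion 1 f).coeff (m / N) else 0 with hc
  have hsum : ∀ τ : ℍ,
      HasSum (fun m => c m • Periodic.qParam (N : ℝ) (τ : ℂ) ^ m) ((w : ℍ → ℂ) τ) := by
    intro τ
    have hinj : Function.Injective (fun n : ℕ => N * n) :=
      fun x y h => Nat.eq_of_mul_eq_mul_left (NeZero.pos N) h
    refine (hinj.hasSum_iff ?_).mp ?_
    · intro m hm
      have : ¬ N ∣ m := fun ⟨n, hn⟩ => hm ⟨n, hn.symm⟩
      simp [hc, this]
    · have hq : Periodic.qParam (N : ℝ) (τ : ℂ) ^ N = Periodic.qParam 1 (τ : ℂ) := by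
        have hN : (N : ℂ) ≠ 0 := Nat.cast_ne_zero.mpr (NeZero.ne N)
        rw [Periodic.qParam, Periodic.qParam, ← Complex.exp_nat_mul]
        congr 1
        push_cast
        field_simp
      have h := hasSum_qExpansion one_pos hf.periodic hf.mdiff hf.bdd τ
      rw [hw]
      simpa [hc, Function.comp_def, Nat.mul_div_cancel_left _ (NeZero.pos N), pow_mul, hq] using h
  have h1 := (hasFPowerSeriesOnBall_cuspFunction (X0.periodPos N) w.2.analyticAt
    hsum).hasFPowerSeriesAt
  have h2 := (hasFPowerSeriesOnBall_cuspFunction (X0.periodPos N) w.2.analyticAt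
    (hasSum_qExpansion (X0.periodPos N) w.2.periodic w.2.mdiff w.2.bdd)).hasFPowerSeriesAt
  rw [X0.cuspExp_apply]
  simpa using congr_arg (FormalMultilinearSeries.coeff · m)
    (h2.eq_formalMultilinearSeries h1)

/-- At the cusp: `1 / j` has order `N` in every conjugate expansion. -/
theorem exists_expansion_cusp : ∃ (ψ : X0.Expansion N) (h : PowerSeries ℂ),
    jSeries N ψ * HahnSeries.ofPowerSeries ℤ ℂ (PowerSeries.X ^ N * h) = 1 ∧
      PowerSeries.constantCoeff h = 1 := by
  set u : X0.wideAlgebra N := X0.wslash (isFormFn_j_num N) 1 with hu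
  set v : X0.wideAlgebra N :=
    X0.wslash (isFormFn_delta.mono le_top : IsFormFn (Gamma0 N) 12 deltaFn) 1 with hv
  have hufn : (u : ℍ → ℂ) = E4fn ^ 3 := by simp [hu]
  have hvfn : (v : ℍ → ℂ) = deltaFn := by simp [hv]
  have hqd : IsQFn deltaFn := isFormFn_delta.isQFnTop
  have hcu : PowerSeries.constantCoeff (X0.cuspExp N u) = 1 := by
    rw [← PowerSeries.coeff_zero_eq_constantCoeff_apply,
      cuspExp_coeff N (isFormFn_E4.pow 3).isQFnTop u hufn, if_pos (dvd_zero N), Nat.zero_div]
    simpa using qExpansion_E4_E6_coeff_zero 3 0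
  obtain ⟨w, hwc, hw⟩ : ∃ w, PowerSeries.constantCoeff w = 1 ∧
      X0.cuspExp N v = PowerSeries.X ^ N * w := by
    have h0 : (qExpansion 1 deltaFn).coeff 0 = 0 := by simp [qExpansion_delta]
    have h1 : (qExpansion 1 deltaFn).coeff 1 = 1 := by
      rw [qExpansion_delta, show (1 : ℕ) = 0 + 1 from rfl, PowerSeries.coeff_succ_X_mul,
        PowerSeries.coeff_map,
        PowerSeries.coeff_zero_eq_constantCoeff_apply, ModularCurve.constantCoeff_dedekindEtaUnit,
        map_one]
    obtain ⟨w, hw⟩ := (PowerSeries.X_pow_dvd_iff (n := N) (φ := X0.cuspExp N v)).mpr fun m hm => by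
      rw [cuspExp_coeff N hqd v hvfn]
      split_ifs with hd
      · rw [Nat.eq_zero_of_dvd_of_lt hd hm, Nat.zero_div, h0]
      · rfl
    refine ⟨w, ?_, hw⟩
    have h2 := cuspExp_coeff N hqd v hvfn N
    rw [if_pos dvd_rfl, Nat.div_self (NeZero.pos N), h1, hw] at h2
    simpa [PowerSeries.coeff_X_pow_mul'] using h2
  have hunit : IsUnit (X0.cuspExp N u) := by
    rw [PowerSeries.isUnit_iff_constantCoeff, hcu]; exact isUnit_one
  set inv : PowerSeries ℂ := ((hunit.unit⁻¹ : (PowerSeries ℂ)ˣ) : PowerSeries ℂ)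
  have hinv : inv * X0.cuspExp N u = 1 := hunit.val_inv_mul
  refine ⟨X0.cuspExpansion N, w * inv, ?_, ?_⟩
  · have hv0 : (X0.cuspExpansion N).ls v ≠ 0 :=
      (map_ne_zero_iff _ (X0.Expansion.ls_injective _)).mpr fun h0 =>
        deltaFn_ne_zero I (by rw [← hvfn, h0]; rfl)
    rw [jSeries, div_mul_eq_mul_div, div_eq_one_iff_eq hv0]
    show HahnSeries.ofPowerSeries ℤ ℂ (X0.cuspExp N u) * _ =
      HahnSeries.ofPowerSeries ℤ ℂ (X0.cuspExp N v)
    rw [← map_mul, hw]
    congr 1
    linear_combination (PowerSeries.X ^ N * w) * hinv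
  · rw [map_mul, hwc, one_mul]
    have := congrArg PowerSeries.constantCoeff hinv
    rwa [map_mul, hcu, mul_one, map_one] at this

end Fermat.Agent.Igusa
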