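import Mathlib

/-!
# Integral closures are free near a special fibre

Let `C` be a Noetherian normal domain, `π` a prime element with `C ⧸ (π)` a principal ideal
domain, and `R` the integral closure of `C` in a finite separable extension `M` of its fraction
field.  After inverting some `c ≡ 1 mod π` the ring `R` is free over `C` of rank `[M : Frac C]`.
-/

noncomputable section

open Polynomial

namespace Fermat.Agent.Igusa

section TorsionFree

variable {C L M : Type*} [CommRing C] [IsDomain C] [IsIntegrallyClosed C] [Field L]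
  [Algebra C L] [IsFractionRing C L] [Field M] [Algebra L M] [Algebra C M]
  [IsScalarTower C L M] [FiniteDimensional L M]

omit [IsDomain C] [IsIntegrallyClosed C] [FiniteDimensional L M] in
/-- The minimal polynomial of a scalar multiple. -/
theorem coeff_minpoly_smul {z : M} (hz : IsIntegral L z) {a : L} (ha : a ≠ 0) (i : ℕ) :
    (minpoly L (a • z)).coeff i =
      (minpoly L z).coeff i * a ^ ((minpoly L z).natDegree - i) := by
  rw [IsIntegrallyClosed.minpoly_smul ha hz, coeff_scaleRoots]

omit [FiniteDimensional L M] in
variable (L) in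
include L in
/-- An element which becomes integral after multiplying by `π`, and after multiplying by `a`
prime to `π`, is integral. -/
theorem isIntegral_of_smul_of_smul {π a : C} (hπ : Prime π) (ha : ¬ π ∣ a) {z : M}
    (h1 : IsIntegral C (π • z)) (h2 : IsIntegral C (a • z)) : IsIntegral C z := by
  have hπ0 : algebraMap C L π ≠ 0 := by simpa using hπ.ne_zero
  have hz : IsIntegral L z := by
    have h : IsIntegral L (π • z) := h1.tower_top
    rw [← IsScalarTower.algebraMap_smul L π z] at h
    have h' := h.smul (algebraMap C L π)⁻¹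
    rwa [inv_smul_smul₀ hπ0] at h'
  have ha0 : algebraMap C L a ≠ 0 := by
    simp only [ne_eq, map_eq_zero_iff _ (IsFractionRing.injective C L)]
    rintro rfl
    exact ha (dvd_zero π)
  have key : ∀ (c : C), algebraMap C L c ≠ 0 → IsIntegral C (c • z) → ∀ i, ∃ e : C,
      algebraMap C L e =
        (minpoly L z).coeff i * algebraMap C L c ^ ((minpoly L z).natDegree - i) := by
    intro c hc hcz i
    rw [← IsScalarTower.algebraMap_smul L c z] at hcz
    refine ⟨(minpoly C (algebraMap C L c • z)).coeff i, ?_⟩
    rw [← coeff_minpoly_smul hz hc, minpoly.isIntegrallyClosed_eq_field_fractions' L hcz,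
      coeff_map]
  set P := minpoly L z
  have hcoeff : ∀ i, P.coeff i ∈ (algebraMap C L).range := by
    intro i
    obtain ⟨e, he⟩ := key π hπ0 h1 i
    obtain ⟨f, hf⟩ := key a ha0 h2 i
    set m := P.natDegree - i
    have h : e * a ^ m = f * π ^ m := by
      apply IsFractionRing.injective C L
      rw [map_mul, map_mul, map_pow, map_pow, he, hf]
      ring
    have hndvd : ¬ π ∣ a ^ m := fun hd => ha (hπ.dvd_of_dvd_pow hd)
    obtain ⟨e', rfl⟩ := hπ.pow_dvd_of_dvd_mul_right m hndvd ⟨f, by rw [h, mul_comm]⟩
    refine ⟨e', ?_⟩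
    have : algebraMap C L π ^ m * algebraMap C L e' = algebraMap C L π ^ m * P.coeff i := by
      rw [← map_pow, ← map_mul, he, map_pow]
      ring
    exact mul_left_cancel₀ (pow_ne_zero _ hπ0) this
  have hlift : P ∈ lifts (algebraMap C L) := (lifts_iff_coeff_lifts P).mpr fun i => hcoeff i
  obtain ⟨q, hq, -, hqm⟩ := lifts_and_natDegree_eq_and_monic hlift (minpoly.monic hz)
  refine ⟨q, hqm, ?_⟩
  rw [IsScalarTower.algebraMap_eq C L M, ← eval₂_map, hq]
  exact minpoly.aeval L z

end TorsionFree

section Free

variable (C L M : Type*) [CommRing C] [IsDomain C] [IsIntegrallyClosed C] [IsNoetherianRing C]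
  [Field L] [Algebra C L] [IsFractionRing C L] [Field M] [Algebra L M] [Algebra C M]
  [IsScalarTower C L M] [FiniteDimensional L M] [Algebra.IsSeparable L M]
  (R : Type*) [CommRing R] [Algebra C R] [Algebra R M] [IsScalarTower C R M]
  [IsIntegralClosure R C M]

include L M in
omit [IsNoetherianRing C] [FiniteDimensional L M] [Algebra.IsSeparable L M] in
/-- Multiples of `π` in `R` are detected after scaling by an element prime to `π`. -/
theorem exists_smul_eq_of_smul_eq_smul {π d : C} (hπ : Prime π) (hd : ¬ π ∣ d) {x y : R}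
    (hy : π • y = d • x) : ∃ x' : R, π • x' = x := by
  have hπM : algebraMap C M π ≠ 0 := by
    rw [IsScalarTower.algebraMap_apply C L M]
    simpa using hπ.ne_zero
  set z : M := algebraMap R M x / algebraMap C M π with hz
  have h1 : IsIntegral C (π • z) := by
    rw [Algebra.smul_def, hz, mul_div_cancel₀ _ hπM]
    exact (IsIntegralClosure.isIntegral C M x).algebraMap
  have h2 : IsIntegral C (d • z) := by
    have : d • z = algebraMap R M y := by
      rw [Algebra.smul_def, hz, ← mul_div_assoc, div_eq_iff hπM,
        IsScalarTower.algebraMap_apply C R M d, ← map_mul, ← Algebra.smul_def, ← hy,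
        Algebra.smul_def, map_mul, ← IsScalarTower.algebraMap_apply, mul_comm]
    rw [this]
    exact (IsIntegralClosure.isIntegral C M y).algebraMap
  obtain ⟨x', hx'⟩ :=
    (IsIntegralClosure.isIntegral_iff (A := R)).mp (isIntegral_of_smul_of_smul L hπ hd h1 h2)
  refine ⟨x', IsIntegralClosure.algebraMap_injective R C M ?_⟩
  rw [Algebra.smul_def, map_mul, ← IsScalarTower.algebraMap_apply, hx', hz,
    mul_div_cancel₀ _ hπM]

omit [IsDomain C] [IsIntegrallyClosed C] [IsNoetherianRing C] [FiniteDimensional L M]
  [Algebra.IsSeparable L M] in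
/-- A family independent over `C` in `R` is independent over `L` in `M`. -/
theorem linearIndependent_algebraMap_comp {ι : Type*} {r : ι → R} (hli : LinearIndependent C r) :
    LinearIndependent L fun i => algebraMap R M (r i) := by
  rw [← LinearIndependent.iff_fractionRing C L]
  exact hli.map' ((IsScalarTower.toAlgHom C R M).toLinearMap)
    (LinearMap.ker_eq_bot.mpr (IsIntegralClosure.algebraMap_injective R C M))

omit [IsIntegrallyClosed C] [IsNoetherianRing C] [Algebra.IsSeparable L M] in
/-- A family spanning `R` up to a nonzero factor spans `M` over `L`. -/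
theorem top_le_span_algebraMap {ι : Type*} [Fintype ι] {r : ι → R} {c : C} (hc0 : c ≠ 0)
    (hcT : ∀ x : R, c • x ∈ Submodule.span C (Set.range r)) :
    (⊤ : Submodule L M) ≤ Submodule.span L (Set.range fun i => algebraMap R M (r i)) := by
  intro m _
  obtain ⟨⟨d, hd⟩, hd'⟩ :=
    IsIntegral.exists_multiple_integral_of_isLocalization (nonZeroDivisors C) m
      (IsIntegral.of_finite L m)
  obtain ⟨x, hx⟩ := (IsIntegralClosure.isIntegral_iff (A := R)).mp hd'
  obtain ⟨a, ha⟩ := (Submodule.mem_span_range_iff_exists_fun C).mp (hcT x)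
  have hcd : algebraMap C L (c * d) ≠ 0 := by
    simpa [hc0] using nonZeroDivisors.ne_zero hd
  have h1 : algebraMap C L (c * d) • m = ∑ i, algebraMap C L (a i) • algebraMap R M (r i) := by
    simp only [IsScalarTower.algebraMap_smul]
    rw [mul_smul, show d • m = algebraMap R M x from hx.symm]
    simp only [Algebra.smul_def, IsScalarTower.algebraMap_apply C R M, ← map_mul, ← map_sum]
    congr 1
    simpa only [Algebra.smul_def] using ha.symm
  rw [← inv_smul_smul₀ hcd m, h1]
  exact Submodule.smul_mem _ _ (Submodule.sum_mem _ fun i _ =>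
    Submodule.smul_mem _ _ (Submodule.subset_span ⟨i, rfl⟩))

include L M in
/-- `R` is free of rank `[M : Frac C]` after inverting some `c ≡ 1 mod π`. -/
theorem exists_basis_near_fibre (π : C) (hπ : Prime π)
    (hpid : IsPrincipalIdealRing (C ⧸ Ideal.span {π})) :
    ∃ (c : C) (r : Fin (Module.finrank L M) → R), π ∣ c - 1 ∧ LinearIndependent C r ∧
      ∀ x : R, c • x ∈ Submodule.span C (Set.range r) := by
  have : Module.Finite C R := IsIntegralClosure.finite C L M R
  have hinjR : Function.Injective (algebraMap R M) := IsIntegralClosure.algebraMap_injective R C M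
  have hinjC : Function.Injective (algebraMap C M) := by
    rw [IsScalarTower.algebraMap_eq C L M]
    exact (algebraMap L M).injective.comp (IsFractionRing.injective C L)
  set I : Ideal C := Ideal.span {π} with hI
  have : I.IsPrime := (Ideal.span_singleton_prime hπ.ne_zero).mpr hπ
  have : IsDomain (C ⧸ I) := Ideal.Quotient.isDomain I
  set W : Submodule C R := I • ⊤ with hW
  have hmemW : ∀ x : R, x ∈ W ↔ ∃ y, π • y = x := fun x => by
    rw [hW, hI, Submodule.ideal_span_singleton_smul, Submodule.mem_smul_pointwise_iff_exists]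
    simp
  have hreg : ∀ (d : C) (x : R), ¬ π ∣ d → d • x ∈ W → x ∈ W := fun d x hd hx =>
    let ⟨y, hy⟩ := (hmemW _).mp hx
    (hmemW _).mpr (exists_smul_eq_of_smul_eq_smul C L M R hπ hd hy)
  have : Module.IsTorsionFree (C ⧸ I) (R ⧸ W) := by
    refine Module.IsTorsionFree.of_smul_eq_zero fun d q h => ?_
    obtain ⟨d, rfl⟩ := Ideal.Quotient.mk_surjective d
    obtain ⟨x, rfl⟩ := Submodule.Quotient.mk_surjective W q
    by_cases hd : π ∣ d
    · exact Or.inl (Ideal.Quotient.eq_zero_iff_mem.mpr (Ideal.mem_span_singleton.mpr hd))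
    · exact Or.inr ((Submodule.Quotient.mk_eq_zero W).mpr
        (hreg d x hd ((Submodule.Quotient.mk_eq_zero W).mp h)))
  have : Module.Finite (C ⧸ I) (R ⧸ W) := Module.Finite.of_restrictScalars_finite C _ _
  set n := Module.finrank (C ⧸ I) (R ⧸ W)
  set b : Module.Basis (Fin n) (C ⧸ I) (R ⧸ W) := Module.finBasis (C ⧸ I) (R ⧸ W)
  choose r hr using fun i => Submodule.Quotient.mk_surjective W (b i)
  have hmk : ∀ a : Fin n → C, (Submodule.Quotient.mk (∑ i, a i • r i) : R ⧸ W) =
      ∑ i, Ideal.Quotient.mk I (a i) • b i := fun a => by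
    rw [← Submodule.mkQ_apply, map_sum]
    refine Finset.sum_congr rfl fun i _ => ?_
    rw [map_smul, Submodule.mkQ_apply, hr]
    rfl
  have hli : LinearIndependent C r := by
    rw [Fintype.linearIndependent_iff]
    intro a ha
    suffices h : ∀ (m : ℕ) (i : Fin n), π ^ m ∣ a i by
      intro i
      have hinf := Ideal.iInf_pow_eq_bot_of_isDomain (I := I) (Ideal.IsPrime.ne_top ‹_›)
      have : a i ∈ ⨅ m, I ^ m := (Submodule.mem_iInf _).mpr fun m => by
        rw [hI, Ideal.span_singleton_pow]
        exact Ideal.mem_span_singleton.mpr (h m i)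
      rwa [hinf, Ideal.mem_bot] at this
    intro m
    induction m with
    | zero => exact fun i => by simp
    | succ m ih =>
      choose a' ha' using ih
      have h0 : ∑ i, a' i • r i = 0 := by
        apply hinjR
        have h1 : algebraMap C M (π ^ m) * algebraMap R M (∑ i, a' i • r i) =
            algebraMap C M (π ^ m) * algebraMap R M 0 := by
          rw [map_zero, mul_zero, IsScalarTower.algebraMap_apply C R M, ← map_mul,
            ← Algebra.smul_def, Finset.smul_sum]
          simp only [smul_smul, ← ha', ha, map_zero]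
        exact mul_left_cancel₀ (by simpa using hinjC.ne (pow_ne_zero m hπ.ne_zero)) h1
      intro i
      have hbar := hmk a'
      rw [h0, Submodule.Quotient.mk_zero] at hbar
      have := Fintype.linearIndependent_iff.mp b.linearIndependent _ hbar.symm i
      obtain ⟨e, he⟩ := Ideal.mem_span_singleton.mp (Ideal.Quotient.eq_zero_iff_mem.mp this)
      exact ⟨e, by rw [ha' i, he, pow_succ, mul_assoc]⟩
  obtain ⟨c, hc, hcT⟩ : ∃ c : C, π ∣ c - 1 ∧ ∀ x : R, c • x ∈ Submodule.span C (Set.range r) := by
    set T := Submodule.span C (Set.range r)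
    obtain ⟨c, hc, hc'⟩ := Submodule.exists_sub_one_mem_and_smul_eq_zero_of_fg_of_le_smul I
      (⊤ : Submodule C (R ⧸ T)) Module.Finite.fg_top (by
        intro q _
        obtain ⟨x, rfl⟩ := Submodule.Quotient.mk_surjective T q
        choose a ha using fun i => Ideal.Quotient.mk_surjective (b.repr (Submodule.Quotient.mk x) i)
        have hx : x - ∑ i, a i • r i ∈ W := by
          rw [← Submodule.Quotient.eq, hmk]
          simp only [ha, b.sum_repr]
        obtain ⟨y, hy⟩ := (hmemW _).mp hx
        have hq : (Submodule.Quotient.mk x : R ⧸ T) = π • Submodule.Quotient.mk y := by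
          rw [← Submodule.Quotient.mk_smul, hy, Submodule.Quotient.eq]
          simpa using Submodule.sum_mem T fun i _ =>
            Submodule.smul_mem _ (a i) (Submodule.subset_span ⟨i, rfl⟩)
        rw [hq]
        exact Submodule.smul_mem_smul (Ideal.mem_span_singleton_self π) Submodule.mem_top)
    exact ⟨c, Ideal.mem_span_singleton.mp hc,
      fun x => (Submodule.Quotient.mk_eq_zero T).mp (hc' (Submodule.Quotient.mk x) trivial)⟩
  have hc0 : c ≠ 0 := by
    rintro rfl
    exact hπ.not_isUnit (isUnit_of_dvd_one (by simpa using hc))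
  suffices hn : n = Module.finrank L M by
    exact ⟨c, r ∘ finCongr hn.symm, hc, hli.comp _ (finCongr hn.symm).injective,
      by rwa [(finCongr hn.symm).surjective.range_comp]⟩
  have hliL := linearIndependent_algebraMap_comp C L M R hli
  have hspan := top_le_span_algebraMap C L M R hc0 hcT
  rw [Module.finrank_eq_card_basis (Module.Basis.mk hliL hspan), Fintype.card_fin]

end Free

end Fermat.Agent.Igusa
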