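import Mathlib.RingTheory.IntegralClosure.IntegrallyClosed
import Fermat.Agent.Igusa.SmoothBase
import Fermat.Agent.Igusa.SmoothFree

/-!
# Integral `q`-expansions and reduction mod `ℓ` of the elements of the chart rings

These give the reduction of a chart, which is used to compare the charts of `X₀(N)` with the
function field of the reduced curve.
-/

noncomputable section

open Polynomial ModularCurve

namespace Fermat.Agent.Igusa

/-- Integrality over a subalgebra descends along an injective map. -/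
theorem isIntegral_subalgebra_of_map {R A B : Type*} [CommRing R] [CommRing A] [CommRing B]
    [Algebra R A] [Algebra R B] (φ : A →ₐ[R] B) (hφ : Function.Injective φ) (U : Subalgebra R A)
    {x : A} (hx : IsIntegral (U.map φ) (φ x)) : IsIntegral U x := by
  obtain ⟨p, hp, hpx⟩ := hx
  refine ⟨p.map (U.equivMapOfInjective φ hφ).symm.toRingEquiv.toRingHom, hp.map _, hφ ?_⟩
  rw [map_zero, ← hpx, eval₂_map]
  refine (hom_eval₂ p _ φ.toRingHom x).trans ?_
  congr 1
  refine RingHom.ext fun c => ?_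
  obtain ⟨u, rfl⟩ := (U.equivMapOfInjective φ hφ).surjective c
  simp

/-- Transitivity of integrality, for a subring of integral elements. -/
theorem isIntegral_of_subring {Z A : Type*} [CommRing Z] [CommRing A] [Algebra Z A] (J : Subring A)
    (hJ : ∀ y ∈ J, IsIntegral Z y) {x : A} (h : IsIntegral J x) : IsIntegral Z x :=
  isIntegral_trans (R := Z) (A := integralClosure Z A) x <| h.map_of_comp_eq
    (φ := (J.subtype.codRestrict (integralClosure Z A).toSubring fun y => hJ y y.2 :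
      J →+* integralClosure Z A))
    (ψ := RingHom.id A) (by ext; rfl)

/-- A ring map as a `ℤ`-algebra map, for any `ℤ`-algebra structures. -/
def intAlgHom {A B : Type*} [CommRing A] [CommRing B] [Algebra ℤ A] [Algebra ℤ B] (f : A →+* B) :
    A →ₐ[ℤ] B :=
  { f with commutes' := fun n => by simp }

theorem intAlgHom_apply {A B : Type*} [CommRing A] [CommRing B] [Algebra ℤ A] [Algebra ℤ B]
    (f : A →+* B) (a : A) : intAlgHom f a = f a := rfl

section JIntegral

/-- The integral closure of `ℤ` in `ℂ`, as coefficient ring. -/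
abbrev IntC : Subalgebra ℤ ℂ := integralClosure ℤ ℂ

/-- `j(q^(mp))` is integral over a ring containing `j(q^m)` and the algebraic integers. -/
theorem isIntegral_jv_mul (p : ℕ) [hp : Fact p.Prime] {m : ℕ} (hm : m ≠ 0) :
    ∀ J : Subring (LaurentSeries ℂ),
      (∀ c : IntC, HahnSeries.C (c : ℂ) ∈ J) → jv (1 : ℂˣ) m ∈ J →
      IsIntegral J (jv (1 : ℂˣ) (m * p)) := by
  intro J hC hj
  have hp0 : p ≠ 0 := hp.out.ne_zero
  set z : ℂ := ((zetaC p : ℂˣ) : ℂ) with hz
  have hzp : IsPrimitiveRoot z p := isPrimitiveRoot_zetaC p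
  let z' : IntC := ⟨z, hzp.isIntegral hp.out.pos⟩
  have hz'p : IsPrimitiveRoot z' p :=
    hzp.of_map_of_injective (f := IntC.val) Subtype.val_injective
  let ζ : IntCˣ := (hz'p.isUnit hp0).unit
  have hζ : IsPrimitiveRoot ((ζ : IntCˣ) : IntC) p := hz'p
  obtain ⟨Φ, hΦ⟩ := exists_modPoly hζ
  have hinj := evalAt_jv_injective (K := IntC) hp0
  have hmon : Φ.Monic := by
    refine Polynomial.monic_of_injective hinj ?_
    rw [hΦ]
    exact monic_prod_of_monic _ _ fun x _ => monic_X_sub_C _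
  have hroot : (Φ.map (evalAt (jv (1 : IntCˣ) m))).eval (jv (1 : IntCˣ) (m * p)) = 0 := by
    refine sub_injective (1 : IntCˣ) hp0 ?_
    rw [map_zero, ← Polynomial.eval_map_apply, Polynomial.map_map, sub_evalAt 1 hp0,
      sub_jv 1 1 hp0 hm, sub_jv 1 1 hp0 (mul_ne_zero hm hp0)]
    simp only [one_pow, one_mul]
    have h : (phiSer p ζ).eval (jv (1 : IntCˣ) (p * p)) = 0 := by
      rw [phiSer, eval_prod]
      refine Finset.prod_eq_zero (Finset.mem_univ OnePoint.infty) ?_
      rw [eval_sub, eval_X, eval_C]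
      exact sub_self _
    have h2 := congrArg (sub (1 : IntCˣ) m) h
    rw [← hΦ, map_zero, ← Polynomial.eval_map_apply, Polynomial.map_map, sub_evalAt 1 hm,
      sub_jv 1 1 hm hp0, sub_jv 1 1 hm (mul_ne_zero hp0 hp0)] at h2
    simp only [one_pow, one_mul] at h2
    rw [mul_comm p m, show p * (m * p) = m * (p * p) by ring]
    exact h2
  let g : Polynomial IntC →+* J :=
    Polynomial.eval₂RingHom
      { toFun := fun c => ⟨HahnSeries.C (c : ℂ), hC c⟩
        map_one' := Subtype.ext (map_one _)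
        map_mul' := fun a b => Subtype.ext (map_mul HahnSeries.C (a : ℂ) b)
        map_zero' := Subtype.ext (map_zero _)
        map_add' := fun a b => Subtype.ext (map_add HahnSeries.C (a : ℂ) b) }
      ⟨jv (1 : ℂˣ) m, hj⟩
  refine ⟨Φ.map g, hmon.map g, ?_⟩
  have hg : (algebraMap J (LaurentSeries ℂ)).comp g =
      (coeffMap IntC.val.toRingHom).comp (evalAt (jv (1 : IntCˣ) m)) := by
    refine Polynomial.ringHom_ext (fun c => ?_) ?_
    · simp only [RingHom.comp_apply, evalAt_C, coeffMap_C, g, Polynomial.coe_eval₂RingHom,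
        eval₂_C]
      rfl
    · simp only [RingHom.comp_apply, evalAt_X, g, Polynomial.coe_eval₂RingHom, eval₂_X,
        coeffMap_jv _ _ hm, map_one]
      rfl
  rw [eval₂_map, hg]
  have h3 : jv (1 : ℂˣ) (m * p) = coeffMap IntC.val.toRingHom (jv (1 : IntCˣ) (m * p)) := by
    rw [coeffMap_jv _ _ (mul_ne_zero hm hp0), map_one]
  rw [h3, ← hom_eval₂, ← eval_map, hroot, map_zero]

/-- `j(q^d)` is integral over `ℤ[j]`. -/
theorem isIntegral_jv {d : ℕ} (hd : d ≠ 0) :
    IsIntegral (Algebra.adjoin ℤ ({jv (1 : ℚˣ) 1} : Set (LaurentSeries ℚ))) (jv (1 : ℚˣ) d) := by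
  let Z : Subalgebra ℤ (LaurentSeries ℂ) := Algebra.adjoin ℤ {jv (1 : ℂˣ) 1}
  let J : Subring (LaurentSeries ℂ) :=
    { carrier := {y | IsIntegral Z y}
      mul_mem' := fun ha hb => ha.mul hb
      one_mem' := isIntegral_one
      add_mem' := fun ha hb => ha.add hb
      zero_mem' := isIntegral_zero
      neg_mem' := fun ha => ha.neg }
  have hC : ∀ c : IntC, HahnSeries.C (c : ℂ) ∈ J := fun c =>
    IsIntegral.map_of_comp_eq (φ := algebraMap ℤ Z) (ψ := (HahnSeries.C : ℂ →+* LaurentSeries ℂ))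
      (RingHom.ext_int _ _) c.2
  have key : ∀ d : ℕ, d ≠ 0 → jv (1 : ℂˣ) d ∈ J := by
    intro d
    induction d using induction_on_primes with
    | zero => intro h; exact absurd rfl h
    | one =>
      exact fun _ => (isIntegral_algebraMap
        (x := (⟨jv (1 : ℂˣ) 1, Algebra.subset_adjoin rfl⟩ : Z)) : IsIntegral Z _)
    | prime_mul p a hp ih =>
      intro hpa
      have : Fact p.Prime := ⟨hp⟩
      have ha : a ≠ 0 := right_ne_zero_of_mul hpa
      have h := isIntegral_jv_mul p ha J hC (ih ha)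
      rw [mul_comm p a]
      exact isIntegral_of_subring (Z := Z) J (fun y hy => hy) h
  let φ : LaurentSeries ℚ →ₐ[ℤ] LaurentSeries ℂ := intAlgHom (coeffEmb ℂ)
  have hφ : Function.Injective φ := (coeffEmb ℂ).injective
  have hjv : ∀ e, e ≠ 0 → φ (jv (1 : ℚˣ) e) = jv (1 : ℂˣ) e := fun e he => by
    show coeffEmb ℂ _ = _
    rw [coeffEmb, coeffMap_jv _ _ he, map_one]
  refine isIntegral_subalgebra_of_map φ hφ _ ?_
  rw [AlgHom.map_adjoin_singleton, hjv _ one_ne_zero, hjv _ hd]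
  exact key d hd

end JIntegral

section Charts

open ModularCurve.IgusaScheme

variable (N : ℕ) [NeZero N] (ℓ : ℕ) [hℓ : Fact ℓ.Prime]

set_option quotPrecheck false in
local notation "ℤℓ" => ↥(GaloisRep.ratLocalizedAt ℓ)

set_option quotPrecheck false in
local notation "F" => ↥(modularFunctionFieldFull N)

theorem jv_one_one_rat : jv (1 : ℚˣ) 1 = jq := by rw [jv_one_one, jqModC_rat]

omit [NeZero N] in
/-- The monomials in the `j(q^d)` are integral over `ℤ[j]`. -/
theorem isIntegral_adjoin_int_of_monos {x : LaurentSeries ℤ} (hx : x ∈ monos N) :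
    IsIntegral (Algebra.adjoin ℤ ({jv (1 : ℚˣ) 1} : Set (LaurentSeries ℚ)))
      (coeffMap (Int.castRingHom ℚ) x) := by
  induction hx using Submonoid.closure_induction with
  | mem y hy =>
    obtain ⟨d, hd0, -, rfl⟩ := hy
    rw [coeffMap_jv _ _ hd0, map_one]
    exact isIntegral_jv hd0
  | one => rw [map_one]; exact isIntegral_one
  | mul a b _ _ ha hb => rw [map_mul]; exact ha.mul hb

/-- The monomials lie in the finite chart. -/
theorem exists_mem_chartAlgFin_of_monos {x : LaurentSeries ℤ} (hx : x ∈ monos N) :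
    ∃ u ∈ chartAlg N ℓ {jFull N}, (u : LaurentSeries ℚ) = coeffMap (Int.castRingHom ℚ) x := by
  let u : F := ⟨_, modularFunctionFieldFullC_rat N ▸ coeffMap_monos_mem N ℚ hx⟩
  refine ⟨u, ?_, rfl⟩
  let φ : F →ₐ[ℤ] LaurentSeries ℚ := intAlgHom (modularFunctionFieldFull N).toSubfield.subtype
  have h : IsIntegral (Algebra.adjoin ℤ ({jFull N} : Set F)) u := by
    refine isIntegral_subalgebra_of_map φ Subtype.val_injective _ ?_
    rw [AlgHom.map_adjoin_singleton, show φ (jFull N) = jv (1 : ℚˣ) 1 from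
      ((coe_jFull N).trans jv_one_one_rat.symm)]
    exact isIntegral_adjoin_int_of_monos N hx
  rw [mem_chartAlg_iff]
  have hle : ∀ z ∈ Algebra.adjoin ℤ ({jFull N} : Set F),
      z ∈ Algebra.adjoin ℤℓ ({jFull N} : Set F) := by
    intro z hz
    induction hz using Algebra.adjoin_induction with
    | mem y hy => exact Algebra.subset_adjoin hy
    | algebraMap r => simp only [eq_intCast]; exact intCast_mem _ r
    | add a b _ _ ha hb => exact add_mem ha hb
    | mul a b _ _ ha hb => exact mul_mem ha hb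
  exact h.map_of_comp_eq
    { toFun := fun z => (⟨z.1, hle _ z.2⟩ : Algebra.adjoin ℤℓ ({jFull N} : Set F))
      map_one' := rfl, map_mul' := fun _ _ => rfl, map_zero' := rfl, map_add' := fun _ _ => rfl }
    (RingHom.id F) (by ext; rfl)

/-- The three standard sets of chart generators. -/
def IsChartSet (S : Set F) : Prop :=
  S = {jFull N} ∨ S = {(jFull N)⁻¹} ∨ S = {jFull N, (jFull N)⁻¹}

theorem IsChartSet.subset {S : Set F} (hS : IsChartSet N S) : S ⊆ {jFull N, (jFull N)⁻¹} := by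
  rcases hS with rfl | rfl | rfl
  exacts [sFin_subset N, sInf_subset N, Set.Subset.refl _]

variable {N ℓ} in
omit [NeZero N] hℓ in
/-- A constant of the function field has a constant expansion. -/
theorem coe_algebraMap_full (a : ℤℓ) :
    ((algebraMap ℤℓ F a : F) : LaurentSeries ℚ) = HahnSeries.C (a : ℚ) :=
  RingHom.congr_fun (Subsingleton.elim
    ((modularFunctionFieldFull N).toSubfield.subtype.comp (algebraMap ℚ F)) HahnSeries.C) (a : ℚ)

omit hℓ in
/-- Polynomials in `j` and `1 / j` have integral expansions. -/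
theorem exists_series_of_mem_adjoin {S : Set F} (hS : S ⊆ {jFull N, (jFull N)⁻¹}) {x : F}
    (hx : x ∈ Algebra.adjoin ℤℓ S) : ∃ y, toQ ℓ y = (x : LaurentSeries ℚ) := by
  induction hx using Algebra.adjoin_induction with
  | mem z hz =>
    have hj : toQ ℓ (jqModC ℤℓ) = (jFull N : LaurentSeries ℚ) := by
      rw [toQ, coeffMap_jqModC, jqModC_rat, coe_jFull]
    rcases hS hz with rfl | rfl
    · exact ⟨_, hj⟩
    · have hu : IsUnit (jNum.map (Int.castRingHom ℤℓ)) := by
        rw [PowerSeries.isUnit_iff_constantCoeff, ← PowerSeries.coeff_zero_eq_constantCoeff_apply,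
          PowerSeries.coeff_map, PowerSeries.coeff_zero_eq_constantCoeff_apply, constantCoeff_jNum,
          map_one]
        exact isUnit_one
      refine ⟨HahnSeries.single (1 : ℤ) 1 * HahnSeries.ofPowerSeries ℤ ℤℓ ↑(hu.unit⁻¹), ?_⟩
      rw [IntermediateField.coe_inv]
      refine eq_inv_of_mul_eq_one_left ?_
      rw [← hj, ← map_mul, jqModC, mul_mul_mul_comm, HahnSeries.single_mul_single, ← map_mul,
        IsUnit.val_inv_mul]
      simp
  | algebraMap r => exact ⟨HahnSeries.C r, by rw [toQ_C, coe_algebraMap_full]⟩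
  | add a b _ _ ha hb =>
    obtain ⟨ya, hya⟩ := ha
    obtain ⟨yb, hyb⟩ := hb
    exact ⟨ya + yb, by rw [map_add, hya, hyb]; rfl⟩
  | mul a b _ _ ha hb =>
    obtain ⟨ya, hya⟩ := ha
    obtain ⟨yb, hyb⟩ := hb
    exact ⟨ya * yb, by rw [map_mul, hya, hyb]; rfl⟩

variable (K : Type*) [Field K] [IsAlgClosed K] [CharP K ℓ]
  [Algebra ↥(GaloisRep.ratLocalizedAt ℓ) K]

omit [Algebra (↥(GaloisRep.ratLocalizedAt ℓ)) K] in
include ℓ in
/-- A relation over `ℤ[j]` between `x` and independent monomials, not divisible by `ℓ`. -/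
theorem exists_primitive_relation (hℓN : ¬ ℓ ∣ N) {x : LaurentSeries ℚ}
    (hx : x ∈ modularFunctionFieldFull N) :
    ∃ e : Fin (psi N) → LaurentSeries ℤ, (∀ i, e i ∈ monos N) ∧
      (∀ P : Fin (psi N) → Polynomial K,
        ∑ i, evalAt (jv (1 : Kˣ) 1) (P i) * coeffMap (Int.castRingHom K) (e i) = 0 → P = 0) ∧
      ∃ (P : Fin (psi N) → ℤ[X]) (D : ℤ[X]),
        (D.map (Int.castRingHom K) ≠ 0 ∨ ∃ i, (P i).map (Int.castRingHom K) ≠ 0) ∧
        evalAt (jv (1 : ℚˣ) 1) (D.map (Int.castRingHom ℚ)) * x +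
          ∑ i, evalAt (jv (1 : ℚˣ) 1) ((P i).map (Int.castRingHom ℚ)) *
            coeffMap (Int.castRingHom ℚ) (e i) = 0 := by
  classical
  obtain ⟨e, he, hind⟩ := exists_monos_indep (K := K) N (by
    rwa [Ne, CharP.cast_eq_zero_iff K ℓ])
  set y : Fin (psi N + 1) → LaurentSeries ℚ :=
    Fin.snoc (fun i => coeffMap (Int.castRingHom ℚ) (e i)) x with hy
  obtain ⟨P, hP0, hP⟩ := exists_relation N y (fun i => by
    refine Fin.lastCases ?_ ?_ i
    · rw [hy, Fin.snoc_last]; exact hx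
    · intro j
      rw [hy, Fin.snoc_castSucc]
      exact modularFunctionFieldFullC_rat N ▸ coeffMap_monos_mem N ℚ (he j))
  obtain ⟨i₀, hi₀⟩ := Function.ne_iff.mp hP0
  have key : ∀ (n : ℕ) (P : Fin (psi N + 1) → ℤ[X]) (m : ℕ), (P i₀).coeff m ≠ 0 →
      ((P i₀).coeff m).natAbs ≤ n →
      ∑ i, evalAt (jv (1 : ℚˣ) 1) ((P i).map (Int.castRingHom ℚ)) * y i = 0 →
      ∃ P' : Fin (psi N + 1) → ℤ[X], (∃ i, (P' i).map (Int.castRingHom K) ≠ 0) ∧
        ∑ i, evalAt (jv (1 : ℚˣ) 1) ((P' i).map (Int.castRingHom ℚ)) * y i = 0 := by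
    intro n
    induction n using Nat.strong_induction_on with
    | _ n ih =>
      intro P m hm hn hsum
      by_cases h : ∃ i, (P i).map (Int.castRingHom K) ≠ 0
      · exact ⟨P, h, hsum⟩
      have hdvd : ∀ i, ∃ Q, P i = Polynomial.C (ℓ : ℤ) * Q := fun i => by
        show Polynomial.C (ℓ : ℤ) ∣ P i
        rw [Polynomial.C_dvd_iff_dvd_coeff]
        intro k
        rw [← CharP.intCast_eq_zero_iff K ℓ]
        have h0 : (P i).map (Int.castRingHom K) = 0 := not_ne_iff.mp fun hne => h ⟨i, hne⟩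
        simpa using congrArg (fun p : Polynomial K => p.coeff k) h0
      choose Q hQ using hdvd
      rw [hQ i₀, coeff_C_mul] at hm hn
      rw [Int.natAbs_mul, Int.natAbs_natCast] at hn
      have hQm : (Q i₀).coeff m ≠ 0 := right_ne_zero_of_mul hm
      refine ih ((Q i₀).coeff m).natAbs ?_ Q m hQm le_rfl ?_
      · exact lt_of_lt_of_le (lt_mul_of_one_lt_left (Int.natAbs_pos.mpr hQm) hℓ.out.one_lt) hn
      · have hsum' : evalAt (jv (1 : ℚˣ) 1) (Polynomial.C (ℓ : ℚ)) *
            ∑ i, evalAt (jv (1 : ℚˣ) 1) ((Q i).map (Int.castRingHom ℚ)) * y i = 0 := by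
          rw [Finset.mul_sum, ← hsum]
          refine Finset.sum_congr rfl fun i _ => ?_
          rw [hQ i, Polynomial.map_mul, Polynomial.map_C, map_mul, mul_assoc]
          simp
        refine (mul_eq_zero.mp hsum').resolve_left ?_
        rw [evalAt_C]
        exact (map_ne_zero_iff _ HahnSeries.C_injective).mpr (Nat.cast_ne_zero.mpr hℓ.out.ne_zero)
  obtain ⟨m, hm⟩ : ∃ m, (P i₀).coeff m ≠ 0 := ⟨_, leadingCoeff_ne_zero.mpr hi₀⟩
  obtain ⟨P', ⟨i₁, hi₁⟩, hP'⟩ := key _ P m hm le_rfl hP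
  refine ⟨e, he, hind, fun i => P' i.castSucc, P' (Fin.last _), ?_, ?_⟩
  · rcases i₁.eq_castSucc_or_eq_last with ⟨j, rfl⟩ | rfl
    · exact Or.inr ⟨j, hi₁⟩
    · exact Or.inl hi₁
  · rw [hy, Fin.sum_univ_castSucc, Fin.snoc_last] at hP'
    simp only [Fin.snoc_castSucc] at hP'
    rw [add_comm]
    exact hP'

omit hℓ [IsAlgClosed K] [CharP K ℓ] in
theorem algebraMap_comp_intCast :
    (algebraMap ℤℓ K).comp (Int.castRingHom ℤℓ) = Int.castRingHom K :=
  RingHom.ext_int _ _

theorem coeffMap_evalAt_intMap {R T : Type*} [CommRing R] [CommRing T] (φ : R →+* T) (P : ℤ[X]) :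
    coeffMap φ (evalAt (jv (1 : Rˣ) 1) (P.map (Int.castRingHom R))) =
      evalAt (jv (1 : Tˣ) 1) (P.map (Int.castRingHom T)) := by
  rw [coeffMap_evalAt, coeffMap_jv _ _ one_ne_zero, map_one, Polynomial.map_map,
    RingHom.ext_int (φ.comp (Int.castRingHom R)) (Int.castRingHom T)]

include ℓ in
/-- With an integral series, the relation has a denominator prime to `ℓ`. -/
theorem exists_good_relation (hℓN : ¬ ℓ ∣ N) (y : LaurentSeries ℤℓ)
    (hy : toQ ℓ y ∈ modularFunctionFieldFull N) :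
    ∃ (e : Fin (psi N) → LaurentSeries ℤ) (P : Fin (psi N) → ℤ[X]) (D : ℤ[X]),
      (∀ i, e i ∈ monos N) ∧ D.map (Int.castRingHom K) ≠ 0 ∧
        evalAt (jv (1 : ℤℓˣ) 1) (D.map (Int.castRingHom ℤℓ)) * y +
          ∑ i, evalAt (jv (1 : ℤℓˣ) 1) ((P i).map (Int.castRingHom ℤℓ)) *
            coeffMap (Int.castRingHom ℤℓ) (e i) = 0 := by
  obtain ⟨e, he, hind, P, D, hne, hrel⟩ := exists_primitive_relation N ℓ K hℓN hy
  have hrel' : evalAt (jv (1 : ℤℓˣ) 1) (D.map (Int.castRingHom ℤℓ)) * y +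
      ∑ i, evalAt (jv (1 : ℤℓˣ) 1) ((P i).map (Int.castRingHom ℤℓ)) *
        coeffMap (Int.castRingHom ℤℓ) (e i) = 0 := by
    refine toQ_injective ℓ ?_
    rw [map_zero, map_add, map_sum, map_mul, ← hrel, coeffMap_evalAt_intMap]
    refine congrArg _ (Finset.sum_congr rfl fun i _ => ?_)
    rw [map_mul, coeffMap_evalAt_intMap, toQ, coeffMap_coeffMap,
      RingHom.ext_int ((algebraMap ℤℓ ℚ).comp (Int.castRingHom _)) (Int.castRingHom ℚ)]
  refine ⟨e, P, D, he, fun hD => ?_, hrel'⟩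
  have h := congrArg (coeffMap (algebraMap ℤℓ K)) hrel'
  rw [map_zero, map_add, map_sum, map_mul, coeffMap_evalAt_intMap, hD, map_zero, zero_mul,
    zero_add] at h
  have h2 := hind (fun i => (P i).map (Int.castRingHom K)) (by
    rw [← h]
    refine Finset.sum_congr rfl fun i _ => ?_
    rw [map_mul, coeffMap_evalAt_intMap, coeffMap_coeffMap, algebraMap_comp_intCast])
  rcases hne with hne | ⟨i, hi⟩
  · exact hne hD
  · exact hi (congrFun h2 i)

include ℓ in
/-- Reductions of integral modular functions are modular. -/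
theorem red_mem (hℓN : ¬ ℓ ∣ N) {y : LaurentSeries ℤℓ}
    (hy : toQ ℓ y ∈ modularFunctionFieldFull N) :
    coeffMap (algebraMap ℤℓ K) y ∈ modularFunctionFieldFullC K N := by
  obtain ⟨e, P, D, he, hD, hrel⟩ := exists_good_relation N ℓ K hℓN y hy
  have h := congrArg (coeffMap (algebraMap ℤℓ K)) hrel
  rw [map_zero, map_add, map_sum, map_mul, coeffMap_evalAt_intMap] at h
  have hj : jv (1 : Kˣ) 1 ∈ modularFunctionFieldFullC K N := jv_mem_full one_ne_zero (one_dvd N)
  have hmem : ∀ Q : Polynomial K, evalAt (jv (1 : Kˣ) 1) Q ∈ modularFunctionFieldFullC K N :=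
    fun Q => RingHom.congr_fun (algebraMap_comp_evalIn _ hj) Q ▸ (evalIn _ hj Q).2
  have hD0 : evalAt (jv (1 : Kˣ) 1) (D.map (Int.castRingHom K)) ≠ 0 := fun h0 =>
    hD (evalAt_jv_injective one_ne_zero (h0.trans (map_zero _).symm))
  rw [show coeffMap (algebraMap ℤℓ K) y =
    -(∑ i, coeffMap (algebraMap ℤℓ K) (evalAt (jv (1 : ℤℓˣ) 1)
      ((P i).map (Int.castRingHom ℤℓ)) * coeffMap (Int.castRingHom ℤℓ) (e i))) /
        evalAt (jv (1 : Kˣ) 1) (D.map (Int.castRingHom K)) by
      rw [eq_div_iff hD0, mul_comm]; exact eq_neg_of_add_eq_zero_left h]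
  refine div_mem (neg_mem (sum_mem fun i _ => ?_)) (hmem _)
  rw [map_mul, coeffMap_evalAt_intMap, coeffMap_coeffMap, algebraMap_comp_intCast]
  exact mul_mem (hmem _) (coeffMap_monos_mem N K (he i))

include ℓ in
/-- Elements of the chart rings have `q`-expansions in `ℤ₍ℓ₎((q))`. -/
theorem exists_series (hℓN : ¬ ℓ ∣ N) {S : Set F} (hS : S ⊆ {jFull N, (jFull N)⁻¹}) {x : F}
    (hx : x ∈ chartAlg N ℓ S) : ∃ y, toQ ℓ y = (x : LaurentSeries ℚ) := by
  classical
  let K0 := AlgebraicClosure (ZMod ℓ)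
  have : CharP K0 ℓ := charP_of_injective_algebraMap (algebraMap (ZMod ℓ) K0).injective ℓ
  let : Algebra ℤℓ K0 := ((algebraMap (ZMod ℓ) K0).comp (redZ ℓ)).toAlgebra
  obtain ⟨e, he, hind, P, D, hne, hrel⟩ := exists_primitive_relation N ℓ K0 hℓN x.2
  set a : LaurentSeries ℤℓ := -∑ i, evalAt (jv (1 : ℤℓˣ) 1) ((P i).map (Int.castRingHom ℤℓ)) *
    coeffMap (Int.castRingHom ℤℓ) (e i) with ha
  set b : LaurentSeries ℤℓ := evalAt (jv (1 : ℤℓˣ) 1) (D.map (Int.castRingHom ℤℓ)) with hb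
  have hab : toQ ℓ b * (x : LaurentSeries ℚ) = toQ ℓ a := by
    rw [ha, map_neg, map_sum, hb, coeffMap_evalAt_intMap, eq_neg_iff_add_eq_zero, ← hrel]
    refine congrArg _ (Finset.sum_congr rfl fun i _ => ?_)
    rw [map_mul, coeffMap_evalAt_intMap, toQ, coeffMap_coeffMap,
      RingHom.ext_int ((algebraMap ℤℓ ℚ).comp (Int.castRingHom _)) (Int.castRingHom ℚ)]
  have hb0 : b ≠ 0 := by
    intro h0
    have hD0 : D.map (Int.castRingHom ℤℓ) = 0 :=
      evalAt_jv_injective one_ne_zero (h0.trans (map_zero _).symm)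
    rw [h0, map_zero, zero_mul] at hab
    have h := congrArg (coeffMap (algebraMap ℤℓ K0))
      (toQ_injective ℓ (hab.symm.trans (map_zero _).symm))
    rw [ha, map_zero, map_neg, neg_eq_zero, map_sum] at h
    have h2 := hind (fun i => (P i).map (Int.castRingHom K0)) (by
      rw [← h]
      refine Finset.sum_congr rfl fun i _ => ?_
      rw [map_mul, coeffMap_evalAt_intMap, coeffMap_coeffMap, algebraMap_comp_intCast])
    rcases hne with hne | ⟨i, hi⟩
    · refine hne ?_
      rw [← algebraMap_comp_intCast ℓ K0, ← Polynomial.map_map, hD0, Polynomial.map_zero]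
    · exact hi (congrFun h2 i)
  -- `x` is integral over `ℤ₍ℓ₎((q))`
  let : Algebra (LaurentSeries ℤℓ) (LaurentSeries ℚ) := (toQ ℓ).toAlgebra
  have hint : IsIntegral (LaurentSeries ℤℓ) (x : LaurentSeries ℚ) := by
    obtain ⟨p, hp, hpx⟩ := hx
    have hl : p.map ((modularFunctionFieldFull N).toSubfield.subtype.comp
        (algebraMap (Algebra.adjoin ℤℓ S) F)) ∈
          lifts (algebraMap (LaurentSeries ℤℓ) (LaurentSeries ℚ)) := by
      rw [lifts_iff_coeff_lifts]
      intro n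
      rw [coeff_map]
      obtain ⟨y, hy⟩ := exists_series_of_mem_adjoin N ℓ hS (p.coeff n).2
      exact ⟨y, hy⟩
    obtain ⟨q, hq, -, hqm⟩ := lifts_and_natDegree_eq_and_monic hl (hp.map _)
    refine ⟨q, hqm, ?_⟩
    rw [← eval_map, hq, eval_map]
    exact (hom_eval₂ p _ (modularFunctionFieldFull N).toSubfield.subtype x).symm.trans
      ((congrArg _ hpx).trans (map_zero _))
  let Q := FractionRing (LaurentSeries ℤℓ)
  have := isIntegrallyClosed_laurentSeries ℓ
  let g : Q →ₐ[LaurentSeries ℤℓ] LaurentSeries ℚ :=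
    IsFractionRing.liftAlgHom (g := Algebra.ofId _ _) (toQ_injective ℓ)
  have hg : g (algebraMap _ Q a / algebraMap _ Q b) = (x : LaurentSeries ℚ) := by
    rw [map_div₀, AlgHom.commutes, AlgHom.commutes]
    show toQ ℓ a / toQ ℓ b = _
    rw [div_eq_iff ((map_ne_zero_iff _ (toQ_injective ℓ)).mpr hb0), mul_comm, hab]
  rw [← hg, isIntegral_algHom_iff g g.injective] at hint
  obtain ⟨y, hy⟩ := IsIntegrallyClosed.isIntegral_iff.mp hint
  exact ⟨y, by rw [← hg, ← hy, AlgHom.commutes]; rfl⟩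

omit [NeZero N] in
theorem coe_aeval_rat (x : F) (P : ℚ[X]) :
    ((aeval x P : F) : LaurentSeries ℚ) = evalAt (x : LaurentSeries ℚ) P := by
  show (modularFunctionFieldFull N).toSubfield.subtype (aeval x P) = _
  rw [aeval_def]
  refine (hom_eval₂ P _ _ x).trans ?_
  rw [evalAt, coe_eval₂RingHom]
  congr 1

/-- `j` is transcendental. -/
theorem transcendental_jFull : Transcendental ℚ (jFull N) := by
  rw [transcendental_iff]
  intro P hP
  have h : evalAt (jFull N : LaurentSeries ℚ) P = 0 := by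
    rw [← coe_aeval_rat, hP]; rfl
  rw [coe_jFull, ← jv_one_one_rat] at h
  exact evalAt_jv_injective one_ne_zero (h.trans (map_zero _).symm)

omit hℓ in
/-- `j` is transcendental over `ℤ_(ℓ)`. -/
theorem aeval_jFull_injective : Function.Injective (aeval (R := ℤℓ) (jFull N)) := by
  rw [injective_iff_map_eq_zero]
  intro P hP
  have h := (transcendental_iff.mp (transcendental_jFull N)) (P.map (algebraMap ℤℓ ℚ))
    (by rwa [aeval_map_algebraMap])
  exact (Polynomial.map_eq_zero_iff Subtype.val_injective).mp h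

omit hℓ in
theorem aeval_jFull_inv_injective : Function.Injective (aeval (R := ℤℓ) (jFull N)⁻¹) := by
  rw [injective_iff_map_eq_zero]
  intro P hP
  have htr : Transcendental ℚ (jFull N)⁻¹ := fun h =>
    transcendental_jFull N (by simpa using h.inv)
  have h := (transcendental_iff.mp htr) (P.map (algebraMap ℤℓ ℚ))
    (by rwa [aeval_map_algebraMap])
  exact (Polynomial.map_eq_zero_iff Subtype.val_injective).mp h

omit [NeZero N] hℓ in
/-- A chart in one variable consists of the elements integral over `ℤ₍ℓ₎[t]`. -/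
theorem isIntegral_iff_mem_chartAlg (t x : F) :
    (letI := (aeval (R := ℤℓ) t).toRingHom.toAlgebra; IsIntegral ℤℓ[X] x) ↔
      x ∈ chartAlg N ℓ {t} := by
  let := (aeval (R := ℤℓ) t).toRingHom.toAlgebra
  constructor
  · rintro ⟨p, hp, hpx⟩
    refine ⟨p.map ((aeval (R := ℤℓ) t).toRingHom.codRestrict _
      fun q => aeval_mem_adjoin_singleton ℤℓ t), hp.map _, ?_⟩
    rw [eval₂_map]
    exact hpx
  · rintro ⟨p, hp, hpx⟩
    have hl : p.map (algebraMap (Algebra.adjoin ℤℓ ({t} : Set F)) F) ∈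
        lifts (algebraMap ℤℓ[X] F) := by
      rw [lifts_iff_coeff_lifts]
      intro n
      rw [coeff_map]
      exact (Algebra.adjoin_singleton_eq_range_aeval ℤℓ t).le (p.coeff n).2
    obtain ⟨q, hq, -, hqm⟩ := lifts_and_natDegree_eq_and_monic hl (hp.map _)
    refine ⟨q, hqm, ?_⟩
    rw [← eval_map, hq, eval_map]
    exact hpx

/-- `ℓ` is prime in `ℤ_(ℓ)[X]`. -/
theorem prime_C_natCast : Prime (Polynomial.C (ℓ : ℤℓ) : ℤℓ[X]) :=
  Polynomial.prime_C_iff.mpr (prime_natCast_self ℓ)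

omit [NeZero N] in
/-- A chart in one variable is saturated with respect to polynomials prime to `ℓ`. -/
theorem mem_chartAlg_of_mul_mem {t : F} (ht : Function.Injective (aeval (R := ℤℓ) t))
    {a : ℤℓ[X]} (ha : ¬ Polynomial.C (ℓ : ℤℓ) ∣ a) {z : F}
    (h1 : (ℓ : F) * z ∈ chartAlg N ℓ {t}) (h2 : aeval t a * z ∈ chartAlg N ℓ {t}) :
    z ∈ chartAlg N ℓ {t} := by
  let : Algebra ℤℓ[X] F := (aeval (R := ℤℓ) t).toRingHom.toAlgebra
  rw [← isIntegral_iff_mem_chartAlg] at h1 h2 ⊢
  have := isPrincipalIdealRing_ratLocalizedAt ℓ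
  have : Module.IsTorsionFree ℤℓ[X] F := Module.isTorsionFree_iff_algebraMap_injective.mpr ht
  let := FractionRing.liftAlgebra ℤℓ[X] F
  refine isIntegral_of_smul_of_smul (FractionRing ℤℓ[X]) (prime_C_natCast ℓ) ha ?_ ?_
  · rw [Algebra.smul_def, RingHom.algebraMap_toAlgebra]
    simpa using h1
  · rw [Algebra.smul_def, RingHom.algebraMap_toAlgebra]
    exact h2

omit [IsAlgClosed K] [CharP K ℓ] [Algebra ↥(GaloisRep.ratLocalizedAt ℓ) K] in
/-- If `D(j) z` is a combination of the monomials with coefficients in `ℤ[j]`, it lies in the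
finite chart. -/
theorem aeval_mul_mem_chartAlgFin {e : Fin (psi N) → LaurentSeries ℤ} (he : ∀ i, e i ∈ monos N)
    (P : Fin (psi N) → ℤ[X]) (D : ℤ[X]) {z : F} {y : LaurentSeries ℤℓ}
    (hz : toQ ℓ y = (z : LaurentSeries ℚ))
    (hrel : evalAt (jv (1 : ℤℓˣ) 1) (D.map (Int.castRingHom ℤℓ)) * y +
      ∑ i, evalAt (jv (1 : ℤℓˣ) 1) ((P i).map (Int.castRingHom ℤℓ)) *
        coeffMap (Int.castRingHom ℤℓ) (e i) = 0) :
    aeval (jFull N) (D.map (Int.castRingHom ℤℓ)) * z ∈ chartAlg N ℓ {jFull N} := by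
  have hval : ∀ Q : ℤ[X], ((aeval (jFull N) (Q.map (Int.castRingHom ℤℓ)) : F) : LaurentSeries ℚ) =
      toQ ℓ (evalAt (jv (1 : ℤℓˣ) 1) (Q.map (Int.castRingHom ℤℓ))) := by
    intro Q
    rw [coeffMap_evalAt_intMap, jv_one_one_rat, ← coe_jFull N, ← coe_aeval_rat]
    congr 1
    rw [aeval_def, aeval_def, eval₂_map, eval₂_map,
      RingHom.ext_int ((algebraMap ℤℓ F).comp (Int.castRingHom ℤℓ))
        ((algebraMap ℚ F).comp (Int.castRingHom ℚ))]
  choose u hu huv using fun i => exists_mem_chartAlgFin_of_monos N ℓ (he i)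
  have heq : aeval (jFull N) (D.map (Int.castRingHom ℤℓ)) * z =
      -∑ i, aeval (jFull N) ((P i).map (Int.castRingHom ℤℓ)) * u i := by
    refine Subtype.ext ?_
    rw [NegMemClass.coe_neg, eq_neg_iff_add_eq_zero]
    have h2 := congrArg (toQ ℓ) hrel
    rw [map_zero, map_add, map_sum, map_mul, hz] at h2
    push_cast
    rw [hval, ← h2]
    refine congrArg _ (Finset.sum_congr rfl fun i _ => ?_)
    rw [hval, huv, map_mul, toQ, coeffMap_coeffMap,
      RingHom.ext_int ((algebraMap ℤℓ ℚ).comp (Int.castRingHom _)) (Int.castRingHom ℚ)]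
  rw [heq]
  exact neg_mem (sum_mem fun i _ => mul_mem
    (adjoin_le_chartAlg N ℓ _ (aeval_mem_adjoin_singleton ℤℓ _)) (hu i))

include ℓ in
/-- An element of a chart with zero reduction is a multiple of `ℓ` in the chart. -/
theorem exists_eq_natCast_mul (hℓN : ¬ ℓ ∣ N) {S : Set F} (hS : IsChartSet N S) {x : F}
    (hx : x ∈ chartAlg N ℓ S) {y : LaurentSeries ℤℓ} (h : toQ ℓ y = (x : LaurentSeries ℚ))
    (h0 : coeffMap (algebraMap ℤℓ K) y = 0) :
    ∃ x' ∈ chartAlg N ℓ S, x = (ℓ : F) * x' := by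
  have hℓF : (ℓ : F) ≠ 0 := Nat.cast_ne_zero.mpr hℓ.out.ne_zero
  refine ⟨x / (ℓ : F), ?_, by field_simp⟩
  set x' : F := x / (ℓ : F) with hx'
  have hℓx' : (ℓ : F) * x' = x := by rw [hx']; field_simp
  -- an integral series for `x'`
  obtain ⟨y', hy'⟩ : ∃ y', y = HahnSeries.C (ℓ : ℤℓ) * y' := by
    refine exists_eq_mul_series ℓ ?_
    ext n
    have hn : algebraMap ℤℓ K (y.coeff n) = 0 := by
      simpa using congrArg (fun z : LaurentSeries K => z.coeff n) h0
    rw [algebraMap_eq_cast_redZ] at hn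
    simpa using (map_eq_zero _).mp hn
  have hy'x : toQ ℓ y' = (x' : LaurentSeries ℚ) := by
    refine mul_left_cancel₀ (b := toQ ℓ y') (a := toQ ℓ (HahnSeries.C (ℓ : ℤℓ))) ?_ ?_
    · rw [toQ_C]; exact (map_ne_zero_iff _ HahnSeries.C_injective).mpr
        (by exact_mod_cast hℓ.out.ne_zero)
    · rw [← map_mul, ← hy', h, toQ_C, ← hℓx']
      push_cast
      rw [map_natCast]
  -- `x'` is integral over `ℤ₍ℓ₎[j]` away from the divisor of `D`
  obtain ⟨e, P, D, he, hD, hrel⟩ := exists_good_relation N ℓ K hℓN y'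
    (hy'x ▸ x'.2)
  set a : ℤℓ[X] := D.map (Int.castRingHom ℤℓ) with ha
  have hand : ¬ Polynomial.C (ℓ : ℤℓ) ∣ a := by
    rintro ⟨q, hq⟩
    refine hD ?_
    rw [← algebraMap_comp_intCast ℓ K, ← Polynomial.map_map, ← ha, hq, Polynomial.map_mul,
      Polynomial.map_C, map_natCast, CharP.cast_eq_zero, map_zero, zero_mul]
  have hcx : aeval (jFull N) a * x' ∈ chartAlg N ℓ {jFull N} :=
    aeval_mul_mem_chartAlgFin N ℓ he P D hy'x hrel
  have hfin : ∀ z, z * x ∈ chartAlg N ℓ {jFull N} → (z ∈ Algebra.adjoin ℤℓ ({jFull N} : Set F)) →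
      z * x' ∈ chartAlg N ℓ {jFull N} := by
    intro z hz hzA
    refine mem_chartAlg_of_mul_mem N ℓ (aeval_jFull_injective N ℓ) hand ?_ ?_
    · rwa [mul_left_comm, hℓx']
    · rw [mul_left_comm]
      exact mul_mem (adjoin_le_chartAlg N ℓ _ hzA) hcx
  have hmid : x' ∈ chartAlg N ℓ {jFull N, (jFull N)⁻¹} := by
    have hxm : x ∈ chartAlg N ℓ {jFull N, (jFull N)⁻¹} := chartAlg_mono N ℓ hS.subset hx
    rw [Set.pair_comm] at hxm
    obtain ⟨n, hn⟩ := exists_pow_mul_mem_chartAlg (Set.mem_singleton (jFull N))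
      (jFull_ne_zero N) hxm
    have hjA : jFull N ∈ Algebra.adjoin ℤℓ ({jFull N} : Set F) :=
      Algebra.subset_adjoin (Set.mem_singleton (jFull N))
    have hn' := hfin (jFull N ^ n) hn (pow_mem hjA n)
    have : x' = ((jFull N)⁻¹) ^ n * (jFull N ^ n * x') := by
      rw [← mul_assoc, ← mul_pow, inv_mul_cancel₀ (jFull_ne_zero N), one_pow, one_mul]
    rw [this]
    exact mul_mem (pow_mem (subset_chartAlg N ℓ _ (by simp)) n)
      (chartAlg_mono N ℓ (sFin_subset N) hn')
  rcases hS with rfl | rfl | rfl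
  · simpa using hfin 1 (by rwa [one_mul]) (one_mem _)
  · have hmid' : x' ∈ chartAlg N ℓ (insert (jFull N)⁻¹⁻¹ {(jFull N)⁻¹}) := by rwa [inv_inv]
    obtain ⟨n, hn⟩ := exists_pow_mul_mem_chartAlg (Set.mem_singleton (jFull N)⁻¹)
      (inv_ne_zero (jFull_ne_zero N)) hmid'
    refine mem_chartAlg_of_mul_mem N ℓ (aeval_jFull_inv_injective N ℓ) (a := X ^ n) ?_ ?_ ?_
    · intro hd
      have := (prime_C_natCast ℓ).dvd_of_dvd_pow hd
      rw [Polynomial.C_dvd_iff_dvd_coeff] at this
      exact (prime_natCast_self ℓ).not_dvd_one (by simpa using this 1)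
    · rwa [hℓx']
    · simpa using hn
  · exact hmid

/-- The reductions of the elements of a chart ring. -/
def redSet (S : Set F) : Set (LaurentSeries K) :=
  {z | ∃ y : LaurentSeries ℤℓ, ∃ x ∈ chartAlg N ℓ S,
    toQ ℓ y = (x : LaurentSeries ℚ) ∧ z = coeffMap (algebraMap ℤℓ K) y}

end Charts

end Fermat.Agent.Igusa
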