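import Mathlib
import Fermat.Agent.Grp.Index
import Fermat.Agent.Igusa.SmoothEmbed
import Fermat.Agent.Igusa.SmoothRed

/-!
# A generator of the function field that stays separable modulo `ℓ`

It is monic over the coordinate ring, generates the field and keeps a separable equation modulo
`ℓ`; it drives the purity argument for the charts.
-/

noncomputable section

open Polynomial IntermediateField ModularCurve

namespace Fermat.Agent.Igusa

/-- A ring map out of `ℤ₍ℓ₎` into a field of characteristic zero is unique. -/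
theorem ratLocalizedAt_ringHom_ext {ℓ : ℕ} {T : Type*} [Field T] [CharZero T]
    (f g : ↥(GaloisRep.ratLocalizedAt ℓ) →+* T) : f = g := by
  refine RingHom.ext fun q => ?_
  have h : q * ((q : ℚ).den : ↥(GaloisRep.ratLocalizedAt ℓ)) =
      ((q : ℚ).num : ↥(GaloisRep.ratLocalizedAt ℓ)) := by
    refine Subtype.ext ?_
    push_cast
    exact Rat.mul_den_eq_num _
  have hd : (((q : ℚ).den : ℕ) : T) ≠ 0 := Nat.cast_ne_zero.mpr (q : ℚ).den_nz
  refine mul_right_cancel₀ hd ?_
  rw [← map_natCast f, ← map_mul, h, map_intCast, map_natCast f, ← map_natCast g, ← map_mul, h,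
    map_intCast]

/-- Separability descends from a field to the fraction field of a subring. -/
theorem separable_map_fraction {R A K L : Type*} [CommRing R] [CommRing A] [Field K]
    [Algebra A K] [IsFractionRing A K] [Field L] (f : R →+* A) (g : A →+* L)
    (hg : Function.Injective g) (Q : R[X]) (h : (Q.map (g.comp f)).Separable) :
    (Q.map ((algebraMap A K).comp f)).Separable := by
  rw [← Polynomial.separable_map (IsFractionRing.lift hg : K →+* L), Polynomial.map_map,
    ← RingHom.comp_assoc]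
  have hl : (IsFractionRing.lift hg : K →+* L).comp (algebraMap A K) = g :=
    RingHom.ext fun P => IsFractionRing.lift_algebraMap hg P
  rwa [hl]

/-- Two separable elements are generated by `α + cⁱ β` for some `i`, if the powers of `c` are
pairwise distinct. -/
theorem exists_adjoin_add_pow_mul_eq {F E : Type*} [Field F] [Field E] [Algebra F E] {α β : E}
    (hα : IsSeparable F α) (hβ : IsSeparable F β) {c : F}
    (hc : Function.Injective fun i : ℕ => c ^ i) :
    ∃ i : ℕ, F⟮α + algebraMap F E c ^ i * β⟯ = F⟮α, β⟯ := by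
  set G := IntermediateField.adjoin F ({α, β} : Set E)
  have hsep : ∀ x ∈ ({α, β} : Set E), IsSeparable F x := by
    rintro x (rfl | rfl)
    exacts [hα, hβ]
  have : FiniteDimensional F G :=
    IntermediateField.finiteDimensional_adjoin fun x hx => (hsep x hx).isIntegral
  have : Algebra.IsSeparable F G :=
    (IntermediateField.isSeparable_adjoin_iff_isSeparable _ _).mpr hsep
  have : Finite (IntermediateField F G) :=
    Field.exists_primitive_element_iff_finite_intermediateField F G |>.mp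
      ⟨Algebra.IsAlgebraic.of_finite F G, Field.exists_primitive_element F G⟩
  have hmemG : ∀ i, α + algebraMap F E c ^ i * β ∈ G := fun i =>
    add_mem (subset_adjoin _ _ (by simp))
      (mul_mem (pow_mem (IntermediateField.algebraMap_mem _ c) _) (subset_adjoin _ _ (by simp)))
  let f : ℕ → IntermediateField F G := fun i =>
    (IntermediateField.adjoin F {α + algebraMap F E c ^ i * β}).comap G.val
  obtain ⟨i₁, i₂, hne, heq⟩ := Finite.exists_ne_map_eq_of_infinite f
  set H := IntermediateField.adjoin F {α + algebraMap F E c ^ i₁ * β}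
  have h1 : α + algebraMap F E c ^ i₁ * β ∈ H := mem_adjoin_simple_self F _
  have h2 : α + algebraMap F E c ^ i₂ * β ∈ H := by
    have : (⟨_, hmemG i₂⟩ : G) ∈ f i₂ := mem_adjoin_simple_self F _
    rw [← heq] at this
    exact this
  have hne' : algebraMap F E (c ^ i₁ - c ^ i₂) ≠ 0 :=
    (_root_.map_ne_zero _).mpr (sub_ne_zero.mpr fun h => hne (hc h))
  have hβ' : β ∈ H := by
    have h3 : β = (algebraMap F E (c ^ i₁ - c ^ i₂))⁻¹ *
        ((α + algebraMap F E c ^ i₁ * β) - (α + algebraMap F E c ^ i₂ * β)) := by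
      rw [eq_inv_mul_iff_mul_eq₀ hne', map_sub, map_pow, map_pow]
      ring
    rw [h3]
    exact mul_mem (inv_mem (IntermediateField.algebraMap_mem _ _)) (sub_mem h1 h2)
  have hα' : α ∈ H := by
    simpa using sub_mem h1 (mul_mem (pow_mem (IntermediateField.algebraMap_mem H c) i₁) hβ')
  refine ⟨i₁, le_antisymm (adjoin_simple_le_iff.mpr (hmemG i₁)) ?_⟩
  rw [IntermediateField.adjoin_le_iff]
  rintro x (rfl | rfl)
  exacts [hα', hβ']

/-- `Γ₀(N)` has index `ψ(N)`. -/
theorem natCard_coset_eq_psi (N : ℕ) [NeZero N] : Nat.card (Grp.X0Coset N) = psi N := by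
  have hN := NeZero.ne N
  clear ‹NeZero N›
  induction N using Nat.recOnPosPrimePosCoprime with
  | prime_pow p n hp hn =>
    rw [Grp.natCard_coset_prime_pow hp hn, psi, hp.factorization_pow, Finsupp.prod,
      Finsupp.support_single _ hn.ne', Finset.prod_singleton, Finsupp.single_eq_same]
    obtain ⟨m, rfl⟩ : ∃ m, n = m + 1 := ⟨n - 1, by omega⟩
    rw [Nat.add_sub_cancel, pow_succ]
    ring
  | zero => exact absurd rfl hN
  | one =>
    rw [psi_one, Nat.card_eq_one_iff_unique]
    refine ⟨⟨fun x y => ?_⟩, ⟨((1 : Matrix.SpecialLinearGroup (Fin 2) ℤ) : Grp.X0Coset 1)⟩⟩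
    induction x using QuotientGroup.induction_on with
    | _ g =>
    induction y using QuotientGroup.induction_on with
    | _ h => exact (Grp.mk_eq_mk_iff g h).mpr (by simp)
  | coprime a b ha hb hab iha ihb =>
    rw [Grp.natCard_coset_mul hab, iha (by omega), ihb (by omega), psi, psi, psi,
      Nat.factorization_mul_of_coprime hab,
      Finsupp.prod_add_index_of_disjoint (by
        simpa [Nat.support_factorization] using hab.disjoint_primeFactors)]

section CharP

variable {K : Type*} [Field K] [IsAlgClosed K]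

/-- `j(q^d)` is separable over `k(j)` for `d` invertible in `k`. -/
theorem isSeparable_jv {d : ℕ} (hd : (d : K) ≠ 0) :
    IsSeparable K⟮jv (1 : Kˣ) 1⟯ (jv (1 : Kˣ) d) := by
  induction d using induction_on_primes with
  | zero => simp at hd
  | one => exact isSeparable_algebraMap (⟨_, mem_adjoin_simple_self K _⟩ : K⟮jv (1 : Kˣ) 1⟯)
  | prime_mul p a hp ih =>
    have : Fact p.Prime := ⟨hp⟩
    push_cast at hd
    have ha : (a : K) ≠ 0 := right_ne_zero_of_mul hd
    have hpK : (p : K) ≠ 0 := left_ne_zero_of_mul hd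
    have ha0 : a ≠ 0 := by rintro rfl; simp at ha
    set E := separableClosure K⟮jv (1 : Kˣ) 1⟯ (LaurentSeries K) with hE
    have hmem : jv (1 : Kˣ) a ∈ E := mem_separableClosure_iff.mpr (ih ha)
    obtain ⟨Φ, hΦ⟩ := exists_isModPoly (p := p) hpK
    let g : Polynomial K →+* E := Polynomial.eval₂RingHom
      ((algebraMap K⟮jv (1 : Kˣ) 1⟯ E).comp (algebraMap K K⟮jv (1 : Kˣ) 1⟯)) ⟨_, hmem⟩
    have hg : (algebraMap E (LaurentSeries K)).comp g = evalAt (jv (1 : Kˣ) a) := by
      refine Polynomial.ringHom_ext (fun r => ?_) ?_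
      · simp only [g, RingHom.comp_apply, coe_eval₂RingHom, eval₂_C, evalAt_C]
        show algebraMap K (LaurentSeries K) r = _
        rw [algebraMap_laurentSeries_eq_single, HahnSeries.C_apply]
      · simp only [g, RingHom.comp_apply, coe_eval₂RingHom, eval₂_X, evalAt_X]
        rfl
    have hsep : (Φ.map g).Separable := by
      rw [← Polynomial.separable_map (algebraMap E (LaurentSeries K)), Polynomial.map_map, hg]
      exact isModPoly_separable hΦ ha0
    have hroot : aeval (jv (1 : Kˣ) (p * a)) (Φ.map g) = 0 := by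
      rw [aeval_def, eval₂_map, hg, eval₂_eq_eval_map, mul_comm]
      exact isModPoly_root_up hΦ ha0
    have hx : IsSeparable E (jv (1 : Kˣ) (p * a)) := hsep.of_dvd (minpoly.dvd _ _ hroot)
    have hbot := separableClosure.separableClosure_eq_bot K⟮jv (1 : Kˣ) 1⟯ (LaurentSeries K)
    have hx' : jv (1 : Kˣ) (p * a) ∈ separableClosure E (LaurentSeries K) :=
      mem_separableClosure_iff.mpr hx
    rw [hbot, IntermediateField.mem_bot] at hx'
    obtain ⟨⟨x, hxE⟩, rfl⟩ := hx'
    exact mem_separableClosure_iff.mp hxE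

/-- For `N` invertible in `K`, some `∑ j(q)^{m d} j(q^d)` over `d ∣ N` is separable of degree `ψ(N)`
over `K(j)`. -/
theorem exists_isSeparable_sum_jv {N : ℕ} (hN : (N : K) ≠ 0) :
    ∃ m : ℕ → ℕ,
      IsSeparable K⟮jv (1 : Kˣ) 1⟯
          (∑ d ∈ N.divisors, jv (1 : Kˣ) 1 ^ m d * jv (1 : Kˣ) d) ∧
        (minpoly K⟮jv (1 : Kˣ) 1⟯
          (∑ d ∈ N.divisors, jv (1 : Kˣ) 1 ^ m d * jv (1 : Kˣ) d)).natDegree = psi N := by
  classical
  set F₀ := K⟮jv (1 : Kˣ) 1⟯ with hF₀
  set j₀ : F₀ := ⟨_, mem_adjoin_simple_self K _⟩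
  have hsepd : ∀ d ∈ N.divisors, IsSeparable F₀ (jv (1 : Kˣ) d) := fun d hd => by
    refine isSeparable_jv ?_
    exact natCast_ne_zero_of_dvd hN (Nat.dvd_of_mem_divisors hd)
  have key : ∀ s ⊆ N.divisors, ∃ m : ℕ → ℕ,
      IntermediateField.adjoin F₀ {∑ d ∈ s, jv (1 : Kˣ) 1 ^ m d * jv (1 : Kˣ) d} =
        IntermediateField.adjoin F₀ ((fun d => jv (1 : Kˣ) d) '' (s : Set ℕ)) := by
    intro s
    induction s using Finset.induction_on with
    | empty => exact fun _ => ⟨0, by simp⟩
    | insert d s hds ih =>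
      intro hs
      rw [Finset.insert_subset_iff] at hs
      obtain ⟨m, hm⟩ := ih hs.2
      set α := ∑ e ∈ s, jv (1 : Kˣ) 1 ^ m e * jv (1 : Kˣ) e with hα
      have hαsep : IsSeparable F₀ α := by
        refine mem_separableClosure_iff.mp (sum_mem fun e he => mul_mem (pow_mem ?_ _) ?_)
        · exact IntermediateField.algebraMap_mem _ j₀
        · exact mem_separableClosure_iff.mpr (hsepd e (hs.2 he))
      have hinj : Function.Injective fun i : ℕ => j₀ ^ i := fun i₁ i₂ h => by
        have h' : evalAt (jv (1 : Kˣ) 1) (X ^ i₁) = evalAt (jv (1 : Kˣ) 1) (X ^ i₂) := by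
          rw [map_pow, map_pow, evalAt_X]
          exact congrArg Subtype.val h
        simpa using congrArg natDegree (evalAt_jv_injective one_ne_zero h')
      obtain ⟨i, hi⟩ := exists_adjoin_add_pow_mul_eq hαsep (hsepd d hs.1) hinj
      refine ⟨Function.update m d i, ?_⟩
      have hsum : ∑ e ∈ insert d s, jv (1 : Kˣ) 1 ^ Function.update m d i e * jv (1 : Kˣ) e =
          α + algebraMap F₀ (LaurentSeries K) j₀ ^ i * jv (1 : Kˣ) d := by
        rw [Finset.sum_insert hds, Function.update_self, add_comm, hα]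
        refine congrArg₂ (· + ·) (Finset.sum_congr rfl fun e he => ?_) rfl
        rw [Function.update_of_ne (fun h => hds (by rw [← h]; exact he))]
      rw [hsum, hi, Finset.coe_insert, Set.image_insert_eq, Set.insert_eq, adjoin_union,
        Set.insert_eq, adjoin_union, hm, sup_comm]
  obtain ⟨m, hm⟩ := key _ subset_rfl
  set θ := ∑ d ∈ N.divisors, jv (1 : Kˣ) 1 ^ m d * jv (1 : Kˣ) d
  have hsep : IsSeparable F₀ θ :=
    mem_separableClosure_iff.mp (sum_mem fun e he =>
      mul_mem (pow_mem (IntermediateField.algebraMap_mem _ j₀) _)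
        (mem_separableClosure_iff.mpr (hsepd e he)))
  refine ⟨m, hsep, ?_⟩
  have hN0 : N ≠ 0 := by rintro rfl; simp at hN
  have hfull : IntermediateField.adjoin F₀ {θ} =
      extendScalars (adjoin_j_le_full : F₀ ≤ modularFunctionFieldFullC K N) := by
    rw [hm]
    refine le_antisymm ?_ ?_
    · rw [IntermediateField.adjoin_le_iff]
      rintro _ ⟨d, hd, rfl⟩
      exact jv_mem_full (Nat.pos_of_mem_divisors hd).ne' (Nat.dvd_of_mem_divisors hd)
    · show (extendScalars (adjoin_j_le_full : F₀ ≤ modularFunctionFieldFullC K N)).restrictScalars K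
        ≤ (IntermediateField.adjoin F₀ _).restrictScalars K
      rw [extendScalars_restrictScalars, full_le_iff]
      exact fun d _ hd => subset_adjoin F₀ _ ⟨d, Nat.mem_divisors.mpr ⟨hd, hN0⟩, rfl⟩
  rw [← adjoin.finrank hsep.isIntegral, hfull, ← relfinrank_eq_finrank_of_le,
    relfinrank_full N hN]

end CharP

section CharZero

open ModularCurve.IgusaScheme

variable (N : ℕ) [NeZero N] (ℓ : ℕ) [hℓ : Fact ℓ.Prime]

set_option quotPrecheck false in
local notation "ℤℓ" => ↥(GaloisRep.ratLocalizedAt ℓ)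

set_option quotPrecheck false in
local notation "F" => ↥(modularFunctionFieldFull N)

/-- The coordinate of one of the two charts. -/
def IsChartGen (t : F) : Prop := t = jFull N ∨ t = (jFull N)⁻¹

omit hℓ in
/-- A chart coordinate is transcendental. -/
theorem IsChartGen.aeval_injective {t : F} (ht : IsChartGen N t) :
    Function.Injective (aeval (R := ℤℓ) t) := by
  rcases ht with rfl | rfl
  exacts [aeval_jFull_injective N ℓ, aeval_jFull_inv_injective N ℓ]

/-- The coordinate and its inverse are `j` and `1 / j`. -/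
theorem IsChartGen.pair_eq {t : F} (ht : IsChartGen N t) :
    insert t⁻¹ ({t} : Set F) = {jFull N, (jFull N)⁻¹} := by
  rcases ht with rfl | rfl
  · exact Set.pair_comm _ _
  · rw [inv_inv]

theorem IsChartGen.isChartSet {t : F} (ht : IsChartGen N t) : IsChartSet N {t} := by
  rcases ht with rfl | rfl
  exacts [Or.inl rfl, Or.inr (Or.inl rfl)]

/-- A field containing the coordinate contains `j`. -/
theorem IsChartGen.jFull_mem {t : F} (ht : IsChartGen N t) {G : Subfield F} (h : t ∈ G) :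
    jFull N ∈ G := by
  rcases ht with rfl | rfl
  exacts [h, inv_inv (jFull N) ▸ inv_mem h]

/-- `ℚ(t)` as the fraction field of `ℤ₍ℓ₎[t]`. -/
@[reducible]
def chartFieldAlgebra {t : F} (ht : IsChartGen N t) : Algebra (FractionRing ℤℓ[X]) F :=
  (IsFractionRing.lift (ht.aeval_injective N ℓ) : FractionRing ℤℓ[X] →+* F).toAlgebra

omit [NeZero N] hℓ in
theorem aeval_mem_of_mem {t : F} {G : Subfield F} (h : t ∈ G) (P : ℤℓ[X]) : aeval t P ∈ G := by
  induction P using Polynomial.induction_on' with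
  | add p q hp hq => rw [map_add]; exact add_mem hp hq
  | monomial n r =>
    rw [aeval_monomial]
    refine mul_mem ?_ (pow_mem h n)
    rw [ratLocalizedAt_ringHom_ext (algebraMap ℤℓ F)
      (((algebraMap ℚ F)).comp (algebraMap ℤℓ ℚ))]
    show algebraMap ℚ F _ ∈ G
    rw [eq_ratCast, Rat.cast_def]
    exact div_mem (intCast_mem G _) (natCast_mem G _)

omit hℓ in
/-- Any `ψ(N) + 1` functions are dependent over the coordinate ring. -/
theorem not_linearIndependent_chart {t : F} (ht : IsChartGen N t) (y : Fin (psi N + 1) → F) :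
    letI := chartFieldAlgebra N ℓ ht
    ¬ LinearIndependent (FractionRing ℤℓ[X]) y := by
  let := chartFieldAlgebra N ℓ ht
  intro hli
  obtain ⟨P, hP, hrel⟩ := exists_relation N (fun i => ((y i : F) : LaurentSeries ℚ))
      fun i => (y i).2
  set G : Subfield F := (algebraMap (FractionRing ℤℓ[X]) F).fieldRange with hG
  have htG : t ∈ G := ⟨algebraMap ℤℓ[X] _ X, by
    rw [RingHom.algebraMap_toAlgebra, IsFractionRing.lift_algebraMap]
    exact aeval_X t⟩
  choose g hg using fun i => (aeval_mem_of_mem N ℓ (ht.jFull_mem N htG)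
    ((P i).map (Int.castRingHom ℤℓ)) : aeval (jFull N) ((P i).map (Int.castRingHom ℤℓ)) ∈ G)
  have hval : ∀ i, ((algebraMap (FractionRing ℤℓ[X]) F (g i) : F) : LaurentSeries ℚ) =
      evalAt (jv (1 : ℚˣ) 1) ((P i).map (Int.castRingHom ℚ)) := by
    intro i
    rw [hg, jv_one_one_rat, ← coe_jFull N, ← coe_aeval_rat]
    congr 1
    rw [aeval_def, aeval_def, eval₂_map, eval₂_map,
      RingHom.ext_int ((algebraMap ℤℓ F).comp (Int.castRingHom ℤℓ))
        ((algebraMap ℚ F).comp (Int.castRingHom ℚ))]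
  have h0 : ∑ i, g i • y i = 0 := by
    refine Subtype.ext ?_
    rw [AddSubmonoidClass.coe_finsetSum, ZeroMemClass.coe_zero, ← hrel]
    refine Finset.sum_congr rfl fun i _ => ?_
    rw [Algebra.smul_def, MulMemClass.coe_mul, hval]
  have h1 := Fintype.linearIndependent_iff.mp hli g h0
  refine hP (funext fun i => ?_)
  have h2 := hval i
  rw [h1 i, map_zero, ZeroMemClass.coe_zero] at h2
  exact (Polynomial.map_eq_zero_iff (RingHom.injective_int _)).mp
    (evalAt_jv_injective one_ne_zero (h2.symm.trans (map_zero _).symm))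

omit hℓ in
/-- The function field has degree at most `ψ(N)` over `Frac ℤ₍ℓ₎[t]`. -/
theorem finiteDimensional_chart {t : F} (ht : IsChartGen N t) :
    letI := chartFieldAlgebra N ℓ ht
    FiniteDimensional (FractionRing ℤℓ[X]) F ∧ Module.finrank (FractionRing ℤℓ[X]) F ≤ psi N := by
  let := chartFieldAlgebra N ℓ ht
  have hr : Module.rank (FractionRing ℤℓ[X]) F ≤ psi N := rank_le fun s hs => by
    by_contra hlt
    rw [not_le] at hlt
    obtain ⟨s', hs's, hcard⟩ := Finset.exists_subset_card_eq hlt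
    refine not_linearIndependent_chart N ℓ ht
      (fun i => ((s'.equivFinOfCardEq hcard).symm i : F)) ?_
    exact (hs.comp (fun x : s' => (⟨x.1, hs's x.2⟩ : s))
      (fun a b h => Subtype.ext (congrArg (fun z : s => (z : F)) h))).comp _ (Equiv.injective _)
  have hfin : FiniteDimensional (FractionRing ℤℓ[X]) F :=
    Module.rank_lt_aleph0_iff.mp (hr.trans_lt (Cardinal.natCast_lt_aleph0))
  exact ⟨hfin, Module.finrank_le_of_rank_le hr⟩

omit [NeZero N] hℓ in
/-- The chart is the integral closure of `ℤ₍ℓ₎[t]`. -/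
theorem isIntegralClosure_chartAlg (t : F) [Algebra ℤℓ[X] (chartAlg N ℓ {t})] [Algebra ℤℓ[X] F]
    (hF : algebraMap ℤℓ[X] F = (aeval t).toRingHom) :
    IsIntegralClosure (chartAlg N ℓ {t}) ℤℓ[X] F where
  algebraMap_injective := Subtype.val_injective
  isIntegral_iff {x} := by
    have h := isIntegral_iff_mem_chartAlg N ℓ t x
    have e : ∀ {B : Algebra ℤℓ[X] F}, B.algebraMap = (aeval t).toRingHom →
        (@IsIntegral ℤℓ[X] F _ _ B x ↔ x ∈ chartAlg N ℓ {t}) := by
      intro B hB
      rw [← h]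
      show RingHom.IsIntegralElem B.algebraMap x ↔ RingHom.IsIntegralElem _ x
      rw [hB]
      rfl
    rw [e hF]
    exact ⟨fun h' => ⟨⟨x, h'⟩, rfl⟩, fun ⟨y, hy⟩ => hy ▸ y.2⟩

/-- A generator of `F` in the chart ring, with a separable equation modulo `ℓ`. -/
structure ChartWitness (t : F) where
  /-- The generator, in the chart ring. -/
  θ : F
  mem : θ ∈ chartAlg N ℓ {t}
  generates : ∀ G : Subfield F, t ∈ G → θ ∈ G → G = ⊤
  /-- Its monic equation over `ℤ₍ℓ₎[X]`, of degree `ψ(N)`. -/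
  Q : ℤℓ[X][X]
  monic : Q.Monic
  natDegree_eq : Q.natDegree = psi N
  eval_eq_zero : Q.eval₂ (aeval t).toRingHom θ = 0
  /-- The cofactor of `Q` in the Bézout relation modulo `ℓ`. -/
  U : ℤℓ[X][X]
  /-- The cofactor of `Q'` in the Bézout relation modulo `ℓ`. -/
  V : ℤℓ[X][X]
  /-- The constant `U Q + V Q'` modulo `ℓ`, nonzero modulo `ℓ`. -/
  a : ℤℓ[X]
  not_dvd : ¬ Polynomial.C (ℓ : ℤℓ) ∣ a
  dvd_coeff : ∀ i, Polynomial.C (ℓ : ℤℓ) ∣ (U * Q + V * derivative Q - Polynomial.C a).coeff i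

/-- A Bézout identity modulo `ℓ` lifts up to multiples of `ℓ`. -/
theorem exists_bezout_lift (Q : ℤℓ[X][X])
    (hsep : (Q.map ((algebraMap (Polynomial (ZMod ℓ)) (FractionRing (Polynomial (ZMod ℓ)))).comp
      (mapRingHom (redZ ℓ)))).Separable) :
    ∃ (U V : ℤℓ[X][X]) (a : ℤℓ[X]), ¬ Polynomial.C (ℓ : ℤℓ) ∣ a ∧
      ∀ i, Polynomial.C (ℓ : ℤℓ) ∣ (U * Q + V * derivative Q - Polynomial.C a).coeff i := by
  classical
  set κ := algebraMap (Polynomial (ZMod ℓ)) (FractionRing (Polynomial (ZMod ℓ)))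
  obtain ⟨u, v, huv⟩ := hsep
  obtain ⟨b, hb, hbu⟩ :=
    IsLocalization.integerNormalization_spec (nonZeroDivisors (Polynomial (ZMod ℓ))) u
  obtain ⟨c, hc, hcv⟩ :=
    IsLocalization.integerNormalization_spec (nonZeroDivisors (Polynomial (ZMod ℓ))) v
  set u₀ := IsLocalization.integerNormalization (nonZeroDivisors (Polynomial (ZMod ℓ))) u
  set v₀ := IsLocalization.integerNormalization (nonZeroDivisors (Polynomial (ZMod ℓ))) v
  have hsurj : Function.Surjective (mapRingHom (redZ ℓ)) := Polynomial.map_surjective _ fun z => by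
    obtain ⟨n, rfl⟩ := ZMod.intCast_surjective z
    exact ⟨n, map_intCast _ _⟩
  obtain ⟨U, hU⟩ := Polynomial.map_surjective _ hsurj (Polynomial.C c * u₀)
  obtain ⟨V, hV⟩ := Polynomial.map_surjective _ hsurj (Polynomial.C b * v₀)
  obtain ⟨a, ha⟩ := hsurj (b * c)
  refine ⟨U, V, a, ?_, fun i => ?_⟩
  · rintro ⟨q, rfl⟩
    rw [map_mul, coe_mapRingHom, Polynomial.map_C, redZ_natCast_self, map_zero, zero_mul] at ha
    exact nonZeroDivisors.ne_zero (mul_mem hb hc) ha.symm
  · have h0 : (U * Q + V * derivative Q - Polynomial.C a).map (mapRingHom (redZ ℓ)) = 0 := by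
      refine Polynomial.map_injective κ (IsFractionRing.injective _ _) ?_
      have hb' : (b : Polynomial (ZMod ℓ)) • u = Polynomial.C (κ b) * u := by
        rw [Algebra.smul_def]; rfl
      have hc' : (c : Polynomial (ZMod ℓ)) • v = Polynomial.C (κ c) * v := by
        rw [Algebra.smul_def]; rfl
      simp only [Polynomial.map_sub, Polynomial.map_add, Polynomial.map_mul, Polynomial.map_zero,
        Polynomial.map_C, hU, hV, ← derivative_map, ha]
      rw [show u₀.map κ = _ from hbu, show v₀.map κ = _ from hcv, hb', hc', Polynomial.map_map,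
        map_mul, map_mul]
      linear_combination (Polynomial.C (κ b) * Polynomial.C (κ c)) * huv
    have h1 : ((U * Q + V * derivative Q - Polynomial.C a).coeff i).map (redZ ℓ) = 0 := by
      rw [← coe_mapRingHom, ← coeff_map, h0, coeff_zero]
    exact exists_eq_mul_poly ℓ h1

/-- The sums of monomials in the `j(d τ)` lie in the finite chart. -/
theorem exists_mem_chartAlg_sum_jv (m : ℕ → ℕ) :
    ∃ θ₁ ∈ chartAlg N ℓ {jFull N}, (θ₁ : LaurentSeries ℚ) =
      toQ ℓ (∑ d ∈ N.divisors, jv (1 : ℤℓˣ) 1 ^ m d * jv (1 : ℤℓˣ) d) := by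
  refine Finset.sum_induction _ (fun z : LaurentSeries ℤℓ => ∃ w ∈ chartAlg N ℓ {jFull N},
    (w : LaurentSeries ℚ) = toQ ℓ z) ?_ ?_ fun d hd => ?_
  · rintro a b ⟨wa, ha, ha'⟩ ⟨wb, hb, hb'⟩
    exact ⟨wa + wb, add_mem ha hb, by rw [map_add, ← ha', ← hb']; rfl⟩
  · exact ⟨0, zero_mem _, by simp⟩
  · have hd0 : d ≠ 0 := (Nat.pos_of_mem_divisors hd).ne'
    have hj1 : jv (1 : ℤˣ) 1 ∈ monos N :=
      Submonoid.subset_closure ⟨1, one_ne_zero, one_dvd N, rfl⟩
    have hjd : jv (1 : ℤˣ) d ∈ monos N :=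
      Submonoid.subset_closure ⟨d, hd0, Nat.dvd_of_mem_divisors hd, rfl⟩
    have hmon : jv (1 : ℤˣ) 1 ^ m d * jv (1 : ℤˣ) d ∈ monos N :=
      mul_mem (pow_mem hj1 _) hjd
    obtain ⟨w, hw, hw'⟩ := exists_mem_chartAlgFin_of_monos N ℓ hmon
    refine ⟨w, hw, hw'.trans ?_⟩
    simp only [map_mul, map_pow, toQ, coeffMap_jv _ _ hd0, coeffMap_jv _ _ one_ne_zero, map_one]

omit hℓ in
/-- The reduced series of a chart coordinate is transcendental and lies in `K(j)`. -/
theorem IsChartGen.reduction_transcendental {K : Type*} [Field K] [Algebra ℤℓ K] {t : F}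
    (ht : IsChartGen N t)
    {τ : LaurentSeries ℤℓ} (hτ : toQ ℓ τ = (t : LaurentSeries ℚ)) :
    coeffMap (algebraMap ℤℓ K) τ ∈ K⟮jv (1 : Kˣ) 1⟯ ∧ coeffMap (algebraMap ℤℓ K) τ ≠ 0 ∧
      Transcendental K (coeffMap (algebraMap ℤℓ K) τ) := by
  set τK := coeffMap (algebraMap ℤℓ K) τ with hτK
  have hjO : toQ ℓ (jv (1 : ℤℓˣ) 1) = (jFull N : LaurentSeries ℚ) := by
    rw [toQ, coeffMap_jv _ _ one_ne_zero, map_one, jv_one_one_rat, coe_jFull]
  have hjK : coeffMap (algebraMap ℤℓ K) (jv (1 : ℤℓˣ) 1) = jv (1 : Kˣ) 1 := by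
    rw [coeffMap_jv _ _ one_ne_zero, map_one]
  have htr : Transcendental K (jv (1 : Kˣ) 1) := by
    rw [transcendental_iff]
    intro P hP
    rw [aeval_eq_evalAt] at hP
    exact evalAt_jv_injective one_ne_zero (hP.trans (map_zero _).symm)
  rcases ht with rfl | rfl
  · have : τ = jv (1 : ℤℓˣ) 1 := toQ_injective ℓ (hτ.trans hjO.symm)
    rw [hτK, this, hjK]
    exact ⟨mem_adjoin_simple_self K _, (fun h0 => htr (h0 ▸ isAlgebraic_zero)), htr⟩
  · have h1 : τ * jv (1 : ℤℓˣ) 1 = 1 := toQ_injective ℓ (by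
      rw [map_mul, hτ, hjO, map_one, IntermediateField.coe_inv, inv_mul_cancel₀]
      exact fun h0 => jFull_ne_zero N (Subtype.ext h0))
    have h2 : τK = (jv (1 : Kˣ) 1)⁻¹ := eq_inv_of_mul_eq_one_left (by
      rw [hτK, ← hjK, ← map_mul, h1, map_one])
    rw [h2]
    exact ⟨inv_mem (mem_adjoin_simple_self K _),
        inv_ne_zero (fun h0 => htr (h0 ▸ isAlgebraic_zero)),
      fun h => htr (by simpa using h.inv)⟩

/-- An element of the chart has a series reducing to a separable element of degree `ψ(N)` over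
`K(j)`, for `K` an algebraically closed field of characteristic `ℓ`. -/
theorem exists_mem_chartAlg_isSeparable_red {K : Type*} [Field K] [IsAlgClosed K] [Algebra ℤℓ K]
    (hNK : (N : K) ≠ 0) {t : F} (ht : IsChartGen N t) :
    ∃ θ ∈ chartAlg N ℓ {t}, ∃ σ : LaurentSeries ℤℓ, toQ ℓ σ = (θ : LaurentSeries ℚ) ∧
      IsSeparable K⟮jv (1 : Kˣ) 1⟯ (coeffMap (algebraMap ℤℓ K) σ) ∧
      (minpoly K⟮jv (1 : Kˣ) 1⟯ (coeffMap (algebraMap ℤℓ K) σ)).natDegree = psi N := by
  classical
  obtain ⟨m, hsep, hdeg⟩ := exists_isSeparable_sum_jv (K := K) (N := N) hNK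
  set F₀ := K⟮jv (1 : Kˣ) 1⟯ with hF₀
  set θk := ∑ d ∈ N.divisors, jv (1 : Kˣ) 1 ^ m d * jv (1 : Kˣ) d with hθk
  -- the lift `θ₁ ∈ F`, and its series
  obtain ⟨θ₁, hθ₁mem, hθ₁⟩ := exists_mem_chartAlg_sum_jv N ℓ m
  have hθmid : θ₁ ∈ chartAlg N ℓ (insert t⁻¹ {t}) := by
    rw [ht.pair_eq]; exact chartAlg_mono N ℓ (sFin_subset N) hθ₁mem
  have ht0 : t ≠ 0 := by
    rcases ht with rfl | rfl
    exacts [jFull_ne_zero N, inv_ne_zero (jFull_ne_zero N)]
  obtain ⟨e, hθmem⟩ := exists_pow_mul_mem_chartAlg (Set.mem_singleton t) ht0 hθmid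
  set θ := t ^ e * θ₁
  -- the series of `t` and its reduction
  obtain ⟨τ, hτ⟩ := exists_series_of_mem_adjoin N ℓ (ht.isChartSet N).subset
    (Algebra.subset_adjoin (Set.mem_singleton t))
  set τK := coeffMap (algebraMap ℤℓ K) τ with hτK
  obtain ⟨hτmem, hτne, -⟩ := IsChartGen.reduction_transcendental N ℓ (K := K) ht hτ
  set yK := τK ^ e * θk with hyK
  have hyKser : coeffMap (algebraMap ℤℓ K)
      (τ ^ e * ∑ d ∈ N.divisors, jv (1 : ℤℓˣ) 1 ^ m d * jv (1 : ℤℓˣ) d) = yK := by
    rw [hyK, map_mul, map_pow, map_sum, hθk]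
    refine congrArg _ (Finset.sum_congr rfl fun d hd => ?_)
    rw [map_mul, map_pow, coeffMap_jv _ _ (Nat.pos_of_mem_divisors hd).ne',
      coeffMap_jv _ _ one_ne_zero, map_one]
  -- separability and degree of `yK`
  set τ₀ : F₀ := ⟨τK, hτmem⟩
  have hadj : F₀⟮yK⟯ = F₀⟮θk⟯ := by
    refine le_antisymm (adjoin_simple_le_iff.mpr ?_) (adjoin_simple_le_iff.mpr ?_)
    · exact mul_mem (pow_mem (IntermediateField.algebraMap_mem _ τ₀) _)
        (mem_adjoin_simple_self F₀ _)
    · rw [show θk = ((algebraMap F₀ (LaurentSeries K)) (τ₀ ^ e))⁻¹ * yK by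
        rw [map_pow, hyK]; exact (inv_mul_cancel_left₀ (pow_ne_zero _ hτne) _).symm]
      exact mul_mem (inv_mem (IntermediateField.algebraMap_mem _ _)) (mem_adjoin_simple_self F₀ _)
  have hysep : IsSeparable F₀ yK :=
    mem_separableClosure_iff.mp (mul_mem (pow_mem (IntermediateField.algebraMap_mem _ τ₀) _)
      (mem_separableClosure_iff.mpr hsep))
  have hydeg : (minpoly F₀ yK).natDegree = psi N := by
    rw [← hdeg, ← adjoin.finrank hysep.isIntegral, ← adjoin.finrank hsep.isIntegral, hadj]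
  refine ⟨θ, hθmem, τ ^ e * ∑ d ∈ N.divisors, jv (1 : ℤℓˣ) 1 ^ m d * jv (1 : ℤℓˣ) d, ?_,
    hyKser.symm ▸ hysep, hyKser.symm ▸ hydeg⟩
  rw [map_mul, map_pow, hτ, ← hθ₁]
  rfl

omit hℓ in
/-- An element of full degree over `Frac ℤ₍ℓ₎[t]` generates the function field with `t`. -/
theorem eq_top_of_natDegree_minpoly_eq {t : F} (ht : IsChartGen N t) (θ : F) {G : Subfield F}
    (htG : t ∈ G) (hθG : θ ∈ G)
    (hdeg : letI := chartFieldAlgebra N ℓ ht
      (minpoly (FractionRing ℤℓ[X]) θ).natDegree = Module.finrank (FractionRing ℤℓ[X]) F) :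
    G = ⊤ := by
  let : Algebra ℤℓ[X] F := (aeval (R := ℤℓ) t).toRingHom.toAlgebra
  let algK₁ := chartFieldAlgebra N ℓ ht
  have : IsScalarTower ℤℓ[X] (FractionRing ℤℓ[X]) F :=
    IsScalarTower.of_algebraMap_eq fun P => (IsFractionRing.lift_algebraMap _ _).symm
  obtain ⟨hfin, -⟩ := finiteDimensional_chart N ℓ ht
  have htop : (FractionRing ℤℓ[X])⟮θ⟯ = ⊤ := by
    refine IntermediateField.eq_of_le_of_finrank_eq le_top ?_
    rw [adjoin.finrank (IsIntegral.of_finite _ θ), hdeg, IntermediateField.finrank_top']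
  refine eq_top_iff.mpr fun x hx' => ?_
  clear hx'
  have hx : x ∈ (FractionRing ℤℓ[X])⟮θ⟯ := htop ▸ IntermediateField.mem_top
  induction hx using IntermediateField.adjoin_induction with
  | mem y hy => rw [Set.mem_singleton_iff] at hy; rwa [hy]
  | algebraMap c =>
    obtain ⟨p, q, -, rfl⟩ := IsFractionRing.div_surjective (A := ℤℓ[X]) c
    rw [map_div₀, ← IsScalarTower.algebraMap_apply, ← IsScalarTower.algebraMap_apply]
    exact div_mem (aeval_mem_of_mem N ℓ htG p) (aeval_mem_of_mem N ℓ htG q)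
  | add y z _ _ hy hz => exact add_mem hy hz
  | inv y _ hy => exact inv_mem hy
  | mul y z _ _ hy hz => exact mul_mem hy hz

/-- A witness exists for every chart coordinate `t`, and `F` has degree `ψ(N)` over `ℚ(t)`. -/
theorem nonempty_chartWitness (hℓN : ¬ ℓ ∣ N) {t : F} (ht : IsChartGen N t) :
    Nonempty (ChartWitness N ℓ t) ∧
      (letI := chartFieldAlgebra N ℓ ht; Module.finrank (FractionRing ℤℓ[X]) F = psi N) := by
  classical
  -- reduce modulo `ℓ` inside an algebraically closed field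
  let K := AlgebraicClosure (ZMod ℓ)
  have : CharP K ℓ := charP_of_injective_algebraMap (algebraMap (ZMod ℓ) K).injective ℓ
  let : Algebra ℤℓ K := ((algebraMap (ZMod ℓ) K).comp (redZ ℓ)).toAlgebra
  have hNK : (N : K) ≠ 0 := by rwa [Ne, CharP.cast_eq_zero_iff K ℓ]
  obtain ⟨θ, hθmem, σ, hser, hysep, hydeg⟩ :=
    exists_mem_chartAlg_isSeparable_red N ℓ (K := K) hNK ht
  set F₀ := K⟮jv (1 : Kˣ) 1⟯ with hF₀
  set yK := coeffMap (algebraMap ℤℓ K) σ with hyK
  -- the series of `t` and its reduction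
  obtain ⟨τ, hτ⟩ := exists_series_of_mem_adjoin N ℓ (ht.isChartSet N).subset
    (Algebra.subset_adjoin (Set.mem_singleton t))
  set τK := coeffMap (algebraMap ℤℓ K) τ with hτK
  obtain ⟨hτmem, -, hτtr⟩ := IsChartGen.reduction_transcendental N ℓ (K := K) ht hτ
  set τ₀ : F₀ := ⟨τK, hτmem⟩
  -- the equation of `θ`
  let : Algebra ℤℓ[X] F := (aeval (R := ℤℓ) t).toRingHom.toAlgebra
  have := isPrincipalIdealRing_ratLocalizedAt ℓ
  have : Module.IsTorsionFree ℤℓ[X] F :=
    Module.isTorsionFree_iff_algebraMap_injective.mpr (ht.aeval_injective N ℓ)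
  let algK₁ := chartFieldAlgebra N ℓ ht
  have : IsScalarTower ℤℓ[X] (FractionRing ℤℓ[X]) F :=
    IsScalarTower.of_algebraMap_eq fun P => (IsFractionRing.lift_algebraMap _ _).symm
  obtain ⟨hfin, hle⟩ := finiteDimensional_chart N ℓ ht
  have hint : IsIntegral ℤℓ[X] θ := (isIntegral_iff_mem_chartAlg N ℓ t θ).mpr hθmem
  set Q := minpoly ℤℓ[X] θ with hQ
  have hQm : Q.Monic := minpoly.monic hint
  have hQK : minpoly (FractionRing ℤℓ[X]) θ = Q.map (algebraMap _ _) :=
    minpoly.isIntegrallyClosed_eq_field_fractions' _ hint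
  have hQle : Q.natDegree ≤ psi N := by
    have := minpoly.natDegree_le (A := FractionRing ℤℓ[X]) θ
    rw [hQK, hQm.natDegree_map] at this
    exact this.trans hle
  -- the reduced equation
  let g₀ : Polynomial (ZMod ℓ) →+* F₀ :=
    eval₂RingHom ((algebraMap K F₀).comp (algebraMap (ZMod ℓ) K)) τ₀
  have hg₀ : Function.Injective g₀ := by
    rw [injective_iff_map_eq_zero]
    intro P hP
    have h := transcendental_iff.mp hτtr (P.map (algebraMap (ZMod ℓ) K)) (by
      rw [aeval_def, eval₂_map]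
      have := congrArg (algebraMap F₀ (LaurentSeries K)) hP
      rw [map_zero, coe_eval₂RingHom, hom_eval₂] at this
      exact this)
    exact (Polynomial.map_eq_zero_iff (algebraMap (ZMod ℓ) K).injective).mp h
  let h₀ : ℤℓ[X] →+* F₀ := g₀.comp (mapRingHom (redZ ℓ))
  let eO : ℤℓ[X] →+* LaurentSeries ℤℓ := eval₂RingHom HahnSeries.C τ
  have hθ0 : Q.eval₂ (algebraMap ℤℓ[X] F) θ = 0 := by
    have h := minpoly.aeval ℤℓ[X] θ
    rwa [aeval_def] at h
  have he₁ : (toQ ℓ).comp eO =
      (modularFunctionFieldFull N).toSubfield.subtype.comp (algebraMap ℤℓ[X] F) := by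
    refine Polynomial.ringHom_ext (fun r => ?_) ?_
    · exact RingHom.congr_fun (@ratLocalizedAt_ringHom_ext ℓ (LaurentSeries ℚ) _
        (charZero_of_injective_ringHom HahnSeries.C_injective)
        (((toQ ℓ).comp eO).comp Polynomial.C)
        (((modularFunctionFieldFull N).toSubfield.subtype.comp (algebraMap ℤℓ[X] F)).comp
          Polynomial.C)) r
    · simp only [eO, RingHom.comp_apply, coe_eval₂RingHom, eval₂_X, hτ]
      rw [RingHom.algebraMap_toAlgebra]
      exact (congrArg _ (aeval_X t)).symm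
  have he₂ : (coeffMap (algebraMap ℤℓ K)).comp eO = (algebraMap F₀ (LaurentSeries K)).comp h₀ := by
    refine Polynomial.ringHom_ext (fun r => ?_) ?_
    · simp only [eO, h₀, g₀, RingHom.comp_apply, coe_eval₂RingHom, coe_mapRingHom,
        Polynomial.map_C, eval₂_C, coeffMap_C]
      show _ = algebraMap K (LaurentSeries K) _
      rw [algebraMap_laurentSeries_eq_single, HahnSeries.C_apply]
      rfl
    · simp only [eO, h₀, g₀, RingHom.comp_apply, coe_eval₂RingHom, coe_mapRingHom,
        Polynomial.map_X, eval₂_X]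
      rfl
  have hyroot : aeval yK (Q.map h₀) = 0 := by
    have h1 : Q.eval₂ eO σ = 0 := by
      refine toQ_injective ℓ ?_
      rw [map_zero, hom_eval₂, he₁, hser]
      exact (hom_eval₂ Q _ (modularFunctionFieldFull N).toSubfield.subtype θ).symm.trans
        ((congrArg _ hθ0).trans (map_zero _))
    have h2 := congrArg (coeffMap (algebraMap ℤℓ K)) h1
    rw [map_zero, hom_eval₂, he₂, ← hyK] at h2
    rw [aeval_def, eval₂_map]
    exact h2
  have hQmin : Q.map h₀ = minpoly F₀ yK := by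
    refine eq_of_monic_of_dvd_of_natDegree_le (minpoly.monic hysep.isIntegral) (hQm.map _)
      (minpoly.dvd _ _ hyroot) ?_
    rw [hQm.natDegree_map, hydeg]
    exact hQle
  have hQdeg : Q.natDegree = psi N := by rw [← hydeg, ← hQmin, hQm.natDegree_map]
  have hsepQ : (Q.map ((algebraMap (Polynomial (ZMod ℓ)) (FractionRing (Polynomial (ZMod ℓ)))).comp
      (mapRingHom (redZ ℓ)))).Separable := by
    have hmin : (Q.map h₀).Separable := hQmin.symm ▸ hysep
    exact separable_map_fraction (mapRingHom (redZ ℓ)) g₀ hg₀ Q hmin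
  obtain ⟨U, V, a, ha, hb⟩ := exists_bezout_lift ℓ Q hsepQ
  have hrank : Module.finrank (FractionRing ℤℓ[X]) F = psi N := by
    refine le_antisymm hle ?_
    have := minpoly.natDegree_le (A := FractionRing ℤℓ[X]) θ
    rwa [hQK, hQm.natDegree_map, hQdeg] at this
  exact ⟨⟨⟨θ, hθmem,
    fun G htG hθG => eq_top_of_natDegree_minpoly_eq N ℓ ht θ htG hθG
      (by rw [hQK, hQm.natDegree_map, hQdeg, hrank]),
    Q, hQm, hQdeg, minpoly.aeval ℤℓ[X] θ, U, V, a, ha, hb⟩⟩, hrank⟩

omit hℓ in
/-- The roots of the equation of the generator in a conjugate expansion. -/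
theorem ChartWitness.exists_roots {t : F} (W : ChartWitness N ℓ t) (ψ : X0.Expansion N)
    {τJ : LaurentSeries ℂ}
    (hτJ : ∀ φ : F →+* LaurentSeries ℂ, φ (jFull N) = jSeries N ψ → φ t = τJ)
    {e : ℤℓ[X] →+* LaurentSeries ℂ} (he : e X = τJ) :
    ∃ r : Fin W.Q.natDegree → LaurentSeries ℂ, Function.Injective r ∧
      ∀ i, W.Q.eval₂ e (r i) = 0 := by
  obtain ⟨φ, hφ, hφj⟩ := exists_embeddings N ψ
  have : Finite (Matrix.SpecialLinearGroup (Fin 2) ℤ ⧸ CongruenceSubgroup.Gamma0 N) := by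
    refine Nat.finite_of_card_ne_zero ?_
    show Nat.card (Grp.X0Coset N) ≠ 0
    rw [natCard_coset_eq_psi]
    exact (psi_pos N).ne'
  let σ : Fin W.Q.natDegree ≃ Matrix.SpecialLinearGroup (Fin 2) ℤ ⧸ CongruenceSubgroup.Gamma0 N :=
    (finCongr ((W.natDegree_eq).trans (natCard_coset_eq_psi N).symm)).trans
      (Finite.equivFin _).symm
  have : CharZero (LaurentSeries ℂ) := charZero_of_injective_ringHom HahnSeries.C_injective
  refine ⟨fun i => φ (σ i) W.θ, fun i i' h => ?_, fun i => ?_⟩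
  · refine σ.injective (hφ (RingHom.ext fun x => ?_))
    have htop := W.generates (RingHom.eqLocusField (φ (σ i)) (φ (σ i')))
      (show φ (σ i) t = φ (σ i') t by rw [hτJ _ (hφj _), hτJ _ (hφj _)]) h
    exact (htop ▸ Subfield.mem_top x : x ∈ RingHom.eqLocusField (φ (σ i)) (φ (σ i')))
  · have he' : e = (φ (σ i)).comp (aeval t).toRingHom := by
      refine Polynomial.ringHom_ext (fun r => ?_) ?_
      · exact RingHom.congr_fun (ratLocalizedAt_ringHom_ext (e.comp Polynomial.C)
          (((φ (σ i)).comp (aeval t).toRingHom).comp Polynomial.C)) r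
      · rw [he, RingHom.comp_apply]
        exact ((hτJ _ (hφj _)).symm.trans (congrArg (φ (σ i)) (aeval_X t).symm))
    rw [he', ← hom_eval₂, W.eval_eq_zero, map_zero]

end CharZero

end Fermat.Agent.Igusa
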