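import Mathlib
import Fermat.Agent.Igusa.SmoothWitness

/-!
# The expansion of the special fibre of a chart ring

The fibre embeds into `k((q))`; hence the reductions of the chart span a domain, whose normality
is the statement about the reduced curve.
-/

noncomputable section

open Polynomial ModularCurve ModularCurve.IgusaScheme
open scoped TensorProduct

namespace Fermat.Agent.Igusa

/-- A ring map out of a tensor product of algebras. -/
def tensorRingHom {O k S T : Type*} [CommRing O] [CommRing k] [CommRing S] [CommRing T]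
    [Algebra O k] [Algebra O S] (f : k →+* T) (g : S →+* T)
    (h : ∀ r, g (algebraMap O S r) = f (algebraMap O k r)) : k ⊗[O] S →+* T :=
  letI : Algebra O T := (f.comp (algebraMap O k)).toAlgebra
  letI : Algebra k T := f.toAlgebra
  haveI : IsScalarTower O k T := IsScalarTower.of_algebraMap_eq fun _ => rfl
  (Algebra.TensorProduct.lift (Algebra.ofId k T) { g with commutes' := h }
    fun _ _ => Commute.all _ _).toRingHom

theorem tensorRingHom_tmul {O k S T : Type*} [CommRing O] [CommRing k] [CommRing S] [CommRing T]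
    [Algebra O k] [Algebra O S] (f : k →+* T) (g : S →+* T)
    (h : ∀ r, g (algebraMap O S r) = f (algebraMap O k r)) (a : k) (x : S) :
    tensorRingHom f g h (a ⊗ₜ[O] x) = f a * g x := rfl

variable (N : ℕ) [NeZero N] (ℓ : ℕ) [hℓ : Fact ℓ.Prime]

set_option quotPrecheck false in
local notation "ℤℓ" => ↥(GaloisRep.ratLocalizedAt ℓ)

set_option quotPrecheck false in
local notation "F" => ↥(modularFunctionFieldFull N)

/-- The structure map of `L((q))` sends a scalar to the constant series. -/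
theorem algebraMap_laurent_eq_C {R L : Type*} [CommRing R] [CommRing L] [Algebra R L] (a : R) :
    algebraMap R (LaurentSeries L) a = HahnSeries.C (algebraMap R L a) := by
  rw [HahnSeries.algebraMap_apply', PowerSeries.algebraMap_apply, HahnSeries.ofPowerSeries_C]

variable {N ℓ}

/-- The integral `q`-expansion of the elements of a chart. -/
def chartExpansion (hℓN : ¬ ℓ ∣ N) {S : Set F}
    (hS : S ⊆ {jFull N, (jFull N)⁻¹}) :
    chartAlg N ℓ S →ₐ[ℤℓ]
      LaurentSeries ℤℓ :=
  have key := fun x : chartAlg N ℓ S => (exists_series N ℓ hℓN hS x.2).choose_spec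
  { toFun := fun x => (exists_series N ℓ hℓN hS x.2).choose
    map_one' := toQ_injective ℓ (by rw [key, map_one]; rfl)
    map_mul' := fun x y => toQ_injective ℓ (by rw [key, map_mul, key, key]; rfl)
    map_zero' := toQ_injective ℓ (by rw [key, map_zero]; rfl)
    map_add' := fun x y => toQ_injective ℓ (by rw [key, map_add, key, key]; rfl)
    commutes' := fun a => toQ_injective ℓ (by
      rw [key, algebraMap_laurent_eq_C, toQ_C]
      exact coe_algebraMap_full a) }

/-- The integral expansion of a chart element has the same coefficients as its expansion. -/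
theorem toQ_chartExpansion (hℓN : ¬ ℓ ∣ N) {S : Set F}
    (hS : S ⊆ {jFull N, (jFull N)⁻¹}) (x : chartAlg N ℓ S) :
    toQ ℓ (chartExpansion hℓN hS x) =
      ((x : F) : LaurentSeries ℚ) :=
  (exists_series N ℓ hℓN hS x.2).choose_spec

variable (K : Type*) [Field K] [CharP K ℓ] [Algebra ↥(GaloisRep.ratLocalizedAt ℓ) K]

variable (hℓN : ¬ ℓ ∣ N) {t : ↥(modularFunctionFieldFull N)} (ht : IsChartGen N t)

omit [NeZero N] hℓ in
/-- A shortcut: without it the search goes through actions of the function field. -/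
theorem smulCommClass_chartAlg (S : Set F) :
    SMulCommClass ℤℓ (chartAlg N ℓ S) (chartAlg N ℓ S) :=
  Algebra.to_smulCommClass

attribute [local instance] smulCommClass_chartAlg

include hℓN ht in
/-- An element of the chart has an integral expansion. -/
theorem exists_chart_series (x : chartAlg N ℓ {t}) :
    ∃ y, toQ ℓ y = ((x : F) : LaurentSeries ℚ) :=
  exists_series N ℓ hℓN (ht.isChartSet N).subset x.2

/-- The reduced expansion on a chart ring. -/
def redHom : chartAlg N ℓ {t} →+* LaurentSeries K :=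
  (coeffMap (algebraMap ℤℓ K)).comp (chartExpansion hℓN (ht.isChartSet N).subset).toRingHom

omit [CharP K ℓ] in
/-- The reduction is computed by any integral expansion. -/
theorem redHom_eq {x : chartAlg N ℓ {t}} {y : LaurentSeries ℤℓ}
    (hy : toQ ℓ y = ((x : F) : LaurentSeries ℚ)) :
    redHom K hℓN ht x = coeffMap (algebraMap ℤℓ K) y :=
  congrArg (coeffMap (algebraMap ℤℓ K))
    (toQ_injective ℓ ((toQ_chartExpansion hℓN _ x).trans hy.symm))

omit [CharP K ℓ] in
theorem redHom_algebraMap (r : ℤℓ) :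
    redHom K hℓN ht (algebraMap ℤℓ (chartAlg N ℓ {t}) r) = HahnSeries.C (algebraMap ℤℓ K r) := by
  show coeffMap _ (chartExpansion hℓN _ (algebraMap _ _ r)) = _
  rw [AlgHom.commutes, algebraMap_laurent_eq_C, coeffMap_C]
  rfl

/-- `k ⊗ S → k((q))`. -/
def fibreExp : K ⊗[ℤℓ] chartAlg N ℓ {t} →+* LaurentSeries K :=
  tensorRingHom (HahnSeries.C : K →+* LaurentSeries K) (redHom K hℓN ht)
    (redHom_algebraMap K hℓN ht)

omit [CharP K ℓ] in
/-- The expansion of a pure tensor. -/
theorem fibreExp_tmul (β : K) (x : chartAlg N ℓ {t}) :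
    fibreExp K hℓN ht (β ⊗ₜ[ℤℓ] x) = HahnSeries.C β * redHom K hℓN ht x :=
  tensorRingHom_tmul _ _ _ β x

omit [CharP K ℓ] in
theorem fibreExp_algebraMap (β : K) :
    fibreExp K hℓN ht (algebraMap K (K ⊗[ℤℓ] chartAlg N ℓ {t}) β) = HahnSeries.C β := by
  rw [Algebra.TensorProduct.algebraMap_apply, Algebra.algebraMap_self_apply, fibreExp_tmul,
    map_one, mul_one]

omit [NeZero N] [CharP K ℓ] in
/-- An element of `k ⊗ A` is a finite sum over a basis of `k` over `𝔽_ℓ`. -/
theorem exists_eq_sum_basis_tmul {ι : Type*} [Algebra (ZMod ℓ) K] (b : Module.Basis ι (ZMod ℓ) K)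
    {A : Type*} [CommRing A] [Algebra ℤℓ A] (z : K ⊗[ℤℓ] A) :
    ∃ f : ι →₀ A, z = f.sum fun i x => b i ⊗ₜ[ℤℓ] x := by
  classical
  induction z using TensorProduct.induction_on with
  | zero => exact ⟨0, by rw [Finsupp.sum_zero_index]⟩
  | add x y hx hy =>
    obtain ⟨f, rfl⟩ := hx
    obtain ⟨g, rfl⟩ := hy
    exact ⟨f + g, (Finsupp.sum_add_index' (fun i => TensorProduct.tmul_zero _ _)
      fun i u v => TensorProduct.tmul_add _ u v).symm⟩
  | tmul β x =>
    refine ⟨(b.repr β).sum fun i c => Finsupp.single i (c.val • x), ?_⟩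
    rw [Finsupp.sum_sum_index (fun i => TensorProduct.tmul_zero _ _)
      fun i u v => TensorProduct.tmul_add _ u v]
    conv_lhs => rw [← b.linearCombination_repr β, Finsupp.linearCombination_apply,
      Finsupp.sum, TensorProduct.sum_tmul]
    refine Finset.sum_congr rfl fun i _ => ?_
    simp only
    rw [Finsupp.sum_single_index]
    swap
    · exact TensorProduct.tmul_zero _ _
    rw [show (b.repr β) i • b i = ((b.repr β) i).val • b i by
      rw [Algebra.smul_def, nsmul_eq_mul, ← map_natCast (algebraMap (ZMod ℓ) K),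
        ZMod.natCast_zmod_val]]
    exact TensorProduct.smul_tmul _ _ _

include hℓN ht in
/-- The expansion of the fibre is injective. -/
theorem fibreExp_injective : Function.Injective (fibreExp K hℓN ht) := by
  classical
  rw [injective_iff_map_eq_zero]
  intro z hz
  let : Algebra (ZMod ℓ) K := ZMod.algebra K ℓ
  let b := Module.Basis.ofVectorSpace (ZMod ℓ) K
  obtain ⟨f, rfl⟩ := exists_eq_sum_basis_tmul K b z
  -- all coefficients of the reductions vanish
  rw [Finsupp.sum, map_sum] at hz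
  refine Finset.sum_eq_zero fun i hi => ?_
  let y : _ → LaurentSeries ℤℓ := fun j => chartExpansion hℓN (ht.isChartSet N).subset (f j)
  have hy0 : coeffMap (redZ ℓ) (y i) = 0 := by
    ext n
    rw [coeffMap_coeff, HahnSeries.coeff_zero]
    have hn := congrArg (fun s : LaurentSeries K => s.coeff n) hz
    simp only [HahnSeries.coeff_sum, fibreExp_tmul, HahnSeries.coeff_zero,
      HahnSeries.C_mul_eq_smul, HahnSeries.coeff_smul, smul_eq_mul] at hn
    have hc : ∑ j ∈ f.support, redZ ℓ ((y j).coeff n) • b j = 0 := by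
      rw [← hn]
      refine Finset.sum_congr rfl fun j _ => ?_
      show _ = b j * (coeffMap (algebraMap ℤℓ K) (y j)).coeff n
      rw [Algebra.smul_def, mul_comm, coeffMap_coeff, algebraMap_eq_cast_redZ]
      rfl
    exact linearIndependent_iff'.mp b.linearIndependent f.support _ hc i hi
  let K₀ := AlgebraicClosure (ZMod ℓ)
  have : CharP K₀ ℓ := charP_of_injective_algebraMap (algebraMap (ZMod ℓ) K₀).injective ℓ
  let : Algebra ℤℓ K₀ := ((algebraMap (ZMod ℓ) K₀).comp (redZ ℓ)).toAlgebra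
  obtain ⟨x', hx', hfx⟩ := exists_eq_natCast_mul N ℓ K₀ hℓN (ht.isChartSet N) (f i).2
    (toQ_chartExpansion hℓN _ (f i))
    (by rw [RingHom.algebraMap_toAlgebra, ← coeffMap_coeffMap, hy0, map_zero])
  have hfx' : f i = ℓ • (⟨x', hx'⟩ : chartAlg N ℓ {t}) := Subtype.ext (by
    rw [hfx, nsmul_eq_mul]; rfl)
  show b i ⊗ₜ[ℤℓ] f i = 0
  rw [hfx', ← TensorProduct.smul_tmul, nsmul_eq_mul, CharP.cast_eq_zero, zero_mul,
    TensorProduct.zero_tmul]

include hℓN ht in
/-- The fibre of a chart is a domain. -/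
theorem isDomain_chartFibre : IsDomain (K ⊗[ℤℓ] chartAlg N ℓ {t}) :=
  (fibreExp_injective K hℓN ht).isDomain (fibreExp K hℓN ht)

omit [CharP K ℓ] in
/-- The expansions of the fibre are combinations of the reductions of the chart. -/
theorem fibreExp_mem_span (z : K ⊗[ℤℓ] chartAlg N ℓ {t}) :
    fibreExp K hℓN ht z ∈ Submodule.span K (redSet N ℓ K {t}) := by
  induction z using TensorProduct.induction_on with
  | zero => rw [map_zero]; exact zero_mem _
  | add x y hx hy => rw [map_add]; exact add_mem hx hy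
  | tmul β x =>
    rw [fibreExp_tmul, HahnSeries.C_mul_eq_smul]
    obtain ⟨y, hy⟩ := exists_chart_series hℓN ht x
    rw [redHom_eq K hℓN ht hy]
    exact Submodule.smul_mem _ _ (Submodule.subset_span ⟨y, x.1, x.2, hy, rfl⟩)

omit [CharP K ℓ] in
include hℓN ht in
/-- The reduced coordinate. -/
theorem exists_reduced_gen :
    ∃ tK : LaurentSeries K, (t = jFull N → tK = jqModC K) ∧ (t = (jFull N)⁻¹ → tK = (jqModC K)⁻¹) ∧
      fibreExp K hℓN ht (1 ⊗ₜ[ℤℓ] (⟨t, subset_chartAlg N ℓ _ rfl⟩ : chartAlg N ℓ {t})) = tK := by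
  refine ⟨_, fun h => ?_, fun h => ?_, rfl⟩
  all_goals rw [fibreExp_tmul, map_one, one_mul]
  · rw [redHom_eq K hℓN ht (y := jqModC ℤℓ) (by
      rw [toQ, coeffMap_jqModC, jqModC_rat]; exact (h ▸ (coe_jFull N)).symm), coeffMap_jqModC]
  · obtain ⟨y, hy⟩ := exists_chart_series hℓN ht (⟨t, subset_chartAlg N ℓ _ rfl⟩ : chartAlg N ℓ {t})
    rw [redHom_eq K hℓN ht hy]
    refine eq_inv_of_mul_eq_one_left ?_
    have h1 : y * jqModC ℤℓ = 1 := toQ_injective ℓ (by
      rw [map_mul, hy, map_one, toQ, coeffMap_jqModC, jqModC_rat, ← coe_jFull N]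
      show ((t * jFull N : F) : LaurentSeries ℚ) = _
      rw [h, inv_mul_cancel₀ (jFull_ne_zero N)]
      rfl)
    rw [← coeffMap_jqModC (algebraMap ℤℓ K), ← map_mul, h1, map_one]

/-- Integral modular functions on the special fibre lie in the image of the chart as soon as the
fibre is normal. -/
theorem mem_span_redSet_of_normal
    (good : Ideal (K ⊗[ℤℓ] chartAlg N ℓ {t}) → Prop)
    (hnorm : ∀ n : Ideal (K ⊗[ℤℓ] chartAlg N ℓ {t}), n.IsMaximal → good n →
      ∀ a b : K ⊗[ℤℓ] chartAlg N ℓ {t}, b ≠ 0 → ∀ p : (K ⊗[ℤℓ] chartAlg N ℓ {t})[X], p.Monic →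
        (p.scaleRoots b).eval a = 0 → ∃ u ∉ n, u * a ∈ Ideal.span {b})
    {w : LaurentSeries K} (hw : w ∈ modularFunctionFieldFullC K N) {tK : LaurentSeries K}
    (htK : fibreExp K hℓN ht
      (1 ⊗ₜ[ℤℓ] (⟨t, subset_chartAlg N ℓ _ rfl⟩ : chartAlg N ℓ {t})) = tK)
    (hint : IsIntegral (Algebra.adjoin K {tK}) w)
    (hbad : ∀ n : Ideal (K ⊗[ℤℓ] chartAlg N ℓ {t}), n.IsMaximal → ¬ good n →
      ∃ z ∉ n, fibreExp K hℓN ht z * w ∈ (fibreExp K hℓN ht).range) :
    w ∈ Submodule.span K (redSet N ℓ K {t}) := by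
  classical
  set Φ := fibreExp K hℓN ht with hΦ
  have := isDomain_chartFibre K hℓN ht
  have hinj : Function.Injective Φ := fibreExp_injective K hℓN ht
  -- `w` is a fraction
  obtain ⟨a, b, hb, hab⟩ : ∃ a b, b ≠ 0 ∧ Φ b * w = Φ a := by
    let σ : FractionRing (K ⊗[ℤℓ] chartAlg N ℓ {t}) →+* LaurentSeries K :=
      IsFractionRing.lift hinj
    have hσ : ∀ z, σ (algebraMap _ _ z) = Φ z := fun z => IsFractionRing.lift_algebraMap hinj z
    have hC : ∀ c : K, algebraMap K (LaurentSeries K) c ∈ σ.fieldRange := fun c =>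
      ⟨algebraMap _ _ (algebraMap K (K ⊗[ℤℓ] chartAlg N ℓ {t}) c), by
        rw [hσ, hΦ, fibreExp_algebraMap, algebraMap_laurentSeries_eq_single, HahnSeries.C_apply]⟩
    have hle : modularFunctionFieldFullC K N ≤ σ.fieldRange.toIntermediateField hC := by
      rw [full_le_iff]
      intro d hd0 hd
      obtain ⟨u, hu, huv⟩ := exists_mem_chartAlgFin_of_monos N ℓ
        (Submonoid.subset_closure ⟨d, hd0, hd, rfl⟩ : jv (1 : ℤˣ) d ∈ monos N)
      have humid : u ∈ chartAlg N ℓ (insert t⁻¹ {t}) := by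
        rw [ht.pair_eq]; exact chartAlg_mono N ℓ (sFin_subset N) hu
      have ht0 : t ≠ 0 := by
        rcases ht with rfl | rfl
        exacts [jFull_ne_zero N, inv_ne_zero (jFull_ne_zero N)]
      obtain ⟨e, he⟩ := exists_pow_mul_mem_chartAlg (Set.mem_singleton t) ht0 humid
      set tS : chartAlg N ℓ {t} := ⟨t, subset_chartAlg N ℓ _ rfl⟩
      obtain ⟨y, hy⟩ := exists_chart_series hℓN ht tS
      have hser : redHom K hℓN ht ⟨t ^ e * u, he⟩ = tK ^ e * jv (1 : Kˣ) d := by
        have hred : redHom K hℓN ht tS = tK := by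
          rw [← htK, hΦ, fibreExp_tmul, map_one, one_mul]
        rw [redHom_eq K hℓN ht (y := y ^ e * jv (1 : ℤℓˣ) d) (by
          rw [map_mul, map_pow, hy, toQ, coeffMap_jv _ _ hd0, map_one]
          show _ = ((t ^ e * u : F) : LaurentSeries ℚ)
          push_cast
          rw [huv, coeffMap_jv _ _ hd0, map_one]),
          map_mul, map_pow, ← redHom_eq K hℓN ht hy, hred, coeffMap_jv _ _ hd0, map_one]
      have htKne : tK ≠ 0 := by
        rw [← htK]
        refine (map_ne_zero_iff _ hinj).mpr fun h0 => ?_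
        obtain ⟨tK', h1, h2, h3⟩ := exists_reduced_gen K hℓN ht
        rw [h0, map_zero] at h3
        have hj : jqModC K ≠ 0 := fun hj => by
          have := congrArg (fun s : LaurentSeries K => s.coeff (-1)) hj
          simp [coeff_jqModC_neg_one] at this
        rcases ht with rfl | rfl
        · exact hj ((h1 rfl).symm.trans h3.symm)
        · exact inv_ne_zero hj ((h2 rfl).symm.trans h3.symm)
      show jv (1 : Kˣ) d ∈ σ.fieldRange
      rw [show jv (1 : Kˣ) d = σ (algebraMap _ _
        ((1 : K) ⊗ₜ[ℤℓ] (⟨t ^ e * u, he⟩ : chartAlg N ℓ {t}))) /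
          σ (algebraMap _ _ ((1 : K) ⊗ₜ[ℤℓ] tS)) ^ e by
        rw [hσ, hσ, hΦ, fibreExp_tmul, map_one, one_mul, hser, ← hΦ, htK,
          mul_div_cancel_left₀ _ (pow_ne_zero e htKne)]]
      exact div_mem (RingHom.mem_fieldRange.mpr ⟨_, rfl⟩)
        (pow_mem (RingHom.mem_fieldRange.mpr ⟨_, rfl⟩) e)
    obtain ⟨q, hq⟩ := hle hw
    obtain ⟨a, b, hb, rfl⟩ := IsFractionRing.div_surjective (A := K ⊗[ℤℓ] chartAlg N ℓ {t}) q
    refine ⟨a, b, nonZeroDivisors.ne_zero hb, ?_⟩
    rw [← hq, map_div₀, hσ, hσ, mul_div_cancel₀ _ ((map_ne_zero_iff _ hinj).mpr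
      (nonZeroDivisors.ne_zero hb))]
  -- its equation
  obtain ⟨p, hp, hpw⟩ := hint
  have hadj : ∀ z ∈ Algebra.adjoin K ({tK} : Set (LaurentSeries K)), z ∈ Φ.range := by
    intro z hz
    induction hz using Algebra.adjoin_induction with
    | mem y hy => rw [Set.mem_singleton_iff] at hy; exact ⟨_, htK.trans hy.symm⟩
    | algebraMap c => exact ⟨_, by
        rw [hΦ, fibreExp_algebraMap, algebraMap_laurentSeries_eq_single, HahnSeries.C_apply]⟩
    | add u v _ _ hu hv => exact add_mem hu hv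
    | mul u v _ _ hu hv => exact mul_mem hu hv
  obtain ⟨P, hP, -, hPm⟩ := lifts_and_natDegree_eq_and_monic
    ((lifts_iff_coeff_lifts _).mpr fun i => by
      rw [coeff_map]; exact hadj _ (p.coeff i).2 :
      p.map (algebraMap (Algebra.adjoin K {tK}) (LaurentSeries K)) ∈ lifts Φ) (hp.map _)
  have hPw : P.eval₂ Φ w = 0 := by rw [← eval_map, hP, eval_map]; exact hpw
  have hPa : (P.scaleRoots b).eval a = 0 := by
    refine hinj ?_
    rw [map_zero, ← eval₂_at_apply, ← hab, scaleRoots_eval₂_mul, hPw, mul_zero]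
  -- the conductor is the unit ideal
  let J : Ideal (K ⊗[ℤℓ] chartAlg N ℓ {t}) :=
    { carrier := {z | Φ z * w ∈ Φ.range}
      add_mem' := fun {x y} hx hy => by
        show Φ (x + y) * w ∈ Φ.range
        rw [map_add, add_mul]; exact add_mem hx hy
      zero_mem' := by show Φ 0 * w ∈ Φ.range; rw [map_zero, zero_mul]; exact zero_mem _
      smul_mem' := fun c x hx => by
        show Φ (c * x) * w ∈ Φ.range
        rw [map_mul, mul_assoc]; exact mul_mem ⟨c, rfl⟩ hx }
  have hJ : J = ⊤ := by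
    by_contra hJ
    obtain ⟨n, hn, hJn⟩ := Ideal.exists_le_maximal J hJ
    by_cases hg : good n
    · obtain ⟨u, hu, huab⟩ := hnorm n hn hg a b hb P hPm hPa
      obtain ⟨c, hc⟩ := Ideal.mem_span_singleton'.mp huab
      refine hu (hJn ⟨c, ?_⟩)
      refine mul_left_cancel₀ ((map_ne_zero_iff _ hinj).mpr hb) ?_
      rw [← map_mul, mul_comm b, hc, map_mul, ← hab]
      ring
    · obtain ⟨z, hz, hzw⟩ := hbad n hn hg
      exact hz (hJn hzw)
  have h1 : (1 : K ⊗[ℤℓ] chartAlg N ℓ {t}) ∈ J := hJ ▸ Submodule.mem_top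
  obtain ⟨c, hc⟩ : Φ 1 * w ∈ Φ.range := h1
  rw [map_one, one_mul] at hc
  exact hc ▸ fibreExp_mem_span K hℓN ht c

end Fermat.Agent.Igusa
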