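import Mathlib.RingTheory.DedekindDomain.Basic
import Mathlib.RingTheory.DiscreteValuationRing.TFAE
import Mathlib.RingTheory.Filtration
import Mathlib.RingTheory.Ideal.GoingUp
import Mathlib.RingTheory.IntegralClosure.IntegrallyClosed
import Mathlib.RingTheory.Localization.AtPrime.Basic
import Mathlib.RingTheory.Localization.Submodule
import Mathlib.RingTheory.Polynomial.ScaleRoots

/-!
# Regular points of one-dimensional rings, elementwise

`IsPrincipalAt P` says that the prime `P` becomes principal, generated by a non-zero-divisor,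
after inverting one element outside `P`.  This is the form in which regularity is carried from
the auxiliary cover of the modular curve down to the curve itself.
-/

noncomputable section

namespace Fermat.Agent.Igusa

open Polynomial

section PrincipalAt

variable {R : Type*} [CommRing R]

/-- `P` is locally generated by a non-zero-divisor: some `ϖ ∈ P` generates it after inverting an
element outside `P`. -/
def IsPrincipalAt (P : Ideal R) : Prop :=
  ∃ ϖ ∈ nonZeroDivisors R, ϖ ∈ P ∧ ∀ y ∈ P, ∃ u ∉ P, ∃ r, u * y = ϖ * r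

/-- `b` divides `a` as soon as `a / b` is integral: integral closedness without fractions. -/
def DvdOfIntegral (R : Type*) [CommRing R] : Prop :=
  ∀ a b : R, b ∈ nonZeroDivisors R →
    ∀ p : R[X], p.Monic → (p.scaleRoots b).eval a = 0 → b ∣ a

/-- In a Noetherian local ring with maximal ideal `(t)`, a nonzero element is a unit times a power
of `t`. -/
theorem exists_eq_pow_mul_unit {A : Type*} [CommRing A] [IsLocalRing A] [IsNoetherianRing A]
    {t : A} (hmax : IsLocalRing.maximalIdeal A = Ideal.span {t}) {z : A} (hz : z ≠ 0) :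
    ∃ (n : ℕ) (v : Aˣ), z = t ^ n * v := by
  have hinf := Ideal.iInf_pow_eq_bot_of_isLocalRing (I := IsLocalRing.maximalIdeal A)
    (IsLocalRing.maximalIdeal.isMaximal A).ne_top
  have hnot : ∃ n, z ∉ (IsLocalRing.maximalIdeal A) ^ n := by
    by_contra hall
    push Not at hall
    apply hz
    have : z ∈ ⨅ n, (IsLocalRing.maximalIdeal A) ^ n := Submodule.mem_iInf _ |>.mpr hall
    rwa [hinf, Ideal.mem_bot] at this
  classical
  have hpos : Nat.find hnot ≠ 0 := fun h => by
    have := Nat.find_spec hnot
    rw [h, pow_zero, Ideal.one_eq_top] at this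
    exact this Submodule.mem_top
  obtain ⟨n, hn⟩ := Nat.exists_eq_succ_of_ne_zero hpos
  have hmem : z ∈ (IsLocalRing.maximalIdeal A) ^ n := by
    by_contra h
    exact Nat.find_min hnot (by omega) h
  rw [hmax, Ideal.span_singleton_pow, Ideal.mem_span_singleton'] at hmem
  obtain ⟨v, hv⟩ := hmem
  have hvu : IsUnit v := by
    by_contra hvu
    have hv' : v ∈ IsLocalRing.maximalIdeal A := (IsLocalRing.mem_maximalIdeal v).mpr hvu
    rw [hmax, Ideal.mem_span_singleton'] at hv'
    obtain ⟨w, hw⟩ := hv'
    have := Nat.find_spec hnot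
    rw [hn, hmax, Ideal.span_singleton_pow, Ideal.mem_span_singleton'] at this
    exact this ⟨w, by rw [← hv, ← hw, pow_succ]; ring⟩
  exact ⟨n, hvu.unit, by rw [IsUnit.unit_spec, ← hv, mul_comm]⟩

/-- The local ring at a principal point is a discrete valuation ring. -/
theorem isDiscreteValuationRing_of_isPrincipalAt [IsNoetherianRing R] (P : Ideal R) [P.IsPrime]
    (hP : IsPrincipalAt P) :
    ∃ _ : IsDomain (Localization.AtPrime P),
      IsDiscreteValuationRing (Localization.AtPrime P) := by
  obtain ⟨ϖ, hϖ, hϖP, hgen⟩ := hP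
  set A := Localization.AtPrime P
  have : IsNoetherianRing A := IsLocalization.isNoetherianRing P.primeCompl A inferInstance
  set t : A := algebraMap R A ϖ with ht
  have hnzd : ∀ z : A, z * t = 0 → z = 0 := by
    intro z hz
    obtain ⟨⟨x, s⟩, rfl⟩ := IsLocalization.mk'_surjective P.primeCompl z
    rw [ht, mul_comm, IsLocalization.mul_mk'_eq_mk'_of_mul, IsLocalization.mk'_eq_zero_iff] at hz
    obtain ⟨u, hu⟩ := hz
    rw [IsLocalization.mk'_eq_zero_iff]
    refine ⟨u, ?_⟩
    exact (mem_nonZeroDivisors_iff_right.mp hϖ) _ (by rw [← hu]; ring)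
  have hmax : IsLocalRing.maximalIdeal A = Ideal.span {t} := by
    refine le_antisymm ?_ ?_
    · intro z hz
      obtain ⟨⟨x, s⟩, rfl⟩ := IsLocalization.mk'_surjective P.primeCompl z
      have hx : x ∈ P := (IsLocalization.AtPrime.mk'_mem_maximal_iff A P x s).mp hz
      obtain ⟨u, hu, r, hr⟩ := hgen x hx
      rw [Ideal.mem_span_singleton']
      refine ⟨IsLocalization.mk' A r (s * ⟨u, hu⟩), ?_⟩
      rw [ht, mul_comm, IsLocalization.mul_mk'_eq_mk'_of_mul, IsLocalization.mk'_eq_iff_eq,
        Submonoid.coe_mul]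
      congr 1
      linear_combination (-(s : R)) * hr
    · rw [Ideal.span_le, Set.singleton_subset_iff]
      exact (IsLocalization.AtPrime.to_map_mem_maximal_iff A P ϖ).mpr hϖP
  have ht0 : t ≠ 0 := fun h => one_ne_zero (hnzd 1 (by rw [one_mul, h]))
  have hpow : ∀ n : ℕ, t ^ n ≠ 0 := by
    intro n
    induction n with
    | zero => simp
    | succ n ih => exact fun h => ih (hnzd _ ((pow_succ t n).symm.trans h))
  have : NoZeroDivisors A := ⟨fun {x y} hxy => by
    by_contra h
    push Not at h
    obtain ⟨m, u, rfl⟩ := exists_eq_pow_mul_unit hmax h.1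
    obtain ⟨n, v, rfl⟩ := exists_eq_pow_mul_unit hmax h.2
    have : t ^ (m + n) * ((u * v : Aˣ) : A) = 0 := by rw [pow_add, Units.val_mul, ← hxy]; ring
    exact hpow _ ((Units.mul_left_eq_zero _).mp this)⟩
  have hdom : IsDomain A := NoZeroDivisors.to_isDomain A
  refine ⟨hdom, ?_⟩
  have hnf : ¬ IsField A := by
    intro hf
    have := IsLocalRing.isField_iff_maximalIdeal_eq.mp hf
    rw [hmax, Ideal.span_singleton_eq_bot] at this
    exact ht0 this
  have hiff : IsDiscreteValuationRing A ↔ (IsLocalRing.maximalIdeal A).IsPrincipal :=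
    (IsDiscreteValuationRing.TFAE A hnf).out 0 4
  exact hiff.mpr ⟨t, by rw [hmax]⟩

/-- At a regular point an integral fraction lies in the local ring. -/
theorem exists_mul_mem_span_of_integral [IsNoetherianRing R] {P : Ideal R} [P.IsPrime]
    (hP : IsPrincipalAt P) {a b : R} (hb : b ∈ nonZeroDivisors R) {p : R[X]} (hp : p.Monic)
    (h : (p.scaleRoots b).eval a = 0) :
    ∃ u ∉ P, u * a ∈ Ideal.span {b} := by
  obtain ⟨_, _⟩ := isDiscreteValuationRing_of_isPrincipalAt P hP
  set A := Localization.AtPrime P
  set K := FractionRing A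
  set f : R →+* K := (algebraMap A K).comp (algebraMap R A) with hf
  have hb0 : algebraMap R A b ≠ 0 := by
    rw [Ne, IsLocalization.map_eq_zero_iff P.primeCompl]
    rintro ⟨u, hu⟩
    exact u.2 (by
      have : (u : R) = 0 := (mem_nonZeroDivisors_iff_right.mp hb) _ hu
      rw [this]; exact P.zero_mem)
  have hfb : f b ≠ 0 := by
    simpa [hf] using hb0
  have hint : IsIntegral A (f a / f b) := by
    refine ⟨p.map (algebraMap R A), hp.map _, ?_⟩
    rw [eval₂_eq_eval_map, map_map, ← hf]
    have hh : ((p.map f).scaleRoots (f b)).eval (f a) = 0 := by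
      rw [← map_scaleRoots _ _ _ (by simp [hp.leadingCoeff]), eval_map, eval₂_hom, h, map_zero]
    rw [show f a = f b * (f a / f b) by rw [mul_div_cancel₀ _ hfb], scaleRoots_eval_mul] at hh
    exact (mul_eq_zero.mp hh).resolve_left (pow_ne_zero _ hfb)
  obtain ⟨z, hz⟩ := (IsIntegrallyClosed.isIntegral_iff).mp hint
  obtain ⟨⟨r, s⟩, rfl⟩ := IsLocalization.mk'_surjective P.primeCompl z
  have hA : algebraMap R A a = algebraMap R A b * IsLocalization.mk' A r s := by
    apply IsFractionRing.injective A K
    rw [map_mul, hz]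
    show f a = f b * (f a / f b)
    rw [mul_div_cancel₀ _ hfb]
  rw [IsLocalization.mul_mk'_eq_mk'_of_mul, IsLocalization.eq_mk'_iff_mul_eq, ← map_mul,
    IsLocalization.eq_iff_exists P.primeCompl] at hA
  obtain ⟨u, hu⟩ := hA
  refine ⟨(u : R) * s, fun hus => ?_, Ideal.mem_span_singleton'.mpr ⟨(u : R) * r, ?_⟩⟩
  · rcases (Ideal.IsPrime.mem_or_mem ‹_› hus) with h' | h'
    · exact u.2 h'
    · exact s.2 h'
  · linear_combination -hu

end PrincipalAt

section Descent

variable {S R : Type*} [CommRing S] [CommRing R] [Algebra S R] [Algebra.IsIntegral S R]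

/-- An ideal upstairs which avoids every prime over `n` contains an element from outside `n`. -/
theorem exists_notMem_algebraMap_mem (n : Ideal S) [n.IsPrime] (J : Ideal R)
    (h : ∀ P : Ideal R, P.IsPrime → P.comap (algebraMap S R) = n → ¬ J ≤ P) :
    ∃ s ∉ n, algebraMap S R s ∈ J := by
  by_contra hcon
  push Not at hcon
  have hle : J.comap (algebraMap S R) ≤ n := fun s hs => by
    by_contra hsn
    exact hcon s hsn hs
  obtain ⟨Q, hJQ, hQp, hQn⟩ := Ideal.exists_ideal_over_prime_of_isIntegral n J hle
  exact h Q hQp hQn hJQ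

/-- Normality descends along a retraction: the statement at one point downstairs. -/
theorem exists_mul_mem_span_of_retraction [IsNoetherianRing R] [Nontrivial R] (π : R →ₗ[S] S)
    (hπ : π 1 = 1) (n : Ideal S) [n.IsPrime]
    (hn : ∀ P : Ideal R, P.IsPrime → P.comap (algebraMap S R) = n → IsPrincipalAt P)
    {a b : S} (hb : algebraMap S R b ∈ nonZeroDivisors R) {p : S[X]} (hp : p.Monic)
    (h : (p.scaleRoots b).eval a = 0) :
    ∃ u ∉ n, u * a ∈ Ideal.span {b} := by
  set f := algebraMap S R
  have hR : ((p.map f).scaleRoots (f b)).eval (f a) = 0 := by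
    rw [← map_scaleRoots _ _ _ (by rw [hp.leadingCoeff, map_one]; exact one_ne_zero), eval_map,
      eval₂_hom, h, map_zero]
  let J : Ideal R :=
    { carrier := {u | u * f a ∈ Ideal.span {f b}}
      add_mem' := fun {u v} hu hv => by
        simp only [Set.mem_ofPred_eq, add_mul] at *
        exact add_mem hu hv
      zero_mem' := by simp
      smul_mem' := fun c u hu => by
        simp only [Set.mem_ofPred_eq, smul_eq_mul, mul_assoc] at *
        exact Ideal.mul_mem_left _ _ hu }
  obtain ⟨s, hs, hsJ⟩ := exists_notMem_algebraMap_mem n J fun P hP hPn hJP => by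
    have := hP
    obtain ⟨u, hu, hu'⟩ := exists_mul_mem_span_of_integral (hn P hP hPn) hb (hp.map f) hR
    exact hu (hJP hu')
  refine ⟨s, hs, ?_⟩
  obtain ⟨r, hr⟩ := Ideal.mem_span_singleton'.mp (show f s * f a ∈ Ideal.span {f b} from hsJ)
  refine Ideal.mem_span_singleton'.mpr ⟨π r, ?_⟩
  have h1 : π (b • r) = π ((s * a) • (1 : R)) := by
    congr 1
    rw [Algebra.smul_def, Algebra.smul_def, mul_one]
    show f b * r = f (s * a)
    rw [map_mul f, ← hr, mul_comm]
  rw [map_smul, map_smul, hπ, smul_eq_mul, smul_eq_mul, mul_one] at h1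
  rw [mul_comm, h1]

end Descent

/-- Local divisibility everywhere gives divisibility. -/
theorem dvd_of_forall_exists_mul_mem {S : Type*} [CommRing S] {a b : S}
    (h : ∀ n : Ideal S, n.IsMaximal → ∃ u ∉ n, u * a ∈ Ideal.span {b}) : b ∣ a := by
  let J : Ideal S := Submodule.comap (LinearMap.mulRight S a) (Ideal.span {b})
  have hJ : J = ⊤ := by
    by_contra hJ
    obtain ⟨n, hn, hJn⟩ := Ideal.exists_le_maximal J hJ
    obtain ⟨u, hu, hu'⟩ := h n hn
    exact hu (hJn (by simpa [J] using hu'))
  have h1 : (1 : S) ∈ J := hJ ▸ Submodule.mem_top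
  simpa [J, Ideal.mem_span_singleton] using h1

end Fermat.Agent.Igusa
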