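import Mathlib
import Fermat.Agent.Igusa.SmoothLocal

/-!
# The special fibre of a free algebra with unit discriminant

Two steps: (1) a ring extension which is free with discriminant outside a regular maximal ideal
is regular above it; (2) a ring which is free near the fibre `π = 0` becomes free after tensoring
with a field in which `π` vanishes, with the reduced trace matrix.
-/

noncomputable section

open scoped TensorProduct
open Polynomial Matrix

namespace Fermat.Agent.Igusa

section Regular

variable {B R : Type*} [CommRing B] [CommRing R] [Algebra B R] {ι : Type*} [Fintype ι]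
  [DecidableEq ι]

omit [DecidableEq ι] in
/-- An element all of whose coordinates lie in `m` lies in every prime over `m`. -/
theorem mem_of_repr_mem (b : Module.Basis ι B R) {m : Ideal B} {P : Ideal R}
    (hPm : P.comap (algebraMap B R) = m) {z : R} (hz : ∀ i, b.repr z i ∈ m) : z ∈ P := by
  rw [← b.sum_repr z]
  refine Ideal.sum_mem _ fun i _ => ?_
  rw [Algebra.smul_def]
  refine P.mul_mem_right _ ?_
  have := hz i
  rwa [← hPm, Ideal.mem_comap] at this

omit [DecidableEq ι] in
theorem repr_smul_mem (b : Module.Basis ι B R) {m : Ideal B} (x : R) {z : R}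
    (hz : ∀ i, b.repr z i ∈ m) (j : ι) : b.repr (x * z) j ∈ m := by
  rw [← b.sum_repr z, Finset.mul_sum, map_sum, Finsupp.coe_finsetSum, Finset.sum_apply]
  refine Ideal.sum_mem _ fun i _ => ?_
  rw [mul_smul_comm, map_smul, Finsupp.smul_apply, smul_eq_mul]
  exact m.mul_mem_right _ (hz i)

/-- With discriminant outside `m`, the fibre over `m` is reduced. -/
theorem repr_mem_of_pow_repr_mem (b : Module.Basis ι B R) (m : Ideal B) [m.IsMaximal]
    (hd : Algebra.discr B b ∉ m) {z : R} {N : ℕ} (hz : ∀ i, b.repr (z ^ N) i ∈ m) :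
    ∀ i, b.repr z i ∈ m := by
  let := Ideal.Quotient.field m
  set ρ := Ideal.Quotient.mk m
  have htr : ∀ j, ρ (Algebra.trace B R (b j * z)) = 0 := by
    intro j
    have hnil : IsNilpotent ((Algebra.leftMulMatrix b (b j * z)).map ρ) := by
      refine ⟨N, ?_⟩
      rw [← RingHom.mapMatrix_apply, ← map_pow, ← map_pow, RingHom.mapMatrix_apply]
      ext a c
      rw [Matrix.map_apply, Algebra.leftMulMatrix_eq_repr_mul, Matrix.zero_apply,
        Ideal.Quotient.eq_zero_iff_mem, mul_pow, mul_comm ((b j) ^ N), mul_assoc,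
        mul_comm (z ^ N)]
      exact repr_smul_mem b _ hz a
    rw [Algebra.trace_eq_matrix_trace b, Matrix.trace, map_sum]
    exact (Matrix.isNilpotent_trace_of_isNilpotent hnil).eq_zero
  have hG : (Algebra.traceMatrix B b).map ρ *ᵥ (fun i => ρ (b.repr z i)) = 0 := by
    funext j
    rw [Pi.zero_apply, ← htr j]
    conv_rhs => rw [← b.sum_repr z]
    simp only [Matrix.mulVec, dotProduct, Matrix.map_apply, Algebra.traceMatrix_apply,
      Algebra.traceForm_apply, Finset.mul_sum, mul_smul_comm, map_sum, map_smul, smul_eq_mul,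
      map_mul]
    exact Finset.sum_congr rfl fun i _ => mul_comm _ _
  have hdet : ((Algebra.traceMatrix B b).map ρ).det ≠ 0 := by
    rw [← RingHom.mapMatrix_apply, ← RingHom.map_det, ← Algebra.discr_def]
    exact fun h => hd (Ideal.Quotient.eq_zero_iff_mem.mp h)
  intro i
  exact Ideal.Quotient.eq_zero_iff_mem.mp
    (congrFun (Matrix.eq_zero_of_mulVec_eq_zero hdet hG) i)

/-- Regularity goes up along a free extension whose discriminant avoids `m`. -/
theorem isPrincipalAt_of_discr (b : Module.Basis ι B R) (m : Ideal B) [m.IsMaximal]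
    (hm : IsPrincipalAt m) (hd : Algebra.discr B b ∉ m) (P : Ideal R) [P.IsPrime]
    (hPm : P.comap (algebraMap B R) = m) : P.IsMaximal ∧ IsPrincipalAt P := by
  have : Module.Finite B R := Module.Finite.of_basis b
  have : Algebra.IsIntegral B R := Algebra.IsIntegral.of_finite B R
  refine ⟨Ideal.isMaximal_of_isIntegral_of_isMaximal_comap P (hPm ▸ ‹m.IsMaximal›), ?_⟩
  obtain ⟨ϖ, hϖ, hϖm, hgen⟩ := hm
  have hnotm : ∀ c : B, c ∉ m → algebraMap B R c ∉ P := fun c hc h => hc (by
    rw [← hPm, Ideal.mem_comap]; exact h)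
  refine ⟨algebraMap B R ϖ, mem_nonZeroDivisors_iff_right.mpr fun z hz => ?_, ?_, fun y hy => ?_⟩
  · apply b.ext_elem
    intro i
    rw [map_zero, Finsupp.zero_apply]
    refine (mem_nonZeroDivisors_iff_right.mp hϖ) _ ?_
    have h := congrArg (fun x => b.repr x i) hz
    simpa [mul_comm z, ← Algebra.smul_def, mul_comm ϖ] using h
  · have := hϖm
    rwa [← hPm, Ideal.mem_comap] at this
  let := Ideal.Quotient.field m
  set M := Algebra.leftMulMatrix b y with hM
  have hq0 : aeval y M.charpoly = 0 := by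
    apply Algebra.leftMulMatrix_injective b
    rw [← aeval_algHom_apply, Matrix.aeval_self_charpoly, map_zero]
  set qb : (B ⧸ m)[X] := M.charpoly.map (Ideal.Quotient.mk m) with hqb
  have hqb0 : qb ≠ 0 := (M.charpoly_monic.map _).ne_zero
  obtain ⟨q₁b, hq₁, hq₁ne⟩ := qb.exists_eq_pow_rootMultiplicity_mul_and_not_dvd hqb0 0
  rw [map_zero, sub_zero] at hq₁ hq₁ne
  set e := qb.rootMultiplicity 0
  obtain ⟨q₁, rfl⟩ := Polynomial.map_surjective _ Ideal.Quotient.mk_surjective q₁b
  have h0 : q₁.coeff 0 ∉ m := fun h => hq₁ne (Polynomial.X_dvd_iff.mpr (by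
    rw [coeff_map]; exact Ideal.Quotient.eq_zero_iff_mem.mpr h))
  have hdiff : ∀ i, b.repr (y ^ e * aeval y q₁) i ∈ m := by
    have h1 : ∀ n, (X ^ e * q₁ - M.charpoly).coeff n ∈ m := fun n => by
      rw [← Ideal.Quotient.eq_zero_iff_mem, ← coeff_map, Polynomial.map_sub, Polynomial.map_mul,
        Polynomial.map_pow, map_X, ← hq₁, hqb, sub_self, coeff_zero]
    have h2 : y ^ e * aeval y q₁ = aeval y (X ^ e * q₁ - M.charpoly) := by
      rw [map_sub, hq0, sub_zero, map_mul, map_pow, aeval_X]
    intro i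
    rw [h2, aeval_eq_sum_range, map_sum, Finsupp.coe_finsetSum, Finset.sum_apply]
    refine Ideal.sum_mem _ fun n _ => ?_
    rw [map_smul, Finsupp.smul_apply, smul_eq_mul]
    exact m.mul_mem_right _ (h1 n)
  have hu : aeval y q₁ ∉ P := by
    intro h
    apply hnotm _ h0
    have h3 : aeval y q₁ - algebraMap B R (q₁.coeff 0) ∈ P := by
      have h4 : X ∣ q₁ - Polynomial.C (q₁.coeff 0) := Polynomial.X_dvd_iff.mpr (by simp)
      obtain ⟨g, hg⟩ := h4
      have := congrArg (aeval y) hg
      rw [map_sub, aeval_C, map_mul, aeval_X] at this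
      rw [this]
      exact P.mul_mem_right _ hy
    simpa using sub_mem h h3
  have he : e ≠ 0 := fun he => hu (by
    have := mem_of_repr_mem b hPm hdiff
    rwa [he, pow_zero, one_mul] at this)
  have hred : ∀ i, b.repr (aeval y q₁ * y) i ∈ m := by
    refine repr_mem_of_pow_repr_mem b m hd (N := e) fun i => ?_
    rw [mul_pow, show aeval y q₁ ^ e * y ^ e =
      aeval y q₁ ^ (e - 1) * (y ^ e * aeval y q₁) by
        rw [mul_left_comm, ← pow_succ, Nat.sub_add_cancel (Nat.pos_of_ne_zero he), mul_comm]]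
    exact repr_smul_mem b _ hdiff i
  choose u hu' r hr using fun i => hgen _ (hred i)
  refine ⟨algebraMap B R (∏ i, u i) * aeval y q₁, fun h => ?_, ∑ i, ((∏ j ∈ Finset.univ.erase i,
    u j) * r i) • b i, ?_⟩
  · rcases Ideal.IsPrime.mem_or_mem ‹P.IsPrime› h with h | h
    · refine hnotm _ (fun h' => ?_) h
      obtain ⟨i, -, hi⟩ := (Ideal.IsPrime.prod_mem_iff).mp h'
      exact hu' i hi
    · exact hu h
  · rw [mul_assoc]
    nth_rewrite 1 [← b.sum_repr (aeval y q₁ * y)]
    rw [Finset.mul_sum, Finset.mul_sum]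
    refine Finset.sum_congr rfl fun i _ => ?_
    rw [← Finset.mul_prod_erase _ u (Finset.mem_univ i), Algebra.smul_def, Algebra.smul_def,
      map_mul (algebraMap B R), map_mul (algebraMap B R), mul_assoc (algebraMap B R _),
      ← mul_assoc (algebraMap B R ϖ)]
    have := congrArg (algebraMap B R) (hr i)
    rw [map_mul (algebraMap B R), map_mul (algebraMap B R)] at this
    linear_combination (algebraMap B R (∏ j ∈ Finset.univ.erase i, u j) * b i) * this

/-- Maximal ideals of a finitely generated algebra over an algebraically closed field are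
rational. -/
theorem exists_sub_algebraMap_mem (k : Type*) [Field k] [IsAlgClosed k] {T : Type*} [CommRing T]
    [Algebra k T] [Algebra.FiniteType k T] (P : Ideal T) [P.IsMaximal] (z : T) :
    ∃ c : k, z - algebraMap k T c ∈ P := by
  let := Ideal.Quotient.field P
  have : Module.Finite k (T ⧸ P) := finite_of_finite_type_of_isJacobsonRing k (T ⧸ P)
  have : Algebra.IsIntegral k (T ⧸ P) := Algebra.IsIntegral.of_finite k _
  obtain ⟨c, hc⟩ := (IsAlgClosed.algebraMap_bijective_of_isIntegral (k := k) (K := T ⧸ P)).2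
    (Ideal.Quotient.mk P z)
  exact ⟨c, Ideal.Quotient.eq.mp hc.symm⟩

/-- The residue map at a maximal ideal of a finitely generated algebra over an algebraically closed
field. -/
theorem exists_algHom_ker_eq (k : Type*) [Field k] [IsAlgClosed k] {T : Type*} [CommRing T]
    [Algebra k T] [Algebra.FiniteType k T] (P : Ideal T) [P.IsMaximal] :
    ∃ ev : T →ₐ[k] k, ∀ z, ev z = 0 ↔ z ∈ P := by
  have hb : Function.Bijective (Algebra.ofId k (T ⧸ P)) := by
    refine ⟨(Algebra.ofId k (T ⧸ P)).toRingHom.injective, fun z => ?_⟩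
    obtain ⟨z, rfl⟩ := Ideal.Quotient.mk_surjective z
    obtain ⟨β, hβ⟩ := exists_sub_algebraMap_mem k P z
    exact ⟨β, (Ideal.Quotient.eq.mpr hβ).symm⟩
  refine ⟨(AlgEquiv.ofBijective _ hb).symm.toAlgHom.comp (Ideal.Quotient.mkₐ k P), fun z => ?_⟩
  show (AlgEquiv.ofBijective _ hb).symm (Ideal.Quotient.mk P z) = 0 ↔ _
  rw [map_eq_zero_iff _ (AlgEquiv.injective _), Ideal.Quotient.eq_zero_iff_mem]

end Regular

section BaseChange

variable (O : Type*) [CommRing O] {C R : Type*} [CommRing C] [CommRing R] [Algebra O C]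
  [Algebra O R] [Algebra C R] [IsScalarTower O C R] (k : Type*) [Field k] [Algebra O k]

/-- The special fibre of `R` as an algebra over the special fibre of `C`. -/
@[instance_reducible]
def fibreAlgebra : Algebra (k ⊗[O] C) (k ⊗[O] R) :=
  (Algebra.TensorProduct.map (AlgHom.id k k) (IsScalarTower.toAlgHom O C R)).toRingHom.toAlgebra

attribute [local instance] fibreAlgebra

theorem fibreAlgebra_tmul_smul (β : k) (e : C) (γ : k) (x : R) :
    (β ⊗ₜ[O] e) • (γ ⊗ₜ[O] x) = (β * γ) ⊗ₜ[O] (e • x) := by
  rw [Algebra.smul_def, RingHom.algebraMap_toAlgebra, Algebra.smul_def]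
  simp [Algebra.TensorProduct.tmul_mul_tmul]

theorem isScalarTower_fibre : IsScalarTower k (k ⊗[O] C) (k ⊗[O] R) :=
  IsScalarTower.of_algebraMap_eq fun a => by
    rw [RingHom.algebraMap_toAlgebra]
    exact ((Algebra.TensorProduct.map (AlgHom.id k k) (IsScalarTower.toAlgHom O C R)).commutes
      a).symm

variable {π₀ : O} (hπ₀ : algebraMap O k π₀ = 0) {c : C} (hc : algebraMap O C π₀ ∣ c - 1)

include hπ₀ hc in
theorem tmul_eq_tmul_one_of_dvd : (1 : k) ⊗ₜ[O] c = 1 := by
  obtain ⟨e, he⟩ := hc
  rw [eq_add_of_sub_eq he, TensorProduct.tmul_add, ← Algebra.smul_def, TensorProduct.tmul_smul,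
    TensorProduct.smul_tmul', Algebra.smul_def, hπ₀, zero_mul, TensorProduct.zero_tmul, zero_add,
    Algebra.TensorProduct.one_def]

variable {ι : Type*} [Fintype ι] {r : ι → R}

include hπ₀ hc in
/-- A basis near the fibre gives a basis of the fibre. -/
theorem exists_basis_fibre (hli : LinearIndependent C r)
    (hspan : ∀ x : R, c • x ∈ Submodule.span C (Set.range r)) :
    ∃ b : Module.Basis ι (k ⊗[O] C) (k ⊗[O] R), ∀ i, b i = 1 ⊗ₜ[O] r i := by
  classical
  choose a ha using fun x => (Submodule.mem_span_range_iff_exists_fun C).mp (hspan x)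
  have hu : ∀ (x : R) (a' : ι → C), ∑ i, a' i • r i = c • x → a x = a' := fun x a' h => by
    funext i
    exact Fintype.linearIndependent_iffₛ.mp hli _ _ ((ha x).trans h.symm) i
  let co : R →ₗ[O] (ι → C) :=
    { toFun := a
      map_add' := fun x y => hu _ _ (by simp [add_smul, Finset.sum_add_distrib, ha, smul_add])
      map_smul' := fun o x => hu _ _ (by
        simp only [RingHom.id_apply, Pi.smul_apply]
        rw [smul_comm c o x, ← ha x, Finset.smul_sum]
        exact Finset.sum_congr rfl fun i _ => smul_assoc o _ _) }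
  let Ψ : (k ⊗[O] R) →ₗ[O] (ι → k ⊗[O] C) := TensorProduct.lift
    { toFun := fun β =>
        { toFun := fun x i => β ⊗ₜ[O] co x i
          map_add' := fun x y => by funext i; simp [TensorProduct.tmul_add]
          map_smul' := fun o x => by funext i; simp [TensorProduct.tmul_smul] }
      map_add' := fun β γ => by ext x i; simp [TensorProduct.add_tmul]
      map_smul' := fun o β => by ext x i; simp [TensorProduct.smul_tmul'] }
  have hone := tmul_eq_tmul_one_of_dvd O k hπ₀ hc
  have hΨ : ∀ (β : k ⊗[O] C) i, Ψ (β • ((1 : k) ⊗ₜ[O] r i)) = Pi.single i β := by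
    intro β i
    induction β using TensorProduct.induction_on with
    | zero => simp
    | add β γ hβ hγ => rw [add_smul, map_add, hβ, hγ, Pi.single_add]
    | tmul β e =>
      rw [fibreAlgebra_tmul_smul, mul_one]
      funext j
      have : co (e • r i) = Pi.single i (c * e) := hu _ _ (by
        simp [Pi.single_apply, ite_smul, smul_smul])
      show β ⊗ₜ[O] co (e • r i) j = _
      rw [this]
      rcases eq_or_ne j i with rfl | hij
      · rw [Pi.single_eq_same, Pi.single_eq_same]
        calc β ⊗ₜ[O] (c * e) = ((1 : k) ⊗ₜ[O] c) * (β ⊗ₜ[O] e) := by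
              rw [Algebra.TensorProduct.tmul_mul_tmul, one_mul]
          _ = β ⊗ₜ[O] e := by rw [hone, one_mul]
      · rw [Pi.single_eq_of_ne hij, Pi.single_eq_of_ne hij, TensorProduct.tmul_zero]
  have hli' : LinearIndependent (k ⊗[O] C) fun i => (1 : k) ⊗ₜ[O] r i := by
    rw [Fintype.linearIndependent_iff]
    intro g hg i
    have := congrFun (congrArg Ψ hg) i
    simpa [map_sum, hΨ, Finset.sum_pi_single] using this
  have hspan' : (⊤ : Submodule (k ⊗[O] C) (k ⊗[O] R)) ≤
      Submodule.span _ (Set.range fun i => (1 : k) ⊗ₜ[O] r i) := by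
    intro z _
    induction z using TensorProduct.induction_on with
    | zero => exact zero_mem _
    | add x y hx hy => exact add_mem (hx trivial) (hy trivial)
    | tmul β x =>
      refine (Submodule.mem_span_range_iff_exists_fun _).mpr ⟨fun i => β ⊗ₜ[O] a x i, ?_⟩
      simp only [fibreAlgebra_tmul_smul, mul_one]
      rw [← TensorProduct.tmul_sum, ha]
      calc β ⊗ₜ[O] (c • x) = ((1 : k) ⊗ₜ[O] c) • (β ⊗ₜ[O] x) := by
            rw [fibreAlgebra_tmul_smul, one_mul]
        _ = β ⊗ₜ[O] x := by rw [hone, one_smul]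
  exact ⟨Module.Basis.mk hli' hspan', fun i => by simp⟩

include hπ₀ hc in
/-- The trace on the special fibre is the reduction of the generic trace. -/
theorem trace_fibre (L M : Type*) [Field L] [Field M] [Algebra L M] [Algebra C L] [Algebra C M]
    [IsScalarTower C L M] [Algebra R M] [IsScalarTower C R M] [IsFractionRing C L]
    (bM : Module.Basis ι L M) (hbM : ∀ i, bM i = algebraMap R M (r i))
    (b : Module.Basis ι (k ⊗[O] C) (k ⊗[O] R)) (hb : ∀ i, b i = (1 : k) ⊗ₜ[O] r i)
    (hspan : ∀ x : R, c • x ∈ Submodule.span C (Set.range r))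
    (x : R) (t : C) (ht : algebraMap C L t = Algebra.trace L M (algebraMap R M x)) :
    Algebra.trace (k ⊗[O] C) (k ⊗[O] R) (1 ⊗ₜ[O] x) = 1 ⊗ₜ[O] t := by
  classical
  choose a ha using fun y => (Submodule.mem_span_range_iff_exists_fun C).mp (hspan y)
  have hone := tmul_eq_tmul_one_of_dvd O k hπ₀ hc
  have hct : c * t = ∑ j, a (x * r j) j := by
    apply IsFractionRing.injective C L
    rw [map_mul, map_sum, ht, Algebra.trace_eq_matrix_trace bM, Matrix.trace, Finset.mul_sum]
    refine Finset.sum_congr rfl fun j _ => ?_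
    rw [Matrix.diag_apply, Algebra.leftMulMatrix_eq_repr_mul, ← smul_eq_mul, ← Finsupp.smul_apply,
      ← map_smul, hbM]
    have h1 := congrArg (algebraMap R M) (ha (x * r j))
    rw [Algebra.smul_def, map_mul, ← IsScalarTower.algebraMap_apply, map_mul, map_sum,
      IsScalarTower.algebraMap_apply C L M, ← Algebra.smul_def] at h1
    rw [← h1, map_sum, Finsupp.coe_finsetSum, Finset.sum_apply]
    rw [Finset.sum_eq_single j]
    · rw [Algebra.smul_def, map_mul, ← IsScalarTower.algebraMap_apply,
        IsScalarTower.algebraMap_apply C L M, ← Algebra.smul_def, ← hbM, map_smul, bM.repr_self]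
      simp [Algebra.smul_def]
    · intro i _ hij
      rw [Algebra.smul_def, map_mul, ← IsScalarTower.algebraMap_apply,
        IsScalarTower.algebraMap_apply C L M, ← Algebra.smul_def, ← hbM, map_smul]
      simp [Finsupp.single_eq_of_ne' hij]
    · simp
  have hrepr : ∀ y i, b.repr ((1 : k) ⊗ₜ[O] y) i = 1 ⊗ₜ[O] a y i := by
    intro y i
    have h2 : (1 : k) ⊗ₜ[O] y = ∑ i, ((1 : k) ⊗ₜ[O] a y i) • b i := by
      simp only [hb, fibreAlgebra_tmul_smul, mul_one]
      rw [← TensorProduct.tmul_sum, ha]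
      calc (1 : k) ⊗ₜ[O] y = ((1 : k) ⊗ₜ[O] c) • ((1 : k) ⊗ₜ[O] y) := by rw [hone, one_smul]
        _ = 1 ⊗ₜ[O] (c • y) := by rw [fibreAlgebra_tmul_smul, one_mul]
    rw [h2, b.repr_sum_self]
  rw [Algebra.trace_eq_matrix_trace b, Matrix.trace]
  simp only [Matrix.diag_apply, Algebra.leftMulMatrix_eq_repr_mul, hb,
    Algebra.TensorProduct.tmul_mul_tmul, mul_one, hrepr]
  rw [← TensorProduct.tmul_sum, ← hct]
  calc (1 : k) ⊗ₜ[O] (c * t) = ((1 : k) ⊗ₜ[O] c) * ((1 : k) ⊗ₜ[O] t) := by
        rw [Algebra.TensorProduct.tmul_mul_tmul, one_mul]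
    _ = 1 ⊗ₜ[O] t := by rw [hone, one_mul]

end BaseChange

end Fermat.Agent.Igusa
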