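import Mathlib
import Fermat.Agent.Igusa.SmoothFree

/-!
# Purity of the branch locus on an arithmetic surface

`C` is a factorial domain, `π` a prime element and `R` the integral closure of `C` in a finite
separable extension `M` of `Frac C`, free near the fibre `π = 0`.  If the trace discriminant of a
basis is prime to `π` and the extension is unramified at every horizontal prime (witnessed by
Laurent series embeddings), then the discriminant is a unit along the fibre.
-/

noncomputable section

open Polynomial Matrix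

namespace Fermat.Agent.Igusa

section Split

variable {L M Φ : Type*} [Field L] [Field M] [Algebra L M] [FiniteDimensional L M] [Field Φ]
  {ι : L →+* Φ} {φ : Fin (Module.finrank L M) → (M →+* Φ)}

omit [FiniteDimensional L M] in
/-- A finite extension split completely by a family of embeddings: left multiplication becomes
diagonal. -/
theorem leftMulMatrix_map_conj (hφ : Function.Injective φ)
    (hι : ∀ i a, φ i (algebraMap L M a) = ι a)
    (b : Module.Basis (Fin (Module.finrank L M)) L M) (y : M) :
    ∃ D : (Matrix (Fin (Module.finrank L M)) (Fin (Module.finrank L M)) Φ)ˣ,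
      (Algebra.leftMulMatrix b y).map ι =
        (D⁻¹ : (Matrix (Fin (Module.finrank L M)) (Fin (Module.finrank L M)) Φ)ˣ).val *
          Matrix.diagonal (fun i => φ i y) * D.val := by
  set D : Matrix (Fin (Module.finrank L M)) (Fin (Module.finrank L M)) Φ :=
    Matrix.of fun i k => φ i (b k) with hD
  have hdet : D.det ≠ 0 := by
    intro h0
    obtain ⟨v, hv, hv0⟩ := Matrix.exists_vecMul_eq_zero_iff.mpr h0
    have hli : LinearIndependent Φ fun i => ((φ i : M →+* Φ).toMonoidHom : M → Φ) :=
      (linearIndependent_monoidHom M Φ).comp (fun i => (φ i).toMonoidHom) fun i j hij =>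
        hφ (RingHom.ext fun x => DFunLike.congr_fun hij x)
    refine hv (funext fun i => ?_)
    refine Fintype.linearIndependent_iff.mp hli v ?_ i
    funext x
    rw [← b.sum_repr x]
    simp only [Finset.sum_apply, Pi.smul_apply, smul_eq_mul, Pi.zero_apply,
      RingHom.toMonoidHom_eq_coe, MonoidHom.coe_coe, map_sum, Finset.mul_sum]
    rw [Finset.sum_comm]
    refine Finset.sum_eq_zero fun k _ => ?_
    have h1 := congrFun hv0 k
    simp only [Matrix.vecMul, dotProduct, hD, Matrix.of_apply, Pi.zero_apply] at h1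
    simp only [Algebra.smul_def, map_mul, hι]
    calc ∑ j, v j * (ι (b.repr x k) * φ j (b k))
        = ι (b.repr x k) * ∑ j, v j * φ j (b k) := by
          rw [Finset.mul_sum]; exact Finset.sum_congr rfl fun j _ => by ring
      _ = 0 := by rw [h1, mul_zero]
  obtain ⟨U, hU⟩ := (Matrix.isUnit_iff_isUnit_det D).mpr (Ne.isUnit hdet)
  refine ⟨U, ?_⟩
  rw [mul_assoc, Units.eq_inv_mul_iff_mul_eq, hU]
  ext i j
  rw [Matrix.diagonal_mul, Matrix.mul_apply, hD, Matrix.of_apply]
  simp only [Matrix.map_apply, Matrix.of_apply]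
  conv_rhs => rw [← map_mul (φ i), ← b.sum_repr (y * b j), map_sum]
  refine Finset.sum_congr rfl fun k _ => ?_
  rw [Algebra.leftMulMatrix_eq_repr_mul, Algebra.smul_def, map_mul (φ i), hι, mul_comm]

omit [FiniteDimensional L M] in
/-- The characteristic polynomial is the product over the embeddings. -/
theorem charpoly_map_eq_prod (hφ : Function.Injective φ)
    (hι : ∀ i a, φ i (algebraMap L M a) = ι a)
    (b : Module.Basis (Fin (Module.finrank L M)) L M) (y : M) :
    (Algebra.leftMulMatrix b y).charpoly.map ι = ∏ i, (X - C (φ i y)) := by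
  obtain ⟨D, hD⟩ := leftMulMatrix_map_conj hφ hι b y
  rw [← Matrix.charpoly_map, hD, Matrix.coe_units_inv, Matrix.charpoly_units_conj',
    Matrix.charpoly_diagonal]

/-- The trace is the sum over the embeddings. -/
theorem map_trace_eq_sum (hφ : Function.Injective φ)
    (hι : ∀ i a, φ i (algebraMap L M a) = ι a) (y : M) :
    ι (Algebra.trace L M y) = ∑ i, φ i y := by
  obtain ⟨D, hD⟩ := leftMulMatrix_map_conj hφ hι (Module.finBasis L M) y
  rw [Algebra.trace_eq_matrix_trace (Module.finBasis L M), Matrix.trace, map_sum]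
  have h1 := congrArg Matrix.trace hD
  rw [Matrix.trace_units_conj', Matrix.trace_diagonal] at h1
  exact h1

end Split

/-- Numbers all whose power sums vanish are zero. -/
theorem eq_zero_of_sum_pow_eq_zero {K ι : Type*} [Field K] [CharZero K] [Fintype ι] (r : ι → K)
    (h : ∀ m : ℕ, 0 < m → ∑ i, r i ^ m = 0) (i : ι) : r i = 0 := by
  classical
  by_contra hi
  set T := (Finset.univ.image r).erase (r i)
  set P : K[X] := X * ∏ t ∈ T, (X - C t) with hP
  have hsum : ∑ j, P.eval (r j) = 0 := by
    simp only [eval_eq_sum_range]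
    rw [Finset.sum_comm]
    refine Finset.sum_eq_zero fun m _ => ?_
    rw [← Finset.mul_sum]
    rcases Nat.eq_zero_or_pos m with rfl | hm
    · simp [hP, coeff_zero_eq_eval_zero]
    · rw [h m hm, mul_zero]
  have hterm : ∀ j, P.eval (r j) = if r j = r i then P.eval (r i) else 0 := by
    intro j
    split_ifs with hj
    · rw [hj]
    · have hjT : r j ∈ T :=
        Finset.mem_erase.mpr ⟨hj, Finset.mem_image_of_mem r (Finset.mem_univ j)⟩
      rw [hP, eval_mul, eval_prod, Finset.prod_eq_zero hjT (by simp), mul_zero]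
  rw [Finset.sum_congr rfl fun j _ => hterm j, Finset.sum_ite, Finset.sum_const_zero, add_zero,
    Finset.sum_const, nsmul_eq_mul] at hsum
  refine (mul_ne_zero ?_ ?_) hsum
  · exact Nat.cast_ne_zero.mpr (Finset.card_ne_zero.mpr ⟨i, by simp⟩)
  · rw [hP, eval_mul, eval_X, eval_prod]
    refine mul_ne_zero hi (Finset.prod_ne_zero_iff.mpr fun t ht => ?_)
    rw [eval_sub, eval_X, eval_C, sub_ne_zero]
    exact (Finset.mem_erase.mp ht).1.symm

/-- A product of `X - t i` has coefficients in any subring containing the `t i`. -/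
theorem coeff_prod_X_sub_C_mem {Φ ι : Type*} [CommRing Φ] (T : Subring Φ) (s : Finset ι)
    (t : ι → Φ) (ht : ∀ i ∈ s, t i ∈ T) (m : ℕ) : (∏ i ∈ s, (X - C (t i))).coeff m ∈ T := by
  have h : (∏ i ∈ s, (X - C (t i))) ∈ lifts T.subtype :=
    Subsemiring.prod_mem _ fun i hi =>
      Subring.sub_mem (liftsRing T.subtype) (X_mem_lifts _)
        (C_mem_lifts T.subtype ⟨t i, ht i hi⟩)
  obtain ⟨e, he⟩ := (lifts_iff_coeff_lifts _).mp h m
  rw [← he]
  exact e.2

/-- The witness of non-ramification at a horizontal prime `(p)`: the fraction field embeds into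
Laurent series with `p` a uniformizer, and the extension splits completely there. -/
structure SplitsAtPrime (C L M Ω : Type*) [CommRing C] [Field L] [Algebra C L] [Field M]
    [Algebra L M] [Field Ω] (p : C) where
  /-- The expansion of `L` in Laurent series. -/
  ι : L →+* LaurentSeries Ω
  /-- The expansion of `C` in power series, with `p` of order one. -/
  ε : C →+* PowerSeries Ω
  comp_eq : ∀ e, ι (algebraMap C L e) = HahnSeries.ofPowerSeries ℤ Ω (ε e)
  constantCoeff_eq_zero_iff : ∀ e, PowerSeries.constantCoeff (ε e) = 0 ↔ p ∣ e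
  coeff_one_ne_zero : PowerSeries.coeff 1 (ε p) ≠ 0
  /-- As many extensions of the expansion to `M` as its degree, pairwise distinct. -/
  emb : Fin (Module.finrank L M) → (M →+* LaurentSeries Ω)
  injective_emb : Function.Injective emb
  comm : ∀ i a, emb i (algebraMap L M a) = ι a

section Purity

variable {C L M R Ω : Type*} [CommRing C] [IsDomain C] [IsIntegrallyClosed C] [Field L]
  [Algebra C L] [IsFractionRing C L] [Field M] [Algebra L M] [Algebra C M] [IsScalarTower C L M]
  [FiniteDimensional L M] [Algebra.IsSeparable L M] [CommRing R] [Algebra C R] [Algebra R M]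
  [IsScalarTower C R M]
  [IsIntegralClosure R C M] [Field Ω] [CharZero Ω]

omit [IsDomain C] [Algebra.IsSeparable L M] in
/-- The traces of `R` lie in `C`. -/
theorem exists_trace_eq (y : R) :
    ∃ e : C, algebraMap C L e = Algebra.trace L M (algebraMap R M y) :=
  IsIntegrallyClosed.isIntegral_iff.mp
    (Algebra.isIntegral_trace (IsIntegralClosure.isIntegral C M y).algebraMap)

omit [IsDomain C] [Algebra.IsSeparable L M] in
/-- If `w` is killed by the trace form modulo `p`, so are the traces of powers of `∑ w k r k`. -/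
theorem exists_trace_pow_eq_dvd {c : C} {r : Fin (Module.finrank L M) → R}
    (hspan : ∀ x : R, c • x ∈ Submodule.span C (Set.range r)) {p : C} (hp : Prime p)
    (hpc : ¬ p ∣ c) {G : Fin (Module.finrank L M) → Fin (Module.finrank L M) → C}
    (hG : ∀ i j, algebraMap C L (G i j) = Algebra.trace L M (algebraMap R M (r i * r j)))
    {w : Fin (Module.finrank L M) → C} (hrow : ∀ i, p ∣ ∑ k, G i k * w k) (m : ℕ) (hm : 0 < m) :
    ∃ e, algebraMap C L e = Algebra.trace L M (algebraMap R M ((∑ k, w k • r k) ^ m)) ∧
      p ∣ e := by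
  set z : R := ∑ k, w k • r k with hz
  obtain ⟨a, ha⟩ := (Submodule.mem_span_range_iff_exists_fun C).mp (hspan (z ^ (m - 1)))
  obtain ⟨e, he⟩ := exists_trace_eq (C := C) (L := L) (M := M) (z ^ m)
  refine ⟨e, he, (hp.dvd_or_dvd ?_).resolve_left hpc⟩
  have h1 : c * e = ∑ i, a i * ∑ k, G i k * w k := by
    apply IsFractionRing.injective C L
    have h2 : algebraMap R M (c • z ^ m) =
        ∑ i, ∑ k, algebraMap C L (a i * w k) • algebraMap R M (r i * r k) := by
      have h3 : c • z ^ m = ∑ i, ∑ k, (a i * w k) • (r i * r k) := by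
        calc c • z ^ m = (c • z ^ (m - 1)) * z := by
              rw [smul_mul_assoc, ← pow_succ, Nat.sub_add_cancel hm]
          _ = _ := by
              rw [← ha, hz, Finset.sum_mul_sum]
              exact Finset.sum_congr rfl fun i _ => Finset.sum_congr rfl fun k _ => by
                rw [smul_mul_smul_comm]
      rw [h3, map_sum]
      refine Finset.sum_congr rfl fun i _ => ?_
      rw [map_sum]
      refine Finset.sum_congr rfl fun k _ => ?_
      rw [IsScalarTower.algebraMap_smul, Algebra.smul_def, Algebra.smul_def, map_mul,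
        ← IsScalarTower.algebraMap_apply]
    have h4 : Algebra.trace L M (algebraMap R M (c • z ^ m)) = algebraMap C L (c * e) := by
      rw [Algebra.smul_def, map_mul, ← IsScalarTower.algebraMap_apply,
        IsScalarTower.algebraMap_apply C L M, ← Algebra.smul_def, map_smul, smul_eq_mul,
        map_mul, he]
    rw [← h4, h2, map_sum, map_sum]
    refine Finset.sum_congr rfl fun i _ => ?_
    rw [map_sum, map_mul, map_sum, Finset.mul_sum]
    refine Finset.sum_congr rfl fun k _ => ?_
    rw [map_smul, smul_eq_mul, ← hG, map_mul, map_mul]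
    ring
  rw [h1]
  exact Finset.dvd_sum fun i _ => Dvd.dvd.mul_left (hrow i) _

omit [IsDomain C] [Algebra.IsSeparable L M] [CharZero Ω] in
/-- An element whose conjugates are power series, and are integral after multiplication by `p`,
is integral. -/
theorem isIntegral_of_forall_emb_mem {p : C} (hp : Prime p) (W : SplitsAtPrime C L M Ω p) {y : M}
    (hyPS : ∀ i, W.emb i y ∈ (HahnSeries.ofPowerSeries ℤ Ω).range)
    (hyint : ∀ i, (W.ι.comp (algebraMap C L)).IsIntegralElem
      (W.ι (algebraMap C L p) * W.emb i y)) : IsIntegral C y := by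
  have hpeval : PowerSeries.constantCoeff (W.ε p) = 0 :=
    (W.constantCoeff_eq_zero_iff p).mpr dvd_rfl
  have hp0 : algebraMap C L p ≠ 0 := by simpa using hp.ne_zero
  set b := Module.finBasis L M
  set P := (Algebra.leftMulMatrix b y).charpoly with hPdef
  have hPmap : P.map W.ι = ∏ i, (X - Polynomial.C (W.emb i y)) :=
    charpoly_map_eq_prod W.injective_emb W.comm b y
  let T : Subring (LaurentSeries Ω) :=
    { carrier := {x | ∃ N : ℕ, (W.ι.comp (algebraMap C L)).IsIntegralElem
        (W.ι (algebraMap C L p) ^ N * x)}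
      zero_mem' := ⟨0, by simpa using RingHom.isIntegralElem_zero _⟩
      one_mem' := ⟨0, by simpa using RingHom.isIntegralElem_one _⟩
      neg_mem' := fun {x} ⟨N, hN⟩ => ⟨N, by rw [mul_neg]; exact hN.neg⟩
      add_mem' := fun {x x'} ⟨N, hN⟩ ⟨N', hN'⟩ => ⟨N + N', by
        have hpi : ∀ k : ℕ, (W.ι.comp (algebraMap C L)).IsIntegralElem
            (W.ι (algebraMap C L p) ^ k) := fun k => by
          rw [← map_pow, ← map_pow]
          exact RingHom.isIntegralElem_map _
        have : W.ι (algebraMap C L p) ^ (N + N') * (x + x') =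
            W.ι (algebraMap C L p) ^ N' * (W.ι (algebraMap C L p) ^ N * x) +
              W.ι (algebraMap C L p) ^ N * (W.ι (algebraMap C L p) ^ N' * x') := by ring
        rw [this]
        exact ((hpi N').mul _ hN).add _ ((hpi N).mul _ hN')⟩
      mul_mem' := fun {x x'} ⟨N, hN⟩ ⟨N', hN'⟩ => ⟨N + N', by
        have : W.ι (algebraMap C L p) ^ (N + N') * (x * x') =
            (W.ι (algebraMap C L p) ^ N * x) * (W.ι (algebraMap C L p) ^ N' * x') := by ring
        rw [this]
        exact hN.mul _ hN'⟩ }
  have hyT : ∀ i, W.emb i y ∈ T := fun i => ⟨1, (pow_one (W.ι (algebraMap C L p))).symm ▸ hyint i⟩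
  have hcoef : ∀ m, P.coeff m ∈ (algebraMap C L).range := by
    intro m
    have h1 : W.ι (P.coeff m) ∈ (HahnSeries.ofPowerSeries ℤ Ω).range := by
      rw [← coeff_map, hPmap]
      exact coeff_prod_X_sub_C_mem _ _ _ (fun i _ => hyPS i) m
    have h2 : W.ι (P.coeff m) ∈ T := by
      rw [← coeff_map, hPmap]
      exact coeff_prod_X_sub_C_mem _ _ _ (fun i _ => hyT i) m
    obtain ⟨N, Q, hQ, hQ0⟩ := h2
    have hint : IsIntegral C (algebraMap C L p ^ N * P.coeff m) := by
      refine ⟨Q, hQ, W.ι.injective ?_⟩
      rw [map_zero, hom_eval₂, map_mul, map_pow]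
      exact hQ0
    obtain ⟨e, he⟩ := IsIntegrallyClosed.isIntegral_iff.mp hint
    clear hQ hQ0 hint
    induction N generalizing e with
    | zero => exact ⟨e, by simpa using he⟩
    | succ N ih =>
      obtain ⟨g, hg⟩ := h1
      have hdiv : p ∣ e := by
        rw [← W.constantCoeff_eq_zero_iff]
        have h3 : W.ε e = W.ε p ^ (N + 1) * g := by
          apply HahnSeries.ofPowerSeries_injective (Γ := ℤ) (R := Ω)
          rw [← W.comp_eq, he, map_mul, map_mul, map_pow, map_pow, W.comp_eq, hg]
        rw [h3, map_mul, map_pow, hpeval, zero_pow (Nat.succ_ne_zero N), zero_mul]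
      obtain ⟨e', rfl⟩ := hdiv
      refine ih e' (mul_left_cancel₀ hp0 ?_)
      rw [← map_mul, he, pow_succ]
      ring
  have hlift : P ∈ lifts (algebraMap C L) := (lifts_iff_coeff_lifts P).mpr fun m => hcoef m
  obtain ⟨Q, hQ, -, hQm⟩ := lifts_and_natDegree_eq_and_monic hlift (Matrix.charpoly_monic _)
  refine ⟨Q, hQm, ?_⟩
  rw [IsScalarTower.algebraMap_eq C L M, ← eval₂_map, hQ, ← aeval_def]
  apply Algebra.leftMulMatrix_injective b
  rw [← aeval_algHom_apply, Matrix.aeval_self_charpoly, map_zero]

omit [Algebra.IsSeparable L M] in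
/-- No horizontal prime with a splitting witness divides the discriminant. -/
theorem not_dvd_discr_of_splitsAtPrime {c : C} {r : Fin (Module.finrank L M) → R}
    (hli : LinearIndependent C r) (hspan : ∀ x : R, c • x ∈ Submodule.span C (Set.range r))
    {d : C} (hd : algebraMap C L d = Algebra.discr L fun i => algebraMap R M (r i))
    {p : C} (hp : Prime p) (hpc : ¬ p ∣ c) (W : SplitsAtPrime C L M Ω p) : ¬ p ∣ d := by
  intro hpd
  choose G hG using fun i j : Fin (Module.finrank L M) =>
    exists_trace_eq (C := C) (L := L) (M := M) (r i * r j)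
  set Gm : Matrix (Fin (Module.finrank L M)) (Fin (Module.finrank L M)) C := Matrix.of G
  have hdet : Gm.det = d := by
    apply IsFractionRing.injective C L
    rw [hd, RingHom.map_det, Algebra.discr_def]
    congr 1
    ext i j
    simp [Gm, hG, Algebra.traceMatrix_apply, Algebra.traceForm_apply]
  have : (Ideal.span {p}).IsPrime := (Ideal.span_singleton_prime hp.ne_zero).mpr hp
  obtain ⟨v, hv, hv0⟩ := Matrix.exists_mulVec_eq_zero_iff.mpr
    (show (Gm.map (Ideal.Quotient.mk (Ideal.span {p}))).det = 0 by
      rw [← RingHom.mapMatrix_apply, ← RingHom.map_det, hdet]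
      exact Ideal.Quotient.eq_zero_iff_mem.mpr (Ideal.mem_span_singleton.mpr hpd))
  choose w hw using fun i => Ideal.Quotient.mk_surjective (v i)
  obtain ⟨i₀, hi₀⟩ : ∃ i, ¬ p ∣ w i := by
    by_contra hall
    push Not at hall
    exact hv (funext fun i => (hw i).symm.trans
      (Ideal.Quotient.eq_zero_iff_mem.mpr (Ideal.mem_span_singleton.mpr (hall i))))
  have hrow : ∀ i, p ∣ ∑ k, G i k * w k := fun i => by
    rw [← Ideal.mem_span_singleton, ← Ideal.Quotient.eq_zero_iff_mem, map_sum]
    have := congrFun hv0 i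
    simp only [Matrix.mulVec, dotProduct, Matrix.map_apply, Gm, Matrix.of_apply, Pi.zero_apply,
      ← hw, ← map_mul] at this
    exact this
  set z : R := ∑ k, w k • r k with hz
  have hpow : ∀ m : ℕ, 0 < m →
      ∃ e, algebraMap C L e = Algebra.trace L M (algebraMap R M (z ^ m)) ∧ p ∣ e :=
    exists_trace_pow_eq_dvd hspan hp hpc hG hrow
  -- every conjugate of `z` vanishes at the point
  have hPS : ∀ (i : Fin (Module.finrank L M)) (x : R), ∃ f : PowerSeries Ω,
      W.emb i (algebraMap R M x) = HahnSeries.ofPowerSeries ℤ Ω f := by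
    intro i x
    obtain ⟨P, hP, hP0⟩ := (IsIntegralClosure.isIntegral C M x).algebraMap (B := M)
    have : IsIntegral (PowerSeries Ω) (W.emb i (algebraMap R M x)) := by
      refine ⟨P.map W.ε, hP.map _, ?_⟩
      rw [eval₂_map]
      have h := congrArg (W.emb i) hP0
      rw [map_zero, hom_eval₂] at h
      rw [← h]
      congr 1
      ext e : 1
      simp [IsScalarTower.algebraMap_apply C L M, W.comm, W.comp_eq]
    obtain ⟨f, hf⟩ := IsIntegrallyClosed.isIntegral_iff.mp this
    exact ⟨f, hf.symm.trans (by simp)⟩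
  choose f hf using hPS
  have hof : Function.Injective (HahnSeries.ofPowerSeries ℤ Ω) := HahnSeries.ofPowerSeries_injective
  have hconst : ∀ i, PowerSeries.constantCoeff (f i z) = 0 := by
    refine eq_zero_of_sum_pow_eq_zero _ fun m hm => ?_
    obtain ⟨e, he, hpe⟩ := hpow m hm
    have h1 : W.ε e = ∑ i, f i z ^ m := by
      apply hof
      rw [← W.comp_eq, he, map_trace_eq_sum W.injective_emb W.comm, map_sum]
      exact Finset.sum_congr rfl fun i _ => by rw [map_pow, map_pow, hf, map_pow]
    have h2 := (W.constantCoeff_eq_zero_iff e).mpr hpe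
    rw [h1, map_sum] at h2
    simpa [map_pow] using h2
  have hpeval : PowerSeries.constantCoeff (W.ε p) = 0 :=
    (W.constantCoeff_eq_zero_iff p).mpr dvd_rfl
  obtain ⟨u, hu⟩ := PowerSeries.X_dvd_iff.mpr hpeval
  have huunit : IsUnit u := by
    rw [PowerSeries.isUnit_iff_constantCoeff, isUnit_iff_ne_zero]
    have h1 := W.coeff_one_ne_zero
    rwa [hu, show (1 : ℕ) = 0 + 1 from rfl, PowerSeries.coeff_succ_X_mul,
      PowerSeries.coeff_zero_eq_constantCoeff_apply] at h1
  have hp0 : algebraMap C L p ≠ 0 := by simpa using hp.ne_zero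
  set y : M := algebraMap R M z / algebraMap L M (algebraMap C L p) with hy
  have hyPS : ∀ i, W.emb i y ∈ (HahnSeries.ofPowerSeries ℤ Ω).range := by
    intro i
    obtain ⟨g, hg⟩ := PowerSeries.X_dvd_iff.mpr (hconst i)
    refine ⟨g * (huunit.unit⁻¹ : (PowerSeries Ω)ˣ), ?_⟩
    rw [hy, map_div₀, W.comm, W.comp_eq, hf, hu, hg, eq_div_iff, ← map_mul]
    · congr 1
      have : ((huunit.unit⁻¹ : (PowerSeries Ω)ˣ) : PowerSeries Ω) * u = 1 := huunit.val_inv_mul
      linear_combination (g * PowerSeries.X) * this
    · rw [← hu, ← W.comp_eq]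
      simpa using hp0
  have hyint : IsIntegral C y := by
    refine isIntegral_of_forall_emb_mem hp W hyPS fun i => ?_
    have h1 : W.ι (algebraMap C L p) * W.emb i y = W.emb i (algebraMap R M z) := by
      rw [hy, map_div₀, W.comm, mul_div_cancel₀]
      simpa using hp0
    rw [h1]
    obtain ⟨Q, hQ, hQ0⟩ := (IsIntegralClosure.isIntegral C M z).algebraMap (B := M)
    refine ⟨Q, hQ, ?_⟩
    have h := congrArg (W.emb i) hQ0
    rw [map_zero, hom_eval₂] at h
    rw [← h]
    congr 1
    ext e : 1
    simp [IsScalarTower.algebraMap_apply C L M, W.comm]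
  obtain ⟨y', hy'⟩ := (IsIntegralClosure.isIntegral_iff (A := R)).mp hyint
  have hzy : z = p • y' := by
    apply IsIntegralClosure.algebraMap_injective R C M
    rw [Algebra.smul_def, map_mul, ← IsScalarTower.algebraMap_apply, hy', hy,
      ← IsScalarTower.algebraMap_apply C L M, mul_div_cancel₀]
    rw [IsScalarTower.algebraMap_apply C L M]
    simpa using hp0
  obtain ⟨a, ha⟩ := (Submodule.mem_span_range_iff_exists_fun C).mp (hspan y')
  have hsum : ∑ k, (c * w k) • r k = ∑ k, (p * a k) • r k := by
    simp only [mul_smul, ← Finset.smul_sum, ha, ← hz]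
    rw [hzy, smul_comm]
  have := Fintype.linearIndependent_iffₛ.mp hli _ _ hsum i₀
  exact hi₀ ((hp.dvd_or_dvd ⟨a i₀, this⟩).resolve_left hpc)

omit [IsDomain C] [Algebra.IsSeparable L M] [IsIntegrallyClosed C] [IsFractionRing C L]
  [Algebra C M] [IsScalarTower C L M] [FiniteDimensional L M] in
/-- An element whose matrix is the scalar `a` modulo `π` has norm prime to `π`. -/
theorem exists_norm_eq_not_dvd (b : Module.Basis (Fin (Module.finrank L M)) L M) {π a : C}
    (hπ : Prime π) (ha : ¬ π ∣ a)
    (e : Fin (Module.finrank L M) → Fin (Module.finrank L M) → C) {z : M}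
    (hmat : Algebra.leftMulMatrix b z =
      ((a • (1 : Matrix (Fin (Module.finrank L M)) (Fin (Module.finrank L M)) C)) +
        π • Matrix.of e).map (algebraMap C L)) :
    ∃ Nz : C, algebraMap C L Nz = Algebra.norm L z ∧ ¬ π ∣ Nz := by
  refine ⟨((a • (1 : Matrix (Fin (Module.finrank L M)) (Fin (Module.finrank L M)) C)) +
    π • Matrix.of e).det, ?_, fun hdvd => ha ?_⟩
  · rw [Algebra.norm_eq_matrix_det b, hmat, RingHom.map_det, RingHom.mapMatrix_apply]
  have : (Ideal.span {π}).IsPrime := (Ideal.span_singleton_prime hπ.ne_zero).mpr hπ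
  have h0 := Ideal.Quotient.eq_zero_iff_mem.mpr (Ideal.mem_span_singleton.mpr hdvd)
  rw [RingHom.map_det, RingHom.mapMatrix_apply] at h0
  have hmap : ((a • (1 : Matrix (Fin (Module.finrank L M)) (Fin (Module.finrank L M)) C)) +
      π • Matrix.of e).map (Ideal.Quotient.mk (Ideal.span {π})) =
      Matrix.diagonal fun _ => Ideal.Quotient.mk (Ideal.span {π}) a := by
    ext i j
    rw [Matrix.map_apply, Matrix.add_apply, Matrix.smul_apply, Matrix.smul_apply, map_add,
      smul_eq_mul, smul_eq_mul, map_mul, map_mul,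
      Ideal.Quotient.eq_zero_iff_mem.mpr (Ideal.mem_span_singleton_self π), zero_mul, add_zero]
    rcases eq_or_ne i j with rfl | hij <;> simp [*]
  rw [hmap, Matrix.det_diagonal, Finset.prod_const, Finset.card_univ, Fintype.card_fin] at h0
  exact Ideal.mem_span_singleton.mp
    (Ideal.Quotient.eq_zero_iff_mem.mp (pow_eq_zero_iff'.mp h0).1)

omit [IsDomain C] [IsIntegrallyClosed C] [IsFractionRing C L] [FiniteDimensional L M]
  [Algebra.IsSeparable L M] in
/-- When the powers of an integral `x` below the degree of its minimal polynomial are a basis, the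
polynomials in `x` have coordinates in `C`. -/
theorem repr_aeval_mem_range {x : M} (hxC : IsIntegral C x)
    (b : Module.Basis (Fin (Module.finrank L M)) L M) (hbi : ∀ i, b i = x ^ (i : ℕ))
    (hqdeg : (minpoly C x).natDegree = Module.finrank L M) (P : C[X])
    (j : Fin (Module.finrank L M)) : b.repr (aeval x P) j ∈ (algebraMap C L).range := by
  rw [← modByMonic_add_div P (minpoly C x), map_add, map_mul, minpoly.aeval C x,
    zero_mul, add_zero]
  rw [aeval_eq_sum_range' (n := Module.finrank L M)
    (by
      rw [← hqdeg]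
      refine natDegree_modByMonic_lt P (minpoly.monic hxC) ?_
      intro h1
      exact (minpoly.natDegree_pos hxC).ne' (by rw [h1, natDegree_one])),
    ← Fin.sum_univ_eq_sum_range (fun i => (P %ₘ minpoly C x).coeff i • x ^ i), map_sum,
    Finsupp.coe_finsetSum, Finset.sum_apply]
  refine Subring.sum_mem _ fun i _ => ?_
  rw [← hbi, ← IsScalarTower.algebraMap_smul L, map_smul, b.repr_self]
  refine ⟨(P %ₘ minpoly C x).coeff i * (Finsupp.single i (1 : C)) j, ?_⟩
  rcases eq_or_ne i j with rfl | hij
  · simp [Algebra.smul_def]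
  · simp [Algebra.smul_def, Finsupp.single_eq_of_ne' hij]

omit [IsDomain C] [IsIntegrallyClosed C] [IsFractionRing C L] [Algebra.IsSeparable L M]
  [FiniteDimensional L M] [IsIntegralClosure R C M] in
/-- If `c • R` lies in the span of `r`, the discriminant of a basis from `R`, times `c ^ 2n`, is a
square multiple of the discriminant of `r`. -/
theorem exists_discr_mul_eq {c : C} {r : Fin (Module.finrank L M) → R}
    (hspan : ∀ x : R, c • x ∈ Submodule.span C (Set.range r))
    {d : C} (hd : algebraMap C L d = Algebra.discr L fun i => algebraMap R M (r i))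
    (b : Module.Basis (Fin (Module.finrank L M)) L M)
    (hb : ∀ i, b i ∈ (algebraMap R M).range) :
    ∃ e : C, algebraMap C L ((c ^ Module.finrank L M) ^ 2) * Algebra.discr L b =
      algebraMap C L (e ^ 2 * d) := by
  choose y hy using hb
  choose A hA using fun i : Fin (Module.finrank L M) =>
    (Submodule.mem_span_range_iff_exists_fun C).mp (hspan (y i))
  set Am : Matrix (Fin (Module.finrank L M)) (Fin (Module.finrank L M)) C :=
    Matrix.of fun j i => A i j
  have hvec : (fun i => algebraMap C L c • b i) =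
      (fun i => algebraMap R M (r i)) ᵥ* (Am.map (algebraMap C L)).map (algebraMap L M) := by
    funext i
    have h := congrArg (algebraMap R M) (hA i)
    rw [Algebra.smul_def, map_mul, ← IsScalarTower.algebraMap_apply, hy, map_sum] at h
    rw [IsScalarTower.algebraMap_smul, Algebra.smul_def, ← h, Matrix.vecMul, dotProduct]
    refine Finset.sum_congr rfl fun j _ => ?_
    rw [Algebra.smul_def, map_mul, ← IsScalarTower.algebraMap_apply, Matrix.map_apply,
      Matrix.map_apply, ← IsScalarTower.algebraMap_apply, mul_comm]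
    rfl
  refine ⟨Am.det, ?_⟩
  have h1 := Algebra.discr_of_matrix_vecMul (fun i => algebraMap R M (r i))
    (Am.map (algebraMap C L))
  rw [← hvec] at h1
  have h2 : (fun i => algebraMap C L c • b i) = (⇑b ᵥ*
      (Matrix.diagonal fun _ : Fin (Module.finrank L M) => algebraMap C L c).map
        (algebraMap L M)) := by
    funext i
    rw [Matrix.diagonal_map (map_zero _), Matrix.vecMul_diagonal, Algebra.smul_def, mul_comm]
  rw [h2, Algebra.discr_of_matrix_vecMul, Matrix.det_diagonal, Finset.prod_const,
    Finset.card_univ, Fintype.card_fin, ← hd, ← RingHom.mapMatrix_apply,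
    ← RingHom.map_det] at h1
  simpa [map_mul, map_pow] using h1

/-- A monogenic order with separable reduction has discriminant prime to `π`. -/
theorem not_dvd_discr_of_separable {π c : C} (hπ : Prime π) (hc : π ∣ c - 1)
    {r : Fin (Module.finrank L M) → R}
    (hspan : ∀ x : R, c • x ∈ Submodule.span C (Set.range r))
    {d : C} (hd : algebraMap C L d = Algebra.discr L fun i => algebraMap R M (r i))
    (θ : R) (hgen : Algebra.adjoin L {algebraMap R M θ} = ⊤) (Q U V : C[X]) (a : C)
    (_hQ : Q.Monic) (hθ : aeval θ Q = 0) (ha : ¬ π ∣ a)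
    (hsep : ∀ i, π ∣ (U * Q + V * derivative Q - Polynomial.C a).coeff i) : ¬ π ∣ d := by
  intro hπd
  set x : M := algebraMap R M θ with hx
  have hxC : IsIntegral C x := (IsIntegralClosure.isIntegral C M θ).algebraMap
  have hxL : IsIntegral L x := IsIntegral.of_finite L x
  set pb := (Algebra.adjoin.powerBasis hxL).map
    ((Subalgebra.equivOfEq _ _ hgen).trans Subalgebra.topEquiv) with hpb
  have hpbgen : pb.gen = x := rfl
  have hdim : pb.dim = Module.finrank L M := pb.finrank.symm
  set b := pb.basis.reindex (finCongr hdim) with hb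
  have hbi : ∀ i, b i = x ^ (i : ℕ) := fun i => by simp [hb, hpbgen]
  set q := minpoly C x with hq
  have hqL : q.map (algebraMap C L) = minpoly L x :=
    (minpoly.isIntegrallyClosed_eq_field_fractions' L hxC).symm
  have hqdeg : q.natDegree = Module.finrank L M := by
    rw [← hdim, ← pb.natDegree_minpoly, hpbgen, ← hqL, (minpoly.monic hxC).natDegree_map]
  have hQx : aeval x Q = 0 := by
    rw [hx, aeval_algebraMap_apply, hθ, map_zero]
  have hinjC : Function.Injective (algebraMap C M) := by
    rw [IsScalarTower.algebraMap_eq C L M]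
    exact (algebraMap L M).injective.comp (IsFractionRing.injective C L)
  have : Module.IsTorsionFree C M := Module.IsTorsionFree.of_smul_eq_zero fun e m h => by
    rcases mul_eq_zero.mp (Algebra.smul_def e m ▸ h) with h | h
    · exact Or.inl (hinjC (h.trans (map_zero _).symm))
    · exact Or.inr h
  obtain ⟨w, hw⟩ : q ∣ Q := minpoly.isIntegrallyClosed_dvd hxC hQx
  have hcoord := repr_aeval_mem_range hxC b hbi hqdeg
  have hdiv : (Polynomial.C π) ∣ U * Q + V * derivative Q - Polynomial.C a :=
    (C_dvd_iff_dvd_coeff _ _).mpr hsep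
  obtain ⟨E, hE⟩ := hdiv
  choose e he using fun i (j : Fin (Module.finrank L M)) => hcoord (E * X ^ (j : ℕ)) i
  -- the norm of `a + π E(θ)` is prime to `π`
  set z : M := aeval x (V * w) * aeval x (derivative q) with hz
  have hzval : z = algebraMap C M a + algebraMap C M π * aeval x E := by
    have h := congrArg (aeval x) hE
    rw [hw, derivative_mul] at h
    simp only [map_sub, map_add, map_mul, minpoly.aeval, hq, aeval_C, zero_mul, mul_zero,
      zero_add, add_zero] at h
    rw [hz, map_mul]
    linear_combination h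
  have hmat : Algebra.leftMulMatrix b z =
      ((a • (1 : Matrix (Fin (Module.finrank L M)) (Fin (Module.finrank L M)) C)) +
        π • Matrix.of e).map (algebraMap C L) := by
    ext i j
    rw [Algebra.leftMulMatrix_eq_repr_mul, hzval, add_mul, map_add, Finsupp.add_apply,
      mul_assoc, ← Algebra.smul_def, ← Algebra.smul_def, Matrix.map_apply, Matrix.add_apply,
      Matrix.smul_apply, Matrix.smul_apply, Matrix.of_apply, map_add, smul_eq_mul, smul_eq_mul,
      map_mul, map_mul, he]
    congr 1
    · rw [← IsScalarTower.algebraMap_smul L, map_smul, b.repr_self, Finsupp.smul_apply,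
        smul_eq_mul, Matrix.one_apply, Finsupp.single_apply]
      congr 1
      rcases eq_or_ne j i with rfl | hij
      · simp
      · simp [hij, hij.symm]
    · rw [← IsScalarTower.algebraMap_smul L, map_smul, hbi, Finsupp.smul_apply, smul_eq_mul,
        map_mul (aeval x), map_pow, aeval_X]
  obtain ⟨Nz, hNz, hNzπ⟩ := exists_norm_eq_not_dvd b hπ ha e hmat
  obtain ⟨n₁, hn₁⟩ := IsIntegrallyClosed.isIntegral_iff.mp
    (Algebra.isIntegral_norm L (R := C) (x := aeval x (V * w))
      (IsIntegral.of_mem_of_fg _ hxC.fg_adjoin_singleton _ (aeval_mem_adjoin_singleton C x)))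
  obtain ⟨n₂, hn₂⟩ := IsIntegrallyClosed.isIntegral_iff.mp
    (Algebra.isIntegral_norm L (R := C) (x := aeval x (derivative q))
      (IsIntegral.of_mem_of_fg _ hxC.fg_adjoin_singleton _ (aeval_mem_adjoin_singleton C x)))
  have hn : Nz = n₁ * n₂ := by
    apply IsFractionRing.injective C L
    rw [hNz, hz, map_mul (Algebra.norm L), map_mul (algebraMap C L), hn₁, hn₂]
  have hn₂π : ¬ π ∣ n₂ := fun h => hNzπ (hn ▸ h.mul_left _)
  -- the discriminant of the powers
  obtain ⟨s, hs⟩ : ∃ s : ℤ, (IsUnit s) ∧ Algebra.discr L b = algebraMap C L (s * n₂) := by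
    refine ⟨(-1) ^ (Module.finrank L M * (Module.finrank L M - 1) / 2),
      IsUnit.pow _ isUnit_one.neg, ?_⟩
    rw [hb, Module.Basis.coe_reindex, Algebra.discr_reindex, Algebra.discr_powerBasis_eq_norm,
      hpbgen, map_mul (algebraMap C L), hn₂, ← hqL, derivative_map, aeval_map_algebraMap]
    simp
  -- comparison with the basis `r`
  obtain ⟨e', hdiscr⟩ := exists_discr_mul_eq hspan hd b fun i =>
    ⟨θ ^ (i : ℕ), by rw [map_pow, ← hx, hbi]⟩
  rw [hs.2, ← map_mul] at hdiscr
  have heq := IsFractionRing.injective C L hdiscr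
  have hdvd : π ∣ (c ^ Module.finrank L M) ^ 2 * (s * n₂) := heq ▸ hπd.mul_left _
  rcases hπ.dvd_or_dvd hdvd with h | h
  · have hπc := hπ.dvd_of_dvd_pow (hπ.dvd_of_dvd_pow h)
    exact hπ.not_isUnit (isUnit_of_dvd_one (by simpa using dvd_sub hπc hc))
  · refine hn₂π ((hπ.dvd_or_dvd h).resolve_left fun hs' => hπ.not_isUnit ?_)
    exact isUnit_of_dvd_unit hs' (hs.1.map (Int.castRingHom C))

end Purity

end Fermat.Agent.Igusa
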