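import Mathlib
import Fermat.Agent.Igusa.SmoothFibre
import Fermat.Agent.Igusa.SmoothPurity

/-!
# The special fibre of the cover is regular

Combining freeness near the fibre, purity of the branch locus and base change: if `M / L` is
separable at the special prime and split at the horizontal primes meeting the good locus, then
`k ⊗ R` is regular over every good regular point of `k ⊗ C`.
-/

noncomputable section

open scoped TensorProduct
open Polynomial

namespace Fermat.Agent.Igusa

attribute [local instance] fibreAlgebra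

/-- A generator of `M` over `L` lying in `R`, with a monic equation over `C` that is separable
modulo `π`. -/
structure SpecialWitness (C L M R : Type*) [CommRing C] [Field L] [Field M] [Algebra L M]
    [CommRing R] [Algebra C R] [Algebra R M] (π : C) where
  /-- The generator of `M` over `L`, in `R`. -/
  θ : R
  adjoin_eq_top : Algebra.adjoin L {algebraMap R M θ} = ⊤
  /-- Its monic equation over `C`. -/
  Q : C[X]
  /-- The cofactor of `Q` in the Bézout relation modulo `π`. -/
  U : C[X]
  /-- The cofactor of `Q'` in the Bézout relation modulo `π`. -/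
  V : C[X]
  /-- The constant `U Q + V Q'` modulo `π`, prime to `π`. -/
  a : C
  monic : Q.Monic
  aeval_eq_zero : aeval θ Q = 0
  not_dvd : ¬ π ∣ a
  dvd_coeff : ∀ i, π ∣ (U * Q + V * derivative Q - Polynomial.C a).coeff i

variable (O : Type*) [CommRing O] (C L M : Type*) [CommRing C] [IsDomain C]
  [UniqueFactorizationMonoid C] [IsNoetherianRing C] [Algebra O C]
  [Algebra.FiniteType O C] [Field L] [Algebra C L] [IsFractionRing C L] [Field M] [Algebra L M]
  [Algebra C M] [IsScalarTower C L M] [FiniteDimensional L M] [Algebra.IsSeparable L M]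
  (R : Type*) [CommRing R] [Algebra O R] [Algebra C R] [IsScalarTower O C R] [Algebra R M]
  [IsScalarTower C R M] [IsIntegralClosure R C M]
  (k : Type*) [Field k] [IsAlgClosed k] [Algebra O k]

include L M in
/-- Regularity of `k ⊗ R` above a good regular point of `k ⊗ C`. -/
theorem isPrincipalAt_fibre_cover (Ω : Type*) [Field Ω] [CharZero Ω] {π₀ : O}
    (hπ₀ : algebraMap O k π₀ = 0) (hπ : Prime (algebraMap O C π₀))
    (hpid : IsPrincipalIdealRing (C ⧸ Ideal.span {algebraMap O C π₀}))
    (sp : SpecialWitness C L M R (algebraMap O C π₀)) (good : Ideal C → Prop)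
    (hsplit : ∀ p : C, Prime p → ∀ m : Ideal C, m.IsPrime → algebraMap O C π₀ ∈ m → p ∈ m →
      good m → ¬ algebraMap O C π₀ ∣ p → Nonempty (SplitsAtPrime C L M Ω p))
    (n : Ideal (k ⊗[O] C)) [n.IsMaximal] (hn : IsPrincipalAt n)
    (hgood : good (n.comap (Algebra.TensorProduct.includeRight : C →ₐ[O] k ⊗[O] C)))
    (P : Ideal (k ⊗[O] R)) [P.IsPrime] (hPn : P.comap (algebraMap (k ⊗[O] C) (k ⊗[O] R)) = n) :
    P.IsMaximal ∧ IsPrincipalAt P ∧
      ∀ z : k ⊗[O] R, ∃ β : k, z - algebraMap k (k ⊗[O] R) β ∈ P := by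
  classical
  obtain ⟨c, r, hc, hli, hspan⟩ := exists_basis_near_fibre C L M R _ hπ hpid
  have hliM := linearIndependent_algebraMap_comp C L M R hli
  set bM := basisOfLinearIndependentOfCardEqFinrank' _ hliM (Fintype.card_fin _) with hbM
  have hbMr : ∀ i, bM i = algebraMap R M (r i) := fun i => by simp [hbM]
  choose G hG using fun i j => exists_trace_eq (C := C) (L := L) (M := M) (r i * r j)
  have hd : algebraMap C L (Matrix.of G).det = Algebra.discr L fun i => algebraMap R M (r i) := by
    rw [RingHom.map_det, Algebra.discr_def]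
    congr 1
    ext i j
    simp [hG, Algebra.traceMatrix_apply, Algebra.traceForm_apply]
  set d := (Matrix.of G).det
  set m := n.comap (Algebra.TensorProduct.includeRight : C →ₐ[O] k ⊗[O] C) with hm
  have hmprime : m.IsPrime := Ideal.IsPrime.comap _
  have hπm : algebraMap O C π₀ ∈ m := by
    rw [hm, Ideal.mem_comap, AlgHom.commutes, Algebra.TensorProduct.algebraMap_apply, hπ₀,
      TensorProduct.zero_tmul]
    exact n.zero_mem
  have hcm : c ∉ m := fun h => hmprime.ne_top ((Ideal.eq_top_iff_one m).mpr (by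
    obtain ⟨e, he⟩ := hc
    have := sub_mem h (m.mul_mem_right e hπm)
    rwa [← he, sub_sub_cancel] at this))
  have hπd : ¬ algebraMap O C π₀ ∣ d :=
    not_dvd_discr_of_separable hπ hc hspan hd sp.θ sp.adjoin_eq_top sp.Q sp.U sp.V sp.a sp.monic
      sp.aeval_eq_zero sp.not_dvd sp.dvd_coeff
  have hdm : d ∉ m := by
    intro hdm
    obtain ⟨f, hf, hfd⟩ := UniqueFactorizationMonoid.exists_prime_factors d
      (fun h => hπd (h ▸ dvd_zero _))
    obtain ⟨u, hu⟩ := hfd
    have hprod : f.prod ∈ m := by
      have : f.prod = d * ((u⁻¹ : Cˣ) : C) := by rw [← hu, Units.mul_inv_cancel_right]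
      exact this ▸ m.mul_mem_right _ hdm
    obtain ⟨p, hpf, hpm⟩ := (hmprime.multiset_prod_mem_iff_exists_mem f).mp hprod
    have hpd : p ∣ d := (Multiset.dvd_prod hpf).trans ⟨u, hu.symm⟩
    obtain ⟨W⟩ := hsplit p (hf p hpf) m hmprime hπm hpm hgood fun h => hπd (h.trans hpd)
    exact not_dvd_discr_of_splitsAtPrime hli hspan hd (hf p hpf)
      (fun h => hcm (Ideal.mem_of_dvd m h hpm)) W hpd
  obtain ⟨b, hb⟩ := exists_basis_fibre O k hπ₀ hc hli hspan
  have htr : Algebra.discr (k ⊗[O] C) b = (1 : k) ⊗ₜ[O] d := by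
    rw [Algebra.discr_def, show (1 : k) ⊗ₜ[O] d =
      Algebra.TensorProduct.includeRight (R := O) (A := k) d from rfl]
    show _ = (Algebra.TensorProduct.includeRight (R := O) (A := k) (B := C)).toRingHom
      (Matrix.of G).det
    rw [RingHom.map_det]
    congr 1
    ext i j
    rw [Algebra.traceMatrix_apply, Algebra.traceForm_apply, hb, hb,
      Algebra.TensorProduct.tmul_mul_tmul, one_mul,
      trace_fibre O k hπ₀ hc L M bM hbMr b hb hspan (r i * r j) (G i j) (hG i j)]
    rfl
  obtain ⟨hPmax, hPpr⟩ := isPrincipalAt_of_discr b n hn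
    (fun h => hdm (by rw [htr] at h; exact h)) P hPn
  refine ⟨hPmax, hPpr, fun z => ?_⟩
  have : Module.Finite (k ⊗[O] C) (k ⊗[O] R) := Module.Finite.of_basis b
  have := isScalarTower_fibre O (C := C) (R := R) k
  have : Algebra.FiniteType k (k ⊗[O] R) :=
    Algebra.FiniteType.trans (S := k ⊗[O] C) inferInstance inferInstance
  exact exists_sub_algebraMap_mem k P z

end Fermat.Agent.Igusa
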