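import Mathlib
import Fermat.Agent.Igusa.SmoothLocal

/-!
# Regularity descends to the invariants of a finite group, wild case included

If a finite group `G` acts on `R`, the norm of every element lies in `S`, and the rank of `R`
over `S` is the order of `G`, then the norm of a uniformizer generates the maximal ideal
downstairs.  No assumption on the residue characteristic and the order of `G` is made.
-/

noncomputable section

open scoped Pointwise

namespace Fermat.Agent.Igusa

/-- Any family spanning `R` over `S` up to a nonzero factor has at least `m` members, and is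
linearly independent if it has exactly `m`. -/
def HasGenericRank (S R : Type*) [CommRing S] [CommRing R] [Algebra S R] (m : ℕ) : Prop :=
  ∀ (d : ℕ) (g : Fin d → R) (u : S), u ≠ 0 → (∀ x, u • x ∈ Submodule.span S (Set.range g)) →
    m ≤ d ∧ (d = m → LinearIndependent S g)

/-- The generic rank from the ranks over a principal ideal domain below. -/
theorem hasGenericRank_of_finrank (P : Type*) {S R : Type*} [CommRing P] [IsDomain P]
    [IsPrincipalIdealRing P] [CommRing S] [IsDomain S] [CommRing R] [Algebra P S] [Algebra S R]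
    [Algebra P R] [IsScalarTower P S R] [Module.Finite P S] [Module.Free P S]
    [Module.Free P R] {m : ℕ} (hS : 0 < Module.finrank P S)
    (hrank : Module.finrank P R = m * Module.finrank P S) :
    HasGenericRank S R m := by
  intro d g u hu h
  set f : (Fin d → S) →ₗ[P] R := (Fintype.linearCombination S g).restrictScalars P with hf
  have : Algebra.IsIntegral P S := Algebra.IsIntegral.of_finite P S
  obtain ⟨a, ha, s, hs⟩ : ∃ a : P, a ≠ 0 ∧ ∃ s : S, algebraMap P S a = s * u := by
    have hne := Ideal.comap_ne_bot_of_integral_mem (R := P) hu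
      (Ideal.mem_span_singleton_self u) (Algebra.IsIntegral.isIntegral u)
    obtain ⟨a, ha, ha0⟩ := (Submodule.ne_bot_iff _).mp hne
    obtain ⟨s, hs⟩ := Ideal.mem_span_singleton'.mp (Ideal.mem_comap.mp ha)
    exact ⟨a, ha0, s, hs.symm⟩
  have hrange : ∀ x : R, a • x ∈ LinearMap.range f := by
    intro x
    have : a • x ∈ Submodule.span S (Set.range g) := by
      rw [← IsScalarTower.algebraMap_smul S a x, hs, mul_smul]
      exact Submodule.smul_mem _ _ (h x)
    rw [← Fintype.range_linearCombination] at this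
    exact this
  set μ : R →ₗ[P] LinearMap.range f :=
    LinearMap.codRestrict _ (LinearMap.lsmul P R a) hrange with hμ
  have hμinj : Function.Injective μ := by
    intro x y hxy
    have : a • x = a • y := congrArg Subtype.val hxy
    exact smul_right_injective R ha this
  have hge : Module.finrank P R ≤ Module.finrank P (LinearMap.range f) :=
    LinearMap.finrank_le_finrank_of_injective hμinj
  have hrn := Submodule.finrank_quotient_add_finrank (LinearMap.ker f)
  rw [f.quotKerEquivRange.finrank_eq] at hrn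
  rw [Module.finrank_pi_fintype, Finset.sum_const, Finset.card_univ, Fintype.card_fin,
    smul_eq_mul] at hrn
  constructor
  · by_contra hlt
    push Not at hlt
    have : d * Module.finrank P S < m * Module.finrank P S :=
      Nat.mul_lt_mul_of_pos_right hlt hS
    omega
  · rintro rfl
    have hker : Module.finrank P (LinearMap.ker f) = 0 := by omega
    have hker' : LinearMap.ker f = ⊥ := Submodule.finrank_eq_zero.mp hker
    rw [linearIndependent_iff_injective_fintypeLinearCombination]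
    have : Function.Injective f := LinearMap.ker_eq_bot.mp hker'
    exact this

section Powers

variable {R : Type*} [CommRing R] {P : Ideal R}

/-- Near `P` an element of `P²` is a multiple of the generator by an element of `P`. -/
theorem exists_mul_eq_of_mem_sq [P.IsPrime] {ϖ : R}
    (hgen : ∀ y ∈ P, ∃ u ∉ P, ∃ r, u * y = ϖ * r) {y : R} (hy : y ∈ P * P) :
    ∃ u ∉ P, ∃ p ∈ P, u * y = ϖ * p := by
  induction hy using Submodule.mul_induction_on' with
  | mem_mul_mem a ha b hb =>
    obtain ⟨u, hu, r, hr⟩ := hgen a ha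
    exact ⟨u, hu, r * b, P.mul_mem_left _ hb, by rw [← mul_assoc, hr, mul_assoc]⟩
  | add a _ b _ ha hb =>
    obtain ⟨u, hu, p, hp, hup⟩ := ha
    obtain ⟨v, hv, q, hq, hvq⟩ := hb
    exact ⟨u * v, fun h => (Ideal.IsPrime.mem_or_mem ‹_› h).elim hu hv, v * p + u * q,
      add_mem (P.mul_mem_left _ hp) (P.mul_mem_left _ hq),
      by linear_combination v * hup + u * hvq⟩

/-- An element congruent to a local generator modulo `P ^ 2` is again a local generator. -/
theorem exists_mul_eq_of_sub_mem_sq [P.IsPrime] {ϖ x : R}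
    (hgen : ∀ y ∈ P, ∃ u ∉ P, ∃ r, u * y = ϖ * r) (hx : x - ϖ ∈ P * P) :
    (∃ u ∉ P, ∃ w ∉ P, u * x = ϖ * w) ∧ ∀ y ∈ P, ∃ u ∉ P, ∃ r, u * y = x * r := by
  obtain ⟨u, hu, p, hp, hup⟩ := exists_mul_eq_of_mem_sq hgen hx
  have hw : u + p ∉ P := fun h => hu (by simpa using sub_mem h hp)
  refine ⟨⟨u, hu, u + p, hw, by linear_combination hup⟩, fun y hy => ?_⟩
  obtain ⟨v, hv, r, hr⟩ := hgen y hy
  exact ⟨v * (u + p), fun h => (Ideal.IsPrime.mem_or_mem ‹_› h).elim hv hw, u * r,
    by linear_combination (u + p) * hr - r * hup⟩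

/-- A local generator generates `P` modulo `P²`. -/
theorem le_span_sup_sq [P.IsMaximal] {x : R}
    (hgen : ∀ y ∈ P, ∃ u ∉ P, ∃ r, u * y = x * r) : P ≤ Ideal.span {x} ⊔ P * P := by
  intro y hy
  obtain ⟨u, hu, r, hr⟩ := hgen y hy
  obtain ⟨v, p, hp, hvp⟩ := Ideal.IsMaximal.exists_inv ‹_› hu
  rw [show y = v * r * x + p * y by linear_combination v * hr - y * hvp]
  exact Submodule.add_mem_sup (Ideal.mem_span_singleton'.mpr ⟨_, rfl⟩) (Ideal.mul_mem_mul hp hy)

/-- `P^i` is generated by `x^i` modulo `P^(i + 1)`. -/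
theorem pow_le_span_sup_pow {x : R} (hx : x ∈ P) (h : P ≤ Ideal.span {x} ⊔ P * P) (i : ℕ) :
    P ^ i ≤ Ideal.span {x ^ i} ⊔ P ^ (i + 1) := by
  induction i with
  | zero => simp
  | succ i ih =>
    calc P ^ (i + 1) = P ^ i * P := pow_succ _ _
      _ ≤ (Ideal.span {x ^ i} ⊔ P ^ (i + 1)) * P := Ideal.mul_mono_left ih
      _ = Ideal.span {x ^ i} * P ⊔ P ^ (i + 1 + 1) := by rw [Ideal.sup_mul, ← pow_succ]
      _ ≤ Ideal.span {x ^ i} * (Ideal.span {x} ⊔ P * P) ⊔ P ^ (i + 1 + 1) :=
          sup_le_sup_right (Ideal.mul_mono_right h) _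
      _ ≤ Ideal.span {x ^ (i + 1)} ⊔ P ^ (i + 1 + 1) := by
          rw [Ideal.mul_sup, Ideal.span_singleton_mul_span_singleton, ← pow_succ]
          refine sup_le (sup_le le_sup_left ?_) le_sup_right
          refine (Ideal.mul_mono_left ((Ideal.span_singleton_le_iff_mem _).mpr
            (Ideal.pow_mem_pow hx i))).trans (le_sup_of_le_right ?_)
          rw [← pow_two, ← pow_add]

/-- A local generator of `P` gives local generators of its powers. -/
theorem exists_mul_eq_pow_mul [P.IsPrime] {x : R}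
    (hgen : ∀ y ∈ P, ∃ u ∉ P, ∃ r, u * y = x * r) (i : ℕ) :
    ∀ z ∈ P ^ i, ∃ u ∉ P, ∃ r, u * z = x ^ i * r := by
  induction i with
  | zero =>
    exact fun z _ => ⟨1, fun h => ‹P.IsPrime›.ne_top ((Ideal.eq_top_iff_one _).mpr h), z, by simp⟩
  | succ i ih =>
    intro z hz
    rw [pow_succ] at hz
    induction hz using Submodule.mul_induction_on' with
    | mem_mul_mem c hc d hd =>
      obtain ⟨u, hu, r, hr⟩ := ih c hc
      obtain ⟨v, hv, t, ht⟩ := hgen d hd
      exact ⟨u * v, fun h => (Ideal.IsPrime.mem_or_mem ‹_› h).elim hu hv, r * t,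
        by linear_combination (v * d) * hr + (x ^ i * r) * ht⟩
    | add c _ d _ hc hd =>
      obtain ⟨u, hu, r, hr⟩ := hc
      obtain ⟨v, hv, t, ht⟩ := hd
      exact ⟨u * v, fun h => (Ideal.IsPrime.mem_or_mem ‹_› h).elim hu hv, v * r + u * t,
        by linear_combination v * hr + u * ht⟩

/-- Approximation modulo the squares of finitely many maximal ideals. -/
theorem exists_sub_mem_sq {O : Finset (Ideal R)} (hO : ∀ Q ∈ O, Q.IsMaximal)
    (f : Ideal R → R) : ∃ x, ∀ Q ∈ O, x - f Q ∈ Q ^ 2 := by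
  have hcop : Pairwise (Function.onFun IsCoprime fun Q : O => (Q : Ideal R) ^ 2) := by
    intro Q Q' hne
    have := hO _ Q.2
    have := hO _ Q'.2
    exact (Ideal.isCoprime_of_isMaximal fun h => hne (Subtype.ext h)).pow
  obtain ⟨xq, hxq⟩ := Ideal.quotientInfToPiQuotient_surj hcop fun Q : O =>
    Ideal.Quotient.mk ((Q : Ideal R) ^ 2) (f Q)
  obtain ⟨x, rfl⟩ := Ideal.Quotient.mk_surjective xq
  exact ⟨x, fun Q hQ => Ideal.Quotient.eq.mp (congrFun hxq ⟨Q, hQ⟩)⟩

end Powers

section Quotient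

variable {k R : Type*} [Field k] [CommRing R] [Algebra k R]

/-- `R ⧸ P ^ s` is spanned by `1, x, …, x ^ (s - 1)`. -/
theorem finrank_quotient_pow_le {P : Ideal R} {x : R} (hx : x ∈ P) (h : P ≤ Ideal.span {x} ⊔ P * P)
    (hres : ∀ z : R, ∃ c : k, z - algebraMap k R c ∈ P) (s : ℕ) :
    FiniteDimensional k (R ⧸ P ^ s) ∧ Module.finrank k (R ⧸ P ^ s) ≤ s := by
  set f : (Fin s → k) →ₗ[k] R ⧸ P ^ s :=
    Fintype.linearCombination k fun i => Ideal.Quotient.mk (P ^ s) (x ^ (i : ℕ)) with hf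
  have key : ∀ j, ∀ i, j + i = s → ∀ z ∈ P ^ i,
      Ideal.Quotient.mk (P ^ s) z ∈ LinearMap.range f := by
    intro j
    induction j with
    | zero =>
      intro i hi z hz
      have : Ideal.Quotient.mk (P ^ s) z = 0 :=
        Ideal.Quotient.eq_zero_iff_mem.mpr (by rwa [← hi, zero_add])
      rw [this]; exact zero_mem _
    | succ j ih =>
      intro i hi z hz
      obtain ⟨a, ha, b, hb, rfl⟩ := Submodule.mem_sup.mp (pow_le_span_sup_pow hx h i hz)
      obtain ⟨r, rfl⟩ := Ideal.mem_span_singleton'.mp ha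
      obtain ⟨c, hc⟩ := hres r
      have hrest : (r - algebraMap k R c) * x ^ i + b ∈ P ^ (i + 1) := by
        refine add_mem ?_ hb
        rw [pow_succ']
        exact Ideal.mul_mem_mul hc (Ideal.pow_mem_pow hx i)
      rw [show r * x ^ i + b = c • x ^ i + ((r - algebraMap k R c) * x ^ i + b) by
        rw [Algebra.smul_def]; ring, map_add]
      refine add_mem ?_ (ih (i + 1) (by omega) _ hrest)
      refine ⟨Pi.single ⟨i, by omega⟩ c, ?_⟩
      rw [hf, Fintype.linearCombination_apply_single]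
      rfl
  have hsurj : Function.Surjective f := by
    intro q
    obtain ⟨z, rfl⟩ := Ideal.Quotient.mk_surjective q
    exact key s 0 (by omega) z (by simp)
  exact ⟨Module.Finite.of_surjective f hsurj,
    (LinearMap.finrank_le_finrank_of_surjective hsurj).trans (by simp)⟩

/-- The quotient by an intersection is no bigger than the product of the quotients. -/
theorem finrank_quotient_iInf_le {ι : Type*} [Fintype ι] (J : ι → Ideal R) {e : ℕ}
    (h : ∀ i, FiniteDimensional k (R ⧸ J i) ∧ Module.finrank k (R ⧸ J i) ≤ e) :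
    FiniteDimensional k (R ⧸ ⨅ i, J i) ∧
      Module.finrank k (R ⧸ ⨅ i, J i) ≤ Fintype.card ι * e := by
  set ψ : R →ₗ[k] (i : ι) → R ⧸ J i :=
    LinearMap.pi fun i => (Ideal.Quotient.mkₐ k (J i)).toLinearMap with hψ
  set ψI : (R ⧸ ⨅ i, J i) →ₗ[k] (i : ι) → R ⧸ J i :=
    ((⨅ i, J i).restrictScalars k).liftQ ψ (fun z hz => by
      rw [LinearMap.mem_ker]
      funext i
      exact Ideal.Quotient.eq_zero_iff_mem.mpr ((Submodule.mem_iInf _).mp hz i)) ∘ₗ
    (Submodule.Quotient.restrictScalarsEquiv k (⨅ i, J i)).symm.toLinearMap with hψI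
  have hψinj : Function.Injective ψI := by
    rw [← LinearMap.ker_eq_bot, LinearMap.ker_eq_bot']
    intro q hq
    obtain ⟨z, rfl⟩ := Ideal.Quotient.mk_surjective q
    refine Ideal.Quotient.eq_zero_iff_mem.mpr ((Submodule.mem_iInf _).mpr fun i => ?_)
    exact Ideal.Quotient.eq_zero_iff_mem.mp (congrFun hq i)
  have hfin : ∀ i, FiniteDimensional k (R ⧸ J i) := fun i => (h i).1
  refine ⟨Module.Finite.of_injective ψI hψinj, ?_⟩
  refine (LinearMap.finrank_le_finrank_of_injective hψinj).trans ?_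
  rw [Module.finrank_pi_fintype]
  refine (Finset.sum_le_sum fun i _ => (h i).2).trans ?_
  rw [Finset.sum_const, smul_eq_mul, Finset.card_univ]

end Quotient

section Nakayama

/-- A submodule generating modulo a maximal ideal generates up to a factor off the ideal. -/
theorem exists_smul_mem_of_top_le_sup {S M : Type*} [CommRing S] [AddCommGroup M] [Module S M]
    [Module.Finite S M] (n : Ideal S) [n.IsMaximal] (T : Submodule S M)
    (h : ⊤ ≤ T ⊔ n • (⊤ : Submodule S M)) : ∃ w ∉ n, ∀ z : M, w • z ∈ T := by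
  obtain ⟨w, hw1, hw⟩ := Submodule.exists_sub_one_mem_and_smul_eq_zero_of_fg_of_le_smul n
    (⊤ : Submodule S (M ⧸ T)) Module.Finite.fg_top (by
      intro q _
      obtain ⟨z, rfl⟩ := Submodule.Quotient.mk_surjective T q
      obtain ⟨t, ht, p, hp, rfl⟩ := Submodule.mem_sup.mp (h (Submodule.mem_top (x := z)))
      rw [Submodule.Quotient.mk_add, (Submodule.Quotient.mk_eq_zero T).mpr ht, zero_add]
      have := Submodule.mem_map_of_mem (f := T.mkQ) hp
      rw [Submodule.map_smul''] at this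
      exact (Submodule.smul_mono le_rfl le_top) this)
  refine ⟨w, fun h => ?_, fun z => ?_⟩
  · exact Ideal.IsPrime.ne_top ‹n.IsMaximal›.isPrime
      ((Ideal.eq_top_iff_one _).mpr (by simpa using sub_mem h hw1))
  · exact (Submodule.Quotient.mk_eq_zero T).mp (hw (Submodule.Quotient.mk z) Submodule.mem_top)

end Nakayama

section Main

variable {k S R G : Type*} [Field k] [CommRing S] [IsDomain S] [CommRing R] [Algebra k R]
  [Algebra k S] [Algebra S R] [IsScalarTower k S R] [Module.Finite S R]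
  [Group G] [Fintype G] [MulSemiringAction G R] [SMulCommClass G S R]

omit [IsDomain S] [Module.Finite S R] [Fintype G] in
theorem smul_algebraMap_eq (g : G) (s : S) : g • algebraMap S R s = algebraMap S R s := by
  rw [Algebra.algebraMap_eq_smul_one, smul_comm, smul_one]

omit [IsDomain S] [Module.Finite S R] [SMulCommClass G S R] in
/-- The group permutes the primes above a maximal ideal of the invariants transitively. -/
theorem exists_smul_eq_of_comap_eq (hnorm : ∀ x : R, ∃ s, algebraMap S R s = ∏ g : G, g • x)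
    {n : Ideal S} {P₀ : Ideal R} [P₀.IsPrime] (hP₀n : P₀.comap (algebraMap S R) = n)
    {Q : Ideal R} [Q.IsMaximal] (hQn : Q.comap (algebraMap S R) = n) :
    ∃ g : G, g • P₀ = Q := by
  classical
  by_contra hQO
  push Not at hQO
  set O : Finset (Ideal R) := Finset.univ.image fun g : G => g • P₀ with hO
  have hmemO : ∀ Q, Q ∈ O ↔ ∃ g : G, g • P₀ = Q := fun Q => by simp [hO]
  have hprime : ∀ g : G, (g • P₀).IsPrime := fun g => inferInstance
  have : ¬ ((Q : Set R) ⊆ ⋃ P ∈ (↑O : Set (Ideal R)), (P : Set R)) := by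
    rw [Ideal.subset_union_prime Q Q (fun P hP' _ _ => by
      obtain ⟨g, rfl⟩ := (hmemO P).mp hP'
      exact hprime g)]
    rintro ⟨P, hP', hQP⟩
    obtain ⟨g, rfl⟩ := (hmemO P).mp hP'
    exact hQO g (‹Q.IsMaximal›.eq_of_le (hprime g).ne_top hQP).symm
  obtain ⟨x, hxQ, hx⟩ := Set.not_subset.mp this
  obtain ⟨s, hs⟩ := hnorm x
  have hsn : s ∈ n := by
    rw [← hQn, Ideal.mem_comap, hs, ← Finset.prod_erase_mul _ _ (Finset.mem_univ (1 : G)),
      one_smul]
    exact Q.mul_mem_left _ hxQ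
  rw [← hP₀n, Ideal.mem_comap, hs] at hsn
  obtain ⟨g, -, hg⟩ := (Ideal.IsPrime.prod_mem_iff).mp hsn
  refine hx ?_
  simp only [Set.mem_iUnion, SetLike.mem_coe, exists_prop]
  refine ⟨g⁻¹ • P₀, (hmemO _).mpr ⟨_, rfl⟩, ?_⟩
  rwa [Ideal.mem_inv_pointwise_smul_iff]

/-- Near `P₀` the norm of a generator divides its power to the order of the stabilizer. -/
theorem exists_mul_pow_eq_norm {P₀ : Ideal R} [P₀.IsPrime] {x : R} (hxP : x ∈ P₀)
    (hxgen : ∀ y ∈ P₀, ∃ u ∉ P₀, ∃ r, u * y = x * r)
    (hxnot : ∀ g : G, g • x ∈ P₀ → g • P₀ = P₀)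
    [Fintype (MulAction.stabilizer G P₀)] :
    ∃ u ∉ P₀, ∃ r, u * x ^ Fintype.card (MulAction.stabilizer G P₀) = (∏ g : G, g • x) * r := by
  classical
  have hloc : ∀ g : G, g ∈ MulAction.stabilizer G P₀ → ∃ u ∉ P₀, ∃ r, u * x = (g • x) * r := by
    intro g hg
    have hgx : g • P₀ = P₀ := hg
    have hy : g⁻¹ • x ∈ P₀ := by
      rw [← Ideal.mem_pointwise_smul_iff_inv_smul_mem, hgx]; exact hxP
    obtain ⟨u, hu, r, hr⟩ := hxgen _ hy
    refine ⟨g • u, fun h => hu ?_, g • r, ?_⟩
    · rw [← inv_smul_smul g u, ← Ideal.mem_pointwise_smul_iff_inv_smul_mem, hgx]; exact h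
    · have := congrArg (g • ·) hr
      simpa [smul_mul', smul_inv_smul] using this
  choose! u hu r hr using hloc
  set T : Finset G := Finset.univ.filter (· ∈ MulAction.stabilizer G P₀) with hT
  refine ⟨(∏ g ∈ T, u g) * ∏ g ∈ Tᶜ, g • x, ?_, ∏ g ∈ T, r g, ?_⟩
  · intro h
    rcases Ideal.IsPrime.mem_or_mem ‹P₀.IsPrime› h with h | h
    · obtain ⟨g, hg, hg'⟩ := Ideal.IsPrime.prod_mem_iff.mp h
      exact hu g (Finset.mem_filter.mp hg).2 hg'
    · obtain ⟨g, hg, hg'⟩ := Ideal.IsPrime.prod_mem_iff.mp h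
      exact Finset.mem_compl.mp hg (Finset.mem_filter.mpr ⟨Finset.mem_univ _, hxnot g hg'⟩)
  · have hcard : Fintype.card (MulAction.stabilizer G P₀) = T.card := by
      rw [hT, Fintype.card_subtype]
    have h1 : (∏ g ∈ T, u g) * x ^ T.card = (∏ g ∈ T, g • x) * ∏ g ∈ T, r g := by
      rw [← Finset.prod_const, ← Finset.prod_mul_distrib, ← Finset.prod_mul_distrib]
      exact Finset.prod_congr rfl fun g hg => hr g (Finset.mem_filter.mp hg).2
    rw [hcard, ← Finset.prod_mul_prod_compl T fun g => g • x]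
    linear_combination (∏ g ∈ Tᶜ, g • x) * h1

omit [IsDomain S] [Group G] [Fintype G] [MulSemiringAction G R] [SMulCommClass G S R] in
/-- A spanning family of the fibre algebra spans `R` up to a factor off `n`. -/
theorem exists_smul_mem_span_range {n : Ideal S} [n.IsMaximal] {a : S} (han : a ∈ n)
    {I J : Ideal R}
    (hIn : ∀ y ∈ I, ∃ s ∉ n, algebraMap S R s * y ∈ Ideal.span {algebraMap S R a})
    (hJ : ∀ y ∈ J, ∃ i ∈ I, y - i ∈ n.map (algebraMap S R)) {d : ℕ} (v : Fin d → R)
    (hv : (⊤ : Submodule k (R ⧸ J)) ≤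
      Submodule.span k (Set.range fun i => Ideal.Quotient.mk J (v i))) :
    ∃ w ∉ n, ∀ z : R, w • z ∈ Submodule.span S (Set.range v) := by
  set T := Submodule.span S (Set.range v)
  have hmap : ∀ z ∈ n.map (algebraMap S R), z ∈ T ⊔ n • (⊤ : Submodule S R) := by
    intro z hz
    rw [Ideal.smul_top_eq_map]
    exact Submodule.mem_sup_right hz
  have hTn : (⊤ : Submodule S R) ≤ T ⊔ n • ⊤ := by
    intro z _
    obtain ⟨c, hc⟩ := (Submodule.mem_span_range_iff_exists_fun k).mp
      (hv (x := Ideal.Quotient.mk J z) Submodule.mem_top)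
    have hzJ : z - ∑ i, c i • v i ∈ J := by
      rw [← Ideal.Quotient.eq_zero_iff_mem, map_sub, map_sum, ← hc, sub_eq_zero]
      rfl
    obtain ⟨i₀, hi₀, hyi⟩ := hJ _ hzJ
    obtain ⟨u, hu, hu'⟩ := hIn i₀ hi₀
    have hi₀' : i₀ ∈ T ⊔ n • (⊤ : Submodule S R) := by
      obtain ⟨v', p, hp, hvp⟩ := Ideal.IsMaximal.exists_inv ‹n.IsMaximal› hu
      refine hmap _ ?_
      have h1 : i₀ = algebraMap S R v' * (algebraMap S R u * i₀) + algebraMap S R p * i₀ := by
        rw [← mul_assoc, ← add_mul, ← map_mul, ← map_add, hvp, map_one, one_mul]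
      rw [h1]
      refine add_mem (Ideal.mul_mem_left _ _ ?_)
        (Ideal.mul_mem_right _ _ (Ideal.mem_map_of_mem _ hp))
      exact (Ideal.span_le.mpr (Set.singleton_subset_iff.mpr (Ideal.mem_map_of_mem _ han))) hu'
    have hsum : ∑ i, c i • v i ∈ T ⊔ n • (⊤ : Submodule S R) := by
      refine Submodule.mem_sup_left (Submodule.sum_mem _ fun i _ => ?_)
      rw [← IsScalarTower.algebraMap_smul S (c i) (v i)]
      exact Submodule.smul_mem _ _ (Submodule.subset_span ⟨i, rfl⟩)
    have h2 := add_mem (hmap _ hyi) (add_mem hi₀' hsum)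
    convert h2 using 1
    abel
  exact exists_smul_mem_of_top_le_sup n T hTn

omit [IsDomain S] [Algebra k S] [IsScalarTower k S R] [Module.Finite S R] [Group G] [Fintype G]
  [MulSemiringAction G R] [SMulCommClass G S R] [Field k] [Algebra k R] in
/-- Comparing coefficients in a free family turns divisibility in `R` into divisibility in `S`. -/
theorem exists_notMem_mul_eq_of_span {n : Ideal S} [n.IsMaximal] {P₀ : Ideal R}
    (hP₀n : P₀.comap (algebraMap S R) = n) {a : S} {I : Ideal R}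
    (hIn : ∀ y ∈ I, ∃ s ∉ n, algebraMap S R s * y ∈ Ideal.span {algebraMap S R a})
    (hnI : n.map (algebraMap S R) ≤ I) {d : ℕ} {v : Fin d → R} (hli : LinearIndependent S v)
    {w : S} (hw : w ∉ n) (hwspan : ∀ z : R, w • z ∈ Submodule.span S (Set.range v)) :
    ∀ y ∈ n, ∃ u ∉ n, ∃ r, u * y = a * r := by
  intro y hy
  obtain ⟨t, ht⟩ := (Submodule.mem_span_range_iff_exists_fun S).mp (hwspan 1)
  obtain ⟨i₁, hi₁⟩ : ∃ i, t i ∉ n := by
    by_contra hall
    push Not at hall
    refine hw ?_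
    rw [← hP₀n, Ideal.mem_comap, Algebra.algebraMap_eq_smul_one, ← ht]
    refine Ideal.sum_mem _ fun i _ => ?_
    rw [Algebra.smul_def]
    refine Ideal.mul_mem_right _ _ ?_
    have := hall i
    rwa [← hP₀n, Ideal.mem_comap] at this
  obtain ⟨u, hu, hu'⟩ := hIn _ (hnI (Ideal.mem_map_of_mem _ hy))
  obtain ⟨r, hr⟩ := Ideal.mem_span_singleton'.mp hu'
  obtain ⟨c, hc⟩ := (Submodule.mem_span_range_iff_exists_fun S).mp (hwspan r)
  have hsum : ∑ i, (w * (u * y) * t i) • v i = ∑ i, (w * a * c i) • v i := by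
    simp only [mul_smul, ← Finset.smul_sum, ht, hc]
    simp only [Algebra.smul_def, mul_one]
    linear_combination (-(algebraMap S R w) ^ 2) * hr
  have hcoef := Fintype.linearIndependent_iffₛ.mp hli _ _ hsum i₁
  have hn' := ‹n.IsMaximal›.isPrime
  refine ⟨w * u * t i₁, fun h => ?_, w * c i₁, by linear_combination hcoef⟩
  rcases hn'.mem_or_mem h with h | h
  · exact (hn'.mem_or_mem h).elim hw hu
  · exact hi₁ h

omit [IsDomain S] [Module.Finite S R] [Field k] [Algebra k R] [Algebra k S] [IsScalarTower k S R]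
  [SMulCommClass G S R] in
/-- A local generator of `P₀` can be chosen outside every other conjugate of `P₀`, by approximation
modulo the squares of the conjugates. -/
theorem exists_generator_notMem_conjugates {P₀ : Ideal R} [P₀.IsPrime] {ϖ : R} (hϖP : ϖ ∈ P₀)
    (hgen : ∀ y ∈ P₀, ∃ u ∉ P₀, ∃ r, u * y = ϖ * r) (hmaxg : ∀ g : G, (g • P₀).IsMaximal) :
    ∃ x ∈ P₀, (∀ y ∈ P₀, ∃ u ∉ P₀, ∃ r, u * y = x * r) ∧ (∀ g : G, g • x ∈ P₀ → g • P₀ = P₀) ∧
      ∃ u ∉ P₀, ∃ w ∉ P₀, u * x = ϖ * w := by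
  classical
  set O : Finset (Ideal R) := Finset.univ.image fun g : G => g • P₀ with hO
  have hmemO : ∀ Q, Q ∈ O ↔ ∃ g : G, g • P₀ = Q := fun Q => by simp [hO]
  obtain ⟨x, hxmod⟩ := exists_sub_mem_sq (O := O)
    (fun Q hQ => by obtain ⟨g, rfl⟩ := (hmemO Q).mp hQ; exact hmaxg g)
    fun Q => if Q = P₀ then ϖ else 1
  have hP₀O : P₀ ∈ O := (hmemO _).mpr ⟨1, one_smul _ _⟩
  have hx₀ : x - ϖ ∈ P₀ * P₀ := by
    simpa [pow_two] using hxmod P₀ hP₀O
  obtain ⟨hxeq, hxgen⟩ := exists_mul_eq_of_sub_mem_sq hgen hx₀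
  have hxP : x ∈ P₀ := by
    have := add_mem (Ideal.mul_le_right hx₀) hϖP
    simpa using this
  have hxnot : ∀ g : G, g • x ∈ P₀ → g • P₀ = P₀ := by
    intro g hg
    rw [← inv_inv g, ← Ideal.mem_pointwise_smul_iff_inv_smul_mem] at hg
    by_contra hne
    have hne' : g⁻¹ • P₀ ≠ P₀ := fun h => hne (by nth_rewrite 1 [← h]; rw [smul_inv_smul])
    have h2 := hxmod _ ((hmemO _).mpr ⟨g⁻¹, rfl⟩)
    rw [if_neg hne'] at h2
    have h1 := sub_mem hg (Ideal.pow_le_self (by norm_num) h2)
    rw [sub_sub_cancel] at h1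
    exact (hmaxg g⁻¹).ne_top ((Ideal.eq_top_iff_one _).mpr h1)
  exact ⟨x, hxP, hxgen, hxnot, hxeq⟩

/-- If the points above `n` are principal, so is `n`. -/
theorem isPrincipalAt_of_norm (hinj : Function.Injective (algebraMap S R))
    (hnorm : ∀ x : R, ∃ s, algebraMap S R s = ∏ g : G, g • x)
    (hrank : HasGenericRank S R (Fintype.card G)) (n : Ideal S) [n.IsMaximal]
    (hP : ∀ P : Ideal R, P.IsPrime → P.comap (algebraMap S R) = n →
      P.IsMaximal ∧ IsPrincipalAt P ∧ ∀ z : R, ∃ c : k, z - algebraMap k R c ∈ P) :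
    IsPrincipalAt n := by
  classical
  have : Algebra.IsIntegral S R := Algebra.IsIntegral.of_finite S R
  obtain ⟨P₀, -, hP₀, hP₀n⟩ :=
    Ideal.exists_ideal_over_prime_of_isIntegral n (⊥ : Ideal R) (by
      intro s hs
      rw [Ideal.mem_comap, Ideal.mem_bot] at hs
      rw [hinj (hs.trans (map_zero _).symm)]
      exact n.zero_mem)
  obtain ⟨hP₀m, ⟨ϖ, hϖ, hϖP, hgen⟩, -⟩ := hP P₀ hP₀ hP₀n
  have hover : ∀ g : G, (g • P₀).comap (algebraMap S R) = n := fun g => by
    ext s
    rw [← hP₀n, Ideal.mem_comap, Ideal.mem_comap, Ideal.mem_pointwise_smul_iff_inv_smul_mem,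
      smul_algebraMap_eq]
  have hprime : ∀ g : G, (g • P₀).IsPrime := fun g => inferInstance
  have hmaxg : ∀ g : G, (g • P₀).IsMaximal := fun g => (hP _ (hprime g) (hover g)).1
  set O : Finset (Ideal R) := Finset.univ.image fun g : G => g • P₀ with hO
  have hmemO : ∀ Q, Q ∈ O ↔ ∃ g : G, g • P₀ = Q := fun Q => by simp [hO]
  have hsurjO : ∀ Q : Ideal R, Q.IsPrime → Q.comap (algebraMap S R) = n → Q ∈ O := fun Q hQ hQn =>
    have := (hP Q hQ hQn).1
    (hmemO Q).mpr (exists_smul_eq_of_comap_eq hnorm hP₀n hQn)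
  -- the uniformizer
  obtain ⟨x, hxP, hxgen, hxnot, ux, hux, wx, hwx, hxeq⟩ :=
    exists_generator_notMem_conjugates hϖP hgen hmaxg
  set H := MulAction.stabilizer G P₀ with hH
  set e := Fintype.card H with he
  obtain ⟨a, ha⟩ := hnorm x
  have hnormloc : ∃ u ∉ P₀, ∃ r, u * x ^ e = algebraMap S R a * r :=
    ha ▸ exists_mul_pow_eq_norm hxP hxgen hxnot
  have hnormQ : ∀ Q ∈ O, ∀ y ∈ Q ^ e, ∃ u ∉ Q, u * y ∈ Ideal.span {algebraMap S R a} := by
    intro Q hQ y hy
    obtain ⟨g, rfl⟩ := (hmemO Q).mp hQ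
    have hy' : g⁻¹ • y ∈ P₀ ^ e := by
      have : g • (P₀ ^ e) = (g • P₀) ^ e := map_pow (MulSemiringAction.toRingHom G (Ideal R) g) P₀ e
      rwa [← Ideal.mem_pointwise_smul_iff_inv_smul_mem, this]
    obtain ⟨u, hu, r, hr⟩ := exists_mul_eq_pow_mul hxgen e _ hy'
    obtain ⟨v, hv, t, ht⟩ := hnormloc
    refine ⟨g • (u * v), fun h => ?_, ?_⟩
    · rw [Ideal.smul_mem_pointwise_smul_iff] at h
      exact (Ideal.IsPrime.mem_or_mem hP₀ h).elim hu hv
    · have : g • (u * v * (g⁻¹ • y)) = g • (algebraMap S R a * (t * r)) :=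
        congrArg (g • ·) (by linear_combination v * hr + r * ht)
      simp only [smul_mul', smul_inv_smul, smul_algebraMap_eq] at this ⊢
      rw [this]
      exact Ideal.mul_mem_right _ _ (Ideal.mem_span_singleton_self _)
  have ha0 : a ≠ 0 := by
    rintro rfl
    obtain ⟨u, hu, r, hr⟩ := hnormloc
    rw [map_zero, zero_mul] at hr
    have h1 : u * wx ^ e * ϖ ^ e = 0 := by
      calc u * wx ^ e * ϖ ^ e = u * (ϖ * wx) ^ e := by ring
        _ = u * (ux * x) ^ e := by rw [hxeq]
        _ = (u * x ^ e) * ux ^ e := by ring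
        _ = 0 := by rw [hr, zero_mul]
    have h2 := (mem_nonZeroDivisors_iff_right.mp (pow_mem hϖ e)) _ h1
    have h3 : u * wx ^ e ∈ P₀ := h2 ▸ P₀.zero_mem
    exact (Ideal.IsPrime.mem_or_mem hP₀ h3).elim hu fun h => hwx (hP₀.mem_of_pow_mem e h)
  have han : a ∈ n := by
    rw [← hP₀n, Ideal.mem_comap, ha]
    exact Ideal.IsPrime.prod_mem_iff.mpr ⟨1, Finset.mem_univ _, by rwa [one_smul]⟩
  -- the finite algebra at the fibre
  set I : Ideal R := ⨅ Q : O, (Q : Ideal R) ^ e with hI
  have hIn : ∀ y ∈ I, ∃ s ∉ n, algebraMap S R s * y ∈ Ideal.span {algebraMap S R a} := by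
    intro y hy
    obtain ⟨s, hs, hs'⟩ := exists_notMem_algebraMap_mem n
      (Submodule.comap (LinearMap.mulRight R y) (Ideal.span {algebraMap S R a}))
      fun P hP' hPn hle => by
        have hPO := hsurjO P hP' hPn
        obtain ⟨u, hu, hu'⟩ := hnormQ P hPO y ((Submodule.mem_iInf _).mp hy ⟨P, hPO⟩)
        exact hu (hle (by simpa using hu'))
    exact ⟨s, hs, by simpa using hs'⟩
  have hQdim : ∀ Q : O, FiniteDimensional k (R ⧸ (Q : Ideal R) ^ e) ∧
      Module.finrank k (R ⧸ (Q : Ideal R) ^ e) ≤ e := by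
    intro Q
    obtain ⟨g, hg⟩ := (hmemO _).mp Q.2
    refine finrank_quotient_pow_le (x := g • x) ?_ ?_ ?_ e
    · rw [← hg]; exact Ideal.smul_mem_pointwise_smul g x P₀ hxP
    · have h1 := Ideal.map_mono (f := MulSemiringAction.toRingHom G R g)
        (le_span_sup_sq hxgen)
      rw [Ideal.map_sup, Ideal.map_span, Set.image_singleton, Ideal.map_mul] at h1
      rw [← hg, Ideal.pointwise_smul_def]
      exact h1
    · exact (hP _ (hg ▸ hprime g) (hg ▸ hover g)).2.2
  obtain ⟨hIfd, hIdim⟩ :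
      FiniteDimensional k (R ⧸ I) ∧ Module.finrank k (R ⧸ I) ≤ Fintype.card G := by
    obtain ⟨hfd, hdim⟩ := finrank_quotient_iInf_le _ hQdim
    refine ⟨hfd, hdim.trans (le_of_eq ?_)⟩
    have : Fintype (MulAction.orbit G P₀) := Set.fintypeRange _
    have : O.card = Fintype.card (MulAction.orbit G P₀) := by
      rw [← Set.toFinset_card]
      congr 1
      ext Q
      simp [hmemO, MulAction.mem_orbit_iff]
    rw [Fintype.card_coe, this]
    convert MulAction.card_orbit_mul_card_stabilizer_eq_card_group G P₀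
  set J : Ideal R := I ⊔ n.map (algebraMap S R) with hJdef
  set π : (R ⧸ I) →ₗ[k] (R ⧸ J) :=
    (Ideal.Quotient.factorₐ k (le_sup_left : I ≤ J)).toLinearMap with hπ
  have hπsurj : Function.Surjective π := Ideal.Quotient.factor_surjective le_sup_left
  have hJfd : FiniteDimensional k (R ⧸ J) := Module.Finite.of_surjective π hπsurj
  have hJge : Fintype.card G ≤ Module.finrank k (R ⧸ J) := by
    set b := Module.finBasis k (R ⧸ J)
    choose v hv using fun i => Ideal.Quotient.mk_surjective (b i)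
    obtain ⟨w, hw, hwspan⟩ := exists_smul_mem_span_range (k := k) han hIn (J := J) (fun y hy => by
      obtain ⟨i, hi, p, hp, rfl⟩ := Submodule.mem_sup.mp hy
      exact ⟨i, hi, by simpa using hp⟩) v (by simp [hv, b.span_eq])
    exact (hrank _ v w (fun h => hw (h ▸ n.zero_mem)) hwspan).1
  have hdeq : Module.finrank k (R ⧸ I) = Module.finrank k (R ⧸ J) :=
    le_antisymm (hIdim.trans hJge) (LinearMap.finrank_le_finrank_of_surjective hπsurj)
  have hnI : n.map (algebraMap S R) ≤ I := by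
    intro z hz
    have h1 : π (Ideal.Quotient.mk I z) = π 0 := by
      rw [map_zero]
      exact Ideal.Quotient.eq_zero_iff_mem.mpr (Submodule.mem_sup_right hz)
    exact Ideal.Quotient.eq_zero_iff_mem.mp
      (((LinearMap.injective_iff_surjective_of_finrank_eq_finrank hdeq).mpr hπsurj) h1)
  set b := Module.finBasisOfFinrankEq k (R ⧸ I)
    (le_antisymm hIdim (hdeq ▸ hJge) : Module.finrank k (R ⧸ I) = Fintype.card G)
  choose v hv using fun i => Ideal.Quotient.mk_surjective (b i)
  obtain ⟨w, hw, hwspan⟩ := exists_smul_mem_span_range (k := k) han hIn (J := I)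
    (fun y hy => ⟨y, hy, by rw [sub_self]; exact zero_mem _⟩) v (by simp [hv, b.span_eq])
  have hli : LinearIndependent S v := (hrank _ v w (fun h => hw (h ▸ n.zero_mem)) hwspan).2 rfl
  exact ⟨a, mem_nonZeroDivisors_of_ne_zero ha0, han,
    exists_notMem_mul_eq_of_span hP₀n hIn hnI hli hw hwspan⟩

end Main

end Fermat.Agent.Igusa
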