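import Mathlib
import Fermat.Agent.Igusa.SmoothFibre
import Fermat.Agent.Igusa.SmoothNorm

/-!
# Descent from the cover to the curve on the special fibre

`R` is the integral closure of `S` in `M ⊇ F = Frac S`.  Regularity of `k ⊗ R` gives regularity of
`k ⊗ S`: by norms when `M / F` is Galois, by the normalised trace when `[M : F]` is invertible.
-/

noncomputable section

open scoped TensorProduct Pointwise
open Polynomial

namespace Fermat.Agent.Igusa

attribute [local instance] fibreAlgebra

section Tower

variable (O : Type*) [CommRing O] {A S R : Type*} [CommRing A] [CommRing S] [CommRing R]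
  [Algebra O A] [Algebra O S] [Algebra O R] [Algebra A S] [Algebra A R] [Algebra S R]
  [IsScalarTower O A S] [IsScalarTower O A R] [IsScalarTower O S R] [IsScalarTower A S R]
  (k : Type*) [Field k] [Algebra O k]

theorem isScalarTower_fibre_tower : IsScalarTower (k ⊗[O] A) (k ⊗[O] S) (k ⊗[O] R) := by
  refine IsScalarTower.of_algebraMap_eq fun z => ?_
  induction z using TensorProduct.induction_on with
  | zero => simp
  | add x y hx hy => rw [map_add, map_add, map_add, hx, hy]
  | tmul β a =>
    simp [RingHom.algebraMap_toAlgebra, ← IsScalarTower.algebraMap_apply A S R]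

omit [Algebra O R] [Algebra A R] [Algebra S R] [IsScalarTower O A R] [IsScalarTower O S R]
  [IsScalarTower A S R] in
/-- A nonzero element of the fibre of `S` is a non-zero-divisor in the fibre of the cover. -/
theorem algebraMap_fibre_mem_nonZeroDivisors {T : Type*} [CommRing T] [Algebra (k ⊗[O] A) T]
    [Algebra (k ⊗[O] S) T] [IsScalarTower (k ⊗[O] A) (k ⊗[O] S) T] [IsDomain (k ⊗[O] A)]
    [Module.Free (k ⊗[O] A) T] [IsDomain (k ⊗[O] S)] [Module.Finite (k ⊗[O] A) (k ⊗[O] S)]
    {b : k ⊗[O] S} (hb : b ≠ 0) : algebraMap (k ⊗[O] S) T b ∈ nonZeroDivisors T := by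
  have : Algebra.IsIntegral (k ⊗[O] A) (k ⊗[O] S) := Algebra.IsIntegral.of_finite _ _
  have hne := Ideal.comap_ne_bot_of_integral_mem (R := k ⊗[O] A) hb
    (Ideal.mem_span_singleton_self b) (Algebra.IsIntegral.isIntegral b)
  obtain ⟨a, ha, ha0⟩ := (Submodule.ne_bot_iff _).mp hne
  obtain ⟨s, hs⟩ := Ideal.mem_span_singleton'.mp (Ideal.mem_comap.mp ha)
  rw [mem_nonZeroDivisors_iff_right]
  intro z hz
  refine smul_right_injective T ha0 ?_
  show a • z = a • (0 : T)
  rw [smul_zero, Algebra.smul_def, IsScalarTower.algebraMap_apply (k ⊗[O] A) (k ⊗[O] S) T, ← hs,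
    map_mul, mul_assoc, mul_comm _ z, hz, mul_zero]

omit [Algebra O R] [Algebra A R] [Algebra S R] [IsScalarTower O A R] [IsScalarTower O S R]
  [IsScalarTower A S R] in
/-- The fibre of `S` embeds into the fibre of the cover. -/
theorem algebraMap_fibre_injective {T : Type*} [CommRing T] [Nontrivial T]
    [Algebra (k ⊗[O] A) T] [Algebra (k ⊗[O] S) T] [IsScalarTower (k ⊗[O] A) (k ⊗[O] S) T]
    [IsDomain (k ⊗[O] A)] [Module.Free (k ⊗[O] A) T] [IsDomain (k ⊗[O] S)]
    [Module.Finite (k ⊗[O] A) (k ⊗[O] S)] : Function.Injective (algebraMap (k ⊗[O] S) T) := by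
  rw [injective_iff_map_eq_zero]
  intro b hb
  by_contra h
  exact nonZeroDivisors.ne_zero (algebraMap_fibre_mem_nonZeroDivisors O k (A := A) (T := T) h) hb

end Tower

section Galois

variable (O : Type*) [CommRing O] (S R : Type*) [CommRing S] [IsIntegrallyClosed S]
  [CommRing R] [Algebra O S] [Algebra O R] [Algebra S R] [IsScalarTower O S R]
  (F M : Type*) [Field F] [Field M] [Algebra S F] [IsFractionRing S F] [Algebra F M] [Algebra S M]
  [IsScalarTower S F M] [FiniteDimensional F M] [Algebra R M] [IsScalarTower S R M]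
  [IsIntegralClosure R S M]
  (k : Type*) [Field k] [Algebra O k]

/-- The action of the Galois group on the special fibre of the cover. -/
def fibreGalHom : (M ≃ₐ[F] M) →* ((k ⊗[O] R) ≃ₐ[k] (k ⊗[O] R)) where
  toFun g := Algebra.TensorProduct.congr AlgEquiv.refl
    ((galRestrict S F M R g).restrictScalars O)
  map_one' := by
    refine AlgEquiv.ext fun z => ?_
    induction z using TensorProduct.induction_on with
    | zero => simp
    | add x y hx hy => rw [map_add, hx, hy, map_add]
    | tmul β x => simp
  map_mul' g h := by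
    refine AlgEquiv.ext fun z => ?_
    induction z using TensorProduct.induction_on with
    | zero => simp
    | add x y hx hy => rw [map_add, hx, hy, map_add]
    | tmul β x => simp

/-- The norm of an element of the fibre of `R` lies in the fibre of `S`. -/
theorem exists_norm_fibre [IsGalois F M] (z : k ⊗[O] R) :
    ∃ s : k ⊗[O] S, algebraMap (k ⊗[O] S) (k ⊗[O] R) s =
      ∏ g : M ≃ₐ[F] M, fibreGalHom O S R F M k g z := by
  classical
  obtain ⟨I, hz⟩ := TensorProduct.exists_finset z
  set σ : (M ≃ₐ[F] M) → (R →+* R) := fun g => (galRestrict S F M R g : R ≃+* R).toRingHom with hσ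
  set Lz : (M ≃ₐ[F] M) → MvPolynomial I R :=
    fun g => ∑ i : I, MvPolynomial.X i * MvPolynomial.C (σ g i.1.2) with hLz
  set P : MvPolynomial I R := ∏ g, Lz g with hP
  have hinv : ∀ g, MvPolynomial.map (σ g) P = P := by
    intro g
    rw [hP, map_prod]
    refine Fintype.prod_equiv (Equiv.mulLeft g) _ _ fun h => ?_
    simp [hLz, hσ]
  have hcoeff : ∀ m, P.coeff m ∈ (algebraMap S R).range := by
    intro m
    have hfix : ∀ g : M ≃ₐ[F] M, g (algebraMap R M (P.coeff m)) = algebraMap R M (P.coeff m) := by
      intro g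
      rw [← algebraMap_galRestrict_apply S]
      congr 1
      conv_rhs => rw [← hinv g, MvPolynomial.coeff_map]
      rfl
    obtain ⟨f, hf⟩ := (IsGalois.mem_range_algebraMap_iff_fixed _).mpr hfix
    have hint : IsIntegral S f :=
      (isIntegral_algebraMap_iff (algebraMap F M).injective).mp
        (hf ▸ (IsIntegralClosure.isIntegral S M (P.coeff m)).algebraMap)
    obtain ⟨s, hs⟩ := IsIntegrallyClosed.isIntegral_iff.mp hint
    refine ⟨s, IsIntegralClosure.algebraMap_injective R S M ?_⟩
    rw [← IsScalarTower.algebraMap_apply S R M, IsScalarTower.algebraMap_apply S F M, hs, hf]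
  obtain ⟨P', hP'⟩ : P ∈ (MvPolynomial.map (σ := I) (algebraMap S R)).range :=
    MvPolynomial.mem_range_map_iff_coeffs_subset.mpr fun a ha => by
      obtain ⟨m, -, rfl⟩ := MvPolynomial.mem_coeffs_iff.mp ha
      exact hcoeff m
  refine ⟨MvPolynomial.eval₂
    (Algebra.TensorProduct.includeRight (R := O) (A := k) (B := S)).toRingHom
    (fun i : I => i.1.1 ⊗ₜ[O] (1 : S)) P', ?_⟩
  have hev : MvPolynomial.eval₂
      (Algebra.TensorProduct.includeRight (R := O) (A := k) (B := R)).toRingHom
      (fun i : I => i.1.1 ⊗ₜ[O] (1 : R)) P = ∏ g, fibreGalHom O S R F M k g z := by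
    rw [hP, ← MvPolynomial.coe_eval₂Hom, map_prod]
    refine Finset.prod_congr rfl fun g _ => ?_
    rw [hLz, map_sum, hz, map_sum, ← Finset.sum_coe_sort I]
    refine Finset.sum_congr rfl fun i _ => ?_
    simp [fibreGalHom, hσ]
  rw [← hev, ← hP', MvPolynomial.eval₂_map, MvPolynomial.eval₂_comp_left]
  congr 1
  ext s
  simp [RingHom.algebraMap_toAlgebra]

/-- Wild descent: `k ⊗ S` is regular at `n` if `k ⊗ R` is regular over `n`. -/
theorem isPrincipalAt_fibre_of_galois [IsGalois F M] (A : Type*) [CommRing A] [Algebra O A]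
    [Algebra A S] [Algebra A R] [IsScalarTower O A S] [IsScalarTower O A R] [IsScalarTower A S R]
    [IsDomain (k ⊗[O] A)] [IsPrincipalIdealRing (k ⊗[O] A)] [IsDomain (k ⊗[O] S)]
    [Module.Finite (k ⊗[O] A) (k ⊗[O] S)] [Module.Free (k ⊗[O] A) (k ⊗[O] S)]
    [Module.Finite (k ⊗[O] A) (k ⊗[O] R)] [Module.Free (k ⊗[O] A) (k ⊗[O] R)]
    (hrank : Module.finrank (k ⊗[O] A) (k ⊗[O] R) =
      Module.finrank F M * Module.finrank (k ⊗[O] A) (k ⊗[O] S))
    (n : Ideal (k ⊗[O] S)) [n.IsMaximal]
    (hP : ∀ P : Ideal (k ⊗[O] R), P.IsPrime → P.comap (algebraMap (k ⊗[O] S) (k ⊗[O] R)) = n →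
      P.IsMaximal ∧ IsPrincipalAt P ∧
        ∀ z : k ⊗[O] R, ∃ β : k, z - algebraMap k (k ⊗[O] R) β ∈ P) :
    IsPrincipalAt n := by
  classical
  have := isScalarTower_fibre_tower O (A := A) (S := S) (R := R) k
  have := isScalarTower_fibre O (C := S) (R := R) k
  have : Module.Finite (k ⊗[O] S) (k ⊗[O] R) :=
    Module.Finite.of_restrictScalars_finite (k ⊗[O] A) _ _
  have hS : 0 < Module.finrank (k ⊗[O] A) (k ⊗[O] S) := Module.finrank_pos
  have : Nontrivial (k ⊗[O] R) := by
    refine Module.nontrivial_of_finrank_pos (R := k ⊗[O] A) ?_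
    rw [hrank]
    exact Nat.mul_pos Module.finrank_pos hS
  let : MulSemiringAction (M ≃ₐ[F] M) (k ⊗[O] R) :=
    MulSemiringAction.compHom _ (fibreGalHom O S R F M k)
  have : SMulCommClass (M ≃ₐ[F] M) (k ⊗[O] S) (k ⊗[O] R) := ⟨fun g s z => by
    have hfix : fibreGalHom O S R F M k g (algebraMap (k ⊗[O] S) (k ⊗[O] R) s) =
        algebraMap (k ⊗[O] S) (k ⊗[O] R) s := by
      induction s using TensorProduct.induction_on with
      | zero => simp
      | add x y hx hy => rw [map_add, map_add, hx, hy]
      | tmul β x => simp [fibreGalHom, RingHom.algebraMap_toAlgebra]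
    show fibreGalHom O S R F M k g (s • z) = s • fibreGalHom O S R F M k g z
    rw [Algebra.smul_def, Algebra.smul_def, map_mul, hfix]⟩
  refine isPrincipalAt_of_norm (algebraMap_fibre_injective O k (A := A))
    (fun z => exists_norm_fibre O S R F M k z) ?_ n hP
  rw [← Nat.card_eq_fintype_card, IsGalois.card_aut_eq_finrank]
  exact hasGenericRank_of_finrank (k ⊗[O] A) hS hrank

end Galois

section Trace

variable (O : Type*) [CommRing O] (S R : Type*) [CommRing S] [IsIntegrallyClosed S]
  [CommRing R] [Algebra O S] [Algebra O R] [Algebra S R] [IsScalarTower O S R]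
  (F M : Type*) [Field F] [Field M] [Algebra S F] [IsFractionRing S F] [Algebra F M] [Algebra S M]
  [IsScalarTower S F M] [FiniteDimensional F M] [Algebra R M]
  [IsScalarTower S R M] [IsIntegralClosure R S M]
  (k : Type*) [Field k] [Algebra O k]

/-- Tame descent: integral fractions of `k ⊗ S` are regular at `n` if `k ⊗ R` is regular
over `n`. -/
theorem exists_mul_mem_span_fibre_of_trace (A : Type*) [CommRing A] [Algebra O A] [Algebra A S]
    [Algebra A R] [IsScalarTower O A S] [IsScalarTower O A R] [IsScalarTower A S R]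
    [IsDomain (k ⊗[O] A)] [IsNoetherianRing (k ⊗[O] A)] [IsDomain (k ⊗[O] S)]
    [Module.Finite (k ⊗[O] A) (k ⊗[O] S)] [Module.Finite (k ⊗[O] A) (k ⊗[O] R)]
    [Module.Free (k ⊗[O] A) (k ⊗[O] R)] [Nontrivial (k ⊗[O] R)]
    (u : O) (hu : u * (Module.finrank F M : O) = 1) (n : Ideal (k ⊗[O] S)) [n.IsPrime]
    (hn : ∀ P : Ideal (k ⊗[O] R), P.IsPrime →
      P.comap (algebraMap (k ⊗[O] S) (k ⊗[O] R)) = n → IsPrincipalAt P)
    {a b : k ⊗[O] S} (hb : b ≠ 0) {p : (k ⊗[O] S)[X]} (hp : p.Monic)
    (h : (p.scaleRoots b).eval a = 0) : ∃ v ∉ n, v * a ∈ Ideal.span {b} := by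
  have := isScalarTower_fibre_tower O (A := A) (S := S) (R := R) k
  have : Module.Finite (k ⊗[O] S) (k ⊗[O] R) :=
    Module.Finite.of_restrictScalars_finite (k ⊗[O] A) _ _
  have : Algebra.IsIntegral (k ⊗[O] S) (k ⊗[O] R) := Algebra.IsIntegral.of_finite _ _
  have : IsNoetherianRing (k ⊗[O] R) := IsNoetherianRing.of_finite (k ⊗[O] A) _
  choose t ht using fun x : R => IsIntegrallyClosed.isIntegral_iff.mp
    (Algebra.isIntegral_trace (R := S) (L := F)
      ((IsIntegralClosure.isIntegral S M x).algebraMap (B := M)))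
  have hinj := IsFractionRing.injective S F
  let τ : R →ₗ[S] S :=
    { toFun := fun x => algebraMap O S u * t x
      map_add' := fun x y => by
        rw [← mul_add]
        congr 1
        apply hinj
        rw [map_add, ht, ht, ht, map_add, map_add]
      map_smul' := fun s x => by
        rw [RingHom.id_apply, smul_eq_mul, mul_left_comm]
        congr 1
        apply hinj
        rw [map_mul, ht, ht, Algebra.smul_def, map_mul, ← IsScalarTower.algebraMap_apply,
          IsScalarTower.algebraMap_apply S F M, ← Algebra.smul_def, map_smul, smul_eq_mul] }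
  have hτ1 : τ 1 = 1 := by
    show algebraMap O S u * t 1 = 1
    have : t 1 = (Module.finrank F M : S) := by
      apply hinj
      rw [ht, map_one, map_natCast, ← map_one (algebraMap F M), Algebra.trace_algebraMap,
        nsmul_one]
    rw [this, ← map_natCast (algebraMap O S), ← map_mul, hu, map_one]
  let τk : (k ⊗[O] R) →ₗ[k ⊗[O] S] (k ⊗[O] S) :=
    { toFun := fun z => LinearMap.lTensor k (τ.restrictScalars O) z
      map_add' := fun x y => map_add _ x y
      map_smul' := fun s z => by
        rw [RingHom.id_apply]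
        induction z using TensorProduct.induction_on with
        | zero => simp
        | add x y hx hy => rw [smul_add, map_add, hx, hy, map_add, smul_add]
        | tmul γ x =>
          induction s using TensorProduct.induction_on with
          | zero => simp
          | add x y hx hy => rw [add_smul, map_add, hx, hy, add_smul]
          | tmul β e =>
            rw [fibreAlgebra_tmul_smul, LinearMap.lTensor_tmul, LinearMap.lTensor_tmul,
              LinearMap.restrictScalars_apply, map_smul, smul_eq_mul, smul_eq_mul,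
              Algebra.TensorProduct.tmul_mul_tmul]
            rfl }
  refine exists_mul_mem_span_of_retraction τk ?_ n hn
    (algebraMap_fibre_mem_nonZeroDivisors O k (A := A) hb) hp h
  show LinearMap.lTensor k (τ.restrictScalars O) 1 = 1
  rw [Algebra.TensorProduct.one_def, LinearMap.lTensor_tmul, LinearMap.restrictScalars_apply, hτ1,
    Algebra.TensorProduct.one_def]

end Trace

end Fermat.Agent.Igusa
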