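import Mathlib
import Fermat.Agent.Igusa.SmoothCoverFibre
import Fermat.Agent.Igusa.SmoothDescent

/-!
# Normality of the special fibre of a chart from a cover

`S ⊆ R` are the integral closures of `O[X]` in `F ⊆ M`, and `C ⊆ R` is a finite normal
`O[X]`-algebra whose fraction field `L` lies in `M`.

Regularity of the fibre of the cover is descended to the fibre of `S`, a chart of `X₀(N)`.
-/

noncomputable section

open scoped TensorProduct
open Polynomial

namespace Fermat.Agent.Igusa

attribute [local instance] fibreAlgebra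

/-- The integral closure in a field is also one over an intermediate integral algebra. -/
theorem isIntegralClosure_of_isIntegral (A B R M : Type*) [CommRing A] [CommRing B] [CommRing R]
    [Field M] [Algebra A B] [Algebra A M] [Algebra B M] [IsScalarTower A B M] [Algebra R M]
    [Algebra A R] [Algebra B R]
    [IsIntegralClosure R A M] [Algebra.IsIntegral A B] : IsIntegralClosure R B M where
  algebraMap_injective := IsIntegralClosure.algebraMap_injective R A M
  isIntegral_iff {x} := ⟨fun h => IsIntegralClosure.isIntegral_iff.mp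
    (isIntegral_trans (R := A) (A := B) x h),
    fun h => (IsIntegralClosure.isIntegral_iff.mpr h : IsIntegral A x).tower_top⟩

section Base

variable (O : Type*) [CommRing O] (k : Type*) [Field k] [Algebra O k]

/-- `k ⊗ O[X]` is a domain. -/
theorem isDomain_fibre_poly : IsDomain (k ⊗[O] O[X]) :=
  MulEquiv.isDomain k[X] (polyEquivTensor O k).symm.toMulEquiv

/-- `k ⊗ O[X]` is a principal ideal ring. -/
theorem isPrincipalIdealRing_fibre_poly : IsPrincipalIdealRing (k ⊗[O] O[X]) :=
  IsPrincipalIdealRing.of_surjective (polyEquivTensor O k).toAlgHom.toRingHom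
    (polyEquivTensor O k).surjective

variable [IsDomain O] [IsPrincipalIdealRing O] {π₀ : O} (S K₁ F : Type*) [CommRing S]
  [Algebra O S] [Algebra O[X] S] [IsScalarTower O O[X] S] [Field K₁] [Algebra O[X] K₁]
  [IsFractionRing O[X] K₁] [Field F] [CharZero F] [Algebra S F] [Algebra O[X] F] [Algebra K₁ F]
  [IsScalarTower O[X] K₁ F] [IsScalarTower O[X] S F] [FiniteDimensional K₁ F]
  [IsIntegralClosure S O[X] F]

include K₁ F in
/-- The fibre of `S` is free over `k[X]` of rank `[F : K₁]`. -/
theorem free_fibre (hπ : Prime π₀) (hπ₀ : algebraMap O k π₀ = 0)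
    (hpid : IsPrincipalIdealRing (O[X] ⧸ Ideal.span {(C π₀ : O[X])})) :
    Module.Free (k ⊗[O] O[X]) (k ⊗[O] S) ∧ Module.Finite (k ⊗[O] O[X]) (k ⊗[O] S) ∧
      Module.finrank (k ⊗[O] O[X]) (k ⊗[O] S) = Module.finrank K₁ F := by
  have : CharZero K₁ := (algebraMap K₁ F).charZero
  obtain ⟨c, r, hc, hli, hspan⟩ :=
    exists_basis_near_fibre O[X] K₁ F S (C π₀) (prime_C_iff.mpr hπ) hpid
  obtain ⟨b, -⟩ := exists_basis_fibre O (C := O[X]) (R := S) k hπ₀
    (by rwa [Polynomial.algebraMap_eq]) hli hspan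
  have := isDomain_fibre_poly O k
  exact ⟨Module.Free.of_basis b, Module.Finite.of_basis b,
    by rw [Module.finrank_eq_card_basis b, Fintype.card_fin]⟩

end Base

section Main

variable (O : Type*) [CommRing O] [IsDomain O] [IsPrincipalIdealRing O] {π₀ : O}
  (S K₁ F : Type*) [CommRing S] [IsIntegrallyClosed S] [Algebra O S] [Algebra O[X] S]
  [IsScalarTower O O[X] S] [Field K₁] [Algebra O[X] K₁] [IsFractionRing O[X] K₁] [Field F]
  [CharZero F] [Algebra S F] [IsFractionRing S F] [Algebra O[X] F] [Algebra K₁ F]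
  [IsScalarTower O[X] K₁ F] [IsScalarTower O[X] S F] [FiniteDimensional K₁ F]
  [IsIntegralClosure S O[X] F]
  (C L : Type*) [CommRing C] [IsDomain C] [UniqueFactorizationMonoid C] [IsNoetherianRing C]
  [Algebra O C] [Algebra.FiniteType O C] [Algebra O[X] C] [IsScalarTower O O[X] C]
  [Module.Finite O[X] C] [Field L] [Algebra C L] [IsFractionRing C L]
  (M : Type*) [Field M] [Algebra F M] [FiniteDimensional F M] [Algebra S M]
  [IsScalarTower S F M] [Algebra O[X] M] [IsScalarTower O[X] F M] [Algebra L M] [Algebra C M]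
  [IsScalarTower C L M] [IsScalarTower O[X] C M] [FiniteDimensional L M]
  (R : Type*) [CommRing R] [Algebra O R] [Algebra O[X] R] [Algebra S R] [Algebra C R]
  [Algebra R M] [IsScalarTower O O[X] R] [IsScalarTower O S R] [IsScalarTower O C R]
  [IsScalarTower O[X] S R] [IsScalarTower O[X] C R] [IsScalarTower S R M] [IsScalarTower C R M]
  [IsScalarTower O[X] R M] [IsIntegralClosure R O[X] M]
  (k : Type*) [Field k] [IsAlgClosed k] [Algebra O k]
  (Ω : Type*) [Field Ω] [CharZero Ω] (g₀ : O[X])

/-- The hypotheses on a cover `C ⊆ M` of `S ⊆ F` needed for normality of `k ⊗ S` where `g₀ ≠ 0`: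
`π₀` stays prime with principal quotients, `M` has a generator with a separable equation modulo
`π₀`, the special fibre is regular, and the horizontal primes through the good points split. -/
structure CoverHyp (π₀ : O) : Prop where
  prime_base : Prime π₀
  fibre_zero : algebraMap O k π₀ = 0
  pid_base : IsPrincipalIdealRing (O[X] ⧸ Ideal.span {(Polynomial.C π₀ : O[X])})
  prime : Prime (algebraMap O C π₀)
  pid : IsPrincipalIdealRing (C ⧸ Ideal.span {algebraMap O C π₀})
  witness : Nonempty (SpecialWitness C L M R (algebraMap O C π₀))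
  regular : ∀ n : Ideal (k ⊗[O] C), n.IsMaximal → IsPrincipalAt n
  split : ∀ p : C, Prime p → ∀ m : Ideal C, m.IsPrime → algebraMap O C π₀ ∈ m → p ∈ m →
    algebraMap O[X] C g₀ ∉ m → ¬ algebraMap O C π₀ ∣ p → Nonempty (SplitsAtPrime C L M Ω p)

variable {S K₁ F C L M R g₀ k Ω}

omit [IsIntegrallyClosed S] [IsFractionRing S F] [IsDomain C] [UniqueFactorizationMonoid C]
  [IsNoetherianRing C] [Algebra.FiniteType O C] [IsScalarTower O O[X] C] [Module.Finite O[X] C]
  [IsFractionRing C L] [Algebra S M] [IsScalarTower S F M] [Algebra C M] [IsScalarTower C L M]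
  [IsScalarTower O[X] C M] [FiniteDimensional L M] [Algebra S R] [IsScalarTower O S R]
  [IsScalarTower O C R] [IsScalarTower O[X] S R] [IsScalarTower O[X] C R] [IsScalarTower S R M]
  [IsScalarTower C R M] [IsAlgClosed k] [CharZero Ω] in
include K₁ F L M Ω in
/-- The fibres of `S` and `R` are free over `k[X]`, of ranks in the ratio `[M : F]`. -/
theorem CoverHyp.free (h : CoverHyp O (C := C) (L := L) (M := M) (R := R) k Ω g₀ π₀) :
    (Module.Free (k ⊗[O] O[X]) (k ⊗[O] S) ∧ Module.Finite (k ⊗[O] O[X]) (k ⊗[O] S)) ∧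
      (Module.Free (k ⊗[O] O[X]) (k ⊗[O] R) ∧ Module.Finite (k ⊗[O] O[X]) (k ⊗[O] R)) ∧
      Module.finrank (k ⊗[O] O[X]) (k ⊗[O] R) =
        Module.finrank F M * Module.finrank (k ⊗[O] O[X]) (k ⊗[O] S) := by
  let : Algebra K₁ M := ((algebraMap F M).comp (algebraMap K₁ F)).toAlgebra
  have : IsScalarTower K₁ F M := IsScalarTower.of_algebraMap_eq fun _ => rfl
  have : IsScalarTower O[X] K₁ M := IsScalarTower.of_algebraMap_eq fun x => by
    rw [IsScalarTower.algebraMap_apply O[X] F M, IsScalarTower.algebraMap_apply O[X] K₁ F]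
    rfl
  have : FiniteDimensional K₁ M := Module.Finite.trans F M
  have : CharZero M := charZero_of_injective_ringHom (algebraMap F M).injective
  obtain ⟨h1, h2, h3⟩ := free_fibre O k S K₁ F h.prime_base h.fibre_zero h.pid_base
  obtain ⟨h4, h5, h6⟩ := free_fibre O k R K₁ M h.prime_base h.fibre_zero h.pid_base
  refine ⟨⟨h1, h2⟩, ⟨h4, h5⟩, ?_⟩
  rw [h3, h6, mul_comm, Module.finrank_mul_finrank]

omit [IsIntegrallyClosed S] [IsFractionRing S F] [Algebra S M] [IsScalarTower S F M]
  [IsScalarTower S R M] in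
include K₁ F in
/-- Regularity of `k ⊗ R` over the good points of `k ⊗ S`. -/
theorem CoverHyp.regular_above
    (h : CoverHyp O (C := C) (L := L) (M := M) (R := R) k Ω g₀ π₀)
    (n : Ideal (k ⊗[O] S)) [n.IsMaximal] (hg : (1 : k) ⊗ₜ[O] algebraMap O[X] S g₀ ∉ n)
    (P : Ideal (k ⊗[O] R)) [P.IsPrime]
    (hPn : P.comap (algebraMap (k ⊗[O] S) (k ⊗[O] R)) = n) :
    P.IsMaximal ∧ IsPrincipalAt P ∧
      ∀ z : k ⊗[O] R, ∃ β : k, z - algebraMap k (k ⊗[O] R) β ∈ P := by
  obtain ⟨⟨_, _⟩, ⟨_, _⟩, -⟩ := h.free (S := S) (K₁ := K₁) (F := F) O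
  have := isScalarTower_fibre_tower O (A := O[X]) (S := S) (R := R) k
  have := isScalarTower_fibre_tower O (A := O[X]) (S := C) (R := R) k
  have : Module.Finite (k ⊗[O] S) (k ⊗[O] R) :=
    Module.Finite.of_restrictScalars_finite (k ⊗[O] O[X]) _ _
  have : Module.Finite (k ⊗[O] C) (k ⊗[O] R) :=
    Module.Finite.of_restrictScalars_finite (k ⊗[O] O[X]) _ _
  have : Algebra.IsIntegral (k ⊗[O] S) (k ⊗[O] R) := Algebra.IsIntegral.of_finite _ _
  have : Algebra.IsIntegral (k ⊗[O] C) (k ⊗[O] R) := Algebra.IsIntegral.of_finite _ _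
  have hPmax : P.IsMaximal := Ideal.isMaximal_of_isIntegral_of_isMaximal_comap P (by
    rw [hPn]; infer_instance)
  set nC := P.comap (algebraMap (k ⊗[O] C) (k ⊗[O] R)) with hnC
  have : nC.IsMaximal := Ideal.isMaximal_comap_of_isIntegral_of_isMaximal P
  have : Algebra.IsIntegral O[X] C := Algebra.IsIntegral.of_finite _ _
  have : IsIntegralClosure R C M := isIntegralClosure_of_isIntegral O[X] C R M
  have : CharZero M := charZero_of_injective_ringHom (algebraMap F M).injective
  have : CharZero L := (algebraMap L M).charZero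
  obtain ⟨sp⟩ := h.witness
  refine isPrincipalAt_fibre_cover O C L M R k Ω h.fibre_zero h.prime h.pid sp
    (fun m => algebraMap O[X] C g₀ ∉ m) h.split nC (h.regular nC inferInstance) ?_ P rfl
  intro hmem
  apply hg
  rw [← hPn, Ideal.mem_comap]
  rw [Ideal.mem_comap, hnC, Ideal.mem_comap] at hmem
  convert hmem using 1
  simp [RingHom.algebraMap_toAlgebra, ← IsScalarTower.algebraMap_apply O[X] S R,
    ← IsScalarTower.algebraMap_apply O[X] C R]

include K₁ F in
/-- Galois covers: integral fractions of `k ⊗ S` divide. -/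
theorem CoverHyp.dvdOfIntegral [IsGalois F M] [IsDomain (k ⊗[O] S)]
    (h : CoverHyp O (C := C) (L := L) (M := M) (R := R) k Ω (1 : O[X]) π₀) :
    DvdOfIntegral (k ⊗[O] S) := by
  obtain ⟨⟨_, _⟩, ⟨_, _⟩, hrank⟩ := h.free (S := S) (K₁ := K₁) (F := F) O
  have := isDomain_fibre_poly O k
  have := isPrincipalIdealRing_fibre_poly O k
  have : Algebra.IsIntegral O[X] S := IsIntegralClosure.isIntegral_algebra O[X] F
  have : IsScalarTower O[X] S M := IsScalarTower.of_algebraMap_eq fun x => by
    rw [IsScalarTower.algebraMap_apply O[X] F M, IsScalarTower.algebraMap_apply O[X] S F,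
      ← IsScalarTower.algebraMap_apply S F M]
  have : IsIntegralClosure R S M := isIntegralClosure_of_isIntegral O[X] S R M
  have : IsNoetherianRing (k ⊗[O] S) := IsNoetherianRing.of_finite (k ⊗[O] O[X]) _
  intro a b hb p hp hpa
  refine dvd_of_forall_exists_mul_mem fun n hn => ?_
  have hn' : IsPrincipalAt n :=
    isPrincipalAt_fibre_of_galois O S R F M k O[X] hrank n fun P hP hPn =>
      haveI := hP
      h.regular_above (S := S) (K₁ := K₁) (F := F) O n
        (fun h1 => hn.ne_top ((Ideal.eq_top_iff_one n).mpr (by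
          rwa [map_one, ← Algebra.TensorProduct.one_def] at h1))) P hPn
  exact exists_mul_mem_span_of_integral hn' hb hp hpa

include K₁ F in
/-- Tame covers: integral fractions of `k ⊗ S` divide near the good points. -/
theorem CoverHyp.exists_mul_mem_span [IsDomain (k ⊗[O] S)] (u : O)
    (hu : u * (Module.finrank F M : O) = 1)
    (h : CoverHyp O (C := C) (L := L) (M := M) (R := R) k Ω g₀ π₀)
    (n : Ideal (k ⊗[O] S)) [n.IsMaximal] (hg : (1 : k) ⊗ₜ[O] algebraMap O[X] S g₀ ∉ n)
    {a b : k ⊗[O] S} (hb : b ≠ 0) {p : (k ⊗[O] S)[X]} (hp : p.Monic)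
    (hpa : (p.scaleRoots b).eval a = 0) : ∃ v ∉ n, v * a ∈ Ideal.span {b} := by
  obtain ⟨⟨_, _⟩, ⟨_, _⟩, hrank⟩ := h.free (S := S) (K₁ := K₁) (F := F) O
  have := isDomain_fibre_poly O k
  have := isPrincipalIdealRing_fibre_poly O k
  have : Algebra.IsIntegral O[X] S := IsIntegralClosure.isIntegral_algebra O[X] F
  have : IsScalarTower O[X] S M := IsScalarTower.of_algebraMap_eq fun x => by
    rw [IsScalarTower.algebraMap_apply O[X] F M, IsScalarTower.algebraMap_apply O[X] S F,
      ← IsScalarTower.algebraMap_apply S F M]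
  have : IsIntegralClosure R S M := isIntegralClosure_of_isIntegral O[X] S R M
  have : Nontrivial (k ⊗[O] R) := by
    refine Module.nontrivial_of_finrank_pos (R := k ⊗[O] O[X]) ?_
    rw [hrank]
    exact Nat.mul_pos Module.finrank_pos Module.finrank_pos
  exact exists_mul_mem_span_fibre_of_trace O S R F M k O[X] u hu n
    (fun P hP hPn => haveI := hP
      (h.regular_above (S := S) (K₁ := K₁) (F := F) O n hg P hPn).2.1) hb hp hpa

end Main

end Fermat.Agent.Igusa
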