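import Mathlib

/-!
# Lifting a ramified point of a cover of the projective line to a power series

If `N - a D = (X - α) ^ e G` with `G(α) ≠ 0 ≠ D(α)` and `J = a + v ^ e h` with `h(0) ≠ 0`, then
`N(Λ) = J D(Λ)` has a solution `Λ = α + v y` in `K⟦v⟧` with `y(0) ≠ 0`.
-/

noncomputable section

open Polynomial

namespace Fermat.Agent.Igusa

variable {K : Type*} [Field K]

/-- Hensel's lemma for a simple root over `K⟦v⟧`. -/
theorem exists_simple_root_powerSeries (f : (PowerSeries K)[X]) (hf : f.Monic) (z₀ : K)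
    (h0 : (f.map PowerSeries.constantCoeff).eval z₀ = 0)
    (h1 : (f.map PowerSeries.constantCoeff).derivative.eval z₀ ≠ 0) :
    ∃ z : PowerSeries K, f.eval z = 0 ∧ PowerSeries.constantCoeff z = z₀ := by
  have : HenselianRing (PowerSeries K) (Ideal.span {PowerSeries.X}) :=
    IsAdicComplete.henselianRing _ _
  have hmem : ∀ x : PowerSeries K,
      x ∈ Ideal.span ({PowerSeries.X} : Set (PowerSeries K)) ↔
        PowerSeries.constantCoeff x = 0 := fun x => by
    rw [Ideal.mem_span_singleton, PowerSeries.X_dvd_iff]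
  have hev : ∀ g : (PowerSeries K)[X], PowerSeries.constantCoeff (g.eval (PowerSeries.C z₀)) =
      (g.map PowerSeries.constantCoeff).eval z₀ := fun g => by
    rw [eval_map, ← eval₂_hom, PowerSeries.constantCoeff_C]
  have hunit : IsUnit (f.derivative.eval (PowerSeries.C z₀)) := by
    rw [PowerSeries.isUnit_iff_constantCoeff, isUnit_iff_ne_zero, hev, ← derivative_map]
    exact h1
  obtain ⟨z, hz, hz0⟩ := HenselianRing.is_henselian (I := Ideal.span {PowerSeries.X}) f hf
    (PowerSeries.C z₀) ((hmem _).mpr (by rw [hev, h0])) (hunit.map _)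
  refine ⟨z, hz, ?_⟩
  rwa [hmem, map_sub, PowerSeries.constantCoeff_C, sub_eq_zero] at hz0

/-- Taylor expansion at `α`. -/
theorem eval₂_add_eq_sum (G : K[X]) (α : K) {m : ℕ} (hm : G.natDegree < m) (x : PowerSeries K) :
    G.eval₂ PowerSeries.C (PowerSeries.C α + x) =
      ∑ i ∈ Finset.range m, PowerSeries.C ((taylor α G).coeff i) * x ^ i := by
  rw [← eval₂_eq_sum_range' PowerSeries.C (by rwa [natDegree_taylor]), taylor_apply, eval₂_comp,
    eval₂_add, eval₂_X, eval₂_C, add_comm]

/-- A ramified point lifts to a power series of order one. -/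
theorem exists_lift_point [IsAlgClosed K] [CharZero K] (Nn Dd G : K[X]) (a α : K) {e : ℕ}
    (he : e ≠ 0) (hG : Nn - Polynomial.C a * Dd = (X - Polynomial.C α) ^ e * G)
    (hG0 : G.eval α ≠ 0) (hD0 : Dd.eval α ≠ 0) (J h : PowerSeries K)
    (hJ : J - PowerSeries.C a = PowerSeries.X ^ e * h)
    (hh : PowerSeries.constantCoeff h ≠ 0) :
    ∃ y : PowerSeries K, PowerSeries.constantCoeff y ≠ 0 ∧
      Nn.eval₂ PowerSeries.C (PowerSeries.C α + PowerSeries.X * y) =
        J * Dd.eval₂ PowerSeries.C (PowerSeries.C α + PowerSeries.X * y) := by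
  set m := max G.natDegree Dd.natDegree + 1 with hm
  set g : ℕ → K := fun i => (taylor α G).coeff i with hg
  set d : ℕ → K := fun i => (taylor α Dd).coeff i with hd
  have hg0 : g 0 = G.eval α := taylor_coeff_zero α G
  have hd0 : d 0 = Dd.eval α := taylor_coeff_zero α Dd
  set hi : PowerSeries K := h⁻¹
  have hhi : h * hi = 1 := PowerSeries.mul_inv_cancel h hh
  have hhi0 : PowerSeries.constantCoeff hi = (PowerSeries.constantCoeff h)⁻¹ :=
    PowerSeries.constantCoeff_inv h
  -- the reversed equation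
  set R : (PowerSeries K)[X] :=
    (∑ i ∈ Finset.Ico 1 m,
      Polynomial.C (PowerSeries.C (d 0)⁻¹ * (PowerSeries.C (d i) * PowerSeries.X ^ i)) *
        X ^ (e + m - i)) -
    ∑ i ∈ Finset.range m,
      Polynomial.C (PowerSeries.C (d 0)⁻¹ * hi * (PowerSeries.C (g i) * PowerSeries.X ^ i)) *
        X ^ (m - i) with hR
  have hRdeg : R.degree < ((e + m : ℕ) : WithBot ℕ) := by
    refine lt_of_le_of_lt (degree_sub_le _ _) (max_lt ?_ ?_)
    · refine lt_of_le_of_lt (degree_sum_le _ _) ((Finset.sup_lt_iff (WithBot.bot_lt_coe _)).mpr ?_)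
      intro i hi'
      refine lt_of_le_of_lt (degree_C_mul_X_pow_le _ _) ?_
      have := Finset.mem_Ico.mp hi'
      exact_mod_cast (by omega : e + m - i < e + m)
    · refine lt_of_le_of_lt (degree_sum_le _ _) ((Finset.sup_lt_iff (WithBot.bot_lt_coe _)).mpr ?_)
      intro i _
      refine lt_of_le_of_lt (degree_C_mul_X_pow_le _ _) ?_
      exact_mod_cast (by omega : m - i < e + m)
  set f : (PowerSeries K)[X] := X ^ (e + m) + R
  have hf : f.Monic := monic_X_pow_add hRdeg
  set c : K := (d 0)⁻¹ * (PowerSeries.constantCoeff h)⁻¹ * g 0 with hc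
  have hfmap : f.map PowerSeries.constantCoeff = X ^ (e + m) - Polynomial.C c * X ^ m := by
    simp only [f, hR, Polynomial.map_add, Polynomial.map_sub, Polynomial.map_sum,
      Polynomial.map_mul, Polynomial.map_pow, Polynomial.map_X, Polynomial.map_C, map_mul,
      PowerSeries.constantCoeff_C, map_pow, PowerSeries.constantCoeff_X, hhi0]
    rw [Finset.sum_eq_zero fun i hi' => ?_, zero_sub, Finset.sum_eq_single 0 (fun i _ hi' => ?_)
      (fun h0 => absurd (Finset.mem_range.mpr (Nat.succ_pos _)) h0)]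
    · simp [hc, sub_eq_add_neg]
    · simp [zero_pow hi']
    · have := Finset.mem_Ico.mp hi'
      simp [zero_pow (by omega : i ≠ 0)]
  obtain ⟨z₀, hz₀⟩ := IsAlgClosed.exists_pow_nat_eq c (Nat.pos_of_ne_zero he)
  have hc0 : c ≠ 0 :=
    mul_ne_zero (mul_ne_zero (inv_ne_zero (hd0 ▸ hD0)) (inv_ne_zero hh)) (hg0 ▸ hG0)
  have hz₀0 : z₀ ≠ 0 := fun h0 => hc0 (by rw [← hz₀, h0, zero_pow he])
  obtain ⟨z, hz, hzc⟩ := exists_simple_root_powerSeries f hf z₀
    (by rw [hfmap]; simp [pow_add, hz₀])
    (by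
      rw [hfmap]
      simp only [derivative_sub, derivative_X_pow, derivative_C_mul_X_pow, eval_sub, eval_mul,
        eval_C, eval_pow, eval_X]
      have hm0 : m ≠ 0 := Nat.succ_ne_zero _
      have : ((e + m : ℕ) : K) * z₀ ^ (e + m - 1) - c * (m : K) * z₀ ^ (m - 1) =
          (e : K) * z₀ ^ (e + m - 1) := by
        rw [← hz₀, Nat.cast_add, Nat.add_sub_assoc (Nat.one_le_iff_ne_zero.mpr hm0), pow_add]
        ring
      rw [this]
      exact mul_ne_zero (Nat.cast_ne_zero.mpr he) (pow_ne_zero _ hz₀0))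
  set y : PowerSeries K := z⁻¹
  have hzy : z * y = 1 := PowerSeries.mul_inv_cancel z (hzc ▸ hz₀0)
  refine ⟨y, ?_, ?_⟩
  · intro h0
    have := congrArg PowerSeries.constantCoeff hzy
    rw [map_mul, h0, mul_zero, map_one] at this
    exact zero_ne_one this
  have hpow : ∀ i j : ℕ, i ≤ j → z ^ (j - i) * y ^ j = y ^ i := fun i j hij => by
    obtain ⟨l, rfl⟩ := Nat.exists_eq_add_of_le hij
    rw [Nat.add_sub_cancel_left, pow_add, mul_left_comm, ← mul_pow, hzy, one_pow, mul_one]
  -- undo the reversal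
  have hkey : (∑ i ∈ Finset.range m, PowerSeries.C (d i) * (PowerSeries.X * y) ^ i) =
      hi * y ^ e * ∑ i ∈ Finset.range m, PowerSeries.C (g i) * (PowerSeries.X * y) ^ i := by
    have hdC : PowerSeries.C (d 0) * PowerSeries.C (d 0)⁻¹ = 1 := by
      rw [← map_mul, mul_inv_cancel₀ (hd0 ▸ hD0), map_one]
    have h0 : PowerSeries.C (d 0) * (f.eval z * y ^ (e + m)) = 0 := by
      rw [hz, zero_mul, mul_zero]
    simp only [f, hR, eval_add, eval_sub, eval_finsetSum, eval_mul, eval_C, eval_pow, eval_X,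
      add_mul, sub_mul, mul_add, mul_sub, Finset.sum_mul, Finset.mul_sum] at h0
    rw [← sub_eq_zero]
    refine Eq.trans ?_ h0
    rw [show Finset.range m = insert 0 (Finset.Ico 1 m) by
      ext i; simp only [Finset.mem_range, Finset.mem_insert, Finset.mem_Ico]; omega,
      Finset.sum_insert (by simp), Finset.mul_sum, add_sub_assoc]
    congr 1
    · rw [pow_zero, mul_one, ← mul_pow, hzy, one_pow, mul_one]
    congr 1
    · refine Finset.sum_congr rfl fun i hi' => ?_
      have := Finset.mem_Ico.mp hi'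
      rw [mul_pow, ← hpow i (e + m) (by omega)]
      linear_combination -(PowerSeries.C (d i) * (PowerSeries.X ^ i * (z ^ (e + m - i) *
        y ^ (e + m)))) * hdC
    · rw [show insert 0 (Finset.Ico 1 m) = Finset.range m by
        ext i; simp only [Finset.mem_range, Finset.mem_insert, Finset.mem_Ico]; omega]
      refine Finset.sum_congr rfl fun i hi' => ?_
      have := Finset.mem_range.mp hi'
      rw [pow_add, mul_pow, ← hpow i m this.le]
      linear_combination -(hi * y ^ e * (PowerSeries.C (g i) * (PowerSeries.X ^ i *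
        (z ^ (m - i) * y ^ m)))) * hdC
  rw [hg, hd] at hkey
  simp only at hkey
  rw [← eval₂_add_eq_sum Dd α (by omega) _, ← eval₂_add_eq_sum G α (by omega) _] at hkey
  have hN := congrArg (eval₂ PowerSeries.C (PowerSeries.C α + PowerSeries.X * y)) hG
  simp only [eval₂_sub, eval₂_mul, eval₂_C, eval₂_pow, eval₂_X, add_sub_cancel_left] at hN
  linear_combination hN - (Dd.eval₂ PowerSeries.C (PowerSeries.C α + PowerSeries.X * y)) * hJ -
    (PowerSeries.X ^ e * h) * hkey -
    (PowerSeries.X ^ e * y ^ e * G.eval₂ PowerSeries.C (PowerSeries.C α + PowerSeries.X * y)) * hhi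

end Fermat.Agent.Igusa
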