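import Mathlib
import Fermat.Agent.Igusa.SmoothBase
import Fermat.Agent.Igusa.SmoothFibre
import Fermat.Agent.Igusa.SmoothLocal
import Fermat.Agent.Igusa.SmoothSeries
import Fermat.Agent.Igusa.SmoothWitness

/-!
# Covers of the `j`-line: localisations of `O'[X]`

`O'` is a finite extension of `O = ℤ₍ℓ₎` unramified at `ℓ` and `C = O'[X][1/h]`.

The fibres of such covers are regular at the good points, and their horizontal primes have power
series points; both are used for the Hesse, Legendre and infinite covers.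
-/

noncomputable section

open scoped TensorProduct
open Polynomial

namespace Fermat.Agent.Igusa

/-- A quotient of a localisation by the image of an element is principal if the quotient
upstairs is. -/
theorem isPrincipalIdealRing_quotient_localization {P C : Type*} [CommRing P] [CommRing C]
    [Algebra P C] (M : Submonoid P) [IsLocalization M C] (x : P)
    [IsPrincipalIdealRing (P ⧸ Ideal.span {x})] :
    IsPrincipalIdealRing (C ⧸ Ideal.span {algebraMap P C x}) := by
  refine ⟨fun J => ?_⟩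
  set q := Ideal.Quotient.mk (Ideal.span {algebraMap P C x}) with hq
  set I : Ideal P := (J.comap q).comap (algebraMap P C) with hI
  obtain ⟨g, hg⟩ : ∃ g, I.map (Ideal.Quotient.mk (Ideal.span {x})) = Ideal.span {g} :=
    ⟨_, ((IsPrincipalIdealRing.principal _).span_singleton_generator).symm⟩
  obtain ⟨g, rfl⟩ := Ideal.Quotient.mk_surjective g
  have hI' : I ≤ Ideal.span {g, x} := by
    intro y hy
    have := Ideal.mem_map_of_mem (Ideal.Quotient.mk (Ideal.span {x})) hy
    rw [hg, Ideal.mem_span_singleton'] at this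
    obtain ⟨a, ha⟩ := this
    obtain ⟨a, rfl⟩ := Ideal.Quotient.mk_surjective a
    rw [← map_mul, Ideal.Quotient.eq, Ideal.mem_span_singleton'] at ha
    obtain ⟨b, hb⟩ := ha
    exact Ideal.mem_span_pair.mpr ⟨a, -b, by rw [neg_mul, hb]; ring⟩
  have hgI : g ∈ I := by
    have hxI : x ∈ I := by
      show q (algebraMap P C x) ∈ J
      rw [hq, Ideal.Quotient.eq_zero_iff_mem.mpr (Ideal.mem_span_singleton_self _)]
      exact J.zero_mem
    obtain ⟨y, hy, hyg⟩ := (Ideal.mem_map_iff_of_surjective _ Ideal.Quotient.mk_surjective).mp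
      (hg.symm ▸ Ideal.mem_span_singleton_self (Ideal.Quotient.mk (Ideal.span {x}) g))
    rw [Ideal.Quotient.eq, Ideal.mem_span_singleton'] at hyg
    obtain ⟨a, ha⟩ := hyg
    have := sub_mem hy (I.mul_mem_left a hxI)
    rwa [ha, sub_sub_cancel] at this
  refine ⟨⟨q (algebraMap P C g), ?_⟩⟩
  refine le_antisymm (fun z hz => ?_) ?_
  · obtain ⟨c, rfl⟩ := Ideal.Quotient.mk_surjective z
    obtain ⟨⟨a, ⟨m, hm⟩⟩, hac⟩ := IsLocalization.surj M c
    have haI : a ∈ I := by
      show q (algebraMap P C a) ∈ J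
      rw [← hac, map_mul]
      exact J.mul_mem_right _ hz
    obtain ⟨r, s, hrs⟩ := Ideal.mem_span_pair.mp (hI' haI)
    obtain ⟨v, hv⟩ := IsLocalization.map_units C (⟨m, hm⟩ : M)
    refine Ideal.mem_span_singleton'.mpr ⟨q (algebraMap P C r * ((v⁻¹ : Cˣ) : C)), ?_⟩
    have hc : c = (algebraMap P C r * algebraMap P C g + algebraMap P C s * algebraMap P C x) *
        ((v⁻¹ : Cˣ) : C) := by
      rw [← map_mul, ← map_mul, ← map_add, hrs, ← hac, mul_assoc, ← hv, Units.mul_inv, mul_one]
    rw [hc, ← map_mul, hq, Ideal.Quotient.eq, Ideal.mem_span_singleton']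
    exact ⟨-(algebraMap P C s * ((v⁻¹ : Cˣ) : C)), by ring⟩
  · rw [Submodule.span_le, Set.singleton_subset_iff]
    exact hgI

section Fibre

variable (O O' : Type*) [CommRing O] [CommRing O'] [Algebra O O'] (h : O'[X]) (C : Type*)
  [CommRing C] [Algebra O'[X] C] [IsLocalization.Away h C] [Algebra O C] [IsScalarTower O O'[X] C]
  (k : Type*) [Field k] [Algebra O k]

/-- Evaluation of `k ⊗ O'` at a point. -/
abbrev pointHom (χ : O' →ₐ[O] k) : k ⊗[O] O' →ₐ[k] k :=
  Algebra.TensorProduct.lift (Algebra.ofId k k) χ fun _ _ => Commute.all _ _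

/-- `k ⊗ O'` is a product of copies of `k` indexed by the points `χ : O' → k`, and `h` is nonzero
at each of them. -/
structure PointsHyp : Prop where
  reduced : ∀ x : k ⊗[O] O', (∀ χ : O' →ₐ[O] k, pointHom O O' k χ x = 0) → x = 0
  idempotent : ∀ χ : O' →ₐ[O] k, ∃ u : k ⊗[O] O', pointHom O O' k χ u ≠ 0 ∧
    ∀ e : O', u * (1 ⊗ₜ[O] e) = u * (χ e ⊗ₜ[O] 1)
  map_ne_zero : ∀ χ : O' →ₐ[O] k, h.map (χ : O' →+* k) ≠ 0

/-- The trivial base `O' = O` satisfies the hypothesis on points. -/
theorem pointsHyp_base (h : O[X]) (hh : h.map (algebraMap O k) ≠ 0) :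
    PointsHyp O O h k where
  reduced x hx := by
    have := hx (Algebra.ofId O k)
    have hx' : x = (Algebra.TensorProduct.rid O O k).symm ((Algebra.TensorProduct.rid O O k) x) :=
      ((Algebra.TensorProduct.rid O O k).symm_apply_apply x).symm
    have hrid : ∀ z : k ⊗[O] O,
        pointHom O O k (Algebra.ofId O k) z = Algebra.TensorProduct.rid O O k z := by
      intro z
      induction z using TensorProduct.induction_on with
      | zero => simp
      | add a b ha hb => rw [map_add, map_add, ha, hb]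
      | tmul a e => simp [pointHom, Algebra.smul_def, mul_comm]
    rw [hrid] at this
    rw [hx', this, map_zero]
  idempotent χ := ⟨1, by rw [map_one]; exact one_ne_zero, fun e => by
    rw [one_mul, one_mul, show χ e = algebraMap O k e from χ.commutes e,
      Algebra.algebraMap_eq_smul_one, TensorProduct.smul_tmul, smul_eq_mul, mul_one]⟩
  map_ne_zero χ := by
    rw [show (χ : O →+* k) = algebraMap O k from RingHom.ext χ.commutes]
    exact hh

variable {O O' h C k}

variable (O O' C k) in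
/-- The map `k ⊗ O' → k ⊗ C` of constants. -/
def fibreConst : k ⊗[O] O' →ₐ[k] k ⊗[O] C :=
  Algebra.TensorProduct.map (AlgHom.id k k)
    ((IsScalarTower.toAlgHom O O'[X] C).comp (Polynomial.CAlgHom : O' →ₐ[O] O'[X]))

variable (O O' C k) in
/-- Polynomials over `k ⊗ O'` mapped to the fibre of the cover. -/
def fibreEval : (k ⊗[O] O')[X] →+* k ⊗[O] C :=
  eval₂RingHom (fibreConst O O' C k).toRingHom (1 ⊗ₜ[O] algebraMap O'[X] C X)

theorem fibreEval_C (β : k) : fibreEval O O' C k (Polynomial.C (β ⊗ₜ[O] 1)) = β ⊗ₜ[O] 1 := by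
  simp [fibreEval, fibreConst]

theorem fibreEval_map (a : O'[X]) :
    fibreEval O O' C k (a.map (Algebra.TensorProduct.includeRight :
      O' →ₐ[O] k ⊗[O] O').toRingHom) = 1 ⊗ₜ[O] algebraMap O'[X] C a := by
  induction a using Polynomial.induction_on' with
  | add p q hp hq =>
    rw [Polynomial.map_add, map_add, hp, hq, map_add, TensorProduct.tmul_add]
  | monomial i e =>
    rw [← Polynomial.C_mul_X_pow_eq_monomial, Polynomial.map_mul, Polynomial.map_pow,
      Polynomial.map_C, Polynomial.map_X, map_mul, map_pow, map_mul, map_pow]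
    simp only [fibreEval, coe_eval₂RingHom, eval₂_C, eval₂_X]
    rw [Algebra.TensorProduct.tmul_pow, one_pow]
    simp [fibreConst]

omit [IsScalarTower O O'[X] C] in
/-- After multiplying by a power of `h`, the fibre of `C` comes from polynomials. -/
theorem exists_pow_mul_eq_eval₂ (μ : (k ⊗[O] O')[X] →+* k ⊗[O] C)
    (hμC : ∀ β : k, μ (Polynomial.C (β ⊗ₜ[O] 1)) = β ⊗ₜ[O] 1)
    (hμ : ∀ a : O'[X], μ (a.map (Algebra.TensorProduct.includeRight :
      O' →ₐ[O] k ⊗[O] O').toRingHom) = 1 ⊗ₜ[O] algebraMap O'[X] C a) (z : k ⊗[O] C) :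
    ∃ (m : ℕ) (P : (k ⊗[O] O')[X]), ((1 : k) ⊗ₜ[O] algebraMap O'[X] C h) ^ m * z = μ P := by
  induction z using TensorProduct.induction_on with
  | zero => exact ⟨0, 0, by rw [mul_zero, map_zero]⟩
  | tmul β c =>
    obtain ⟨m, a, hma⟩ := IsLocalization.Away.surj h c
    refine ⟨m, Polynomial.C (β ⊗ₜ[O] 1) * a.map (Algebra.TensorProduct.includeRight :
      O' →ₐ[O] k ⊗[O] O').toRingHom, ?_⟩
    rw [map_mul, hμC, hμ, Algebra.TensorProduct.tmul_pow, Algebra.TensorProduct.tmul_mul_tmul,
      Algebra.TensorProduct.tmul_mul_tmul, one_pow, one_mul, mul_one, one_mul, mul_comm, hma]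
  | add x y hx hy =>
    obtain ⟨m, P, hP⟩ := hx
    obtain ⟨n, Q, hQ⟩ := hy
    refine ⟨m + n, (h.map (Algebra.TensorProduct.includeRight :
      O' →ₐ[O] k ⊗[O] O').toRingHom) ^ n * P + (h.map (Algebra.TensorProduct.includeRight :
      O' →ₐ[O] k ⊗[O] O').toRingHom) ^ m * Q, ?_⟩
    rw [map_add, map_mul, map_mul, map_pow, map_pow, hμ, ← hP, ← hQ]
    ring

include h in
/-- Polynomials inject into the fibre of the cover: they are detected at the points of `k ⊗ O'`. -/
theorem eq_zero_of_fibreEval_eq_zero (H : PointsHyp O O' h k) :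
    ∀ P, fibreEval O O' C k P = 0 → P = 0 := by
  intro P hP
  refine Polynomial.ext fun i => ?_
  rw [coeff_zero]
  refine H.reduced _ fun χ => ?_
  let T := FractionRing k[X]
  let g : O'[X] →ₐ[O] T := (IsScalarTower.toAlgHom O k[X] T).comp (Polynomial.mapAlgHom χ)
  have hgh : IsUnit (g h) := by
    refine IsUnit.mk0 _ ?_
    show algebraMap k[X] T (h.map (χ : O' →+* k)) ≠ 0
    exact (map_ne_zero_iff _ (IsFractionRing.injective k[X] T)).mpr (H.map_ne_zero χ)
  let σ : C →ₐ[O] T := IsLocalization.Away.liftAlgHom h hgh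
  have hσ : ∀ a, σ (algebraMap O'[X] C a) = g a := fun a => IsLocalization.Away.lift_eq h hgh a
  let Φ : k ⊗[O] C →ₐ[k] T := Algebra.TensorProduct.lift (Algebra.ofId k T) σ
    fun _ _ => Commute.all _ _
  have hΦ : Φ.toRingHom.comp (fibreEval O O' C k) =
      (algebraMap k[X] T).comp (mapRingHom (pointHom O O' k χ).toRingHom) := by
    refine Polynomial.ringHom_ext (fun x => ?_) ?_
    · induction x using TensorProduct.induction_on with
      | zero => simp
      | add x y hx hy => simp only [map_add, hx, hy]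
      | tmul β e =>
        simp only [fibreEval, fibreConst, Φ, RingHom.comp_apply, coe_eval₂RingHom, eval₂_C,
          AlgHom.toRingHom_eq_coe, RingHom.coe_coe, Algebra.TensorProduct.map_tmul,
          AlgHom.id_apply, Algebra.TensorProduct.lift_tmul, coe_mapRingHom, Polynomial.map_C,
          AlgHom.comp_apply, IsScalarTower.coe_toAlgHom', Polynomial.CAlgHom_apply]
        rw [hσ, map_mul Polynomial.C, map_mul, Algebra.ofId_apply,
          IsScalarTower.algebraMap_apply k k[X] T, Polynomial.algebraMap_eq]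
        congr 1
        simp [g, T]
    · simp only [fibreEval, Φ, RingHom.comp_apply, coe_eval₂RingHom, eval₂_X,
        AlgHom.toRingHom_eq_coe, RingHom.coe_coe, Algebra.TensorProduct.lift_tmul, coe_mapRingHom,
        Polynomial.map_X, map_one, one_mul, hσ]
      simp [g, T]
  have h1 := RingHom.congr_fun hΦ P
  rw [RingHom.comp_apply, hP, map_zero, RingHom.comp_apply, eq_comm,
    map_eq_zero_iff _ (IsFractionRing.injective k[X] T), coe_mapRingHom] at h1
  simpa using congrArg (fun p => Polynomial.coeff p i) h1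

variable [Algebra.FiniteType O C] [IsAlgClosed k]

/-- The special fibre of a cover is regular. -/
theorem isPrincipalAt_fibre_of_points (H : PointsHyp O O' h k) (n : Ideal (k ⊗[O] C))
    [n.IsMaximal] : IsPrincipalAt n := by
  classical
  set μ := fibreEval O O' C k with hμdef
  have hμC := fun β => fibreEval_C (O := O) (O' := O') (C := C) (k := k) β
  have hμ := fun a => fibreEval_map (O := O) (O' := O') (C := C) (k := k) a
  rw [← hμdef] at hμC hμ
  set ι := fibreConst O O' C k with hι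
  set lam := algebraMap O'[X] C X with hlam
  set hC := (1 : k) ⊗ₜ[O] algebraMap O'[X] C h with hhC
  have hunit : IsUnit hC :=
    (IsLocalization.Away.algebraMap_isUnit h).map
      (Algebra.TensorProduct.includeRight : C →ₐ[O] k ⊗[O] C)
  have hμinj : ∀ P, μ P = 0 → P = 0 := eq_zero_of_fibreEval_eq_zero H
  obtain ⟨ev, hev⟩ := exists_algHom_ker_eq k n
  set χ : O' →ₐ[O] k :=
    (ev.restrictScalars O).comp ((ι.restrictScalars O).comp Algebra.TensorProduct.includeRight)
  set α := ev (1 ⊗ₜ[O] lam)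
  set ϖ := μ (X - Polynomial.C (α ⊗ₜ[O] 1)) with hϖ
  have hevι : ∀ x, ev (ι x) = pointHom O O' k χ x := by
    intro x
    induction x using TensorProduct.induction_on with
    | zero => simp
    | add x y hx hy => simp only [map_add, hx, hy]
    | tmul β e =>
      rw [show ι (β ⊗ₜ[O] e) = algebraMap k (k ⊗[O] C) β * ι (1 ⊗ₜ[O] e) by
        simp [ι, fibreConst, Algebra.TensorProduct.algebraMap_apply]]
      rw [map_mul, AlgHom.commutes]
      simp [χ, pointHom]
  have hevμ : ev.toRingHom.comp μ = eval₂RingHom (pointHom O O' k χ).toRingHom α := by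
    refine Polynomial.ringHom_ext (fun x => ?_) ?_
    · simpa [μ, fibreEval] using hevι x
    · simp [μ, fibreEval, α, lam]
  have hev0 : ∀ P, ev (μ P) = (P.map (pointHom O O' k χ).toRingHom).eval α := fun P =>
    (RingHom.congr_fun hevμ P).trans (eval₂_eq_eval_map _)
  refine ⟨ϖ, ?_, ?_, fun y hy => ?_⟩
  · rw [mem_nonZeroDivisors_iff_right]
    intro y hy
    obtain ⟨m, P, hP⟩ := exists_pow_mul_eq_eval₂ (h := h) μ hμC hμ y
    have h1 : μ (P * (X - Polynomial.C (α ⊗ₜ[O] 1))) = 0 := by
      rw [map_mul, ← hP, mul_assoc, ← hϖ, hy, mul_zero]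
    have h2 : P = 0 := ((monic_X_sub_C _).mem_nonZeroDivisors).2 P (hμinj _ h1)
    rw [h2] at hP
    rw [map_zero μ] at hP
    show y = 0
    exact (hunit.pow m).mul_right_eq_zero.mp hP
  · rw [← hev, hϖ, hev0]
    simp [pointHom]
  · obtain ⟨u, hu0, hu⟩ := H.idempotent χ
    obtain ⟨m, P, hP⟩ := exists_pow_mul_eq_eval₂ (h := h) μ hμC hμ y
    have hux : ∀ x, u * x = u * (pointHom O O' k χ x ⊗ₜ[O] 1) := by
      intro x
      induction x using TensorProduct.induction_on with
      | zero => simp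
      | add x y hx hy => rw [mul_add, hx, hy, ← mul_add, map_add, TensorProduct.add_tmul]
      | tmul β e =>
        rw [show β ⊗ₜ[O] e = (β ⊗ₜ[O] (1 : O')) * (1 ⊗ₜ[O] e) by simp, ← mul_assoc, mul_comm u,
          mul_assoc, hu, ← mul_assoc, mul_comm _ u, mul_assoc]
        simp [pointHom]
    set Pχ := P.map (pointHom O O' k χ).toRingHom with hPχ
    have hPu : Polynomial.C u * P =
        Polynomial.C u * Pχ.map (algebraMap k (k ⊗[O] O')) := by
      refine Polynomial.ext fun i => ?_
      rw [coeff_C_mul, coeff_C_mul, coeff_map, hPχ, coeff_map,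
        Algebra.TensorProduct.algebraMap_apply, Algebra.algebraMap_self_apply]
      exact hux _
    have hroot : Pχ.IsRoot α := by
      rw [IsRoot.def, hPχ, ← hev0, ← hP, map_mul, (hev y).mpr hy, mul_zero]
    obtain ⟨q, hq⟩ := dvd_iff_isRoot.mpr hroot
    refine ⟨ι u * hC ^ m, fun hmem => ?_, μ (Polynomial.C u * q.map (algebraMap k (k ⊗[O] O'))), ?_⟩
    · rcases (Ideal.IsMaximal.isPrime ‹_›).mem_or_mem hmem with h1 | h1
      · exact hu0 (by rw [← hevι]; exact (hev _).mpr h1)
      · exact Ideal.IsMaximal.ne_top ‹_› (Ideal.eq_top_of_isUnit_mem _ h1 (hunit.pow m))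
    · have hμu : μ (Polynomial.C u) = ι u := by simp [μ, ι, fibreEval]
      rw [mul_assoc, hP, ← hμu, ← map_mul, hPu, hq, Polynomial.map_mul, Polynomial.map_sub,
        Polynomial.map_X, Polynomial.map_C, Algebra.TensorProduct.algebraMap_apply,
        Algebra.algebraMap_self_apply, hϖ, ← map_mul]
      congr 1
      ring

end Fibre

/-- An algebraic complex number is a simple root of an integer polynomial. -/
theorem exists_int_poly_simple_root {α : ℂ} (hint : IsIntegral ℚ α) :
    ∃ G : ℤ[X], (G.map (Int.castRingHom ℂ)).eval α = 0 ∧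
      (G.map (Int.castRingHom ℂ)).derivative.eval α ≠ 0 := by
  obtain ⟨b, hb, hG⟩ := IsLocalization.integerNormalization_spec (nonZeroDivisors ℤ)
    (minpoly ℚ α)
  refine ⟨IsLocalization.integerNormalization (nonZeroDivisors ℤ) (minpoly ℚ α), ?_⟩
  have hmap : (IsLocalization.integerNormalization (nonZeroDivisors ℤ) (minpoly ℚ α)).map
      (Int.castRingHom ℂ) = Polynomial.C (b : ℂ) * (minpoly ℚ α).map (algebraMap ℚ ℂ) := by
    rw [RingHom.ext_int (Int.castRingHom ℂ) ((algebraMap ℚ ℂ).comp (algebraMap ℤ ℚ)),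
      ← Polynomial.map_map, hG]
    simp [zsmul_eq_mul]
  have hb0 : (b : ℂ) ≠ 0 := Int.cast_ne_zero.mpr (nonZeroDivisors.ne_zero hb)
  rw [hmap]
  constructor
  · rw [eval_mul, eval_map, ← aeval_def, minpoly.aeval, mul_zero]
  · rw [derivative_C_mul, eval_mul, eval_C, derivative_map, eval_map, ← aeval_def]
    exact mul_ne_zero hb0 ((minpoly.irreducible hint).separable.aeval_derivative_ne_zero
      (minpoly.aeval ℚ α))

section Arithmetic

variable (ℓ : ℕ) [hℓ : Fact ℓ.Prime]

set_option quotPrecheck false in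
local notation "ℤℓ" => ↥(GaloisRep.ratLocalizedAt ℓ)

variable {O' : Type*} [CommRing O'] [IsDomain O'] [Algebra ↥(GaloisRep.ratLocalizedAt ℓ) O']
  [Module.Finite ↥(GaloisRep.ratLocalizedAt ℓ) O'] {h : O'[X]} {C : Type*} [CommRing C]
  [IsDomain C] [Algebra O'[X] C] [IsLocalization.Away h C]
  [Algebra ↥(GaloisRep.ratLocalizedAt ℓ) C]
  [IsScalarTower ↥(GaloisRep.ratLocalizedAt ℓ) O'[X] C]

omit hℓ [IsDomain O'] in
include ℓ in
/-- A map to a field of characteristic zero sends `O'` to algebraic numbers. -/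
theorem isAlgebraic_image {T : Type*} [Field T] [CharZero T] (χ : O' →+* T) (e : O') :
    IsAlgebraic ℚ (χ e) := by
  refine (IsIntegral.map_of_comp_eq (φ := algebraMap ℤℓ ℚ) (ψ := χ) ?_
    (IsIntegral.of_finite ℤℓ e)).isAlgebraic
  exact ratLocalizedAt_ringHom_ext _ _

/-- A horizontal prime contains no nonzero constant. -/
theorem not_dvd_algebraMap_of_horizontal {p : C} (hp : Prime p)
    (hπ : Prime (algebraMap ℤℓ C (ℓ : ℤℓ))) (hpπ : ¬ algebraMap ℤℓ C (ℓ : ℤℓ) ∣ p)
    {o : ℤℓ} (ho : o ≠ 0) : ¬ p ∣ algebraMap ℤℓ C o := by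
  obtain ⟨n, u, rfl⟩ := exists_eq_unit_mul_pow ℓ ho
  intro hd
  rw [map_mul, map_pow] at hd
  rcases hp.dvd_or_dvd hd with hu | hl
  · exact hp.not_isUnit (isUnit_of_dvd_unit hu (u.isUnit.map _))
  · exact hpπ ((hp.associated_of_dvd hπ (hp.dvd_of_dvd_pow hl)).symm.dvd)

include h in
/-- A horizontal prime is the kernel of a complex point with algebraic coordinate. -/
theorem exists_point {p : C} (hp : Prime p)
    (hπ : Prime (algebraMap ℤℓ C (ℓ : ℤℓ))) (hpπ : ¬ algebraMap ℤℓ C (ℓ : ℤℓ) ∣ p) :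
    ∃ χ : C →+* ℂ, (∀ c, χ c = 0 ↔ p ∣ c) ∧
      ∃ G : ℤ[X], (G.map (Int.castRingHom ℂ)).eval (χ (algebraMap O'[X] C X)) = 0 ∧
        (G.map (Int.castRingHom ℂ)).derivative.eval (χ (algebraMap O'[X] C X)) ≠ 0 := by
  classical
  have : (Ideal.span {p}).IsPrime := (Ideal.span_singleton_prime hp.ne_zero).mpr hp
  let κ := FractionRing (C ⧸ Ideal.span {p})
  set g : C →+* κ := (algebraMap (C ⧸ Ideal.span {p}) κ).comp (Ideal.Quotient.mk _) with hgdef
  have hg : ∀ c, g c = 0 ↔ p ∣ c := fun c => by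
    rw [hgdef, RingHom.comp_apply, map_eq_zero_iff _ (IsFractionRing.injective _ κ),
      Ideal.Quotient.eq_zero_iff_mem, Ideal.mem_span_singleton]
  have hchar : CharZero κ := by
    refine charZero_of_inj_zero fun n hn => ?_
    by_contra h0
    refine not_dvd_algebraMap_of_horizontal ℓ hp hπ hpπ (o := (n : ℤℓ)) ?_ ((hg _).mp ?_)
    · exact fun h1 => h0 (by exact_mod_cast congrArg Subtype.val h1)
    · rw [map_natCast, map_natCast, hn]
  set gO : O' →+* κ := g.comp ((algebraMap O'[X] C).comp Polynomial.C) with hgO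
  set x₀ := g (algebraMap O'[X] C X) with hx₀
  have hgP : ∀ P : O'[X], g (algebraMap O'[X] C P) = P.eval₂ gO x₀ := by
    intro P
    have h1 : g.comp (algebraMap O'[X] C) = eval₂RingHom gO x₀ :=
      Polynomial.ringHom_ext (fun e => by simp [gO]) (by simp [x₀])
    exact RingHom.congr_fun h1 P
  have hgO0 : ∀ e, gO e = 0 → e = 0 := by
    intro e he
    by_contra h0
    have he' : IsIntegral ℤℓ e := IsIntegral.of_finite ℤℓ e
    obtain ⟨m, hm, hm0⟩ : ∃ o : ℤℓ, o ≠ 0 ∧ e ∣ algebraMap ℤℓ O' o := by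
      set I := Ideal.span {e}
      have hne := Ideal.comap_ne_bot_of_integral_mem (R := ℤℓ) h0
        (Ideal.mem_span_singleton_self e) he'
      obtain ⟨o, ho, ho0⟩ := (Submodule.ne_bot_iff _).mp hne
      exact ⟨o, ho0, Ideal.mem_span_singleton.mp (Ideal.mem_comap.mp ho)⟩
    refine not_dvd_algebraMap_of_horizontal ℓ hp hπ hpπ hm (((hg _).mp he).trans ?_)
    rw [IsScalarTower.algebraMap_apply ℤℓ O'[X] C, Polynomial.algebraMap_apply]
    exact map_dvd (algebraMap O'[X] C) (map_dvd Polynomial.C hm0)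
  let AE := algebraicClosure ℚ κ
  have : Algebra.IsAlgebraic ℚ AE := algebraicClosure.isAlgebraic ℚ κ
  have : Algebra.IsIntegral ℚ AE := Algebra.IsAlgebraic.isIntegral
  have hAO : ∀ e, gO e ∈ AE := fun e =>
    mem_algebraicClosure_iff.mpr (isAlgebraic_image ℓ gO e)
  have hx₀A : x₀ ∈ AE := by
    obtain ⟨m, P, hP⟩ := IsLocalization.Away.surj h p
    have hP0 : P ≠ 0 := by
      intro h0
      rw [h0, map_zero, mul_eq_zero] at hP
      rcases hP with h1 | h1
      · exact hp.ne_zero h1
      · exact ((IsLocalization.Away.algebraMap_isUnit (S := C) h).pow m).ne_zero h1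
    have hroot : P.eval₂ gO x₀ = 0 := by
      rw [← hgP, ← hP, map_mul, (hg p).mpr dvd_rfl, zero_mul]
    let gA : O' →+* AE := gO.codRestrict AE.toSubfield hAO
    have halg : IsAlgebraic AE x₀ := ⟨P.map gA,
      (Polynomial.map_ne_zero_iff ((injective_iff_map_eq_zero gA).mpr fun e he =>
        hgO0 e (congrArg Subtype.val he))).mpr hP0,
      by rw [aeval_def, eval₂_map]; exact hroot⟩
    exact mem_algebraicClosure_iff.mpr
      ((isIntegral_trans (R := ℚ) (A := AE) x₀ halg.isIntegral).isAlgebraic)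
  have : Algebra.IsAlgebraic ℚ κ := by
    refine ⟨fun x => mem_algebraicClosure_iff.mp ?_⟩
    have hC : ∀ c, g c ∈ AE := by
      intro c
      obtain ⟨m, a, hma⟩ := IsLocalization.Away.surj h c
      have ha : ∀ P : O'[X], g (algebraMap O'[X] C P) ∈ AE := by
        intro P
        rw [hgP, eval₂_eq_sum]
        exact sum_mem fun i _ => mul_mem (hAO _) (pow_mem hx₀A i)
      have hu := ((IsLocalization.Away.algebraMap_isUnit (S := C) h).map g).ne_zero
      rw [show g c = g (algebraMap O'[X] C a) / g (algebraMap O'[X] C h) ^ m by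
        rw [eq_div_iff (pow_ne_zero m hu), ← map_pow, ← map_mul, hma]]
      exact div_mem (ha a) (pow_mem (ha h) m)
    obtain ⟨a, b, -, rfl⟩ := IsFractionRing.div_surjective (A := C ⧸ Ideal.span {p}) x
    obtain ⟨a, rfl⟩ := Ideal.Quotient.mk_surjective a
    obtain ⟨b, rfl⟩ := Ideal.Quotient.mk_surjective b
    exact div_mem (hC a) (hC b)
  let j : κ →ₐ[ℚ] ℂ := IsAlgClosed.lift
  refine ⟨j.toRingHom.comp g, fun c => ?_, ?_⟩
  · rw [RingHom.comp_apply, map_eq_zero, hg]
  · exact exists_int_poly_simple_root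
      ((Algebra.IsAlgebraic.isAlgebraic (R := ℚ) x₀).isIntegral.map j)

omit hℓ [IsDomain O'] [Algebra (↥(GaloisRep.ratLocalizedAt ℓ)) O']
  [Module.Finite (↥(GaloisRep.ratLocalizedAt ℓ)) O'] [IsDomain C]
  [Algebra (↥(GaloisRep.ratLocalizedAt ℓ)) C]
  [IsScalarTower (↥(GaloisRep.ratLocalizedAt ℓ)) O'[X] C] in
include h in
/-- A complex point `χ` of the cover lifts to a power series point `ε` with a given series `τ` of
the coordinate `tC`, when `τ - χ tC` has the order of ramification of the cover at `χ`. -/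
theorem exists_series_point {p : C} (χ : C →+* ℂ) (hχ : ∀ c, χ c = 0 ↔ p ∣ c) (G₀ : ℤ[X])
    (hG₀ : (G₀.map (Int.castRingHom ℂ)).eval (χ (algebraMap O'[X] C X)) = 0)
    (hG₀' : (G₀.map (Int.castRingHom ℂ)).derivative.eval (χ (algebraMap O'[X] C X)) ≠ 0)
    (Nn Dd : ℤ[X]) (tC : C)
    (hrel : tC * Dd.eval₂ (Int.castRingHom C) (algebraMap O'[X] C X) =
      Nn.eval₂ (Int.castRingHom C) (algebraMap O'[X] C X))
    (hDd : IsUnit (Dd.eval₂ (Int.castRingHom C) (algebraMap O'[X] C X)))
    {e : ℕ} (he : e ≠ 0) (τ hh : PowerSeries ℂ)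
    (hτ : τ - PowerSeries.C (χ tC) = PowerSeries.X ^ e * hh)
    (hh0 : PowerSeries.constantCoeff hh ≠ 0)
    (hfac : ∃ G : ℂ[X], G.eval (χ (algebraMap O'[X] C X)) ≠ 0 ∧
      Nn.map (Int.castRingHom ℂ) - Polynomial.C (χ tC) * Dd.map (Int.castRingHom ℂ) =
        (X - Polynomial.C (χ (algebraMap O'[X] C X))) ^ e * G) :
    ∃ ε : C →+* PowerSeries ℂ, (∀ c, PowerSeries.constantCoeff (ε c) = 0 ↔ p ∣ c) ∧
      (∃ c, PowerSeries.constantCoeff (ε c) = 0 ∧ PowerSeries.coeff 1 (ε c) ≠ 0) ∧ ε tC = τ := by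
  set lam := algebraMap O'[X] C X with hlam
  set α := χ lam with hα
  obtain ⟨G, hGα, hfac⟩ := hfac
  have hDα : (Dd.map (Int.castRingHom ℂ)).eval α ≠ 0 := by
    rw [eval_map, hα, RingHom.ext_int (Int.castRingHom ℂ) (χ.comp (Int.castRingHom C)), ← hom_eval₂]
    exact (hDd.map χ).ne_zero
  obtain ⟨y, hy0, hy⟩ := exists_lift_point _ _ G (χ tC) α he hfac hGα hDα τ hh hτ hh0
  set Λ := PowerSeries.C α + PowerSeries.X * y with hΛ
  have hΛ0 : PowerSeries.constantCoeff Λ = α := by simp [hΛ]
  have hΛ1 : PowerSeries.coeff 1 Λ = PowerSeries.constantCoeff y := by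
    rw [hΛ, map_add, PowerSeries.coeff_C, if_neg one_ne_zero, zero_add,
      show (1 : ℕ) = 0 + 1 from rfl, PowerSeries.coeff_succ_X_mul,
      PowerSeries.coeff_zero_eq_constantCoeff_apply]
  let gO : O' →+* PowerSeries ℂ :=
    PowerSeries.C.comp (χ.comp ((algebraMap O'[X] C).comp Polynomial.C))
  let g : O'[X] →+* PowerSeries ℂ := eval₂RingHom gO Λ
  have hcg : PowerSeries.constantCoeff.comp g = χ.comp (algebraMap O'[X] C) := by
    refine Polynomial.ringHom_ext (fun e => ?_) ?_
    · simp [g, gO]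
    · simp [g, hΛ0, hα, hlam]
  have hgu : IsUnit (g h) := by
    rw [PowerSeries.isUnit_iff_constantCoeff, ← RingHom.comp_apply, hcg, RingHom.comp_apply]
    exact (IsLocalization.Away.algebraMap_isUnit h).map χ
  let ε : C →+* PowerSeries ℂ := IsLocalization.Away.lift h hgu
  have hεg : ε.comp (algebraMap O'[X] C) = g := IsLocalization.Away.lift_comp h hgu
  have hεlam : ε lam = Λ := by
    rw [hlam, ← RingHom.comp_apply, hεg]; simp [g]
  have hcε : PowerSeries.constantCoeff.comp ε = χ := by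
    refine IsLocalization.ringHom_ext (Submonoid.powers h) ?_
    rw [RingHom.comp_assoc, hεg, hcg]
  have hεP : ∀ P : ℤ[X], ε (P.eval₂ (Int.castRingHom C) lam) =
      (P.map (Int.castRingHom ℂ)).eval₂ PowerSeries.C Λ := by
    intro P
    rw [hom_eval₂, hεlam, eval₂_map]
    congr 1
    exact RingHom.ext_int _ _
  refine ⟨ε, fun c => by rw [← RingHom.comp_apply, hcε, hχ],
    ⟨G₀.eval₂ (Int.castRingHom C) lam, ?_, ?_⟩, ?_⟩
  · rw [← RingHom.comp_apply, hcε, hom_eval₂, ← hα,
      RingHom.ext_int (χ.comp (Int.castRingHom C)) (Int.castRingHom ℂ), ← eval_map]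
    exact hG₀
  · rw [hεP, show PowerSeries.C (R := ℂ) = algebraMap ℂ (PowerSeries ℂ) from rfl, ← aeval_def]
    have hder := (PowerSeries.derivative ℂ).map_aeval (G₀.map (Int.castRingHom ℂ)) Λ
    have h1 := congrArg PowerSeries.constantCoeff hder
    rw [smul_eq_mul, map_mul, ← PowerSeries.coeff_zero_eq_constantCoeff_apply,
      ← PowerSeries.coeff_zero_eq_constantCoeff_apply, PowerSeries.coeff_derivative,
      ← PowerSeries.coeff_zero_eq_constantCoeff_apply, PowerSeries.coeff_derivative] at h1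
    simp only [zero_add, Nat.cast_zero, mul_one, hΛ1] at h1
    rw [h1]
    refine mul_ne_zero ?_ hy0
    rw [PowerSeries.coeff_zero_eq_constantCoeff_apply, aeval_def, hom_eval₂, hΛ0]
    rw [show (PowerSeries.constantCoeff (R := ℂ)).comp (algebraMap ℂ (PowerSeries ℂ)) =
      RingHom.id ℂ from RingHom.ext fun z => by simp]
    exact hG₀'
  · refine mul_right_cancel₀ ((hDd.map ε).ne_zero) ?_
    rw [← map_mul, hrel, hεP, hεP]
    exact hy

end Arithmetic

end Fermat.Agent.Igusa
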