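import Mathlib
import Fermat.Agent.Igusa.SmoothPurity

/-!
# Building a splitting witness at a horizontal prime

A ring map `ε : C → Ω⟦v⟧` whose constant term has kernel `(p)` and which takes some element of
`(p)` to a series of order one, together with enough distinct roots of the equation of a
generator, shows that `M / L` is split at `p`.
-/

noncomputable section

open Polynomial

namespace Fermat.Agent.Igusa

variable {C L M K : Type*} [CommRing C] [IsDomain C] [UniqueFactorizationMonoid C] [Field L]
  [Algebra C L] [IsFractionRing C L] [Field M] [Algebra L M] [Algebra C M] [IsScalarTower C L M]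
  [FiniteDimensional L M] [Field K]

omit [IsFractionRing C L] [Field M] in
/-- A point with kernel `(p)` which does not kill `p` is injective. -/
theorem injective_of_constantCoeff_eq_zero_iff {p : C} (hp : Prime p) (ε : C →+* PowerSeries K)
    (hker : ∀ c, PowerSeries.constantCoeff (ε c) = 0 ↔ p ∣ c) (hεp : ε p ≠ 0) :
    Function.Injective ε := by
  rw [injective_iff_map_eq_zero]
  intro x hx
  by_contra hx0
  obtain ⟨n, x', hx', rfl⟩ := WfDvdMonoid.max_power_factor hx0 hp.irreducible
  rw [map_mul, map_pow, mul_eq_zero] at hx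
  rcases hx with hx | hx
  · exact pow_ne_zero n hεp hx
  · exact hx' ((hker x').mp (by rw [hx, map_zero]))

/-- A monic polynomial with as many distinct roots as its degree is their product. -/
theorem map_eq_prod_X_sub_C {C E : Type*} [CommRing C] [Field E] {Q : C[X]} (hQ : Q.Monic)
    (e : C →+* E) {r : Fin Q.natDegree → E} (hr : Function.Injective r)
    (hroot : ∀ i, Q.eval₂ e (r i) = 0) : Q.map e = ∏ i, (X - Polynomial.C (r i)) := by
  have hdiv : (∏ i, (X - Polynomial.C (r i))) ∣ Q.map e := by
    refine Fintype.prod_dvd_of_coprime (fun i j hij => ?_) fun i => ?_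
    · exact isCoprime_X_sub_C_of_isUnit_sub (sub_ne_zero.mpr (hr.ne hij)).isUnit
    · rw [dvd_iff_isRoot, IsRoot.def, eval_map]
      exact hroot i
  refine eq_of_monic_of_dvd_of_natDegree_le (monic_prod_of_monic _ _ fun i _ =>
    monic_X_sub_C _) (hQ.map _) hdiv ?_
  rw [hQ.natDegree_map, natDegree_prod _ _ fun i _ => X_sub_C_ne_zero _]
  simp

omit [IsDomain C] [UniqueFactorizationMonoid C] in
/-- If some multiple of `p` has order one at a point vanishing on `p`, then so does `p`. -/
theorem coeff_one_ne_zero_of_exists {p : C} (ε : C →+* PowerSeries K)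
    (hker : ∀ c, PowerSeries.constantCoeff (ε c) = 0 ↔ p ∣ c)
    (hone : ∃ c, PowerSeries.constantCoeff (ε c) = 0 ∧ PowerSeries.coeff 1 (ε c) ≠ 0) :
    PowerSeries.coeff 1 (ε p) ≠ 0 := by
  obtain ⟨c, hc, hc1⟩ := hone
  obtain ⟨c', rfl⟩ := (hker c).mp hc
  intro h0
  obtain ⟨u, hu⟩ := PowerSeries.X_dvd_iff.mpr ((hker p).mpr dvd_rfl)
  rw [hu, show (1 : ℕ) = 0 + 1 from rfl, PowerSeries.coeff_succ_X_mul] at h0
  rw [map_mul, hu, mul_assoc, show (1 : ℕ) = 0 + 1 from rfl, PowerSeries.coeff_succ_X_mul,
    PowerSeries.coeff_zero_eq_constantCoeff_apply, map_mul,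
    ← PowerSeries.coeff_zero_eq_constantCoeff_apply, h0, zero_mul] at hc1
  exact hc1 rfl

/-- Distinct roots at a point give a splitting witness. -/
theorem nonempty_splitsAtPrime {p : C} (hp : Prime p) (ε : C →+* PowerSeries K)
    (hker : ∀ c, PowerSeries.constantCoeff (ε c) = 0 ↔ p ∣ c)
    (hone : ∃ c, PowerSeries.constantCoeff (ε c) = 0 ∧ PowerSeries.coeff 1 (ε c) ≠ 0)
    {θ : M} (hgen : Algebra.adjoin L {θ} = ⊤) {Q : C[X]} (hQ : Q.Monic) (hθ : aeval θ Q = 0)
    (r : Fin Q.natDegree → LaurentSeries K) (hr : Function.Injective r)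
    (hroot : ∀ i, Q.eval₂ ((HahnSeries.ofPowerSeries ℤ K).comp ε) (r i) = 0) :
    Nonempty (SplitsAtPrime C L M K p) := by
  classical
  have hp1 := coeff_one_ne_zero_of_exists ε hker hone
  have hεp : ε p ≠ 0 := fun h => hp1 (by rw [h, map_zero])
  have hεinj := injective_of_constantCoeff_eq_zero_iff hp ε hker hεp
  set e : C →+* LaurentSeries K := (HahnSeries.ofPowerSeries ℤ K).comp ε with he
  have heinj : Function.Injective e := HahnSeries.ofPowerSeries_injective.comp hεinj
  set ι : L →+* LaurentSeries K := IsFractionRing.lift heinj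
  have hι : ∀ c, ι (algebraMap C L c) = e c := fun c => IsFractionRing.lift_algebraMap heinj c
  let : Algebra L (LaurentSeries K) := ι.toAlgebra
  have hιC : ι.comp (algebraMap C L) = e := RingHom.ext hι
  have hQprod := map_eq_prod_X_sub_C hQ e hr hroot
  set P := minpoly L θ with hP
  have hθL : IsIntegral L θ := IsIntegral.of_finite L θ
  have hPQ : P.map ι ∣ ∏ i, (X - Polynomial.C (r i)) := by
    rw [← hQprod, ← hιC, ← Polynomial.map_map]
    refine Polynomial.map_dvd _ (minpoly.dvd L θ ?_)
    rw [aeval_map_algebraMap, hθ]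
  have hne : (∏ i, (X - Polynomial.C (r i))) ≠ 0 :=
    (monic_prod_of_monic _ _ fun i _ => monic_X_sub_C _).ne_zero
  have hsplit : (P.map ι).Splits :=
    (Splits.prod fun i _ => Splits.X_sub_C (r i)).of_dvd hne hPQ
  have hnodup : (P.map ι).roots.Nodup := by
    refine Multiset.nodup_of_le (roots.le_of_dvd hne hPQ) ?_
    rw [show (∏ i, (X - Polynomial.C (r i))) =
        (Finset.univ.image r).prod (fun a => X - Polynomial.C a) from
      (Finset.prod_image (g := r) (f := fun a => X - Polynomial.C a) hr.injOn).symm,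
        roots_prod_X_sub_C]
    exact Finset.nodup _
  set T := (P.map ι).roots.toFinset with hT
  have hTcard : T.card = Module.finrank L M := by
    rw [hT, Multiset.toFinset_card_of_nodup hnodup, ← hsplit.natDegree_eq_card_roots,
      natDegree_map_eq_of_injective ι.injective]
    have h1 := (Algebra.adjoin.powerBasis hθL).finrank
    rw [Algebra.adjoin.powerBasis_dim, hgen] at h1
    rw [← h1, Subalgebra.topEquiv.toLinearEquiv.finrank_eq]
  set pb := (Algebra.adjoin.powerBasis hθL).map
    ((Subalgebra.equivOfEq _ _ hgen).trans Subalgebra.topEquiv) with hpb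
  have hpbgen : pb.gen = θ := rfl
  have hmem : ∀ y : T, aeval (y : LaurentSeries K) (minpoly L pb.gen) = 0 := fun y => by
    rw [hpbgen, aeval_def, ← eval_map]
    exact (mem_roots'.mp (Multiset.mem_toFinset.mp y.2)).2
  set σ : Fin (Module.finrank L M) ≃ T := (T.equivFinOfCardEq hTcard).symm
  refine ⟨⟨ι, ε, hι, hker, hp1, fun i => (pb.lift (σ i : LaurentSeries K) (hmem (σ i))).toRingHom,
    fun i j hij => ?_, fun i a => ?_⟩⟩
  · have := DFunLike.congr_fun hij pb.gen
    simp only [AlgHom.toRingHom_eq_coe, RingHom.coe_coe, PowerBasis.lift_gen] at this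
    exact σ.injective (Subtype.ext this)
  · exact (pb.lift (σ i : LaurentSeries K) (hmem (σ i))).commutes a

end Fermat.Agent.Igusa
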