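import Mathlib
import Fermat.Agent.Igusa.SmoothChartGeneric
import Fermat.Agent.Igusa.SmoothCover
import Fermat.Agent.Igusa.SmoothFibreExp
import Fermat.Agent.Igusa.SmoothSplit

/-!
# Normality of the special fibre of a chart of `X₀(N)` from a cover of the coordinate line

A cover with good fibre, Laurent series points and a local expansion at every horizontal prime
gives normality of the chart on the special fibre; the concrete covers are fed in afterwards.
-/

noncomputable section

open Polynomial ModularCurve ModularCurve.IgusaScheme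
open scoped TensorProduct

namespace Fermat.Agent.Igusa

/-- Integral injective maps preserve non-divisibility by a prime. -/
theorem not_dvd_image_of_isIntegral {A C : Type*} [CommRing A] [CommRing C] (φ : A →+* C)
    (hφ : Function.Injective φ) (hint : φ.IsIntegral) {π a : A} (hπ : Prime π) (ha : ¬ π ∣ a) :
    ¬ φ π ∣ φ a := by
  rintro ⟨c, hc⟩
  obtain ⟨p, hp, hpc⟩ := hint c
  have h0 : (p.scaleRoots π).eval a = 0 := by
    refine hφ ?_
    rw [map_zero, ← eval₂_at_apply, hc, scaleRoots_eval₂_mul, hpc, mul_zero]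
  refine ha (hπ.dvd_of_dvd_pow (n := p.natDegree) ?_)
  rw [eval_eq_sum_range, natDegree_scaleRoots, Finset.sum_range_succ, coeff_scaleRoots_natDegree,
    hp.leadingCoeff, one_mul, add_eq_zero_iff_neg_eq'] at h0
  rw [← dvd_neg, h0]
  refine Finset.dvd_sum fun i hi => Dvd.dvd.mul_right ?_ _
  rw [coeff_scaleRoots]
  exact Dvd.dvd.mul_left (dvd_pow_self π (by rw [Finset.mem_range] at hi; omega)) _

/-- A prime not dividing the element inverted stays prime in the localization. -/
theorem prime_algebraMap_away {P C : Type*} [CommRing P] [IsDomain P] [CommRing C] [Algebra P C]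
    {h π : P} [IsLocalization.Away h C] (hπ : Prime π) (hh : ¬ π ∣ h) :
    Prime (algebraMap P C π) := by
  have hh0 : h ≠ 0 := fun h0 => hh (h0 ▸ dvd_zero _)
  have hI : (Ideal.map (algebraMap P C) (Ideal.span {π})).IsPrime := by
    refine IsLocalization.isPrime_of_isPrime_disjoint (Submonoid.powers h) C _
      ((Ideal.span_singleton_prime hπ.ne_zero).mpr hπ) ?_
    rw [Set.disjoint_left]
    rintro _ ⟨i, rfl⟩ hi
    exact hh (hπ.dvd_of_dvd_pow (Ideal.mem_span_singleton.mp hi))
  rw [Ideal.map_span, Set.image_singleton] at hI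
  refine (Ideal.span_singleton_prime ?_).mp hI
  rw [map_ne_zero_iff _ (IsLocalization.injective C
    (powers_le_nonZeroDivisors_of_noZeroDivisors hh0))]
  exact hπ.ne_zero

/-- An integral closure in its fraction field is integrally closed. -/
theorem isIntegrallyClosed_of_isIntegralClosure (A : Type*) {S F : Type*} [CommRing A] [CommRing S]
    [Field F] [Algebra A S] [Algebra A F] [Algebra S F] [IsScalarTower A S F]
    [IsIntegralClosure S A F] [IsFractionRing S F] : IsIntegrallyClosed S := by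
  have : Algebra.IsIntegral A S := IsIntegralClosure.isIntegral_algebra A F
  refine (isIntegrallyClosed_iff F).mpr fun {x} hx => ?_
  obtain ⟨y, hy⟩ := (IsIntegralClosure.isIntegral_iff (A := S) (R := A) (B := F)).mp
    (isIntegral_trans (R := A) (A := S) x hx)
  exact ⟨y, hy⟩

/-- The coordinate `t` has an expansion at some point with value `a` in which `t - a` has order `e`,
the multiplicity of `α` as a root of `Nn - a Dd`. -/
def HasLocalExpansion (N : ℕ) [NeZero N] (t : ↥(modularFunctionFieldFull N)) (a α : ℂ)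
    (Nn Dd : ℂ[X]) : Prop :=
  ∃ (ψ : X0.Expansion N) (τ hh : PowerSeries ℂ) (e : ℕ) (G : ℂ[X]), e ≠ 0 ∧
    PowerSeries.constantCoeff hh ≠ 0 ∧
    (∀ φ : ↥(modularFunctionFieldFull N) →+* LaurentSeries ℂ, φ (jFull N) = jSeries N ψ →
      φ t = HahnSeries.ofPowerSeries ℤ ℂ τ) ∧
    τ - PowerSeries.C a = PowerSeries.X ^ e * hh ∧ G.eval α ≠ 0 ∧
    Nn - Polynomial.C a * Dd = (X - Polynomial.C α) ^ e * G

variable (N : ℕ) [NeZero N] (ℓ : ℕ) [hℓ : Fact ℓ.Prime]

set_option quotPrecheck false in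
local notation "ℤℓ" => ↥(GaloisRep.ratLocalizedAt ℓ)

set_option quotPrecheck false in
local notation "F" => ↥(modularFunctionFieldFull N)

variable {O' : Type*} [CommRing O'] [IsDomain O'] [IsPrincipalIdealRing O']
  [Algebra ↥(GaloisRep.ratLocalizedAt ℓ) O'] [Module.Finite ↥(GaloisRep.ratLocalizedAt ℓ) O']
  {C : Type*} [CommRing C] [Algebra O'[X] C] [Algebra ↥(GaloisRep.ratLocalizedAt ℓ) C]
  [IsScalarTower ↥(GaloisRep.ratLocalizedAt ℓ) O'[X] C]
  {K : Type*} [Field K] [IsAlgClosed K] [CharP K ℓ]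
  [Algebra ↥(GaloisRep.ratLocalizedAt ℓ) K]
  {M : Type*} [Field M] [Algebra ↥(modularFunctionFieldFull N) M]
  [FiniteDimensional ↥(modularFunctionFieldFull N) M]

omit hℓ [IsDomain O'] [IsPrincipalIdealRing O'] in
/-- If `X` and `1/h` are integral over `ℤ₍ℓ₎[tC]`, so is the whole cover `O'[X][1/h]`. -/
theorem isIntegral_cover {h : O'[X]} [IsLocalization.Away h C] (tC : C)
    (hlam : (aeval (R := ℤℓ) tC).toRingHom.IsIntegralElem (algebraMap O'[X] C X))
    (hinv : (aeval (R := ℤℓ) tC).toRingHom.IsIntegralElem (IsLocalization.Away.invSelf h)) :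
    (aeval (R := ℤℓ) tC).toRingHom.IsIntegral := by
  let : Algebra ℤℓ[X] C := (aeval (R := ℤℓ) tC).toRingHom.toAlgebra
  intro c
  show IsIntegral ℤℓ[X] c
  obtain ⟨m, a, hma⟩ := IsLocalization.Away.surj h c
  have hO' : ∀ e : O', IsIntegral ℤℓ[X] (algebraMap O'[X] C (Polynomial.C e)) := fun e => by
    refine IsIntegral.map_of_comp_eq (φ := (Polynomial.C : ℤℓ →+* ℤℓ[X]))
      (ψ := (algebraMap O'[X] C).comp Polynomial.C) ?_ (IsIntegral.of_finite ℤℓ e)
    refine RingHom.ext fun r => ?_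
    simp only [RingHom.comp_apply, RingHom.algebraMap_toAlgebra, AlgHom.toRingHom_eq_coe,
      RingHom.coe_coe, aeval_C]
    rw [IsScalarTower.algebraMap_apply ℤℓ O'[X] C, Polynomial.algebraMap_apply]
  have hP : ∀ P : O'[X], IsIntegral ℤℓ[X] (algebraMap O'[X] C P) := by
    intro P
    induction P using Polynomial.induction_on' with
    | add p q hp hq => rw [map_add]; exact hp.add hq
    | monomial i e =>
      rw [← Polynomial.C_mul_X_pow_eq_monomial, map_mul, map_pow]
      exact (hO' e).mul (IsIntegral.pow hlam i)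
  have hu : algebraMap O'[X] C h * IsLocalization.Away.invSelf h = 1 :=
    IsLocalization.Away.mul_invSelf h
  have hc : c = algebraMap O'[X] C a * IsLocalization.Away.invSelf h ^ m := by
    rw [← hma, mul_assoc, ← mul_pow, hu, one_pow, mul_one]
  rw [hc]
  exact (hP a).mul (IsIntegral.pow hinv m)

omit [NeZero N] hℓ [FiniteDimensional ↥(modularFunctionFieldFull N) M]
  [Algebra ↥(GaloisRep.ratLocalizedAt ℓ) C] in
/-- Polynomials in the coordinate inject into a cover. -/
theorem algebraMap_injective_of_chart [Algebra ℤℓ[X] C] [Algebra C M] [Algebra ℤℓ[X] F]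
    [Algebra ℤℓ[X] M] [IsScalarTower ℤℓ[X] C M] [IsScalarTower ℤℓ[X] F M]
    (hinj : Function.Injective (algebraMap ℤℓ[X] F)) :
    Function.Injective (algebraMap ℤℓ[X] C) := by
  refine Function.Injective.of_comp (f := algebraMap C M) ?_
  intro P Q hPQ
  refine hinj ((algebraMap F M).injective ?_)
  rw [← IsScalarTower.algebraMap_apply, ← IsScalarTower.algebraMap_apply,
    IsScalarTower.algebraMap_apply ℤℓ[X] C M, IsScalarTower.algebraMap_apply ℤℓ[X] C M Q]
  exact hPQ

omit [NeZero N] [FiniteDimensional ↥(modularFunctionFieldFull N) M] in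
/-- If `F` and the cover generate `M`, the generator of the chart generates `M` over the fractions
of the cover. -/
theorem finiteDimensional_of_generates {L : Type*} [Field L] [Algebra C L] [Algebra C M]
    [Algebra L M] [IsScalarTower C L M] {t θ : F}
    (hθ : ∀ G : Subfield F, t ∈ G → θ ∈ G → G = ⊤) {tC : C}
    (hσt : algebraMap C M tC = algebraMap F M t)
    (hgen : ∀ G : Subfield M, (∀ x : F, algebraMap F M x ∈ G) → (∀ c, algebraMap C M c ∈ G) →
      G = ⊤)
    (hθint : IsIntegral L (algebraMap F M θ)) :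
    FiniteDimensional L M ∧ Algebra.adjoin L {algebraMap F M θ} = ⊤ := by
  set θM : M := algebraMap F M θ with hθM
  have htop : (IntermediateField.adjoin L {θM}) = ⊤ := by
    have hG := hgen (IntermediateField.adjoin L {θM}).toSubfield (fun x => ?_) (fun c => ?_)
    · exact IntermediateField.toSubfield_injective (hG.trans (by rfl))
    · have hx : θ ∈ (IntermediateField.adjoin L {θM}).toSubfield.comap (algebraMap F M) :=
        IntermediateField.mem_adjoin_simple_self L θM
      have htt : t ∈ (IntermediateField.adjoin L {θM}).toSubfield.comap (algebraMap F M) := by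
        show algebraMap F M t ∈ IntermediateField.adjoin L {θM}
        rw [← hσt, IsScalarTower.algebraMap_apply C L M]
        exact IntermediateField.algebraMap_mem _ _
      have hh' := hθ _ htt hx
      exact (hh' ▸ Subfield.mem_top x :
        x ∈ (IntermediateField.adjoin L {θM}).toSubfield.comap (algebraMap F M))
    · show algebraMap C M c ∈ IntermediateField.adjoin L {θM}
      rw [IsScalarTower.algebraMap_apply C L M]
      exact IntermediateField.algebraMap_mem _ _
  refine ⟨?_, by rw [← IntermediateField.adjoin_simple_toSubalgebra_of_isAlgebraic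
    hθint.isAlgebraic, htop, IntermediateField.top_toSubalgebra]⟩
  have := IntermediateField.adjoin.finiteDimensional hθint
  rw [htop] at this
  exact Module.Finite.equiv
    (IntermediateField.topEquiv : (⊤ : IntermediateField L M) ≃ₐ[L] M).toLinearEquiv

omit [NeZero N] [FiniteDimensional ↥(modularFunctionFieldFull N) M]
  [Algebra ↥(modularFunctionFieldFull N) M] in
/-- The generator of the chart is a special witness over a cover integral over `ℤ₍ℓ₎[X]`. -/
theorem nonempty_specialWitness {t : F} [Algebra ℤℓ[X] C] [Algebra ℤℓ[X] M] {L R : Type*}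
    [Field L] [Algebra L M] [CommRing R] [Algebra C R] [Algebra R M] [Algebra C M]
    [IsScalarTower C R M] [IsScalarTower ℤℓ[X] C M] [IsScalarTower ℤℓ ℤℓ[X] C]
    (hRM : Function.Injective (algebraMap R M))
    (hφinj : Function.Injective (algebraMap ℤℓ[X] C)) (hintC : (algebraMap ℤℓ[X] C).IsIntegral)
    (W : ChartWitness N ℓ t) {θ : R} (hadj : Algebra.adjoin L {algebraMap R M θ} = ⊤)
    (hQθ : aeval (algebraMap R M θ) (W.Q.map (algebraMap ℤℓ[X] C)) = 0) :
    Nonempty (SpecialWitness C L M R (algebraMap ℤℓ C (ℓ : ℤℓ))) := by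
  have hπX : algebraMap ℤℓ C (ℓ : ℤℓ) = algebraMap ℤℓ[X] C (Polynomial.C (ℓ : ℤℓ)) := by
    rw [IsScalarTower.algebraMap_apply ℤℓ ℤℓ[X] C, Polynomial.algebraMap_eq]
  refine ⟨⟨θ, hadj, W.Q.map (algebraMap ℤℓ[X] C),
    W.U.map (algebraMap ℤℓ[X] C), W.V.map (algebraMap ℤℓ[X] C), algebraMap ℤℓ[X] C W.a,
    W.monic.map _, ?_, ?_, fun i => ?_⟩⟩
  · refine hRM (?_ : algebraMap R M _ = algebraMap R M 0)
    rw [map_zero, aeval_def, hom_eval₂, ← IsScalarTower.algebraMap_eq, ← aeval_def]
    exact hQθ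
  · rw [hπX]
    exact not_dvd_image_of_isIntegral _ hφinj hintC (prime_C_natCast ℓ) W.not_dvd
  · rw [hπX, derivative_map, ← Polynomial.map_mul, ← Polynomial.map_mul, ← Polynomial.map_add,
      ← Polynomial.map_C, ← Polynomial.map_sub, coeff_map]
    exact map_dvd _ (W.dvd_coeff i)

omit [IsPrincipalIdealRing O'] [FiniteDimensional ↥(modularFunctionFieldFull N) M]
  [Algebra ↥(modularFunctionFieldFull N) M] in
/-- Laurent series at the points of the cover split it at the horizontal primes. -/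
theorem nonempty_splitsAtPrime_of_local {t : F} {h : O'[X]} [IsLocalization.Away h C] [IsDomain C]
    [UniqueFactorizationMonoid C] [Algebra ℤℓ[X] C] {L : Type*} [Field L] [Algebra C L]
    [IsFractionRing C L] [Algebra L M] [Algebra C M] [IsScalarTower C L M] [FiniteDimensional L M]
    (W : ChartWitness N ℓ t) (Nn Dd : ℤ[X]) (tC : C)
    (hrel : tC * Dd.eval₂ (Int.castRingHom C) (algebraMap O'[X] C X) =
      Nn.eval₂ (Int.castRingHom C) (algebraMap O'[X] C X))
    (hDd : IsUnit (Dd.eval₂ (Int.castRingHom C) (algebraMap O'[X] C X)))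
    (htC : algebraMap ℤℓ[X] C X = tC) {g : C}
    (hloc : ∀ χ : C →+* ℂ, χ g ≠ 0 →
      HasLocalExpansion N t (χ tC) (χ (algebraMap O'[X] C X)) (Nn.map (Int.castRingHom ℂ))
        (Dd.map (Int.castRingHom ℂ)))
    {θM : M} (hadj : Algebra.adjoin L {θM} = ⊤)
    (hQθ : aeval θM (W.Q.map (algebraMap ℤℓ[X] C)) = 0)
    (hπprime : Prime (algebraMap ℤℓ C (ℓ : ℤℓ))) {q : C} (hq : Prime q) {m : Ideal C}
    (hqm : q ∈ m) (hgm : g ∉ m) (hπq : ¬ algebraMap ℤℓ C (ℓ : ℤℓ) ∣ q) :
    Nonempty (SplitsAtPrime C L M ℂ q) := by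
  obtain ⟨χ, hχ, G₀, hG₀, hG₀'⟩ := exists_point ℓ (h := h) hq hπprime hπq
  obtain ⟨ψ, τ, hs, e, G, he, hs0, hφ, hτ, hGα, hfac⟩ :=
    hloc χ fun h0 => hgm (Ideal.mem_of_dvd m ((hχ _).mp h0) hqm)
  obtain ⟨ε, hker, hone, hεt⟩ := exists_series_point (h := h) χ hχ G₀ hG₀ hG₀'
    Nn Dd tC hrel hDd he τ hs
    hτ hs0 ⟨G, hGα, hfac⟩
  obtain ⟨r, hr, hroot⟩ := W.exists_roots N ℓ ψ hφ
    (e := ((HahnSeries.ofPowerSeries ℤ ℂ).comp ε).comp (algebraMap ℤℓ[X] C)) (by
      show HahnSeries.ofPowerSeries ℤ ℂ (ε (algebraMap ℤℓ[X] C X)) = _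
      rw [htC, hεt])
  refine nonempty_splitsAtPrime hq ε hker hone hadj (W.monic.map (algebraMap ℤℓ[X] C)) hQθ
    (fun i => r (Fin.cast (W.monic.natDegree_map (algebraMap ℤℓ[X] C)) i))
    (hr.comp (Fin.cast_injective _)) fun i => ?_
  rw [eval₂_map]
  exact hroot _

include ℓ in
/-- Normality of `K ⊗ S` at the points where `g₀` does not vanish, from a cover: the localization
`C = O'[X][1/h]` mapped into `M`, integral over `ℤ₍ℓ₎[tC]` for `tC = Nn(X)/Dd(X)` lying over `t`,
with smooth special fibre and local expansions at its good complex points. -/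
theorem normal_of_cover (hℓN : ¬ ℓ ∣ N) {t : F} (ht : IsChartGen N t) (g₀ : ℤℓ[X])
    {h : O'[X]} [IsLocalization.Away h C]
    (hprime : Prime (algebraMap ℤℓ O' (ℓ : ℤℓ)))
    (hh : ¬ Polynomial.C (algebraMap ℤℓ O' (ℓ : ℤℓ)) ∣ h)
    (hpts : PointsHyp ℤℓ O' h K)
    (Nn Dd : ℤ[X]) (tC : C)
    (hrel : tC * Dd.eval₂ (Int.castRingHom C) (algebraMap O'[X] C X) =
      Nn.eval₂ (Int.castRingHom C) (algebraMap O'[X] C X))
    (hDd : IsUnit (Dd.eval₂ (Int.castRingHom C) (algebraMap O'[X] C X)))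
    (hlam : (aeval (R := ℤℓ) tC).toRingHom.IsIntegralElem (algebraMap O'[X] C X))
    (hinv : (aeval (R := ℤℓ) tC).toRingHom.IsIntegralElem (IsLocalization.Away.invSelf h))
    (σ : C →+* M) (hσ : Function.Injective σ) (hσt : σ tC = algebraMap F M t)
    (hgen : ∀ G : Subfield M, (∀ x : F, algebraMap F M x ∈ G) → (∀ c, σ c ∈ G) → G = ⊤)
    (hdesc : (IsGalois F M ∧ g₀ = 1) ∨ ∃ u : ℤℓ, u * (Module.finrank F M : ℤℓ) = 1)
    (hloc : ∀ χ : C →+* ℂ, χ (aeval tC g₀) ≠ 0 →
      HasLocalExpansion N t (χ tC) (χ (algebraMap O'[X] C X)) (Nn.map (Int.castRingHom ℂ))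
        (Dd.map (Int.castRingHom ℂ))) :
    ∀ (n : Ideal (K ⊗[ℤℓ] chartAlg N ℓ {t})), n.IsMaximal →
      (1 : K) ⊗ₜ[ℤℓ]
        aeval (R := ℤℓ) (⟨t, subset_chartAlg N ℓ _ rfl⟩ : chartAlg N ℓ {t}) g₀ ∉ n →
      ∀ (a b : K ⊗[ℤℓ] chartAlg N ℓ {t}), b ≠ 0 → ∀ (p : (K ⊗[ℤℓ] chartAlg N ℓ {t})[X]),
        p.Monic → (p.scaleRoots b).eval a = 0 → ∃ u ∉ n, u * a ∈ Ideal.span {b} := by
  classical
  have hh0 : h ≠ 0 := fun h0 => hh (h0 ▸ dvd_zero _)
  have : IsDomain C :=
    IsLocalization.isDomain_of_le_nonZeroDivisors (M := Submonoid.powers h) (S := C)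
      (powers_le_nonZeroDivisors_of_noZeroDivisors hh0)
  have : UniqueFactorizationMonoid C :=
    UniqueFactorizationMonoid.of_isLocalization (Submonoid.powers h) C
  have : IsNoetherianRing C := IsLocalization.isNoetherianRing (Submonoid.powers h) C inferInstance
  have : Algebra.FiniteType O'[X] C :=
    IsLocalization.finiteType_of_monoid_fg (Submonoid.powers h) C
  have : Algebra.FiniteType ℤℓ C :=
    Algebra.FiniteType.trans (S := O'[X]) inferInstance inferInstance
  have := isPrincipalIdealRing_ratLocalizedAt ℓ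
  -- algebras over `O[X]`
  set S := chartAlg N ℓ {t} with hS
  set tS : S := ⟨t, subset_chartAlg N ℓ _ rfl⟩
  let algXS : Algebra ℤℓ[X] S := (aeval (R := ℤℓ) tS).toRingHom.toAlgebra
  let algXF : Algebra ℤℓ[X] F := (aeval (R := ℤℓ) t).toRingHom.toAlgebra
  let algXC : Algebra ℤℓ[X] C := (aeval (R := ℤℓ) tC).toRingHom.toAlgebra
  have : IsScalarTower ℤℓ ℤℓ[X] S := IsScalarTower.of_algebraMap_eq fun r => (aeval_C tS r).symm
  have : IsScalarTower ℤℓ ℤℓ[X] C := IsScalarTower.of_algebraMap_eq fun r => (aeval_C tC r).symm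
  have : IsScalarTower ℤℓ[X] S F := IsScalarTower.of_algebraMap_eq fun P =>
    (aeval_algHom_apply S.val tS P)
  let algK₁ := chartFieldAlgebra N ℓ ht
  have : IsScalarTower ℤℓ[X] (FractionRing ℤℓ[X]) F :=
    IsScalarTower.of_algebraMap_eq fun P => (IsFractionRing.lift_algebraMap _ _).symm
  have : FiniteDimensional (FractionRing ℤℓ[X]) F := (finiteDimensional_chart N ℓ ht).1
  have : IsIntegralClosure S ℤℓ[X] F := isIntegralClosure_chartAlg N ℓ t rfl
  have : Algebra.IsIntegral ℤℓ[X] S := IsIntegralClosure.isIntegral_algebra ℤℓ[X] F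
  have : IsFractionRing S F :=
    IsIntegralClosure.isFractionRing_of_finite_extension ℤℓ[X] (FractionRing ℤℓ[X]) F S
  have : IsIntegrallyClosed S := isIntegrallyClosed_of_isIntegralClosure ℤℓ[X] («F» := F)
  have hintC := isIntegral_cover ℓ tC hlam hinv
  have : Algebra.IsIntegral ℤℓ[X] C := ⟨hintC⟩
  have : Algebra.FiniteType ℤℓ[X] C := Algebra.FiniteType.of_restrictScalars_finiteType ℤℓ _ _
  have : Module.Finite ℤℓ[X] C := Algebra.IsIntegral.finite
  -- the field `M` and the ring `R`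
  let algCM : Algebra C M := σ.toAlgebra
  let algXM : Algebra ℤℓ[X] M := ((algebraMap F M).comp (algebraMap ℤℓ[X] F)).toAlgebra
  have : IsScalarTower ℤℓ[X] F M := IsScalarTower.of_algebraMap_eq fun _ => rfl
  have : IsScalarTower S F M := IsScalarTower.of_algebraMap_eq fun _ => rfl
  have : CharZero M := charZero_of_injective_ringHom (algebraMap F M).injective
  have : IsScalarTower ℤℓ[X] C M := IsScalarTower.of_algebraMap_eq' (by
    refine Polynomial.ringHom_ext (fun r => ?_) ?_
    · exact RingHom.congr_fun (ratLocalizedAt_ringHom_ext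
        ((algebraMap ℤℓ[X] M).comp Polynomial.C)
        (((algebraMap C M).comp (algebraMap ℤℓ[X] C)).comp Polynomial.C)) r
    · show algebraMap F M (aeval t X) = σ (aeval tC X)
      rw [aeval_X, aeval_X, hσt])
  have : IsScalarTower ℤℓ[X] S M := IsScalarTower.of_algebraMap_eq fun P => by
    show algebraMap F M (algebraMap ℤℓ[X] F P) = algebraMap F M (algebraMap S F _)
    exact congrArg _ (IsScalarTower.algebraMap_apply ℤℓ[X] S F P)
  let L := FractionRing C
  let algLM : Algebra L M := (IsFractionRing.lift hσ : L →+* M).toAlgebra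
  have : IsScalarTower C L M :=
    IsScalarTower.of_algebraMap_eq fun c => (IsFractionRing.lift_algebraMap hσ c).symm
  set R := integralClosure ℤℓ[X] M with hR
  let algSR : Algebra S R := ((algebraMap S M).codRestrict R.toSubring fun x =>
    (Algebra.IsIntegral.isIntegral (R := ℤℓ[X]) x).map (IsScalarTower.toAlgHom ℤℓ[X] S M)).toAlgebra
  let algCR : Algebra C R := ((algebraMap C M).codRestrict R.toSubring fun x =>
    (Algebra.IsIntegral.isIntegral (R := ℤℓ[X]) x).map (IsScalarTower.toAlgHom ℤℓ[X] C M)).toAlgebra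
  let algOR : Algebra ℤℓ R := ((algebraMap ℤℓ[X] R).comp Polynomial.C).toAlgebra
  have : IsScalarTower ℤℓ ℤℓ[X] R := IsScalarTower.of_algebraMap_eq fun _ => rfl
  have : IsScalarTower S R M := IsScalarTower.of_algebraMap_eq fun _ => rfl
  have : IsScalarTower C R M := IsScalarTower.of_algebraMap_eq fun _ => rfl
  have : IsScalarTower ℤℓ[X] S R := IsScalarTower.of_algebraMap_eq fun P =>
    Subtype.ext (IsScalarTower.algebraMap_apply ℤℓ[X] S M P)
  have : IsScalarTower ℤℓ[X] C R := IsScalarTower.of_algebraMap_eq fun P =>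
    Subtype.ext (IsScalarTower.algebraMap_apply ℤℓ[X] C M P)
  have : IsScalarTower ℤℓ S R := IsScalarTower.of_algebraMap_eq fun r => by
    rw [IsScalarTower.algebraMap_apply ℤℓ ℤℓ[X] R, IsScalarTower.algebraMap_apply ℤℓ[X] S R,
      ← IsScalarTower.algebraMap_apply ℤℓ ℤℓ[X] S]
  have : IsScalarTower ℤℓ C R := IsScalarTower.of_algebraMap_eq fun r => by
    rw [IsScalarTower.algebraMap_apply ℤℓ ℤℓ[X] R, IsScalarTower.algebraMap_apply ℤℓ[X] C R,
      ← IsScalarTower.algebraMap_apply ℤℓ ℤℓ[X] C]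
  -- the generator
  obtain ⟨W⟩ := (nonempty_chartWitness N ℓ hℓN ht).1
  set θM : M := algebraMap F M W.θ with hθM
  have hQθ : aeval θM (W.Q.map (algebraMap ℤℓ[X] C)) = 0 := by
    rw [aeval_def, eval₂_map, ← IsScalarTower.algebraMap_eq, IsScalarTower.algebraMap_eq ℤℓ[X] F M,
      hθM, ← hom_eval₂]
    exact (congrArg _ W.eval_eq_zero).trans (map_zero _)
  have hθint : IsIntegral L θM :=
    IsIntegral.tower_top (R := C) ⟨_, W.monic.map (algebraMap ℤℓ[X] C), hQθ⟩
  obtain ⟨_, hadj⟩ : FiniteDimensional L M ∧ Algebra.adjoin L {θM} = ⊤ :=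
    finiteDimensional_of_generates N W.generates hσt hgen hθint
  -- the hypotheses on the cover
  have hπC : algebraMap ℤℓ C (ℓ : ℤℓ) =
      algebraMap O'[X] C (Polynomial.C (algebraMap ℤℓ O' (ℓ : ℤℓ))) := by
    rw [IsScalarTower.algebraMap_apply ℤℓ O'[X] C, Polynomial.algebraMap_apply]
  have hπprime : Prime (algebraMap ℤℓ C (ℓ : ℤℓ)) :=
    hπC ▸ prime_algebraMap_away (Polynomial.prime_C_iff.mpr hprime) hh
  have hpid : IsPrincipalIdealRing (C ⧸ Ideal.span {algebraMap ℤℓ C (ℓ : ℤℓ)}) := by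
    have := isPrincipalIdealRing_quotient_prime hprime
    rw [hπC]
    exact isPrincipalIdealRing_quotient_localization (Submonoid.powers h)
      (Polynomial.C (algebraMap ℤℓ O' (ℓ : ℤℓ)))
  have hφinj : Function.Injective (algebraMap ℤℓ[X] C) :=
    algebraMap_injective_of_chart N ℓ (M := M) (ht.aeval_injective N ℓ)
  have hwit : Nonempty (SpecialWitness C L M R (algebraMap ℤℓ C (ℓ : ℤℓ))) :=
    nonempty_specialWitness N ℓ Subtype.val_injective hφinj hintC W
      (θ := algebraMap S R ⟨W.θ, W.mem⟩) hadj hQθ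
  have := isDomain_chartFibre K hℓN ht
  have hyp : ∀ g : ℤℓ[X], algebraMap ℤℓ[X] C g = algebraMap ℤℓ[X] C g₀ →
      CoverHyp ℤℓ (C := C) (L := L) (M := M) (R := R) K ℂ g (ℓ : ℤℓ) := fun g hgg =>
    { prime_base := prime_natCast_self ℓ
      fibre_zero := by rw [map_natCast, CharP.cast_eq_zero]
      pid_base := isPrincipalIdealRing_quotient_prime (prime_natCast_self ℓ)
      prime := hπprime
      pid := hpid
      witness := hwit
      regular := fun m _ => isPrincipalAt_fibre_of_points hpts m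
      split := fun q hq m _ _ h2 h3 h4 => nonempty_splitsAtPrime_of_local N ℓ (h := h) W Nn Dd tC
        hrel hDd (aeval_X tC) hloc hadj hQθ hπprime hq h2 (hgg ▸ h3) h4 }
  intro n hn hg a b hb p hp hpa
  have := hn
  rcases hdesc with ⟨hgal, rfl⟩ | ⟨u, hu⟩
  · obtain ⟨c, hc⟩ := CoverHyp.dvdOfIntegral ℤℓ (S := S) (K₁ := FractionRing ℤℓ[X]) («F» := F)
      (hyp 1 rfl) a b (mem_nonZeroDivisors_of_ne_zero hb) p hp hpa
    exact ⟨1, fun h1 => hn.ne_top ((Ideal.eq_top_iff_one n).mpr h1),
      Ideal.mem_span_singleton'.mpr ⟨c, by rw [one_mul, hc, mul_comm]⟩⟩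
  · exact CoverHyp.exists_mul_mem_span ℤℓ (S := S) (K₁ := FractionRing ℤℓ[X]) («F» := F) u hu
      (hyp g₀ rfl) n hg hb hp hpa

end Fermat.Agent.Igusa
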