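import Mathlib
import Fermat.Agent.Igusa.SmoothAssemble

/-!
# Common lemmas on the concrete covers

These lemmas check the hypotheses of `normal_of_cover` for the Hesse, Legendre and infinite
covers.
-/

noncomputable section

open Polynomial ModularCurve ModularCurve.IgusaScheme

namespace Fermat.Agent.Igusa

/-- The multiplicity of a simple root of `R` in `c R^e` is `e`. -/
theorem exists_factor_pow {P R : ℂ[X]} {c α : ℂ} {e : ℕ} (hP : P = Polynomial.C c * R ^ e)
    (hc : c ≠ 0) (hR : R.eval α = 0) (hR' : R.derivative.eval α ≠ 0) :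
    ∃ G : ℂ[X], G.eval α ≠ 0 ∧ P = (X - Polynomial.C α) ^ e * G := by
  obtain ⟨R₁, hR₁⟩ := dvd_iff_isRoot.mpr hR
  refine ⟨Polynomial.C c * R₁ ^ e, ?_, by rw [hP, hR₁, mul_pow]; ring⟩
  rw [hR₁] at hR'
  simp only [derivative_mul, derivative_X_sub_C, one_mul, eval_add, eval_mul, eval_sub, eval_X,
    eval_C, sub_self, zero_mul, add_zero] at hR'
  rw [eval_mul, eval_C, eval_pow]
  exact mul_ne_zero hc (pow_ne_zero _ hR')

/-- A simple root has multiplicity one. -/
theorem exists_factor_one {P : ℂ[X]} {α : ℂ} (h0 : P.eval α = 0) (h1 : P.derivative.eval α ≠ 0) :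
    ∃ G : ℂ[X], G.eval α ≠ 0 ∧ P = (X - Polynomial.C α) ^ 1 * G :=
  exists_factor_pow (c := 1) (R := P) (by rw [map_one, one_mul, pow_one]) one_ne_zero h0 h1

/-- The local data at a point where the cover has the allowed ramification. -/
theorem exists_local_fin (N : ℕ) [NeZero N] (a α : ℂ) (Nn Dd : ℂ[X])
    (hfac : ∃ G : ℂ[X], G.eval α ≠ 0 ∧
      Nn - Polynomial.C a * Dd = (X - Polynomial.C α) ^ ellIndex a * G) :
    HasLocalExpansion N (jFull N) a α Nn Dd := by
  obtain ⟨G, hG, hfac⟩ := hfac
  obtain ⟨ψ, g, h, hψ, hg, hh⟩ := exists_expansion_at N a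
  exact ⟨ψ, g, h, ellIndex a, G, by unfold ellIndex; split_ifs <;> omega, hh,
    fun φ hφ => hφ.trans hψ, hg, hG, hfac⟩

section Transcendental

variable {M : Type*} [Field M] [CharZero M]

/-- A point with algebraic base and transcendental coordinate is generic. -/
theorem eval₂_injective_of_transcendental (ℓ : ℕ) {O' : Type*} [CommRing O']
    [Algebra ↥(GaloisRep.ratLocalizedAt ℓ) O'] [Module.Finite ↥(GaloisRep.ratLocalizedAt ℓ) O']
    (gO : O' →+* M) (hgO : Function.Injective gO) {x : M} (hx : Transcendental ℚ x) :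
    Function.Injective (eval₂RingHom gO x) := by
  rw [injective_iff_map_eq_zero]
  intro P hP
  by_contra h0
  let AE := algebraicClosure ℚ M
  have : Algebra.IsAlgebraic ℚ AE := algebraicClosure.isAlgebraic ℚ M
  have : Algebra.IsIntegral ℚ AE := Algebra.IsAlgebraic.isIntegral
  let gA : O' →+* AE :=
    gO.codRestrict AE.toSubfield fun e => mem_algebraicClosure_iff.mpr (isAlgebraic_image ℓ gO e)
  have halg : IsAlgebraic AE x := ⟨P.map gA,
    (Polynomial.map_ne_zero_iff fun a b h => hgO (congrArg Subtype.val h)).mpr h0,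
    by rw [aeval_def, eval₂_map]; exact hP⟩
  exact hx (isIntegral_trans (R := ℚ) (A := AE) x halg.isIntegral).isAlgebraic

/-- The coordinate on the cover is transcendental. -/
theorem transcendental_of_relation {N : ℕ} [NeZero N]
    (f : ↥(modularFunctionFieldFull N) →+* M) (Nn Dd : ℤ[X]) {x : M}
    (hD : Dd.eval₂ (Int.castRingHom M) x ≠ 0) {t : ↥(modularFunctionFieldFull N)}
    (ht : IsChartGen N t)
    (hrel : f t * Dd.eval₂ (Int.castRingHom M) x = Nn.eval₂ (Int.castRingHom M) x) :
    Transcendental ℚ x := by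
  intro hx
  have hmem : x ∈ algebraicClosure ℚ M := mem_algebraicClosure_iff.mpr hx
  have hP : ∀ P : ℤ[X], P.eval₂ (Int.castRingHom M) x ∈ algebraicClosure ℚ M := fun P => by
    rw [eval₂_eq_sum]
    exact sum_mem fun i _ => mul_mem (by
      rw [eq_intCast]; exact intCast_mem _ _) (pow_mem hmem i)
  have h2 : f t ∈ algebraicClosure ℚ M := by
    rw [show f t = Nn.eval₂ (Int.castRingHom M) x / Dd.eval₂ (Int.castRingHom M) x by
      rw [eq_div_iff hD, hrel]]
    exact div_mem (hP Nn) (hP Dd)
  obtain ⟨P, hP0, hPt⟩ := mem_algebraicClosure_iff.mp h2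
  have ht' : Transcendental ℚ t := by
    rcases ht with rfl | rfl
    · exact transcendental_jFull N
    · exact fun h => transcendental_jFull N (by simpa using h.inv)
  refine ht' ⟨P, hP0, f.injective ?_⟩
  rw [map_zero, ← hPt, aeval_def, aeval_def, hom_eval₂]
  congr 1
  exact Subsingleton.elim _ _

omit [CharZero M] in
/-- A ring map out of the function field is injective on `ℤ₍ℓ₎`. -/
theorem injective_comp_algebraMap_base (N ℓ : ℕ) [NeZero N]
    (f : ↥(modularFunctionFieldFull N) →+* M) :
    Function.Injective (f.comp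
      (algebraMap ↥(GaloisRep.ratLocalizedAt ℓ) ↥(modularFunctionFieldFull N))) :=
  f.injective.comp fun x y hxy => by
    have h1 := aeval_jFull_injective N ℓ (a₁ := Polynomial.C x) (a₂ := Polynomial.C y)
      (by rw [aeval_C, aeval_C, hxy])
    exact Polynomial.C_injective h1

omit [CharZero M] in
/-- The map of a cover sends its coordinate `tC = Nn(lam) / Dd(lam)` to the one of the field. -/
theorem map_eq_of_rel {C : Type*} [CommRing C] (σ : C →+* M) (Nn Dd : ℤ[X]) {lam tC : C} {t : M}
    (hrel : tC * Dd.eval₂ (Int.castRingHom C) lam = Nn.eval₂ (Int.castRingHom C) lam)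
    (hrelM : t * Dd.eval₂ (Int.castRingHom M) (σ lam) = Nn.eval₂ (Int.castRingHom M) (σ lam))
    (hD : Dd.eval₂ (Int.castRingHom M) (σ lam) ≠ 0) : σ tC = t := by
  refine mul_right_cancel₀ hD ?_
  have := congrArg σ hrel
  rw [map_mul, hom_eval₂, hom_eval₂,
    RingHom.ext_int (σ.comp (Int.castRingHom C)) (Int.castRingHom M)] at this
  exact this.trans hrelM.symm

omit [CharZero M] in
/-- A map out of a localisation is injective if it is so on the ring. -/
theorem away_lift_injective {P C : Type*} [CommRing P] [CommRing C] [Algebra P C] (h : P)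
    [IsLocalization.Away h C] {g : P →+* M} (hu : IsUnit (g h)) (hg : Function.Injective g) :
    Function.Injective (IsLocalization.Away.lift h hu : C →+* M) := by
  rw [injective_iff_map_eq_zero]
  intro c hc
  obtain ⟨m, a, hma⟩ := IsLocalization.Away.surj h c
  have ha : a = 0 := hg (by
    rw [map_zero, ← IsLocalization.Away.lift_eq (S := C) h hu a, ← hma, map_mul, hc, zero_mul])
  rw [ha, map_zero] at hma
  exact ((IsLocalization.Away.algebraMap_isUnit (S := C) h).pow m).mul_left_eq_zero.mp hma

end Transcendental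

/-- A subfield of `F(S)` containing the base and `S` is the whole of `F(S)`. -/
theorem subfield_eq_top_of_adjoin {F E : Type*} [Field F] [Field E] [Algebra F E] {S : Set E}
    (G : Subfield (IntermediateField.adjoin F S))
    (hF : ∀ x : F, algebraMap F (IntermediateField.adjoin F S) x ∈ G)
    (hS : ∀ (x : E) (hx : x ∈ S), (⟨x, IntermediateField.subset_adjoin F S hx⟩ :
      IntermediateField.adjoin F S) ∈ G) : G = ⊤ := by
  refine eq_top_iff.mpr fun y hy => ?_
  clear hy
  obtain ⟨y, hy⟩ := y
  induction hy using IntermediateField.adjoin_induction with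
  | mem z hz => exact hS z hz
  | algebraMap c => exact hF c
  | add a b ha hb iha ihb =>
    exact (add_mem iha ihb : (⟨a, ha⟩ + ⟨b, hb⟩ : IntermediateField.adjoin F S) ∈ G)
  | inv a ha iha => exact (inv_mem iha : (⟨a, ha⟩⁻¹ : IntermediateField.adjoin F S) ∈ G)
  | mul a b ha hb iha ihb =>
    exact (mul_mem iha ihb : (⟨a, ha⟩ * ⟨b, hb⟩ : IntermediateField.adjoin F S) ∈ G)

/-- `F(S)` is Galois if `S` consists of roots of a polynomial all of whose roots lie in `F(S)`. -/
theorem isGalois_adjoin_of_roots {F E : Type*} [Field F] [CharZero F] [Field E] [Algebra F E]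
    [IsAlgClosed E] {S : Set E} (P : F[X]) (hP : P ≠ 0) (hS : ∀ x ∈ S, aeval x P = 0)
    (hroots : ∀ y : E, aeval y P = 0 → y ∈ IntermediateField.adjoin F S) :
    IsGalois F (IntermediateField.adjoin F S) ∧
      FiniteDimensional F (IntermediateField.adjoin F S) := by
  have heq : IntermediateField.adjoin F S = IntermediateField.adjoin F (P.rootSet E) := by
    refine le_antisymm (IntermediateField.adjoin.mono _ _ _ fun x hx => ?_) ?_
    · exact mem_rootSet.mpr ⟨hP, hS x hx⟩
    · exact IntermediateField.adjoin_le_iff.mpr fun y hy => hroots y (mem_rootSet.mp hy).2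
  rw [heq]
  have : IsSplittingField F (IntermediateField.adjoin F (P.rootSet E)) P :=
    IntermediateField.adjoin_rootSet_isSplittingField (IsAlgClosed.splits _)
  have := IsSplittingField.finiteDimensional (IntermediateField.adjoin F (P.rootSet E)) P
  have : Normal F (IntermediateField.adjoin F (P.rootSet E)) := Normal.of_isSplittingField P
  exact ⟨⟨⟩, inferInstance⟩

end Fermat.Agent.Igusa
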