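import Mathlib
import Fermat.Agent.Igusa.SmoothBase
import Fermat.Agent.Igusa.SmoothCover

/-!
# The base `ℤ_(2)[ω]` of the Hesse cover

It is unramified at `2` and contains the cube roots of unity needed for the Hesse cover.
-/

noncomputable section

open Polynomial
open scoped TensorProduct

namespace Fermat.Agent.Igusa

set_option quotPrecheck false in
local notation "ℤ₂'" => ↥(GaloisRep.ratLocalizedAt 2)

/-- `X ^ 2 + X + 1` over `ℤ_(2)`. -/
def eisPoly : ℤ₂'[X] := X ^ 2 + X + 1

theorem eisPoly_monic : eisPoly.Monic := by unfold eisPoly; monicity!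

theorem eisPoly_natDegree : eisPoly.natDegree = 2 := by unfold eisPoly; compute_degree!

/-- `ℤ_(2)[ω]`. -/
abbrev EisBase : Type := AdjoinRoot eisPoly

/-- `ω`. -/
def eisRoot : EisBase := AdjoinRoot.root eisPoly

/-- `ω ^ 2 + ω + 1 = 0`. -/
theorem eisRoot_eq : eisRoot ^ 2 + eisRoot + 1 = 0 := by
  have hdef : eisPoly = X ^ 2 + X + 1 := rfl
  have h := congrArg (AdjoinRoot.mk eisPoly) hdef
  rw [AdjoinRoot.mk_self, map_add, map_add, map_pow, AdjoinRoot.mk_X, map_one] at h
  exact h.symm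

/-- Every element is `a + b ω`. -/
theorem eisBase_exists (e : EisBase) :
    ∃ a b : ℤ₂', e = algebraMap ℤ₂' EisBase a + algebraMap ℤ₂' EisBase b * eisRoot := by
  obtain ⟨P, rfl⟩ := AdjoinRoot.mk_surjective (g := eisPoly) e
  have hlt : (P %ₘ eisPoly).natDegree < 2 := by
    have := natDegree_modByMonic_lt P eisPoly_monic (fun h1 => by
      have := eisPoly_natDegree; rw [h1, natDegree_one] at this; omega)
    rwa [eisPoly_natDegree] at this
  refine ⟨(P %ₘ eisPoly).coeff 0, (P %ₘ eisPoly).coeff 1, ?_⟩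
  have hP : AdjoinRoot.mk eisPoly P = AdjoinRoot.mk eisPoly (P %ₘ eisPoly) := by
    conv_lhs => rw [← modByMonic_add_div P eisPoly]
    rw [map_add, map_mul, AdjoinRoot.mk_self, zero_mul, add_zero]
  rw [hP]
  conv_lhs => rw [eq_X_add_C_of_natDegree_le_one (p := P %ₘ eisPoly) (by omega)]
  rw [map_add, map_mul, AdjoinRoot.mk_C, AdjoinRoot.mk_C, AdjoinRoot.mk_X,
    AdjoinRoot.algebraMap_eq]
  exact add_comm _ _

theorem finite_eisBase : Module.Finite ℤ₂' EisBase := eisPoly_monic.finite_adjoinRoot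

/-- `ℤ_(2)[ω]` is a domain. -/
theorem isDomain_eisBase : IsDomain EisBase := by
  have := isPrincipalIdealRing_ratLocalizedAt 2
  refine AdjoinRoot.isDomain_of_prime ?_
  rw [← irreducible_iff_prime, eisPoly_monic.irreducible_iff_roots_eq_zero_of_degree_le_three
    (by rw [eisPoly_natDegree]) (by rw [eisPoly_natDegree]; norm_num),
    Multiset.eq_zero_iff_forall_notMem]
  intro x hx
  have h := (mem_roots eisPoly_monic.ne_zero).mp hx
  simp only [eisPoly, IsRoot.def, eval_add, eval_pow, eval_X, eval_one] at h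
  have h' : ((x : ℚ)) ^ 2 + x + 1 = 0 := by exact_mod_cast congrArg Subtype.val h
  nlinarith [sq_nonneg ((x : ℚ) + 1 / 2)]

/-- Every element is a unit or divisible by `2`. -/
theorem eis_isUnit_or_dvd (e : EisBase) :
    IsUnit e ∨ algebraMap ℤ₂' EisBase ((2 : ℕ) : ℤ₂') ∣ e := by
  obtain ⟨a, b, rfl⟩ := eisBase_exists e
  by_cases h : IsUnit (a ^ 2 - a * b + b ^ 2)
  · left
    refine isUnit_of_dvd_unit ⟨algebraMap ℤ₂' EisBase (a - b) -
      algebraMap ℤ₂' EisBase b * eisRoot, ?_⟩ (h.map (algebraMap ℤ₂' EisBase))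
    rw [map_add, map_sub, map_sub, map_pow, map_pow, map_mul]
    linear_combination (algebraMap ℤ₂' EisBase b) ^ 2 * eisRoot_eq
  · right
    rw [isUnit_iff_redZ_ne_zero, not_not, map_add, map_sub, map_pow, map_pow, map_mul] at h
    have key : ∀ x y : ZMod 2, x ^ 2 - x * y + y ^ 2 = 0 → x = 0 ∧ y = 0 := by decide
    obtain ⟨ha, hb⟩ := key _ _ h
    obtain ⟨a', rfl⟩ := (redZ_eq_zero_iff 2 a).mp ha
    obtain ⟨b', rfl⟩ := (redZ_eq_zero_iff 2 b).mp hb
    exact ⟨algebraMap ℤ₂' EisBase a' + algebraMap ℤ₂' EisBase b' * eisRoot, by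
      rw [map_mul, map_mul]; ring⟩

/-- `2` is prime in `ℤ_(2)[ω]`. -/
theorem eis_prime_two : Prime (algebraMap ℤ₂' EisBase ((2 : ℕ) : ℤ₂')) := by
  have := isDomain_eisBase
  have hne : algebraMap ℤ₂' EisBase ((2 : ℕ) : ℤ₂') ≠ 0 := by
    intro h
    exact (prime_natCast_self 2).ne_zero
      ((AdjoinRoot.of.injective_of_degree_ne_zero (f := eisPoly) (by
        rw [degree_eq_natDegree eisPoly_monic.ne_zero, eisPoly_natDegree]; decide))
        (by rw [map_zero, ← h, AdjoinRoot.algebraMap_eq]))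
  have hnu : ¬ IsUnit (algebraMap ℤ₂' EisBase ((2 : ℕ) : ℤ₂')) := by
    intro h
    let g : ℤ₂' →+* AlgebraicClosure (ZMod 2) :=
      (algebraMap (ZMod 2) (AlgebraicClosure (ZMod 2))).comp (redZ 2)
    obtain ⟨r, hr⟩ := IsAlgClosed.exists_root (eisPoly.map g) (by
      rw [eisPoly_monic.degree_map, degree_eq_natDegree eisPoly_monic.ne_zero, eisPoly_natDegree]
      decide)
    let ψ : EisBase →+* AlgebraicClosure (ZMod 2) :=
      AdjoinRoot.lift g r (by rwa [IsRoot.def, eval_map] at hr)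
    have h1 := h.map ψ
    rw [AdjoinRoot.algebraMap_eq, AdjoinRoot.lift_of, RingHom.comp_apply, map_natCast,
      CharP.cast_eq_zero, map_zero] at h1
    exact not_isUnit_zero h1
  refine ⟨hne, hnu, fun x y hxy => ?_⟩
  rcases eis_isUnit_or_dvd x with hx | hx
  · exact Or.inr ((IsUnit.dvd_mul_left hx).mp hxy)
  · exact Or.inl hx

/-- `ℤ_(2)[ω]` is a principal ideal ring. -/
theorem isPrincipalIdealRing_eisBase : IsPrincipalIdealRing EisBase := by
  have := isDomain_eisBase
  have := isPrincipalIdealRing_ratLocalizedAt 2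
  have : IsDiscreteValuationRing EisBase := by
    refine IsDiscreteValuationRing.ofHasUnitMulPowIrreducibleFactorization
      ⟨_, eis_prime_two.irreducible, fun {x} hx => ?_⟩
    induction x using WfDvdMonoid.induction_on_irreducible with
    | zero => exact absurd rfl hx
    | unit u hu => exact ⟨0, by rw [pow_zero]; exact (associated_one_iff_isUnit.mpr hu).symm⟩
    | mul a i ha hi ih =>
      obtain ⟨n, hn⟩ := ih ha
      refine ⟨n + 1, ?_⟩
      rw [pow_succ']
      refine Associated.mul_mul ?_ hn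
      exact eis_prime_two.irreducible.associated_of_dvd hi
        ((eis_isUnit_or_dvd i).resolve_left hi.not_isUnit)
  infer_instance

/-- The image of `ω` at a point is a cube root of unity. -/
theorem eis_point {K : Type*} [Field K] [Algebra ℤ₂' K] (χ : EisBase →ₐ[ℤ₂'] K) :
    χ eisRoot ^ 2 + χ eisRoot + 1 = 0 := by
  rw [← map_pow, ← map_add, ← map_one χ, ← map_add, eisRoot_eq, map_zero]

/-- Every element of the base change is `α + β ω`. -/
theorem eis_tmul_exists {K : Type*} [Field K] [Algebra ℤ₂' K] (x : K ⊗[ℤ₂'] EisBase) :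
    ∃ α β : K, x = α ⊗ₜ 1 + β ⊗ₜ eisRoot := by
  induction x using TensorProduct.induction_on with
  | zero => exact ⟨0, 0, by simp⟩
  | add x y hx hy =>
    obtain ⟨a, b, rfl⟩ := hx
    obtain ⟨a', b', rfl⟩ := hy
    exact ⟨a + a', b + b', by rw [TensorProduct.add_tmul, TensorProduct.add_tmul]; abel⟩
  | tmul k e =>
    obtain ⟨a, b, rfl⟩ := eisBase_exists e
    refine ⟨a • k, b • k, ?_⟩
    rw [TensorProduct.tmul_add, ← Algebra.smul_def, Algebra.algebraMap_eq_smul_one,
      TensorProduct.tmul_smul, TensorProduct.tmul_smul, TensorProduct.smul_tmul',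
      TensorProduct.smul_tmul']

/-- The hypothesis on points for the Hesse base in characteristic `2`. -/
theorem pointsHyp_eisBase (K : Type*) [Field K] [IsAlgClosed K] [CharP K 2] [Algebra ℤ₂' K]
    (h : EisBase[X]) (hm : h.Monic) : PointsHyp ℤ₂' EisBase h K where
  reduced x hx := by
    obtain ⟨α, β, rfl⟩ := eis_tmul_exists x
    have hdeg : (eisPoly.map (algebraMap ℤ₂' K)).degree ≠ 0 := by
      rw [eisPoly_monic.degree_map, degree_eq_natDegree eisPoly_monic.ne_zero, eisPoly_natDegree]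
      decide
    obtain ⟨r, hr⟩ := IsAlgClosed.exists_root _ hdeg
    simp only [eisPoly, IsRoot.def, eval_map, eval₂_add, eval₂_X_pow, eval₂_X, eval₂_one] at hr
    have h2 : (2 : K) = 0 := CharTwo.two_eq_zero
    have hev : ∀ r : K, r ^ 2 + r + 1 = 0 → α + β * r = 0 := fun r hr => by
      have := hx (AdjoinRoot.liftAlgHom eisPoly (Algebra.ofId ℤ₂' K) r (by
        simpa [eisPoly, eval₂_add, eval₂_X_pow] using hr))
      simpa [pointHom, eisRoot] using this
    have e1 := hev r hr
    have e2 := hev (r + 1) (by linear_combination hr + (r + 1) * h2)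
    have hβ : β = 0 := by linear_combination e2 - e1
    have hα : α = 0 := by rw [hβ, zero_mul, add_zero] at e1; exact e1
    rw [hα, hβ, TensorProduct.zero_tmul, TensorProduct.zero_tmul, add_zero]
  idempotent χ := by
    have hr := eis_point χ
    have h2 : (2 : K) = 0 := CharTwo.two_eq_zero
    refine ⟨(1 : K) ⊗ₜ eisRoot - (χ eisRoot + 1) ⊗ₜ 1, ?_, fun e => ?_⟩
    · have hval : pointHom ℤ₂' EisBase K χ ((1 : K) ⊗ₜ eisRoot - (χ eisRoot + 1) ⊗ₜ 1) = -1 := by
        simp [pointHom]
      rw [hval]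
      exact neg_ne_zero.mpr one_ne_zero
    · let L : EisBase →+* K ⊗[ℤ₂'] EisBase :=
        (Algebra.TensorProduct.includeRight : EisBase →ₐ[ℤ₂'] K ⊗[ℤ₂'] EisBase).toRingHom
      let P : K →+* K ⊗[ℤ₂'] EisBase := Algebra.TensorProduct.includeLeftRingHom
      have hLP : ∀ c : ℤ₂', L (algebraMap ℤ₂' EisBase c) = P (algebraMap ℤ₂' K c) := fun c => by
        simp only [L, P, AlgHom.toRingHom_eq_coe, RingHom.coe_coe, AlgHom.commutes,
          Algebra.TensorProduct.includeLeftRingHom_apply]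
        rfl
      show (L eisRoot - P (χ eisRoot + 1)) * L e = (L eisRoot - P (χ eisRoot + 1)) * P (χ e)
      obtain ⟨a, b, rfl⟩ := eisBase_exists e
      rw [map_add L, map_mul L, hLP, hLP, map_add χ, map_mul χ, χ.commutes, χ.commutes,
        map_add P (algebraMap ℤ₂' K a), map_mul P]
      have hL : L eisRoot ^ 2 + L eisRoot + 1 = 0 := by
        simpa using congrArg L eisRoot_eq
      have hP : P (χ eisRoot) ^ 2 + P (χ eisRoot) + 1 = 0 := by simpa using congrArg P hr
      have hP2 : (2 : K ⊗[ℤ₂'] EisBase) = 0 := by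
        rw [← map_ofNat P 2, h2, map_zero]
      rw [map_add P (χ eisRoot), map_one]
      linear_combination (P (algebraMap ℤ₂' K b)) * hL + (P (algebraMap ℤ₂' K b)) * hP -
        (P (algebraMap ℤ₂' K b)) * (L eisRoot * P (χ eisRoot) + L eisRoot + 1) * hP2
  map_ne_zero χ := (hm.map _).ne_zero

end Fermat.Agent.Igusa
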