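import Mathlib
import Fermat.Agent.Igusa.SmoothCoverCommon
import Fermat.Agent.Igusa.SmoothEisenstein

/-!
# The finite chart for `ℓ = 2`: the Hesse cover `j = 27 t³ (t³ + 8)³ / (t³ - 1)³`

The cover has good fibre in characteristic `2`, so the finite chart of `X₀(N)` is normal there.
-/

noncomputable section

open Polynomial ModularCurve ModularCurve.IgusaScheme
open scoped TensorProduct

namespace Fermat.Agent.Igusa

/-- Numerator of the Hesse `j`. -/
def hesN : ℤ[X] := 27 * X ^ 3 * (X ^ 3 + 8) ^ 3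

/-- Denominator of the Hesse `j`. -/
def hesD : ℤ[X] := (X ^ 3 - 1) ^ 3

theorem eval₂_hesN {R : Type*} [CommRing R] (f : ℤ →+* R) (x : R) :
    hesN.eval₂ f x = 27 * x ^ 3 * (x ^ 3 + 8) ^ 3 := by
  rw [hesN, ← coe_eval₂RingHom]
  simp only [map_mul, map_pow, map_add, map_ofNat, coe_eval₂RingHom, eval₂_X]

theorem eval₂_hesD {R : Type*} [CommRing R] (f : ℤ →+* R) (x : R) :
    hesD.eval₂ f x = (x ^ 3 - 1) ^ 3 := by
  rw [hesD, ← coe_eval₂RingHom]
  simp only [map_pow, map_sub, map_one, coe_eval₂RingHom, eval₂_X]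

theorem map_hesN {R : Type*} [CommRing R] (f : ℤ →+* R) :
    hesN.map f = 27 * X ^ 3 * (X ^ 3 + 8) ^ 3 := by simp [hesN]

theorem map_hesD {R : Type*} [CommRing R] (f : ℤ →+* R) :
    hesD.map f = (X ^ 3 - 1) ^ 3 := by simp [hesD]

/-- The ramification of the Hesse cover is the elliptic one. -/
theorem hesse_factor {a α : ℂ} (h1 : α ^ 3 - 1 ≠ 0)
    (ha : a * (α ^ 3 - 1) ^ 3 = 27 * α ^ 3 * (α ^ 3 + 8) ^ 3) :
    ∃ G : ℂ[X], G.eval α ≠ 0 ∧
      hesN.map (Int.castRingHom ℂ) - Polynomial.C a * hesD.map (Int.castRingHom ℂ) =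
        (X - Polynomial.C α) ^ ellIndex a * G := by
  rw [map_hesN, map_hesD]
  unfold ellIndex
  split_ifs with hA hB
  · subst hA
    rw [zero_mul, eq_comm] at ha
    have hR : α * (α ^ 3 + 8) = 0 := by
      have h2 : (α * (α ^ 3 + 8)) ^ 3 = 0 := by linear_combination (1 / 27 : ℂ) * ha
      exact pow_eq_zero_iff (three_ne_zero) |>.mp h2
    refine exists_factor_pow (c := 27) (R := X * (X ^ 3 + 8)) ?_ (by norm_num)
      (by simpa using hR) ?_
    · rw [show Polynomial.C (27 : ℂ) = 27 from map_ofNat _ _, map_zero]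
      ring
    · simp only [derivative_mul, derivative_add, derivative_X_pow, derivative_X, derivative_ofNat,
        eval_add, eval_mul, eval_X, eval_ofNat, eval_pow, eval_C, add_zero, one_mul]
      norm_num
      rcases mul_eq_zero.mp hR with h | h
      · rw [h]; norm_num
      · intro hd
        refine (by norm_num : (24 : ℂ) ≠ 0) ?_
        linear_combination 4 * h - hd
  · subst hB
    have hR : α ^ 6 - 20 * α ^ 3 - 8 = 0 := by
      have h2 : (α ^ 6 - 20 * α ^ 3 - 8) ^ 2 = 0 := by linear_combination (-1 / 27 : ℂ) * ha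
      exact pow_eq_zero_iff (two_ne_zero) |>.mp h2
    refine exists_factor_pow (c := 27) (R := X ^ 6 - 20 * X ^ 3 - 8) ?_ (by norm_num)
      (by simpa using hR) ?_
    · rw [show Polynomial.C (27 : ℂ) = 27 from map_ofNat _ _,
        show Polynomial.C (1728 : ℂ) = 1728 from map_ofNat _ _]
      ring
    · simp only [derivative_mul, derivative_sub, derivative_X_pow, derivative_ofNat,
        eval_sub, eval_mul, eval_X, eval_ofNat, eval_pow, eval_C, zero_mul, zero_add,
        sub_zero]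
      norm_num
      intro hd
      have h2 : α ^ 2 * (α ^ 3 - 10) = 0 := by linear_combination (1 / 6 : ℂ) * hd
      rcases mul_eq_zero.mp h2 with h | h
      · rw [pow_eq_zero_iff (two_ne_zero)] at h
        rw [h] at hR; norm_num at hR
      · refine (by norm_num : (108 : ℂ) ≠ 0) ?_
        linear_combination (α ^ 3 - 10) * h - hR
  · refine exists_factor_one ?_ ?_
    · simp only [eval_sub, eval_mul, eval_pow, eval_add, eval_X, eval_one, eval_ofNat, eval_C]
      linear_combination -ha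
    · simp only [derivative_sub, derivative_mul, derivative_pow, derivative_add, derivative_X,
        derivative_one, derivative_C, derivative_ofNat, eval_sub, eval_mul, eval_pow, eval_add,
        eval_X, eval_one, eval_ofNat, eval_C, zero_mul, zero_add, add_zero, sub_zero]
      norm_num
      intro h
      have key : 81 * α ^ 2 * (α ^ 3 + 8) ^ 2 * (α ^ 3 - 1) ^ 2 *
          (α ^ 6 - 20 * α ^ 3 - 8) = 0 := by
        linear_combination (α ^ 3 - 1) ^ 3 * h + (9 * α ^ 2 * (α ^ 3 - 1) ^ 2) * ha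
      have hd : (α ^ 3 - 1) ^ 3 ≠ 0 := pow_ne_zero _ h1
      have hα : α ≠ 0 := fun h0 => hA (by
        refine (mul_eq_zero.mp (ha.trans ?_)).resolve_right hd
        rw [h0]; ring)
      have h8 : α ^ 3 + 8 ≠ 0 := fun h0 => hA (by
        refine (mul_eq_zero.mp (ha.trans ?_)).resolve_right hd
        rw [h0]; ring)
      have hR : α ^ 6 - 20 * α ^ 3 - 8 ≠ 0 := fun hR => hB (by
        refine mul_right_cancel₀ hd (ha.trans ?_)
        linear_combination 27 * (α ^ 6 - 20 * α ^ 3 - 8) * hR)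
      exact mul_ne_zero (mul_ne_zero (mul_ne_zero (mul_ne_zero (by norm_num) (pow_ne_zero 2 hα))
        (pow_ne_zero 2 h8)) (pow_ne_zero 2 h1)) hR key

/-- The roots `y` of `j(y) = j(t)`, for the Hesse `j`, lie in every field containing `t` and a
primitive cube root of unity. -/
theorem hesse_roots {M : Type*} [Field M] {S : Type*} [SetLike S M] [SubfieldClass S M] (G : S)
    {w t y : M} (hw : w ^ 2 + w + 1 = 0) (ht : t ^ 3 ≠ 1) (hwG : w ∈ G) (htG : t ∈ G)
    (h27 : (27 : M) ≠ 0)
    (h : y ^ 3 * (y ^ 3 + 8) ^ 3 * (t ^ 3 - 1) ^ 3 = t ^ 3 * (t ^ 3 + 8) ^ 3 * (y ^ 3 - 1) ^ 3) :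
    y ∈ G := by
  have hcube : ∀ z ∈ G, y ^ 3 = z ^ 3 → y ∈ G := fun z hz hyz => by
    have h0 : (y - z) * ((y - w * z) * (y - w ^ 2 * z)) = 0 := by
      linear_combination hyz + ((-y ^ 2 * z) + w * y * z ^ 2 - (w - 1) * z ^ 3) * hw
    rcases mul_eq_zero.mp h0 with h1 | h1
    · rwa [sub_eq_zero.mp h1]
    · rcases mul_eq_zero.mp h1 with h2 | h2
      · rw [sub_eq_zero.mp h2]; exact mul_mem hwG hz
      · rw [sub_eq_zero.mp h2]; exact mul_mem (pow_mem hwG 2) hz
  let f : M → M := fun t => y ^ 3 * (t - 1) ^ 3 - (t + 2) ^ 3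
  have key : (y ^ 3 - t ^ 3) * (f t * (f (w * t) * f (w ^ 2 * t))) = 0 := by
    set x : M := (y ^ 3 - 1) * t ^ 3 - (y ^ 3 + 8) with hx
    set Y : M := -3 * (y ^ 3 + 2) * t ^ 2 with hY
    set Z : M := 3 * (y ^ 3 - 4) * t with hZ
    have e0 : f t = x + Y + Z := by simp only [f, hx, hY, hZ]; ring
    have e1 : f (w * t) = x + w ^ 2 * Y + w * Z := by
      simp only [f, hx, hY, hZ]
      linear_combination ((y ^ 3 - 1) * t ^ 3 * (w - 1)) * hw
    have e2 : f (w ^ 2 * t) = x + w * Y + w ^ 2 * Z := by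
      simp only [f, hx, hY, hZ]
      linear_combination ((y ^ 3 - 1) * t ^ 3 * (w - 1) * (w ^ 3 + 1) +
        (-3 * y ^ 3 - 6) * t ^ 2 * w * (w - 1)) * hw
    have e3 : (x + w ^ 2 * Y + w * Z) * (x + w * Y + w ^ 2 * Z) =
        x ^ 2 + Y ^ 2 + Z ^ 2 - x * Y - x * Z - Y * Z := by
      linear_combination ((x * Y + x * Z) + (w - 1) * (Y ^ 2 + Z ^ 2) +
        (w ^ 2 - w + 1) * (Y * Z)) * hw
    rw [e0, e1, e2, e3]
    refine mul_left_cancel₀ h27 ?_
    simp only [hx, hY, hZ]
    linear_combination 27 * h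
  have hf : ∀ t ∈ G, t ^ 3 ≠ 1 → f t = 0 → y ∈ G := fun t htG ht h0 => by
    have ht1 : t - 1 ≠ 0 := fun h1 => ht (by rw [sub_eq_zero.mp h1, one_pow])
    refine hcube ((t + 2) / (t - 1)) ?_ ?_
    · have h2 : t + 2 = t + 1 + 1 := by ring
      rw [h2]
      exact div_mem (add_mem (add_mem htG (one_mem G)) (one_mem G)) (sub_mem htG (one_mem G))
    · rw [div_pow, eq_div_iff (pow_ne_zero _ ht1)]
      simp only [f] at h0
      linear_combination h0
  have hw3 : w ^ 3 = 1 := by linear_combination (w - 1) * hw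
  rcases mul_eq_zero.mp key with h1 | h1
  · exact hcube t htG (sub_eq_zero.mp h1)
  rcases mul_eq_zero.mp h1 with h2 | h2
  · exact hf t htG ht h2
  rcases mul_eq_zero.mp h2 with h3 | h3
  · exact hf _ (mul_mem hwG htG) (by rwa [mul_pow, hw3, one_mul]) h3
  · exact hf _ (mul_mem (pow_mem hwG 2) htG)
      (by rwa [mul_pow, ← pow_mul, show 2 * 3 = 3 * 2 from rfl, pow_mul, hw3, one_pow, one_mul]) h3

/-- Adjoining a cube root of unity and one root of the Hesse equation `j(t) = j₀` is Galois. -/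
theorem isGalois_adjoin_hesse {F₁ E : Type*} [Field F₁] [CharZero F₁] [Field E] [Algebra F₁ E]
    [IsAlgClosed E] [CharZero E] {j₀ : F₁} {om t : E} (hom : om ^ 2 + om + 1 = 0) (ht1 : t ^ 3 ≠ 1)
    (ht : 27 * t ^ 3 * (t ^ 3 + 8) ^ 3 = algebraMap F₁ E j₀ * (t ^ 3 - 1) ^ 3) :
    IsGalois F₁ (IntermediateField.adjoin F₁ ({om, t} : Set E)) ∧
      FiniteDimensional F₁ (IntermediateField.adjoin F₁ ({om, t} : Set E)) := by
  have h27 : (27 : E) ≠ 0 := by norm_num
  set M := IntermediateField.adjoin F₁ ({om, t} : Set E)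
  have homM : om ∈ M := IntermediateField.subset_adjoin F₁ _ (Set.mem_insert _ _)
  have htM : t ∈ M := IntermediateField.subset_adjoin F₁ _ (Set.mem_insert_of_mem _ rfl)
  refine isGalois_adjoin_of_roots
    ((27 * X ^ 3 * (X ^ 3 + 8) ^ 3 - Polynomial.C j₀ * (X ^ 3 - 1) ^ 3) *
      (X ^ 2 + X + 1)) ?_ (fun x hx => ?_) fun y hy => ?_
  · intro h0
    have h1 := congrArg (fun P : Polynomial F₁ => P.eval 1) h0
    simp at h1
    rcases h1 with h1 | h1 <;> norm_num at h1
  · rcases hx with rfl | hx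
    · simp only [map_mul, map_add, map_pow, aeval_X, map_one, hom, mul_zero]
    · rw [Set.mem_singleton_iff] at hx
      subst hx
      simp only [map_sub, map_mul, map_pow, map_add, aeval_X, aeval_C, map_one, map_ofNat]
      linear_combination (x ^ 2 + x + 1) * ht
  · simp only [map_sub, map_mul, map_pow, map_add, aeval_X, aeval_C, map_one, map_ofNat,
      mul_eq_zero] at hy
    rcases hy with hy | hy
    · refine hesse_roots M hom ht1 homM htM h27 (mul_left_cancel₀ h27 ?_)
      linear_combination (t ^ 3 - 1) ^ 3 * hy - (y ^ 3 - 1) ^ 3 * ht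
    · have h2 : (y - om) * (y - (-1 - om)) = 0 := by linear_combination hy - hom
      rcases mul_eq_zero.mp h2 with h3 | h3
      · rw [sub_eq_zero.mp h3]; exact homM
      · rw [sub_eq_zero.mp h3]; exact sub_mem (neg_mem (one_mem M)) homM

variable (N : ℕ) [NeZero N]

set_option quotPrecheck false in
local notation "ℤℓ" => ↥(GaloisRep.ratLocalizedAt 2)

set_option quotPrecheck false in
local notation "F" => ↥(modularFunctionFieldFull N)

/-- Odd numerals are units of `ℤ_(2)`. -/
theorem exists_inv_odd (k : ℕ) [k.AtLeastTwo] (hk : ¬ 2 ∣ k) :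
    ∃ u : ℤℓ, u * (OfNat.ofNat k : ℤℓ) = 1 := by
  have h : IsUnit (OfNat.ofNat k : ℤℓ) := by
    rw [isUnit_iff_redZ_ne_zero, map_ofNat,
      show (OfNat.ofNat k : ZMod 2) = (k : ZMod 2) from (Nat.cast_ofNat (R := ZMod 2)).symm, Ne,
      ZMod.natCast_eq_zero_iff]
    exact hk
  exact ⟨↑(h.unit⁻¹), h.val_inv_mul⟩

/-- Every value is taken by the Hesse `j`. -/
theorem exists_hesse_root {E : Type*} [Field E] [IsAlgClosed E] [CharZero E] (j : E) :
    ∃ t : E, 27 * t ^ 3 * (t ^ 3 + 8) ^ 3 = j * (t ^ 3 - 1) ^ 3 := by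
  have h27 : (27 : E) ≠ 0 := by norm_num
  set P : E[X] := 27 * X ^ 3 * (X ^ 3 + 8) ^ 3 - Polynomial.C j * (X ^ 3 - 1) ^ 3 with hP
  have hc : P.coeff 12 ≠ 0 := by
    have : P.coeff 12 = 27 := by
      rw [hP, show (27 : E[X]) = Polynomial.C 27 from (map_ofNat _ _).symm,
        show (8 : E[X]) = Polynomial.C 8 from (map_ofNat _ _).symm]
      compute_degree!
    rw [this]
    exact h27
  have hdeg : P.degree ≠ 0 := fun hd =>
    hc (coeff_eq_zero_of_degree_lt (hd.trans_lt (by norm_num)))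
  obtain ⟨t, ht⟩ := IsAlgClosed.exists_root P hdeg
  refine ⟨t, ?_⟩
  simp only [hP, IsRoot.def, eval_sub, eval_mul, eval_pow, eval_add, eval_X, eval_one,
    eval_ofNat, eval_C] at ht
  linear_combination ht

/-- The coordinate and the inverse of `lam ^ 3 - 1` are integral over the Hesse `j`. -/
theorem hesse_isIntegralElem {C : Type*} [CommRing C] [Algebra ℤℓ C] {lam w tC : C}
    (hunit : (lam ^ 3 - 1) * w = 1) (htC' : tC = 27 * lam ^ 3 * (lam ^ 3 + 8) ^ 3 * w ^ 3) :
    (aeval (R := ℤℓ) tC).toRingHom.IsIntegralElem lam ∧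
      (aeval (R := ℤℓ) tC).toRingHom.IsIntegralElem w := by
  obtain ⟨u, hu⟩ := exists_inv_odd 19683 (by norm_num)
  obtain ⟨u', hu'⟩ := exists_inv_odd 27 (by norm_num)
  obtain ⟨v, hv⟩ := exists_inv_odd 9 (by norm_num)
  have hw3 : ((lam ^ 3 - 1) * w) ^ 3 = 1 := by rw [hunit, one_pow]
  have hmapeq : ∀ (u : ℤℓ) (k : ℕ) [k.AtLeastTwo], u * (OfNat.ofNat k : ℤℓ) = 1 →
      algebraMap ℤℓ C u * (OfNat.ofNat k : C) = 1 := fun u k _ hu => by
    rw [← map_ofNat (algebraMap ℤℓ C) k, ← map_mul, hu, map_one]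
  have cu := hmapeq u 19683 hu
  have cu' := hmapeq u' 27 hu'
  have cv := hmapeq v 9 hv
  constructor
  · refine ⟨X ^ 3 * (X ^ 3 + 8) ^ 3 - Polynomial.C (Polynomial.C u' * X) * (X ^ 3 - 1) ^ 3, ?_, ?_⟩
    · monicity!
    · rw [← coe_eval₂RingHom]
      simp only [map_sub, map_mul, map_pow, map_add, map_one, map_ofNat, coe_eval₂RingHom, eval₂_X,
        eval₂_C, AlgHom.toRingHom_eq_coe, RingHom.coe_coe, aeval_C, aeval_X]
      rw [htC']
      linear_combination (-(lam ^ 3 * (lam ^ 3 + 8) ^ 3) * ((lam ^ 3 - 1) * w) ^ 3) * cu' -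
        (lam ^ 3 * (lam ^ 3 + 8) ^ 3) * hw3
  · refine ⟨(X + 1) * (X + Polynomial.C (Polynomial.C v)) ^ 3 -
      Polynomial.C (Polynomial.C u * X) * X, ?_, ?_⟩
    · monicity!
    · rw [← coe_eval₂RingHom]
      simp only [map_sub, map_mul, map_pow, map_add, map_one, coe_eval₂RingHom, eval₂_X,
        eval₂_C, AlgHom.toRingHom_eq_coe, RingHom.coe_coe, aeval_C, aeval_X]
      have e1 : tC * w = 27 * (w + 1) * (9 * w + 1) ^ 3 := by
        rw [htC', show (w + 1) = lam ^ 3 * w by linear_combination -hunit,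
          show (9 * w + 1) = (lam ^ 3 + 8) * w by linear_combination -hunit]
        ring
      linear_combination -(algebraMap ℤℓ C u) * e1 -
        (algebraMap ℤℓ C u * (w + 1) * 27 *
          ((9 * w + 1) ^ 2 + (9 * w + 1) * (9 * (w + algebraMap ℤℓ C v))
          + (9 * (w + algebraMap ℤℓ C v)) ^ 2)) * (- cv) -
        ((w + 1) * (w + algebraMap ℤℓ C v) ^ 3) * cu

variable (K : Type*) [Field K] [IsAlgClosed K] [CharP K 2]
  [Algebra ↥(GaloisRep.ratLocalizedAt 2) K]

/-- The fibre of the finite chart is normal for `ℓ = 2`. -/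
theorem normal_fin_hesse (hℓN : ¬ 2 ∣ N)
    (n : Ideal (K ⊗[ℤℓ] chartAlg N 2 {jFull N})) (hn : n.IsMaximal)
    (a b : K ⊗[ℤℓ] chartAlg N 2 {jFull N}) (hb : b ≠ 0)
    (p : (K ⊗[ℤℓ] chartAlg N 2 {jFull N})[X]) (hp : p.Monic)
    (hpa : (p.scaleRoots b).eval a = 0) : ∃ u ∉ n, u * a ∈ Ideal.span {b} := by
  classical
  have := isPrincipalIdealRing_ratLocalizedAt 2
  have := isDomain_eisBase
  have := isPrincipalIdealRing_eisBase
  have := finite_eisBase
  set h : EisBase[X] := X ^ 3 - 1 with hh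
  let C := Localization.Away h
  set lam : C := algebraMap EisBase[X] C X with hlam
  set w : C := IsLocalization.Away.invSelf h with hw
  have hunit : (lam ^ 3 - 1) * w = 1 := by
    have h1 := IsLocalization.Away.mul_invSelf (S := C) h
    rw [show algebraMap EisBase[X] C h = lam ^ 3 - 1 from
      (map_sub (algebraMap EisBase[X] C) (X ^ 3) 1).trans (by rw [map_pow, map_one])] at h1
    exact h1
  set tC : C := hesN.eval₂ (Int.castRingHom C) lam * w ^ 3 with htC
  have htC' : tC = 27 * lam ^ 3 * (lam ^ 3 + 8) ^ 3 * w ^ 3 := by rw [htC, eval₂_hesN]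
  have hw3 : ((lam ^ 3 - 1) * w) ^ 3 = 1 := by rw [hunit, one_pow]
  have hrel : tC * hesD.eval₂ (Int.castRingHom C) lam = hesN.eval₂ (Int.castRingHom C) lam := by
    rw [eval₂_hesD, eval₂_hesN, htC']
    linear_combination (27 * lam ^ 3 * (lam ^ 3 + 8) ^ 3) * hw3
  have hDd : IsUnit (hesD.eval₂ (Int.castRingHom C) lam) := by
    refine IsUnit.of_mul_eq_one (w ^ 3) ?_
    rw [eval₂_hesD]
    linear_combination hw3
  obtain ⟨hint_lam, hint_inv⟩ := hesse_isIntegralElem hunit htC'
  -- the field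
  let E := AlgebraicClosure F
  set j : E := algebraMap F E (jFull N) with hj
  obtain ⟨om, hom⟩ : ∃ om : E, om ^ 2 + om + 1 = 0 := by
    obtain ⟨r, hr⟩ := IsAlgClosed.exists_root (X ^ 2 + X + 1 : E[X]) (by
      have : (X ^ 2 + X + 1 : E[X]).degree = 2 := by compute_degree!
      rw [this]; decide)
    exact ⟨r, by simpa using hr⟩
  have h27 : (27 : E) ≠ 0 := by norm_num
  obtain ⟨t, ht⟩ := exists_hesse_root j
  have ht1 : t ^ 3 ≠ 1 := fun h0 => (mul_ne_zero h27 (by norm_num : (729 : E) ≠ 0)) (by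
    rw [h0] at ht; linear_combination ht)
  have hdt : (t ^ 3 - 1) ^ 3 ≠ 0 := pow_ne_zero _ (sub_ne_zero.mpr ht1)
  let M := IntermediateField.adjoin F ({om, t} : Set E)
  have homM : om ∈ M := IntermediateField.subset_adjoin F _ (Set.mem_insert _ _)
  have htM : t ∈ M := IntermediateField.subset_adjoin F _ (Set.mem_insert_of_mem _ rfl)
  set tM : M := ⟨t, htM⟩ with htM'
  set oM : M := ⟨om, homM⟩ with hoM'
  obtain ⟨hgal, hfd⟩ : IsGalois F M ∧ FiniteDimensional F M := isGalois_adjoin_hesse hom ht1 ht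
  have : CharZero M := charZero_of_injective_ringHom (algebraMap F M).injective
  let g₀ : ℤℓ →+* M := (algebraMap F M).comp (algebraMap ℤℓ F)
  have hg₀inj : Function.Injective g₀ := injective_comp_algebraMap_base N 2 (algebraMap F M)
  let gO : EisBase →+* M := AdjoinRoot.lift g₀ oM (by
    simp only [eisPoly, eval₂_add, eval₂_X_pow, eval₂_X, eval₂_one]
    exact Subtype.ext (by simpa [hoM'] using hom))
  have hgOinj : Function.Injective gO := by
    rw [injective_iff_map_eq_zero]
    intro e he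
    by_contra h0
    obtain ⟨k, e', hk, rfl⟩ := WfDvdMonoid.max_power_factor h0 eis_prime_two.irreducible
    rw [map_mul, ((eis_isUnit_or_dvd e').resolve_right hk |>.map gO).mul_left_eq_zero, map_pow,
      pow_eq_zero_iff'] at he
    refine (prime_natCast_self 2).ne_zero (hg₀inj ?_)
    rw [map_zero, ← he.1, AdjoinRoot.algebraMap_eq, AdjoinRoot.lift_of]
  have hgu : IsUnit ((eval₂RingHom gO tM) h) := by
    refine IsUnit.mk0 _ fun h0 => sub_ne_zero.mpr ht1 ?_
    have := congrArg Subtype.val h0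
    simpa [hh, htM'] using this
  have hrelM : algebraMap F M (jFull N) * hesD.eval₂ (Int.castRingHom M) tM =
      hesN.eval₂ (Int.castRingHom M) tM := by
    rw [eval₂_hesD, eval₂_hesN]
    apply (algebraMap M E).injective
    simp only [map_mul, map_pow, map_sub, map_add, map_one, map_ofNat,
      ← IsScalarTower.algebraMap_apply, ← hj, show algebraMap M E tM = t from rfl]
    linear_combination -ht
  have hDM : hesD.eval₂ (Int.castRingHom M) tM ≠ 0 := by
    rw [eval₂_hesD]
    exact fun h0 => hdt (by simpa [htM'] using congrArg Subtype.val h0)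
  have htr := transcendental_of_relation (algebraMap F M) hesN hesD hDM (Or.inl rfl) hrelM
  let σ : C →+* M := IsLocalization.Away.lift h hgu
  have hσP : ∀ P : EisBase[X], σ (algebraMap EisBase[X] C P) = eval₂ gO tM P := fun P =>
    IsLocalization.Away.lift_eq h hgu P
  have hσlam : σ lam = tM := by rw [hlam, hσP, eval₂_X]
  have hσom : σ (algebraMap EisBase[X] C (Polynomial.C eisRoot)) = oM := by
    rw [hσP, eval₂_C]; exact AdjoinRoot.lift_root _
  have hσt : σ tC = algebraMap F M (jFull N) :=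
    map_eq_of_rel σ hesN hesD hrel (hσlam.symm ▸ hrelM) (hσlam.symm ▸ hDM)
  have hmon : h.Monic := by
    rw [hh, ← map_one Polynomial.C]
    exact monic_X_pow_sub_C (1 : EisBase) (by norm_num)
  refine normal_of_cover N 2 (K := K) (M := M) (C := C) hℓN (Or.inl rfl) 1 (h := h)
    eis_prime_two ?_ (pointsHyp_eisBase K h hmon) hesN hesD tC hrel hDd hint_lam hint_inv σ
    (away_lift_injective h hgu (eval₂_injective_of_transcendental 2 gO hgOinj htr)) hσt
    (fun G hGF hGσ => subfield_eq_top_of_adjoin G hGF fun x hx => ?_) (Or.inl ⟨hgal, rfl⟩)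
    (fun χ _ => ?_) n hn ?_ a b hb p hp hpa
  · rw [Polynomial.C_dvd_iff_dvd_coeff]
    intro hd
    exact eis_prime_two.not_dvd_one (by simpa [hh] using hd 0)
  · rcases hx with rfl | hx
    · have := hGσ (algebraMap EisBase[X] C (Polynomial.C eisRoot))
      rwa [hσom] at this
    · rw [Set.mem_singleton_iff] at hx
      subst hx
      have := hGσ lam
      rwa [hσlam] at this
  · set α := χ lam with hα
    have hrel' : χ tC * (α ^ 3 - 1) ^ 3 = 27 * α ^ 3 * (α ^ 3 + 8) ^ 3 := by
      have := congrArg χ hrel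
      rw [eval₂_hesD, eval₂_hesN] at this
      clear_value tC
      simpa only [map_mul, map_pow, map_add, map_sub, map_one, map_ofNat, ← hα] using this
    have hαh : α ^ 3 - 1 ≠ 0 := by
      have := congrArg χ hunit
      rw [map_mul, map_sub, map_pow, map_one, ← hα] at this
      exact left_ne_zero_of_mul_eq_one this
    exact exists_local_fin N (χ tC) α _ _ (hesse_factor hαh hrel')
  · rw [map_one, ← Algebra.TensorProduct.one_def]
    exact fun h1 => hn.ne_top ((Ideal.eq_top_iff_one n).mpr h1)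

end Fermat.Agent.Igusa
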