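import Mathlib
import Fermat.Agent.Igusa.SmoothCoverCommon

/-!
# The chart at infinity: the cover `1 / j = s ^ N`

The cover shows that the infinite chart of `X₀(N)` is normal near `j = ∞` on the special fibre.
-/

noncomputable section

open Polynomial ModularCurve ModularCurve.IgusaScheme
open scoped TensorProduct

namespace Fermat.Agent.Igusa

variable (N : ℕ) [NeZero N] (ℓ : ℕ) [hℓ : Fact ℓ.Prime]

set_option quotPrecheck false in
local notation "ℤℓ" => ↥(GaloisRep.ratLocalizedAt ℓ)

set_option quotPrecheck false in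
local notation "F" => ↥(modularFunctionFieldFull N)

/-- The good locus of the chart at infinity. -/
def infGood : ℤℓ[X] := 1 - 1728 * X

/-- `1 / j` has order one at the cusp. -/
theorem order_inv_jFull : ((((jFull N)⁻¹ : F) : LaurentSeries ℚ)).order = 1 := by
  have h0 : jqModC ℚ ≠ 0 := jqModC_ne_zero_of_nontrivial ℚ
  have hc : (jqModC ℚ).coeff (-1) ≠ 0 := by
    rw [coeff_jqModC_neg_one]; exact one_ne_zero
  have h3 : (jqModC ℚ).order = -1 := by
    refine le_antisymm (HahnSeries.order_le_of_coeff_ne_zero hc) ?_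
    by_contra hlt
    exact HahnSeries.coeff_order_eq_zero.not.mpr h0 (coeff_jqModC_of_lt ℚ (not_le.mp hlt))
  show ((jqModC ℚ)⁻¹).order = 1
  have h2 := HahnSeries.order_mul h0 (inv_ne_zero h0)
  rw [mul_inv_cancel₀ h0, HahnSeries.order_one] at h2
  omega

/-- Extracting an `N`-th root of `1 / j` has degree `N`. -/
theorem finrank_adjoin_root_inv_jFull {E : Type*} [Field E] [Algebra F E] {s : E}
    (hs : s ^ N = algebraMap F E (jFull N)⁻¹) :
    Module.finrank F (IntermediateField.adjoin F ({s} : Set E)) = N := by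
  set a : F := (jFull N)⁻¹ with ha
  have hN : 0 < N := NeZero.pos N
  have hint : IsIntegral F s := ⟨X ^ N - Polynomial.C a, monic_X_pow_sub_C a hN.ne',
    by rw [eval₂_sub, eval₂_X_pow, eval₂_C, hs, sub_self]⟩
  rw [IntermediateField.adjoin.finrank hint]
  refine le_antisymm ?_ ?_
  · refine (natDegree_le_of_dvd (minpoly.dvd F s ?_) (monic_X_pow_sub_C a hN.ne').ne_zero).trans_eq
      (natDegree_X_pow_sub_C)
    rw [map_sub, map_pow, aeval_X, aeval_C, hs, sub_self]
  · rw [← IntermediateField.adjoin.finrank hint]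
    have := IntermediateField.adjoin.finiteDimensional hint
    set M := IntermediateField.adjoin F ({s} : Set E)
    set d := Module.finrank F M
    have hsM : (⟨s, IntermediateField.mem_adjoin_simple_self F s⟩ : M) ^ N = algebraMap F M a :=
      Subtype.ext hs
    have h1 := congrArg (Algebra.norm F) hsM
    rw [map_pow, Algebra.norm_algebraMap] at h1
    have h2 := congrArg (fun z : F => (z : LaurentSeries ℚ).order) h1
    simp only [SubmonoidClass.coe_pow, HahnSeries.order_pow, order_inv_jFull, ha]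
      at h2
    have hd : 0 < d := Module.finrank_pos
    simp only [nsmul_eq_mul, mul_one] at h2
    exact Nat.le_of_dvd hd (Int.natCast_dvd_natCast.mp ⟨_, h2.symm⟩)

variable (K : Type*) [Field K] [IsAlgClosed K] [CharP K ℓ]
  [Algebra ↥(GaloisRep.ratLocalizedAt ℓ) K]

include ℓ in
/-- The fibre of the infinite chart is normal near `j = ∞`. -/
theorem normal_inf_cover (hℓN : ¬ ℓ ∣ N)
    (n : Ideal (K ⊗[ℤℓ] chartAlg N ℓ {(jFull N)⁻¹})) (hn : n.IsMaximal)
    (hgood : (1 : K) ⊗ₜ[ℤℓ] aeval (R := ℤℓ)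
      (⟨(jFull N)⁻¹, subset_chartAlg N ℓ _ rfl⟩ : chartAlg N ℓ {(jFull N)⁻¹}) (infGood ℓ) ∉ n)
    (a b : K ⊗[ℤℓ] chartAlg N ℓ {(jFull N)⁻¹}) (hb : b ≠ 0)
    (p : (K ⊗[ℤℓ] chartAlg N ℓ {(jFull N)⁻¹})[X]) (hp : p.Monic)
    (hpa : (p.scaleRoots b).eval a = 0) : ∃ u ∉ n, u * a ∈ Ideal.span {b} := by
  classical
  have := isPrincipalIdealRing_ratLocalizedAt ℓ
  set h : ℤℓ[X] := 1 with hh
  let C := Localization.Away h
  set lam : C := algebraMap ℤℓ[X] C X with hlam
  set w : C := IsLocalization.Away.invSelf h with hw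
  have hw1 : w = 1 := by
    have h1 := IsLocalization.Away.mul_invSelf (S := C) h
    rwa [show algebraMap ℤℓ[X] C h = 1 from map_one (algebraMap ℤℓ[X] C), one_mul] at h1
  set Nn : ℤ[X] := X ^ N with hNn
  set tC : C := lam ^ N with htC
  have hrel : tC * (1 : ℤ[X]).eval₂ (Int.castRingHom C) lam =
      Nn.eval₂ (Int.castRingHom C) lam := by
    rw [hNn, eval₂_one, eval₂_X_pow, mul_one]
  have hDd : IsUnit ((1 : ℤ[X]).eval₂ (Int.castRingHom C) lam) := by
    rw [eval₂_one]; exact isUnit_one
  have hint_lam : (aeval (R := ℤℓ) tC).toRingHom.IsIntegralElem lam := by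
    refine ⟨X ^ N - Polynomial.C X, monic_X_pow_sub_C _ (NeZero.ne N), ?_⟩
    simp only [eval₂_sub, eval₂_X_pow, eval₂_C, AlgHom.toRingHom_eq_coe, RingHom.coe_coe, aeval_X]
    exact sub_self _
  have hint_inv : (aeval (R := ℤℓ) tC).toRingHom.IsIntegralElem w := by
    refine ⟨X - Polynomial.C 1, monic_X_sub_C _, ?_⟩
    rw [eval₂_sub, eval₂_X, eval₂_C, map_one, hw1, sub_self]
  -- the field
  let E := AlgebraicClosure F
  obtain ⟨s, hs⟩ := IsAlgClosed.exists_pow_nat_eq (algebraMap F E (jFull N)⁻¹) (NeZero.pos N)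
  let M := IntermediateField.adjoin F ({s} : Set E)
  set sM : M := ⟨s, IntermediateField.mem_adjoin_simple_self F s⟩ with hsM
  have hint : IsIntegral F s := ⟨X ^ N - Polynomial.C (jFull N)⁻¹,
    monic_X_pow_sub_C _ (NeZero.ne N),
    by rw [eval₂_sub, eval₂_X_pow, eval₂_C, hs, sub_self]⟩
  have : FiniteDimensional F M := IntermediateField.adjoin.finiteDimensional hint
  have hrank : Module.finrank F M = N := finrank_adjoin_root_inv_jFull N hs
  have : CharZero M := charZero_of_injective_ringHom (algebraMap F M).injective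
  have hunitN : IsUnit (N : ℤℓ) := by
    rw [isUnit_iff_redZ_ne_zero, map_natCast, Ne, ZMod.natCast_eq_zero_iff]
    exact hℓN
  let gO : ℤℓ →+* M := (algebraMap F M).comp (algebraMap ℤℓ F)
  have hgu : IsUnit ((eval₂RingHom gO sM) h) := by rw [hh, map_one]; exact isUnit_one
  have hsM' : sM ^ N = algebraMap F M (jFull N)⁻¹ := Subtype.ext hs
  have hDM : (1 : ℤ[X]).eval₂ (Int.castRingHom M) sM ≠ 0 := by
    rw [eval₂_one]; exact one_ne_zero
  have hrelM : algebraMap F M (jFull N)⁻¹ * (1 : ℤ[X]).eval₂ (Int.castRingHom M) sM =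
      Nn.eval₂ (Int.castRingHom M) sM := by
    rw [hNn, eval₂_one, eval₂_X_pow, mul_one, hsM']
  have htr := transcendental_of_relation (algebraMap F M) Nn 1 hDM (Or.inr rfl) hrelM
  have hgOinj : Function.Injective gO := injective_comp_algebraMap_base N ℓ (algebraMap F M)
  let σ : C →+* M := IsLocalization.Away.lift h hgu
  have hσlam : σ lam = sM := by
    rw [hlam]
    exact (IsLocalization.Away.lift_eq h hgu X).trans (eval₂_X _ _)
  have hσt : σ tC = algebraMap F M (jFull N)⁻¹ := by rw [htC, map_pow, hσlam, hsM']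
  refine normal_of_cover N ℓ (K := K) (M := M) (C := C) hℓN (Or.inr rfl) (infGood ℓ) (h := h)
    (prime_natCast_self ℓ) ?_ (pointsHyp_base ℤℓ K h ?_) Nn 1 tC hrel hDd hint_lam hint_inv σ
    (away_lift_injective h hgu (eval₂_injective_of_transcendental ℓ gO hgOinj htr)) hσt
    (fun G hGF hGσ => subfield_eq_top_of_adjoin G hGF fun x hx => ?_)
    (Or.inr ⟨↑(hunitN.unit⁻¹), by rw [hrank]; exact hunitN.val_inv_mul⟩)
    (fun χ hχ => ?_) n hn hgood a b hb p hp hpa
  · rw [Polynomial.C_dvd_iff_dvd_coeff]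
    intro hd
    exact (prime_natCast_self ℓ).not_dvd_one (by simpa [hh] using hd 0)
  · rw [hh, Polynomial.map_one]; exact one_ne_zero
  · rw [Set.mem_singleton_iff] at hx
    subst hx
    have := hGσ lam
    rwa [hσlam] at this
  · set α := χ lam with hα
    have hχt : χ tC = α ^ N := by rw [htC, map_pow]
    have hne : 1 - 1728 * α ^ N ≠ 0 := by
      intro h0; refine hχ ?_
      rw [infGood]
      simpa only [map_sub, map_mul, map_one, map_ofNat, aeval_X, hχt] using h0
    rw [HasLocalExpansion, hNn, Polynomial.map_one, Polynomial.map_pow, Polynomial.map_X,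
      mul_one, hχt]
    by_cases hα0 : α = 0
    · obtain ⟨ψ, g, hg, hg0⟩ := exists_expansion_cusp N
      refine ⟨ψ, PowerSeries.X ^ N * g, g, N, 1, NeZero.ne N, by rw [hg0]; exact one_ne_zero,
        fun φ hφ => ?_, ?_, by rw [eval_one]; exact one_ne_zero, ?_⟩
      · rw [map_inv₀, hφ]
        exact (eq_inv_of_mul_eq_one_right hg).symm
      · rw [hα0, zero_pow (NeZero.ne N), map_zero, sub_zero]
      · simp [hα0, zero_pow (NeZero.ne N)]
    · set c : ℂ := α ^ N with hc
      have hc0 : c ≠ 0 := pow_ne_zero _ hα0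
      obtain ⟨ψ, g, hh', hψ, hg, hg0⟩ := exists_expansion_at N c⁻¹
      have he : ellIndex c⁻¹ = 1 := by
        unfold ellIndex
        rw [if_neg (inv_ne_zero hc0), if_neg]
        intro h0
        refine hne ?_
        rw [← h0]
        field_simp
        ring
      rw [he, pow_one] at hg
      have hgc : PowerSeries.constantCoeff g = c⁻¹ := by
        have := congrArg PowerSeries.constantCoeff hg
        simpa [sub_eq_zero] using this
      have hgu : g * g⁻¹ = 1 := PowerSeries.mul_inv_cancel g (by rw [hgc]; exact inv_ne_zero hc0)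
      obtain ⟨G, hG, hG'⟩ := exists_factor_one (P := X ^ N - Polynomial.C c) (α := α)
        (by rw [eval_sub, eval_X_pow, eval_C, hc, sub_self])
        (by rw [derivative_sub, derivative_X_pow, derivative_C, sub_zero, eval_mul, eval_C,
              eval_X_pow]
            exact mul_ne_zero (Nat.cast_ne_zero.mpr (NeZero.ne N)) (pow_ne_zero _ hα0))
      refine ⟨ψ, g⁻¹, -(PowerSeries.C c) * g⁻¹ * hh', 1, G, one_ne_zero, ?_, fun φ hφ => ?_, ?_,
        hG, hG'⟩
      · rw [map_mul, map_mul, map_neg, PowerSeries.constantCoeff_C, PowerSeries.constantCoeff_inv,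
          hgc, inv_inv]
        exact mul_ne_zero (mul_ne_zero (neg_ne_zero.mpr hc0) hc0) hg0
      · rw [map_inv₀, hφ, hψ]
        exact inv_eq_of_mul_eq_one_right (by rw [← map_mul, hgu, map_one])
      · have hcc : PowerSeries.C c * PowerSeries.C c⁻¹ = 1 := by
          rw [← map_mul, mul_inv_cancel₀ hc0, map_one]
        linear_combination -(PowerSeries.C c * g⁻¹) * hg + PowerSeries.C c * hgu - g⁻¹ * hcc

end Fermat.Agent.Igusa
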