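import Mathlib
import Fermat.Agent.Igusa.SmoothCoverCommon

/-!
# The finite chart for `ℓ ≠ 2`: the Legendre cover `j = 256 (λ² - λ + 1)³ / (λ² (λ - 1)²)`

The cover has good fibre in odd characteristic, so the finite chart of `X₀(N)` is normal there.
-/

noncomputable section

open Polynomial ModularCurve ModularCurve.IgusaScheme
open scoped TensorProduct

namespace Fermat.Agent.Igusa

/-- Numerator of the Legendre `j`. -/
def legN : ℤ[X] := 256 * (X ^ 2 - X + 1) ^ 3

/-- Denominator of the Legendre `j`. -/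
def legD : ℤ[X] := X ^ 2 * (X - 1) ^ 2

theorem eval₂_legN {R : Type*} [CommRing R] (f : ℤ →+* R) (x : R) :
    legN.eval₂ f x = 256 * (x ^ 2 - x + 1) ^ 3 := by
  rw [legN, ← coe_eval₂RingHom, map_mul, map_pow, map_add, map_sub, map_pow, map_ofNat, map_one]
  simp

theorem eval₂_legD {R : Type*} [CommRing R] (f : ℤ →+* R) (x : R) :
    legD.eval₂ f x = x ^ 2 * (x - 1) ^ 2 := by
  rw [legD, ← coe_eval₂RingHom, map_mul, map_pow, map_pow, map_sub, map_one]
  simp

theorem map_legN {R : Type*} [CommRing R] (f : ℤ →+* R) :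
    legN.map f = 256 * (X ^ 2 - X + 1) ^ 3 := by simp [legN]

theorem map_legD {R : Type*} [CommRing R] (f : ℤ →+* R) :
    legD.map f = X ^ 2 * (X - 1) ^ 2 := by simp [legD]

/-- The ramification of the Legendre cover is the elliptic one. -/
theorem legendre_factor {a α : ℂ} (h0 : α ≠ 0) (h1 : α ≠ 1)
    (ha : a * (α ^ 2 * (α - 1) ^ 2) = 256 * (α ^ 2 - α + 1) ^ 3) :
    ∃ G : ℂ[X], G.eval α ≠ 0 ∧
      legN.map (Int.castRingHom ℂ) - Polynomial.C a * legD.map (Int.castRingHom ℂ) =
        (X - Polynomial.C α) ^ ellIndex a * G := by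
  rw [map_legN, map_legD]
  have hd : α ^ 2 * (α - 1) ^ 2 ≠ 0 :=
    mul_ne_zero (pow_ne_zero _ h0) (pow_ne_zero _ (sub_ne_zero.mpr h1))
  unfold ellIndex
  split_ifs with hA hB
  · subst hA
    rw [zero_mul, eq_comm, mul_eq_zero, pow_eq_zero_iff three_ne_zero] at ha
    have hq : α ^ 2 - α + 1 = 0 := ha.resolve_left (by norm_num)
    refine exists_factor_pow (c := 256) (R := X ^ 2 - X + 1) ?_ (by norm_num) (by simp [hq]) ?_
    · rw [map_zero, zero_mul, sub_zero, map_ofNat]
    · simp only [derivative_add, derivative_sub, derivative_X_pow, derivative_X, derivative_one,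
        add_zero, eval_sub, eval_mul, eval_C, eval_pow, eval_X, eval_one]
      intro h
      refine (by norm_num : (3 : ℂ) ≠ 0) ?_
      linear_combination 4 * hq - (2 * α - 1) * (by push_cast at h; linear_combination h :
        2 * α - 1 = 0)
  · subst hB
    have hid : (256 : ℂ) * (α ^ 2 - α + 1) ^ 3 - 1728 * (α ^ 2 * (α - 1) ^ 2) =
        64 * ((α + 1) * (α - 2) * (2 * α - 1)) ^ 2 := by ring
    have hR : (α + 1) * (α - 2) * (2 * α - 1) = 0 := by
      rw [← ha, sub_self, eq_comm, mul_eq_zero, pow_eq_zero_iff two_ne_zero] at hid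
      exact hid.resolve_left (by norm_num)
    refine exists_factor_pow (c := 64) (R := (X + 1) * (X - 2) * (2 * X - 1)) ?_ (by norm_num)
      (by simpa using hR) ?_
    · rw [show Polynomial.C (1728 : ℂ) = 1728 from map_ofNat _ _,
        show Polynomial.C (64 : ℂ) = 64 from map_ofNat _ _]
      ring
    · simp only [derivative_mul, derivative_add, derivative_sub, derivative_X, derivative_one,
        derivative_ofNat, eval_add, eval_sub, eval_mul, eval_X, eval_one, eval_ofNat,
        zero_mul, zero_add, add_zero, sub_zero, one_mul]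
      rcases mul_eq_zero.mp hR with h | h
      · rcases mul_eq_zero.mp h with h | h
        · rw [eq_neg_of_add_eq_zero_left h]; norm_num
        · rw [sub_eq_zero.mp h]; norm_num
      · rw [show α = 1 / 2 by linear_combination (1 / 2 : ℂ) * h]; norm_num
  · refine exists_factor_one ?_ ?_
    · simp only [eval_sub, eval_mul, eval_pow, eval_add, eval_X, eval_one, eval_ofNat, eval_C]
      linear_combination -ha
    · simp only [derivative_sub, derivative_mul, derivative_pow, derivative_add, derivative_X,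
        derivative_one, derivative_C, derivative_ofNat, eval_sub, eval_mul, eval_pow, eval_add,
        eval_X, eval_one, eval_ofNat, eval_C, zero_mul, zero_add,
        add_zero, sub_zero]
      norm_num
      intro h
      have key : (α ^ 2 - α + 1) ^ 2 * (α * (α - 1) * ((α + 1) * (α - 2) * (2 * α - 1))) = 0 := by
        linear_combination (1 / 256 : ℂ) * (α ^ 2 * (α - 1) ^ 2) * h +
          (1 / 256 : ℂ) * (2 * α * (α - 1) ^ 2 + α ^ 2 * (2 * (α - 1))) * ha
      have hq : α ^ 2 - α + 1 ≠ 0 := fun hq => hA (by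
        rw [hq, zero_pow three_ne_zero, mul_zero, mul_eq_zero] at ha
        exact ha.resolve_right hd)
      have hR : (α + 1) * (α - 2) * (2 * α - 1) ≠ 0 := fun hR => hB (by
        refine mul_right_cancel₀ hd (ha.trans ?_)
        linear_combination 64 * ((α + 1) * (α - 2) * (2 * α - 1)) * hR)
      exact mul_ne_zero (pow_ne_zero 2 hq)
        (mul_ne_zero (mul_ne_zero h0 (sub_ne_zero.mpr h1)) hR) key

/-- The six roots `y` of `j(y) = j(l)`, for the Legendre `j`. -/
theorem legendre_roots {M : Type*} [Field M] {l y : M} (h0 : l ≠ 0) (h1 : l ≠ 1)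
    (h : (y ^ 2 - y + 1) ^ 3 * (l ^ 2 * (l - 1) ^ 2) =
      (l ^ 2 - l + 1) ^ 3 * (y ^ 2 * (y - 1) ^ 2)) :
    y = l ∨ y = 1 - l ∨ y = l⁻¹ ∨ y = (1 - l)⁻¹ ∨ y = (l - 1) / l ∨ y = l / (l - 1) := by
  have key : (y - l) * (y - 1 + l) * (l * y - 1) * ((1 - l) * y - 1) * (l * y - l + 1) *
      ((l - 1) * y - l) = 0 := by linear_combination -h
  have h1' : l - 1 ≠ 0 := sub_ne_zero.mpr h1
  have h1'' : 1 - l ≠ 0 := sub_ne_zero.mpr (Ne.symm h1)
  simp only [mul_eq_zero] at key
  rcases key with ((((h | h) | h) | h) | h) | h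
  · exact Or.inl (sub_eq_zero.mp h)
  · exact Or.inr (Or.inl (by linear_combination h))
  · exact Or.inr (Or.inr (Or.inl (eq_inv_of_mul_eq_one_left (by linear_combination h))))
  · exact Or.inr (Or.inr (Or.inr (Or.inl (eq_inv_of_mul_eq_one_left (by linear_combination h)))))
  · refine Or.inr (Or.inr (Or.inr (Or.inr (Or.inl ?_))))
    rw [eq_div_iff h0]
    linear_combination h
  · refine Or.inr (Or.inr (Or.inr (Or.inr (Or.inr ?_))))
    rw [eq_div_iff h1']
    linear_combination h

/-- Adjoining one root of the Legendre equation `j(l) = j₀` is Galois. -/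
theorem isGalois_adjoin_legendre {F₁ E : Type*} [Field F₁] [CharZero F₁] [Field E] [Algebra F₁ E]
    [IsAlgClosed E] [CharZero E] {j₀ : F₁} {l : E} (hl0 : l ≠ 0) (hl1 : l ≠ 1)
    (hl : 256 * (l ^ 2 - l + 1) ^ 3 = algebraMap F₁ E j₀ * (l ^ 2 * (l - 1) ^ 2)) :
    IsGalois F₁ (IntermediateField.adjoin F₁ ({l} : Set E)) ∧
      FiniteDimensional F₁ (IntermediateField.adjoin F₁ ({l} : Set E)) := by
  have h256 : (256 : E) ≠ 0 := by norm_num
  set M := IntermediateField.adjoin F₁ ({l} : Set E)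
  refine isGalois_adjoin_of_roots
    (256 * (X ^ 2 - X + 1) ^ 3 - Polynomial.C j₀ * (X ^ 2 * (X - 1) ^ 2)) ?_
    (fun x hx => ?_) fun y hy => ?_
  · intro h0
    have h1 := congrArg (fun P : Polynomial F₁ => P.coeff 0) h0
    simp [Polynomial.coeff_zero_eq_eval_zero] at h1
  · rw [Set.mem_singleton_iff] at hx
    subst hx
    simp only [map_sub, map_mul, map_pow, map_add, aeval_X, aeval_C, map_one, map_ofNat]
    linear_combination hl
  · simp only [map_sub, map_mul, map_pow, map_add, aeval_X, aeval_C, map_one, map_ofNat]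
      at hy
    have hy' : (y ^ 2 - y + 1) ^ 3 * (l ^ 2 * (l - 1) ^ 2) =
        (l ^ 2 - l + 1) ^ 3 * (y ^ 2 * (y - 1) ^ 2) := by
      refine mul_left_cancel₀ h256 ?_
      linear_combination (l ^ 2 * (l - 1) ^ 2) * hy - (y ^ 2 * (y - 1) ^ 2) * hl
    have hlmem : l ∈ M := IntermediateField.mem_adjoin_simple_self _ l
    rcases legendre_roots hl0 hl1 hy' with rfl | rfl | rfl | rfl | rfl | rfl
    exacts [hlmem, sub_mem (one_mem M) hlmem, inv_mem hlmem,
      inv_mem (sub_mem (one_mem M) hlmem), div_mem (sub_mem hlmem (one_mem M)) hlmem,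
      div_mem hlmem (sub_mem hlmem (one_mem M))]

variable (N : ℕ) [NeZero N] (ℓ : ℕ) [hℓ : Fact ℓ.Prime]

set_option quotPrecheck false in
local notation "ℤℓ" => ↥(GaloisRep.ratLocalizedAt ℓ)

set_option quotPrecheck false in
local notation "F" => ↥(modularFunctionFieldFull N)

/-- `256` is a unit of `ℤ₍ℓ₎` for `ℓ ≠ 2`. -/
theorem exists_inv_256 (h2 : ℓ ≠ 2) : ∃ u : ℤℓ, u * 256 = 1 := by
  have h : IsUnit (256 : ℤℓ) := by
    rw [isUnit_iff_redZ_ne_zero, map_ofNat,
      show (256 : ZMod ℓ) = ((2 ^ 8 : ℕ) : ZMod ℓ) by norm_num, Ne, ZMod.natCast_eq_zero_iff]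
    exact fun h => h2 ((Nat.prime_dvd_prime_iff_eq hℓ.out Nat.prime_two).mp
      (hℓ.out.dvd_of_dvd_pow h))
  exact ⟨↑(h.unit⁻¹), h.val_inv_mul⟩

/-- Every value is taken by the Legendre `j`. -/
theorem exists_legendre_root {E : Type*} [Field E] [IsAlgClosed E] [CharZero E] (j : E) :
    ∃ l : E, 256 * (l ^ 2 - l + 1) ^ 3 = j * (l ^ 2 * (l - 1) ^ 2) := by
  set P : E[X] := 256 * (X ^ 2 - X + 1) ^ 3 - Polynomial.C j * (X ^ 2 * (X - 1) ^ 2) with hP
  have hc6 : P.coeff 6 ≠ 0 := by
    have : P.coeff 6 = 256 := by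
      rw [hP, show (256 : E[X]) = Polynomial.C 256 from (map_ofNat _ _).symm]
      compute_degree!
    rw [this]
    norm_num
  have hdeg : P.degree ≠ 0 := by
    intro hd
    exact hc6 (coeff_eq_zero_of_degree_lt (hd.trans_lt (by norm_num)))
  obtain ⟨l, hl⟩ := IsAlgClosed.exists_root P hdeg
  refine ⟨l, ?_⟩
  simp only [hP, IsRoot.def, eval_sub, eval_mul, eval_pow, eval_add, eval_X, eval_one,
    eval_ofNat, eval_C] at hl
  linear_combination hl

variable (K : Type*) [Field K] [IsAlgClosed K] [CharP K ℓ]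
  [Algebra ↥(GaloisRep.ratLocalizedAt ℓ) K]

include ℓ in
/-- The fibre of the finite chart is normal for `ℓ ≠ 2`. -/
theorem normal_fin_legendre (hℓN : ¬ ℓ ∣ N) (h2 : ℓ ≠ 2)
    (n : Ideal (K ⊗[ℤℓ] chartAlg N ℓ {jFull N})) (hn : n.IsMaximal)
    (a b : K ⊗[ℤℓ] chartAlg N ℓ {jFull N}) (hb : b ≠ 0)
    (p : (K ⊗[ℤℓ] chartAlg N ℓ {jFull N})[X]) (hp : p.Monic)
    (hpa : (p.scaleRoots b).eval a = 0) : ∃ u ∉ n, u * a ∈ Ideal.span {b} := by
  classical
  obtain ⟨u, hu⟩ := exists_inv_256 ℓ h2
  have := isPrincipalIdealRing_ratLocalizedAt ℓ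
  set h : ℤℓ[X] := X * (X - 1) with hh
  let C := Localization.Away h
  set lam : C := algebraMap ℤℓ[X] C X with hlam
  set w : C := IsLocalization.Away.invSelf h with hw
  have hunit : lam * (lam - 1) * w = 1 := by
    have h1 := IsLocalization.Away.mul_invSelf (S := C) h
    rw [show algebraMap ℤℓ[X] C h = lam * (lam - 1) from
      (map_mul (algebraMap ℤℓ[X] C) X (X - 1)).trans (by rw [map_sub, map_one])] at h1
    exact h1
  set tC : C := legN.eval₂ (Int.castRingHom C) lam * w ^ 2 with htC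
  have htC' : tC = 256 * (lam ^ 2 - lam + 1) ^ 3 * w ^ 2 := by rw [htC, eval₂_legN]
  have hrel : tC * legD.eval₂ (Int.castRingHom C) lam = legN.eval₂ (Int.castRingHom C) lam := by
    rw [eval₂_legD, eval₂_legN, htC']
    linear_combination (256 * (lam ^ 2 - lam + 1) ^ 3 * (lam * (lam - 1) * w + 1)) * hunit
  have hDd : IsUnit (legD.eval₂ (Int.castRingHom C) lam) := by
    refine IsUnit.of_mul_eq_one (w ^ 2) ?_
    rw [eval₂_legD]
    linear_combination (lam * (lam - 1) * w + 1) * hunit
  have hu' : algebraMap ℤℓ C u * 256 = 1 := by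
    rw [← map_ofNat (algebraMap ℤℓ C) 256, ← map_mul, hu, map_one]
  have hint_lam : (aeval (R := ℤℓ) tC).toRingHom.IsIntegralElem lam := by
    refine ⟨(X ^ 2 - X + 1) ^ 3 - Polynomial.C (Polynomial.C u * X) * (X ^ 2 * (X - 1) ^ 2), ?_, ?_⟩
    · monicity!
    · simp only [eval₂_sub, eval₂_mul, eval₂_pow, eval₂_add, eval₂_X, eval₂_one, eval₂_C,
        AlgHom.toRingHom_eq_coe, RingHom.coe_coe, map_mul, aeval_C, aeval_X]
      rw [htC']
      linear_combination (-(lam ^ 2 - lam + 1) ^ 3 * (lam * (lam - 1) * w) ^ 2) * hu' -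
        ((lam ^ 2 - lam + 1) ^ 3 * (lam * (lam - 1) * w + 1)) * hunit
  have hint_inv : (aeval (R := ℤℓ) tC).toRingHom.IsIntegralElem w := by
    refine ⟨(X + 1) ^ 3 - Polynomial.C (Polynomial.C u * X) * X, ?_, ?_⟩
    · monicity!
    · simp only [eval₂_sub, eval₂_mul, eval₂_pow, eval₂_add, eval₂_X, eval₂_one, eval₂_C,
        AlgHom.toRingHom_eq_coe, RingHom.coe_coe, map_mul, aeval_C, aeval_X]
      have e1 : w + 1 = (lam ^ 2 - lam + 1) * w := by linear_combination -hunit
      rw [htC', e1]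
      linear_combination (-(lam ^ 2 - lam + 1) ^ 3 * w ^ 3) * hu'
  -- the field
  let E := AlgebraicClosure F
  set j : E := algebraMap F E (jFull N) with hj
  obtain ⟨l, hl⟩ := exists_legendre_root j
  have h256 : (256 : E) ≠ 0 := by norm_num
  have hl0 : l ≠ 0 := fun h0 => h256 (by rw [h0] at hl; linear_combination hl)
  have hl1 : l ≠ 1 := fun h0 => h256 (by rw [h0] at hl; linear_combination hl)
  have hdl : l ^ 2 * (l - 1) ^ 2 ≠ 0 :=
    mul_ne_zero (pow_ne_zero _ hl0) (pow_ne_zero _ (sub_ne_zero.mpr hl1))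
  let M := IntermediateField.adjoin F ({l} : Set E)
  set lM : M := ⟨l, IntermediateField.mem_adjoin_simple_self _ l⟩ with hlM
  obtain ⟨hgal, hfd⟩ : IsGalois F M ∧ FiniteDimensional F M := isGalois_adjoin_legendre hl0 hl1 hl
  have : CharZero M := charZero_of_injective_ringHom (algebraMap F M).injective
  let gO : ℤℓ →+* M := (algebraMap F M).comp (algebraMap ℤℓ F)
  have hgu : IsUnit ((eval₂RingHom gO lM) h) := by
    refine IsUnit.mk0 _ fun h0 => hdl ?_
    have h1 : l * (l - 1) = 0 := by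
      have := congrArg Subtype.val h0
      simpa [hh, hlM] using this
    rw [show l ^ 2 * (l - 1) ^ 2 = (l * (l - 1)) ^ 2 by ring, h1]; ring
  have hrelM : algebraMap F M (jFull N) * legD.eval₂ (Int.castRingHom M) lM =
      legN.eval₂ (Int.castRingHom M) lM := by
    rw [eval₂_legD, eval₂_legN]
    apply (algebraMap M E).injective
    simp only [map_mul, map_pow, map_sub, map_add, map_one, map_ofNat,
      ← IsScalarTower.algebraMap_apply, ← hj, show algebraMap M E lM = l from rfl]
    linear_combination -hl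
  have hDM : legD.eval₂ (Int.castRingHom M) lM ≠ 0 := by
    rw [eval₂_legD]
    exact fun h0 => hdl (by simpa [hlM] using congrArg Subtype.val h0)
  have htr := transcendental_of_relation (algebraMap F M) legN legD hDM (Or.inl rfl) hrelM
  have hgOinj : Function.Injective gO := injective_comp_algebraMap_base N ℓ (algebraMap F M)
  let σ : C →+* M := IsLocalization.Away.lift h hgu
  have hσP : ∀ P : ℤℓ[X], σ (algebraMap ℤℓ[X] C P) = eval₂ gO lM P := fun P =>
    IsLocalization.Away.lift_eq h hgu P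
  have hσlam : σ lam = lM := by rw [hlam, hσP, eval₂_X]
  have hσt : σ tC = algebraMap F M (jFull N) :=
    map_eq_of_rel σ legN legD hrel (hσlam.symm ▸ hrelM) (hσlam.symm ▸ hDM)
  refine normal_of_cover N ℓ (K := K) (M := M) (C := C) hℓN (Or.inl rfl) 1 (h := h)
    (prime_natCast_self ℓ) ?_ (pointsHyp_base ℤℓ K h ?_) legN legD tC hrel hDd hint_lam hint_inv σ
    (away_lift_injective h hgu (eval₂_injective_of_transcendental ℓ gO hgOinj htr)) hσt
    (fun G hGF hGσ => subfield_eq_top_of_adjoin G hGF fun x hx => ?_) (Or.inl ⟨hgal, rfl⟩)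
    (fun χ _ => ?_) n hn ?_ a b hb p hp hpa
  · rw [Polynomial.C_dvd_iff_dvd_coeff]
    intro hd
    exact (prime_natCast_self ℓ).not_dvd_one (by simpa [hh, mul_sub, coeff_X] using hd 2)
  · intro h0
    have := congrArg (fun P : Polynomial K => P.coeff 2) h0
    simp [hh, mul_sub, coeff_X] at this
  · rw [Set.mem_singleton_iff] at hx
    subst hx
    have := hGσ lam
    rwa [hσlam] at this
  · set α := χ lam with hα
    have hrel' : χ tC * (α ^ 2 * (α - 1) ^ 2) = 256 * (α ^ 2 - α + 1) ^ 3 := by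
      have := congrArg χ hrel
      rw [eval₂_legD, eval₂_legN] at this
      clear_value tC
      simpa only [map_mul, map_pow, map_add, map_sub, map_one, map_ofNat, ← hα] using this
    have hαh : α * (α - 1) ≠ 0 := by
      have := congrArg χ hunit
      rw [map_mul, map_mul, map_sub, map_one, ← hα] at this
      exact left_ne_zero_of_mul_eq_one this
    exact exists_local_fin N (χ tC) α _ _ (legendre_factor (left_ne_zero_of_mul hαh)
      (sub_ne_zero.mp (right_ne_zero_of_mul hαh)) hrel')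
  · rw [map_one, ← Algebra.TensorProduct.one_def]
    exact fun h1 => hn.ne_top ((Ideal.eq_top_iff_one n).mpr h1)

end Fermat.Agent.Igusa
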