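import Mathlib
import Fermat.Agent.Igusa.SmoothFibreExp
import Fermat.Agent.Igusa.SmoothHesse
import Fermat.Agent.Igusa.SmoothInfinity
import Fermat.Agent.Igusa.SmoothLegendre

/-!
# The special fibres of the charts of `X₀(N)` are normal

An element of the function field of the reduced curve which is integral over `k[j]` (resp.
`k[1 / j]`) is a combination of reductions of elements of the finite (resp. infinite) chart.

This is the input from integral models to the genus inequality for reduction modulo `ℓ`.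
-/

noncomputable section

open Polynomial ModularCurve ModularCurve.IgusaScheme
open scoped TensorProduct

namespace Fermat.Agent.Igusa

variable {N : ℕ} [NeZero N] {ℓ : ℕ} [hℓ : Fact ℓ.Prime]

set_option quotPrecheck false in
local notation "ℤℓ" => ↥(GaloisRep.ratLocalizedAt ℓ)

set_option quotPrecheck false in
local notation "F" => ↥(modularFunctionFieldFull N)

variable {K : Type*} [Field K] [IsAlgClosed K] [CharP K ℓ]
  [Algebra ↥(GaloisRep.ratLocalizedAt ℓ) K]

/-- An element integral over `K[j]` is a combination of reductions from the finite chart. -/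
theorem mem_span_redSet_fin (hℓN : ¬ ℓ ∣ N) {w : LaurentSeries K}
    (hw : w ∈ modularFunctionFieldFullC K N)
    (hint : IsIntegral (Algebra.adjoin K {jqModC K}) w) :
    w ∈ Submodule.span K (redSet N ℓ K {jFull N}) := by
  have ht : IsChartGen N (jFull N) := Or.inl rfl
  obtain ⟨tK, h1, -, htK⟩ := exists_reduced_gen K hℓN ht
  refine mem_span_redSet_of_normal K hℓN ht (fun _ => True) (fun n hn _ a b hb p hp hpa => ?_) hw
    (htK.trans (h1 rfl)) hint (fun n _ h => absurd trivial h)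
  by_cases h2 : ℓ = 2
  · subst h2
    exact normal_fin_hesse N K hℓN n hn a b hb p hp hpa
  · exact normal_fin_legendre N ℓ K hℓN h2 n hn a b hb p hp hpa

omit [IsAlgClosed K] in
/-- Multiplying by a large power of `x` turns integrality over `k[1 / x]` into integrality over
`k[x]`. -/
theorem exists_pow_mul_isIntegral {L : Type*} [Field L] [Algebra K L] {x w : L} (hx : x ≠ 0)
    (hint : IsIntegral (Algebra.adjoin K {x⁻¹}) w) :
    ∃ d : ℕ, IsIntegral (Algebra.adjoin K {x}) (x ^ d * w) := by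
  classical
  obtain ⟨p, hp, hpw⟩ := hint
  have hcoeff : ∀ i, ∃ d : ℕ, ∀ e ≥ d,
      x ^ e * (p.coeff i : L) ∈ Algebra.adjoin K ({x} : Set L) := by
    intro i
    obtain ⟨c, hc⟩ := p.coeff i
    induction hc using Algebra.adjoin_induction with
    | mem y hy =>
      rw [Set.mem_singleton_iff] at hy
      subst hy
      refine ⟨1, fun e he => ?_⟩
      obtain ⟨e', rfl⟩ := Nat.exists_eq_add_of_le he
      rw [add_comm, pow_succ, mul_assoc, mul_inv_cancel₀ hx, mul_one]
      exact pow_mem (Algebra.subset_adjoin (Set.mem_singleton x)) e'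
    | algebraMap r =>
      exact ⟨0, fun e _ => mul_mem (pow_mem (Algebra.subset_adjoin (Set.mem_singleton x)) e)
        (Subalgebra.algebraMap_mem _ r)⟩
    | add u v _ _ hu hv =>
      obtain ⟨du, hu⟩ := hu
      obtain ⟨dv, hv⟩ := hv
      exact ⟨du + dv, fun e he => by
        rw [mul_add]; exact add_mem (hu e (by omega)) (hv e (by omega))⟩
    | mul u v _ _ hu hv =>
      obtain ⟨du, hu⟩ := hu
      obtain ⟨dv, hv⟩ := hv
      refine ⟨du + dv, fun e he => ?_⟩
      obtain ⟨e', rfl⟩ := Nat.exists_eq_add_of_le he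
      rw [show x ^ (du + dv + e') * (u * v) = x ^ du * u * (x ^ (dv + e') * v) by ring]
      exact mul_mem (hu du le_rfl) (hv _ (by omega))
  choose d hd using hcoeff
  set D := ∑ i ∈ Finset.range p.natDegree, d i with hD
  refine ⟨D, ?_⟩
  let q : L[X] := (p.map (algebraMap (Algebra.adjoin K ({x⁻¹} : Set L)) L)).scaleRoots (x ^ D)
  have hq : ∀ i, q.coeff i ∈ Algebra.adjoin K ({x} : Set L) := by
    intro i
    rw [coeff_scaleRoots, hp.natDegree_map, coeff_map]
    rcases lt_or_ge i p.natDegree with hi | hi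
    · rw [← pow_mul, mul_comm]
      refine hd i _ ?_
      have h1 : d i ≤ D := Finset.single_le_sum (fun j _ => Nat.zero_le (d j))
        (Finset.mem_range.mpr hi)
      calc d i ≤ D * 1 := by omega
        _ ≤ D * (p.natDegree - i) := Nat.mul_le_mul_left D (by omega)
    · rw [Nat.sub_eq_zero_of_le hi, pow_zero, mul_one]
      rcases hi.eq_or_lt with rfl | hi'
      · rw [hp.coeff_natDegree, map_one]; exact one_mem _
      · rw [coeff_eq_zero_of_natDegree_lt hi', map_zero]; exact zero_mem _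
  obtain ⟨P, hP, -, hPm⟩ := lifts_and_natDegree_eq_and_monic
    ((lifts_iff_coeff_lifts _).mpr fun i => ⟨⟨_, hq i⟩, rfl⟩ :
      q ∈ lifts (algebraMap (Algebra.adjoin K ({x} : Set L)) L))
    ((monic_scaleRoots_iff _).mpr (hp.map _))
  refine ⟨P, hPm, ?_⟩
  rw [← eval_map, hP, ← eval₂_id, mul_comm]
  have := scaleRoots_eval₂_mul (p := p.map (algebraMap (Algebra.adjoin K ({x⁻¹} : Set L)) L))
    (RingHom.id L) (r := w) (s := x ^ D)
  rw [RingHom.id_apply, eval₂_id (p := p.map _), eval_map, hpw, mul_zero, mul_comm (x ^ D)] at this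
  exact this

/-- An element integral over `K[1 / j]` is a combination of reductions from the infinite chart. -/
theorem mem_span_redSet_inf (hℓN : ¬ ℓ ∣ N) {w : LaurentSeries K}
    (hw : w ∈ modularFunctionFieldFullC K N)
    (hint : IsIntegral (Algebra.adjoin K {(jqModC K)⁻¹}) w) :
    w ∈ Submodule.span K (redSet N ℓ K {(jFull N)⁻¹}) := by
  classical
  have ht : IsChartGen N (jFull N)⁻¹ := Or.inr rfl
  obtain ⟨tK, -, h2, htK⟩ := exists_reduced_gen K hℓN ht
  rw [h2 rfl] at htK
  set Φ := fibreExp K hℓN ht with hΦ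
  set T : K ⊗[ℤℓ] chartAlg N ℓ {(jFull N)⁻¹} :=
    1 ⊗ₜ[ℤℓ] (⟨(jFull N)⁻¹, subset_chartAlg N ℓ _ rfl⟩ : chartAlg N ℓ {(jFull N)⁻¹}) with hT
  have hj : jqModC K ≠ 0 := jqModC_ne_zero_of_nontrivial K
  -- a power of `1 / j` puts `w` in the chart
  obtain ⟨e, he⟩ : ∃ e : ℕ, Φ (T ^ e) * w ∈ Φ.range := by
    obtain ⟨d, hd⟩ := exists_pow_mul_isIntegral hj hint
    have hwd : jqModC K ^ d * w ∈ modularFunctionFieldFullC K N :=
      mul_mem (pow_mem (jqModC_mem_full K N) d) hw
    have hspan := mem_span_redSet_fin hℓN hwd hd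
    have key : ∀ z ∈ Submodule.span K (redSet N ℓ K {jFull N}),
        ∃ e : ℕ, Φ (T ^ e) * z ∈ Φ.range := by
      intro z hz
      induction hz using Submodule.span_induction with
      | mem z hz =>
        obtain ⟨y, x, hx, hy, rfl⟩ := hz
        have hmid : x ∈ chartAlg N ℓ (insert ((jFull N)⁻¹)⁻¹ {(jFull N)⁻¹}) :=
          chartAlg_mono N ℓ (fun v hv => Or.inl (by rw [Set.mem_singleton_iff.mp hv, inv_inv])) hx
        obtain ⟨e, he⟩ := exists_pow_mul_mem_chartAlg (Set.mem_singleton _)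
          (inv_ne_zero (jFull_ne_zero N)) hmid
        refine ⟨e, 1 ⊗ₜ[ℤℓ] (⟨_, he⟩ : chartAlg N ℓ {(jFull N)⁻¹}), ?_⟩
        obtain ⟨yT, hyT⟩ := exists_chart_series hℓN ht
          (⟨(jFull N)⁻¹, subset_chartAlg N ℓ _ rfl⟩ : chartAlg N ℓ {(jFull N)⁻¹})
        rw [hΦ, fibreExp_tmul, map_one, one_mul, redHom_eq K hℓN ht (y := yT ^ e * y) (by
          rw [map_mul, map_pow, hyT, hy]; rfl), map_mul, map_pow, map_pow, hT, fibreExp_tmul,
          map_one, one_mul, redHom_eq K hℓN ht hyT]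
      | zero => exact ⟨0, by rw [mul_zero]; exact zero_mem _⟩
      | add u v _ _ hu hv =>
        obtain ⟨eu, hu⟩ := hu
        obtain ⟨ev, hv⟩ := hv
        refine ⟨eu + ev, ?_⟩
        rw [pow_add, map_mul, mul_add, mul_right_comm, mul_assoc _ _ v]
        exact add_mem (mul_mem hu ⟨_, rfl⟩) (mul_mem ⟨_, rfl⟩ hv)
      | smul c u _ hu =>
        obtain ⟨eu, hu⟩ := hu
        refine ⟨eu, ?_⟩
        rw [← HahnSeries.C_mul_eq_smul, mul_left_comm]
        exact mul_mem ⟨_, fibreExp_algebraMap K hℓN ht c⟩ hu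
    obtain ⟨e, he⟩ := key _ hspan
    refine ⟨e, ?_⟩
    have h1 : Φ (T ^ e) * w = Φ (T ^ d) * (Φ (T ^ e) * (jqModC K ^ d * w)) := by
      rw [map_pow, map_pow, hT, hΦ, htK, inv_pow, inv_pow]
      field_simp
    rw [h1]
    exact mul_mem ⟨_, rfl⟩ he
  refine mem_span_redSet_of_normal K hℓN ht (fun n => (1 : K) ⊗ₜ[ℤℓ] aeval (R := ℤℓ)
      (⟨(jFull N)⁻¹, subset_chartAlg N ℓ _ rfl⟩ : chartAlg N ℓ {(jFull N)⁻¹}) (infGood ℓ) ∉ n)
    (fun n hn hg a b hb p hp hpa => normal_inf_cover N ℓ K hℓN n hn hg a b hb p hp hpa) hw htK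
    hint fun n hn hg => ⟨T ^ e, ?_, he⟩
  intro hmem
  have hT' : T ∈ n := hn.isPrime.mem_of_pow_mem e hmem
  rw [not_not] at hg
  have hg' : (1 : K ⊗[ℤℓ] chartAlg N ℓ {(jFull N)⁻¹}) - 1728 * T ∈ n := by
    have : Algebra.TensorProduct.includeRight (R := ℤℓ) (A := K)
        (aeval (R := ℤℓ)
          (⟨(jFull N)⁻¹, subset_chartAlg N ℓ _ rfl⟩ : chartAlg N ℓ {(jFull N)⁻¹})
            (infGood ℓ)) ∈ n :=
      hg
    rwa [infGood, map_sub, map_mul, map_one, map_ofNat, aeval_X, map_sub, map_mul, map_one,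
      map_ofNat] at this
  refine hn.ne_top ((Ideal.eq_top_iff_one n).mpr ?_)
  have h3 := n.add_mem hg' (n.mul_mem_left 1728 hT')
  rwa [sub_add_cancel] at h3

end Fermat.Agent.Igusa
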