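import Mathlib.RingTheory.Polynomial.Basic
import Mathlib.RingTheory.RootsOfUnity.PrimitiveRoots
import Fermat.Prelude.Def_ModularCurve_X0ModL
import Fermat.Agent.FF.SeriesInst

/-!
# Substitutions `f(q) ↦ f(η u^m)` of Laurent series and the series `j(η u^m)`

These series are the roots of the modular equations in every characteristic.
-/

noncomputable section

open HahnSeries ModularCurve

namespace Fermat.Agent.Igusa

variable {R S : Type*} [CommRing R] [CommRing S]

/-- Rescaling of the variable `q ↦ η q`. -/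
def scaleHom (η : Rˣ) : LaurentSeries R →+* LaurentSeries R where
  toFun f :=
    { coeff := fun n => ((η ^ n : Rˣ) : R) * f.coeff n
      isPWO_support' := f.isPWO_support.mono fun n hn h => hn (by simp [h]) }
  map_zero' := by ext n; simp
  map_one' := by
    ext n
    rcases eq_or_ne n 0 with rfl | hn
    · simp
    · simp [HahnSeries.coeff_one, hn]
  map_add' f g := by ext n; simp [mul_add]
  map_mul' f g := by
    ext n
    show ((η ^ n : Rˣ) : R) * (f * g).coeff n = _
    rw [HahnSeries.coeff_mul, HahnSeries.coeff_mul_right' (s := g.support) g.isPWO_support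
      (fun k hk h => hk (by simp [h])), Finset.mul_sum]
    refine (Finset.sum_subset_zero_on_sdiff ?_ ?_ ?_).symm
    · intro ij hij
      simp only [Finset.mem_antidiagonal] at hij ⊢
      refine ⟨fun h => hij.1 (by simp [h]), hij.2⟩
    · intro ij hij
      simp only [Finset.mem_sdiff, Finset.mem_antidiagonal, not_and] at hij
      by_cases hf : f.coeff ij.1 = 0
      · simp [hf]
      · have h0 : ((η ^ ij.1 : Rˣ) : R) * f.coeff ij.1 = 0 := by
          by_contra h
          exact hij.2 h hij.1.2.1 hij.1.2.2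
        rw [Units.mul_right_eq_zero] at h0
        exact absurd h0 hf
    · intro ij hij
      simp only [Finset.mem_antidiagonal] at hij
      obtain ⟨_, _, rfl⟩ := hij
      show _ * f.coeff ij.1 * (((η ^ ij.2 : Rˣ) : R) * g.coeff ij.2) = _
      rw [zpow_add, Units.val_mul]
      ring

@[simp]
theorem scaleHom_coeff (η : Rˣ) (f : LaurentSeries R) (n : ℤ) :
    (scaleHom η f).coeff n = ((η ^ n : Rˣ) : R) * f.coeff n := rfl

theorem scaleHom_single (η : Rˣ) (k : ℤ) (r : R) :
    scaleHom η (HahnSeries.single k r) = HahnSeries.single k (((η ^ k : Rˣ) : R) * r) := by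
  ext n
  rcases eq_or_ne n k with rfl | hn
  · simp
  · simp [HahnSeries.coeff_single_of_ne hn]

@[simp]
theorem scaleHom_one (f : LaurentSeries R) : scaleHom 1 f = f := by
  ext n; simp

theorem scaleHom_scaleHom (η η' : Rˣ) (f : LaurentSeries R) :
    scaleHom η (scaleHom η' f) = scaleHom (η * η') f := by
  ext n; simp [mul_zpow, mul_assoc]

theorem scaleHom_qExpand (η : Rˣ) (m : ℕ) [NeZero m] (f : LaurentSeries R) :
    scaleHom η (qExpand R m f) = qExpand R m (scaleHom (η ^ m) f) := by
  ext n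
  by_cases hn : (m : ℤ) ∣ n
  · obtain ⟨k, rfl⟩ := hn
    rw [scaleHom_coeff, qExpand_coeff_mul, qExpand_coeff_mul, scaleHom_coeff, zpow_mul,
      zpow_natCast]
  · rw [scaleHom_coeff, qExpand_coeff_of_not_dvd m f hn, qExpand_coeff_of_not_dvd m _ hn,
      mul_zero]

theorem coeffMap_scaleHom (φ : R →+* S) (η : Rˣ) (f : LaurentSeries R) :
    coeffMap φ (scaleHom η f) = scaleHom (Units.map (φ : R →* S) η) (coeffMap φ f) := by
  ext n
  simp only [coeffMap_coeff, scaleHom_coeff, map_mul]
  rw [← map_zpow (Units.map (φ : R →* S)) η n]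
  rfl

/-- The substitution `f(q) ↦ f(η u^m)` (and the identity for `m = 0`). -/
def sub (η : Rˣ) (m : ℕ) : LaurentSeries R →+* LaurentSeries R :=
  if h : m = 0 then RingHom.id _ else
    haveI : NeZero m := ⟨h⟩
    (qExpand R m).comp (scaleHom η)

/-- `sub η m` is `q ↦ η q ^ m`. -/
theorem sub_apply (η : Rˣ) (m : ℕ) [NeZero m] (f : LaurentSeries R) :
    sub η m f = qExpand R m (scaleHom η f) := by
  rw [sub, dif_neg (NeZero.ne m)]; rfl

theorem sub_one_eq (m : ℕ) [NeZero m] (f : LaurentSeries R) :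
    sub (1 : Rˣ) m f = qExpand R m f := by
  rw [sub_apply, scaleHom_one]

theorem sub_coeff_mul (η : Rˣ) {m : ℕ} (hm : m ≠ 0) (f : LaurentSeries R) (k : ℤ) :
    (sub η m f).coeff ((m : ℤ) * k) = ((η ^ k : Rˣ) : R) * f.coeff k := by
  have : NeZero m := ⟨hm⟩
  rw [sub_apply, qExpand_coeff_mul, scaleHom_coeff]

theorem sub_coeff_of_not_dvd (η : Rˣ) {m : ℕ} (hm : m ≠ 0) (f : LaurentSeries R) {n : ℤ}
    (hn : ¬ (m : ℤ) ∣ n) : (sub η m f).coeff n = 0 := by
  have : NeZero m := ⟨hm⟩
  rw [sub_apply, qExpand_coeff_of_not_dvd m _ hn]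

theorem scaleHom_injective (η : Rˣ) : Function.Injective (scaleHom η) := by
  intro f g h
  have := congrArg (scaleHom η⁻¹) h
  simpa [scaleHom_scaleHom] using this

theorem sub_injective (η : Rˣ) {m : ℕ} (hm : m ≠ 0) : Function.Injective (sub η m) := by
  have : NeZero m := ⟨hm⟩
  intro f g h
  rw [sub_apply, sub_apply] at h
  exact scaleHom_injective η (qExpand_injective m h)

/-- Composition of two substitutions. -/
theorem sub_sub (η η' : Rˣ) {m m' : ℕ} (hm : m ≠ 0) (hm' : m' ≠ 0) (f : LaurentSeries R) :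
    sub η m (sub η' m' f) = sub (η' * η ^ m') (m * m') f := by
  have : NeZero m := ⟨hm⟩
  have : NeZero m' := ⟨hm'⟩
  rw [sub_apply, sub_apply, sub_apply, scaleHom_qExpand, scaleHom_scaleHom, qExpand_qExpand,
    mul_comm η']

theorem sub_single (η : Rˣ) {m : ℕ} (hm : m ≠ 0) (k : ℤ) (r : R) :
    sub η m (HahnSeries.single k r)
      = HahnSeries.single ((m : ℤ) * k) (((η ^ k : Rˣ) : R) * r) := by
  have : NeZero m := ⟨hm⟩
  rw [sub_apply, scaleHom_single, qExpand_single]

theorem sub_C (η : Rˣ) {m : ℕ} (hm : m ≠ 0) (r : R) :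
    sub η m (HahnSeries.C r) = HahnSeries.C r := by
  rw [HahnSeries.C_apply, sub_single η hm]
  simp

theorem coeffMap_sub (φ : R →+* S) (η : Rˣ) {m : ℕ} (hm : m ≠ 0) (f : LaurentSeries R) :
    coeffMap φ (sub η m f) = sub (Units.map (φ : R →* S) η) m (coeffMap φ f) := by
  have : NeZero m := ⟨hm⟩
  rw [sub_apply, sub_apply, coeffMap_qExpand, coeffMap_scaleHom]

section JSeries

/-- `j(η u^m)`. -/
def jv (η : Rˣ) (m : ℕ) : LaurentSeries R := sub η m (jqModC R)

/-- `jv 1 m` is `j(q^m)`. -/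
theorem jv_one_eq_qExpand (m : ℕ) [NeZero m] :
    jv (1 : Rˣ) m = qExpand R m (jqModC R) := sub_one_eq m _

@[simp]
theorem jv_one_one : jv (1 : Rˣ) 1 = jqModC R := by
  rw [jv_one_eq_qExpand, qExpand_one_apply]

/-- A substitution sends one `j(η u^m)` to another. -/
theorem sub_jv (η η' : Rˣ) {m m' : ℕ} (hm : m ≠ 0) (hm' : m' ≠ 0) :
    sub η m (jv η' m') = jv (η' * η ^ m') (m * m') :=
  sub_sub η η' hm hm' _

/-- `j(η u^m)` commutes with maps of coefficients. -/
theorem coeffMap_jv (φ : R →+* S) (η : Rˣ) {m : ℕ} (hm : m ≠ 0) :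
    coeffMap φ (jv η m) = jv (Units.map (φ : R →* S) η) m := by
  rw [jv, coeffMap_sub φ η hm, coeffMap_jqModC, jv]

/-- The leading coefficient of `j(η u^m)`. -/
theorem jv_coeff_neg (η : Rˣ) {m : ℕ} (hm : m ≠ 0) :
    (jv η m).coeff (-(m : ℤ)) = ((η⁻¹ : Rˣ) : R) := by
  have := sub_coeff_mul η hm (jqModC R) (-1)
  rw [mul_neg_one] at this
  rw [jv, this, ModularCurve.coeff_jqModC_neg_one, mul_one, zpow_neg_one]

/-- `jv η m` has pole order at most `m`. -/
theorem jv_coeff_of_lt (η : Rˣ) {m : ℕ} (hm : m ≠ 0) {n : ℤ} (hn : n < -(m : ℤ)) :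
    (jv η m).coeff n = 0 := by
  by_cases hd : (m : ℤ) ∣ n
  · obtain ⟨k, rfl⟩ := hd
    rw [jv, sub_coeff_mul η hm, coeff_jqModC_of_lt, mul_zero]
    by_contra h
    push Not at h
    have := mul_le_mul_of_nonneg_left h (Int.natCast_nonneg m)
    omega
  · exact sub_coeff_of_not_dvd η hm _ hd

/-- `η` and `m` are determined by `j(η u^m)`. -/
theorem jv_inj [Nontrivial R] {η η' : Rˣ} {m m' : ℕ} (hm : m ≠ 0) (hm' : m' ≠ 0) :
    jv η m = jv η' m' ↔ η = η' ∧ m = m' := by
  refine ⟨fun h => ?_, by rintro ⟨rfl, rfl⟩; rfl⟩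
  have h1 : m' ≤ m := by
    by_contra hlt
    have h2 := congrArg (fun f : LaurentSeries R => f.coeff (-(m' : ℤ))) h
    simp only [jv_coeff_neg η' hm',
      jv_coeff_of_lt η hm (n := -(m' : ℤ)) (by omega)] at h2
    exact (Units.ne_zero _) h2.symm
  have h2 : m ≤ m' := by
    by_contra hlt
    have h2 := congrArg (fun f : LaurentSeries R => f.coeff (-(m : ℤ))) h
    simp only [jv_coeff_neg η hm,
      jv_coeff_of_lt η' hm' (n := -(m : ℤ)) (by omega)] at h2
    exact (Units.ne_zero _) h2
  obtain rfl : m = m' := le_antisymm h2 h1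
  refine ⟨?_, rfl⟩
  have h3 := congrArg (fun f : LaurentSeries R => f.coeff (-(m : ℤ))) h
  simp only [jv_coeff_neg η hm, jv_coeff_neg η' hm, Units.val_inj] at h3
  exact inv_injective h3

theorem scaleHom_jv (ω η : Rˣ) {m : ℕ} (hm : m ≠ 0) :
    scaleHom ω (jv η m) = jv (η * ω ^ m) m := by
  have h := sub_sub ω η one_ne_zero hm (jqModC R)
  rw [one_mul] at h
  rw [jv, jv, ← h, sub_apply ω 1, qExpand_one_apply]

end JSeries

section Aeval

variable {K : Type*} [CommRing K]

/-- Evaluation of a polynomial at a Laurent series, constants going to constants. -/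
def evalAt (x : LaurentSeries K) : Polynomial K →+* LaurentSeries K :=
  Polynomial.eval₂RingHom HahnSeries.C x

@[simp] theorem evalAt_X (x : LaurentSeries K) : evalAt x Polynomial.X = x := by simp [evalAt]

@[simp] theorem evalAt_C (x : LaurentSeries K) (r : K) :
    evalAt x (Polynomial.C r) = HahnSeries.C r := by simp [evalAt]

/-- Substitution commutes with evaluation. -/
theorem sub_evalAt (η : Kˣ) {m : ℕ} (hm : m ≠ 0) (x : LaurentSeries K) :
    (sub η m).comp (evalAt x) = evalAt (sub η m x) :=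
  Polynomial.ringHom_ext (fun r => by simp only [RingHom.comp_apply, evalAt_C, sub_C η hm])
    (by simp)

theorem coeffMap_C {L : Type*} [CommRing L] (φ : K →+* L) (r : K) :
    coeffMap φ (HahnSeries.C r) = HahnSeries.C (φ r) := by
  rw [HahnSeries.C_apply, coeffMap_single, HahnSeries.C_apply]

/-- A coefficient map commutes with evaluation. -/
theorem coeffMap_evalAt {L : Type*} [CommRing L] (φ : K →+* L) (x : LaurentSeries K)
    (P : Polynomial K) :
    coeffMap φ (evalAt x P) = evalAt (coeffMap φ x) (P.map φ) := by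
  induction P using Polynomial.induction_on' with
  | add P Q hP hQ => simp [hP, hQ]
  | monomial n r =>
    rw [Polynomial.map_monomial]
    simp only [← Polynomial.C_mul_X_pow_eq_monomial, map_mul, map_pow, evalAt_C, evalAt_X,
      coeffMap_C]

theorem jv_one_pow_coeff_neg {m : ℕ} (hm : m ≠ 0) (i : ℕ) :
    ((jv (1 : Kˣ) m) ^ i).coeff (-((m * i : ℕ) : ℤ)) = 1 := by
  rw [jv, ← map_pow, show (-((m * i : ℕ) : ℤ)) = (m : ℤ) * (-(i : ℤ)) by push_cast; ring,
    sub_coeff_mul 1 hm, ModularCurve.coeff_jqModC_pow_self, one_zpow, Units.val_one, mul_one]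

theorem jv_one_pow_coeff_of_lt {m : ℕ} (hm : m ≠ 0) {i : ℕ} {n : ℤ}
    (hn : n < -((m * i : ℕ) : ℤ)) : ((jv (1 : Kˣ) m) ^ i).coeff n = 0 := by
  rw [jv, ← map_pow]
  by_cases hd : (m : ℤ) ∣ n
  · obtain ⟨k, rfl⟩ := hd
    rw [sub_coeff_mul 1 hm, ModularCurve.coeff_jqModC_pow_of_lt, mul_zero]
    by_contra h
    push Not at h
    have := mul_le_mul_of_nonneg_left h (Int.natCast_nonneg m)
    push_cast at hn
    rw [mul_neg] at this
    omega
  · exact sub_coeff_of_not_dvd 1 hm _ hd

/-- The leading coefficient of `P(j(u^m))` is that of `P`. -/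
theorem coeff_evalAt_jv {m : ℕ} (hm : m ≠ 0) (P : Polynomial K) :
    (evalAt (jv (1 : Kˣ) m) P).coeff (-((m * P.natDegree : ℕ) : ℤ)) = P.leadingCoeff := by
  rw [evalAt, Polynomial.coe_eval₂RingHom, Polynomial.eval₂_eq_sum_range, Finset.sum_range_succ,
    HahnSeries.coeff_add, HahnSeries.coeff_sum, Finset.sum_eq_zero]
  · rw [zero_add, HahnSeries.C_mul_eq_smul, HahnSeries.coeff_smul, jv_one_pow_coeff_neg hm,
      smul_eq_mul, mul_one, Polynomial.coeff_natDegree]
  · intro i hi
    rw [Finset.mem_range] at hi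
    rw [HahnSeries.C_mul_eq_smul, HahnSeries.coeff_smul, jv_one_pow_coeff_of_lt hm, smul_zero]
    have : m * i < m * P.natDegree := Nat.mul_lt_mul_of_pos_left hi (Nat.pos_of_ne_zero hm)
    omega

/-- `j(u^m)` is transcendental. -/
theorem evalAt_jv_injective {m : ℕ} (hm : m ≠ 0) :
    Function.Injective (evalAt (jv (1 : Kˣ) m)) := by
  rw [injective_iff_map_eq_zero]
  intro P hP
  rw [← Polynomial.leadingCoeff_eq_zero, ← coeff_evalAt_jv hm P, hP, HahnSeries.coeff_zero]

/-- A series with coefficients in a subring that is a polynomial in `j` is a polynomial in `j`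
with coefficients in the subring. -/
theorem exists_lift_evalAt_jv {L : Type*} [CommRing L] {φ : K →+* L} (hφ : Function.Injective φ)
    {m : ℕ} (hm : m ≠ 0) :
    ∀ (P : Polynomial L) (F : LaurentSeries K), evalAt (jv (1 : Lˣ) m) P = coeffMap φ F →
      ∃ Q : Polynomial K, Q.map φ = P ∧ evalAt (jv (1 : Kˣ) m) Q = F := by
  intro P
  induction hn : P.natDegree using Nat.strong_induction_on generalizing P with
  | _ n ih =>
    intro F hF
    have hcm : Function.Injective (coeffMap φ) := fun x y h => by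
      ext k
      exact hφ (by simpa using congrArg (fun z : LaurentSeries L => z.coeff k) h)
    set c := F.coeff (-((m * n : ℕ) : ℤ)) with hc
    have hlc : φ c = P.leadingCoeff := by
      rw [← coeff_evalAt_jv hm P, hF, hn, coeffMap_coeff]
    set P' := P.eraseLead with hP'
    have hjv : coeffMap φ (jv (1 : Kˣ) m) = jv (1 : Lˣ) m := by
      rw [coeffMap_jv φ 1 hm, map_one]
    set F' := F - HahnSeries.C c * jv (1 : Kˣ) m ^ n with hF'
    have hev : evalAt (jv (1 : Lˣ) m) P' = coeffMap φ F' := by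
      rw [hP', ← Polynomial.self_sub_C_mul_X_pow, map_sub, map_mul, map_pow, evalAt_C, evalAt_X,
        hF, hF', map_sub, map_mul, map_pow, coeffMap_C, hjv, hlc, hn]
    rcases Nat.eq_zero_or_pos n with hn0 | hn0
    · refine ⟨Polynomial.C c, ?_, ?_⟩
      · rw [Polynomial.map_C, hlc]
        rw [Polynomial.leadingCoeff, hn, hn0]
        exact (Polynomial.eq_C_of_natDegree_le_zero (p := P) (by omega)).symm
      · have hP0 : P' = 0 := by
          rw [hP', Polynomial.eq_C_of_natDegree_le_zero (p := P) (by omega),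
            Polynomial.eraseLead_C]
        rw [hP0, map_zero] at hev
        have : F' = 0 := hcm (by rw [← hev, map_zero])
        rw [hF', sub_eq_zero, hn0, pow_zero, mul_one] at this
        rw [evalAt_C, ← this]
    · have hlt : P'.natDegree < n := by
        have := Polynomial.eraseLead_natDegree_le P
        rw [hP']; omega
      obtain ⟨Q, hQ, hQev⟩ := ih _ hlt P' rfl F' hev
      refine ⟨Q + Polynomial.C c * Polynomial.X ^ n, ?_, ?_⟩
      · rw [Polynomial.map_add, hQ, Polynomial.map_mul, Polynomial.map_C, Polynomial.map_pow,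
          Polynomial.map_X, hlc, hP', ← hn, Polynomial.eraseLead_add_C_mul_X_pow]
      · rw [map_add, hQev, map_mul, map_pow, evalAt_C, evalAt_X, hF', sub_add_cancel]

/-- A polynomial in `j` has nonpositive order. -/
theorem exists_coeff_nonpos_evalAt_jv {m : ℕ} (hm : m ≠ 0) {P : Polynomial K} (hP : P ≠ 0) :
    ∃ n : ℤ, n ≤ 0 ∧ (evalAt (jv (1 : Kˣ) m) P).coeff n ≠ 0 :=
  ⟨-((m * P.natDegree : ℕ) : ℤ), by omega, by rwa [coeff_evalAt_jv hm, ne_eq,
    Polynomial.leadingCoeff_eq_zero]⟩

end Aeval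

end Fermat.Agent.Igusa
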