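import Fermat.Agent.Igusa.SmoothFibreExp

/-!
# The fibre of the Igusa model over a field of characteristic `ℓ` is integral

Over the two charts and their overlap the fibre embeds into `k((q))`, hence is integral. This
gives the irreducibility of `X₀(N)` modulo `ℓ` asked for by the statement on the Igusa model.
-/

noncomputable section

open AlgebraicGeometry CategoryTheory CategoryTheory.Limits Function ModularCurve
  ModularCurve.IgusaScheme
open scoped TensorProduct

namespace Fermat.Agent.Igusa

/-! ### A gluing criterion for integrality -/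

/-- The stalks at points of a reduced open subscheme are reduced. -/
theorem isReduced_stalk_of_isOpenImmersion {X U : Scheme} (a : U ⟶ X) [IsOpenImmersion a]
    [AlgebraicGeometry.IsReduced U] (u : U) : _root_.IsReduced (X.presheaf.stalk (a u)) :=
  isReduced_of_injective (asIso (a.stalkMap u)).commRingCatIsoToRingEquiv
    (asIso (a.stalkMap u)).commRingCatIsoToRingEquiv.injective

/-- Two integral open pieces with a common point glue to an integral scheme. -/
theorem isIntegral_of_two_open {X U V : Scheme} (a : U ⟶ X) (b : V ⟶ X) [IsOpenImmersion a]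
    [IsOpenImmersion b] [AlgebraicGeometry.IsIntegral U] [AlgebraicGeometry.IsIntegral V]
    (hcov : ∀ x : X, x ∈ Set.range a ∨ x ∈ Set.range b)
    (hmeet : (Set.range b ∩ Set.range a).Nonempty) : AlgebraicGeometry.IsIntegral X := by
  have ha : IsIrreducible (Set.range a) := by
    rw [← Set.image_univ]
    exact (IrreducibleSpace.isIrreducible_univ _).image _ a.continuous.continuousOn
  have hb : IsIrreducible (Set.range b) := by
    rw [← Set.image_univ]
    exact (IrreducibleSpace.isIrreducible_univ _).image _ b.continuous.continuousOn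
  have hdense : closure (Set.range a) = Set.univ := by
    refine Set.eq_univ_of_forall fun x => ?_
    rcases hcov x with hx | hx
    · exact subset_closure hx
    · exact closure_mono Set.inter_subset_right (subset_closure_inter_of_isPreirreducible_of_isOpen
        hb.isPreirreducible a.isOpenEmbedding.isOpen_range hmeet hx)
  have : IrreducibleSpace X := (irreducibleSpace_def _).mpr (by simpa [hdense] using ha.closure)
  have : ∀ x : X, _root_.IsReduced (X.presheaf.stalk x) := fun x => by
    rcases hcov x with ⟨u, rfl⟩ | ⟨u, rfl⟩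
    · exact isReduced_stalk_of_isOpenImmersion a u
    · exact isReduced_stalk_of_isOpenImmersion b u
  have : AlgebraicGeometry.IsReduced X := isReduced_of_isReduced_stalk X
  exact isIntegral_of_irreducibleSpace_of_isReduced X

/-! ### The base changed chart rings -/

variable {N : ℕ} [NeZero N] {ℓ : ℕ} [hℓ : Fact ℓ.Prime]
variable (K : Type) [Field K] [CharP K ℓ] [Algebra ↥(GaloisRep.ratLocalizedAt ℓ) K]

/-- The fibre of a chart is a domain. -/
theorem isDomain_genericFibre (hℓN : ¬ ℓ ∣ N) (t : ↥(modularFunctionFieldFull N))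
    (ht : t = jFull N ∨ t = (jFull N)⁻¹) :
    IsDomain ((chartAlg N ℓ ({t} : Set ↥(modularFunctionFieldFull N)))
      ⊗[↥(GaloisRep.ratLocalizedAt ℓ)] K) :=
  have := isDomain_chartFibre K hℓN (t := t) ht
  (Algebra.TensorProduct.comm ↥(GaloisRep.ratLocalizedAt ℓ) _ K).toMulEquiv.isDomain
    (K ⊗[↥(GaloisRep.ratLocalizedAt ℓ)] chartAlg N ℓ ({t} : Set ↥(modularFunctionFieldFull N)))

omit [CharP K ℓ] in
/-- The fibre of the middle chart is nonzero, as it maps to `K((q))`. -/
theorem nontrivial_fibre_mid (hℓN : ¬ ℓ ∣ N) :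
    Nontrivial ((chartAlgMid N ℓ) ⊗[↥(GaloisRep.ratLocalizedAt ℓ)] K) :=
  have : Nontrivial (K ⊗[↥(GaloisRep.ratLocalizedAt ℓ)] chartAlgMid N ℓ) :=
    (tensorRingHom HahnSeries.C
      ((coeffMap (algebraMap ↥(GaloisRep.ratLocalizedAt ℓ) K)).comp
        (chartExpansion (S := {jFull N, (jFull N)⁻¹}) hℓN subset_rfl).toRingHom) fun r => by
      show coeffMap _ (chartExpansion hℓN subset_rfl (algebraMap _ _ r)) = _
      rw [AlgHom.commutes, algebraMap_laurent_eq_C, coeffMap_C]
      rfl).domain_nontrivial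
  (Algebra.TensorProduct.comm ↥(GaloisRep.ratLocalizedAt ℓ) _ K).toEquiv.nontrivial

/-! ### The scheme -/

/-- The fibre of the Igusa model over `K` is integral. -/
theorem isIntegral_fibre (hℓN : ¬ ℓ ∣ N) :
    AlgebraicGeometry.IsIntegral ↑(pullback (igusaTo N ℓ)
      (Spec.map (CommRingCat.ofHom (algebraMap ↥(GaloisRep.ratLocalizedAt ℓ) K)))) := by
  set f := igusaTo N ℓ with hf
  set g := Spec.map (CommRingCat.ofHom (algebraMap ↥(GaloisRep.ratLocalizedAt ℓ) K)) with hg
  have := isDomain_genericFibre (N := N) K hℓN (jFull N) (Or.inl rfl)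
  have := isDomain_genericFibre (N := N) K hℓN (jFull N)⁻¹ (Or.inr rfl)
  have := nontrivial_fibre_mid (N := N) K hℓN
  let eF : pullback (ιFin N ℓ) (pullback.fst f g) ≅
      Spec (.of ((chartAlgFin N ℓ) ⊗[↥(GaloisRep.ratLocalizedAt ℓ)] K)) :=
    pullbackRightPullbackFstIso f g (ιFin N ℓ) ≪≫ pullback.congrHom (ιFin_igusaTo N ℓ) rfl ≪≫
      pullbackSpecIso ↥(GaloisRep.ratLocalizedAt ℓ) (chartAlgFin N ℓ) K
  let eI : pullback (ιInf N ℓ) (pullback.fst f g) ≅
      Spec (.of ((chartAlgInf N ℓ) ⊗[↥(GaloisRep.ratLocalizedAt ℓ)] K)) :=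
    pullbackRightPullbackFstIso f g (ιInf N ℓ) ≪≫ pullback.congrHom (ιInf_igusaTo N ℓ) rfl ≪≫
      pullbackSpecIso ↥(GaloisRep.ratLocalizedAt ℓ) (chartAlgInf N ℓ) K
  have : Nonempty ↥(pullback (ιFin N ℓ) (pullback.fst f g)) :=
    ⟨eF.inv (Nonempty.some inferInstance)⟩
  have : Nonempty ↥(pullback (ιInf N ℓ) (pullback.fst f g)) :=
    ⟨eI.inv (Nonempty.some inferInstance)⟩
  have := isIntegral_of_isOpenImmersion eF.hom
  have := isIntegral_of_isOpenImmersion eI.hom
  refine isIntegral_of_two_open (pullback.snd (ιFin N ℓ) (pullback.fst f g))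
    (pullback.snd (ιInf N ℓ) (pullback.fst f g)) (fun x => ?_) ?_
  · simp only [Scheme.Pullback.range_snd, Set.mem_preimage]
    exact mem_range_ιFin_or_mem_range_ιInf N ℓ _
  · let h : XMid N ℓ ⟶ Spec (CommRingCat.of ↥(GaloisRep.ratLocalizedAt ℓ)) :=
      Spec.map (CommRingCat.ofHom (algebraMap ↥(GaloisRep.ratLocalizedAt ℓ) (chartAlgMid N ℓ)))
    let e := pullbackSpecIso ↥(GaloisRep.ratLocalizedAt ℓ) (chartAlgMid N ℓ) K
    let p : ↥(pullback h g) := e.inv (Nonempty.some inferInstance)
    have hh : (fFin N ℓ ≫ ιFin N ℓ) ≫ f = h := by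
      rw [Category.assoc, hf, ιFin_igusaTo, fFin, ← Spec.map_comp, ← CommRingCat.ofHom_comp]
      exact congrArg (fun φ => Spec.map (CommRingCat.ofHom φ))
        (RingHom.ext fun a => (inclFin N ℓ).commutes a)
    let m : pullback h g ⟶ pullback f g :=
      pullback.lift (pullback.fst h g ≫ fFin N ℓ ≫ ιFin N ℓ) (pullback.snd h g)
        (by rw [Category.assoc, hh, pullback.condition])
    have hm : pullback.fst f g (m p) = ιFin N ℓ (fFin N ℓ (pullback.fst h g p)) := by
      rw [← Scheme.Hom.comp_apply, pullback.lift_fst]; rfl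
    refine ⟨m p, ?_, ?_⟩
    · rw [Scheme.Pullback.range_snd, Set.mem_preimage, hm, ← Scheme.Hom.comp_apply,
        glue_condition]
      exact ⟨_, rfl⟩
    · rw [Scheme.Pullback.range_snd, Set.mem_preimage, hm]
      exact ⟨_, rfl⟩

end Fermat.Agent.Igusa
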